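import Mathlib

set_option autoImplicit false

/-!
# Cluster G (S36), SEED v3: the seed term `y` built from `u` ONLY — definitions  (helper74)

`F / K` a function field, `u : F`, `b : K` (`b = ϖ₁ ^ n`; for the modular graph `u = u₁`,
`n = q + 1`, `b = q ^ 12`).

* `ymodY u b n  = b u^n / (u^n - b)^2`   (`= y₀ (1 + y₀)`, `y₀ = b / (u^n - b)`, helper96's idea);
* `ymodG1 u b n = (1 - b / u^n)^2`, `ymodG2 u b n = (1 - u^n / b)^2` : the clearing functions;
* the seed function is `x = u + b / u + ∑ cl : Unit, ymodY u b n` (helper7's `SeedFunData`,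
  helper13's `sdeg_hdeg` with `Cl = Unit`, `ϖ = b`).

Reductions (see `YMod.lean`): `y ≡ 0` where `u` is a unit and where `u / b` is a unit (`n ≥ 2`);
`y ≡ Ū^n / (Ū^n - 1)^2` where `U = u / ϖ₁` is a unit.
-/

noncomputable section

namespace Fermat.Agent.S36G

variable {K F : Type*} [Field K] [Field F] [Algebra K F]

/-- the seed term `y = b u^n / (u^n - b)^2`. -/
def ymodY (u : F) (b : K) (n : ℕ) : F :=
  algebraMap K F b * u ^ n / (u ^ n - algebraMap K F b) ^ 2

/-- the clearing function of the node family (1): `G₁ = (1 - b / u^n)^2`. -/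
def ymodG1 (u : F) (b : K) (n : ℕ) : F := (1 - algebraMap K F b / u ^ n) ^ 2

/-- the clearing function of the node family (2): `G₂ = (1 - u^n / b)^2`. -/
def ymodG2 (u : F) (b : K) (n : ℕ) : F := (1 - u ^ n / algebraMap K F b) ^ 2

theorem ymodY_def (u : F) (b : K) (n : ℕ) :
    ymodY u b n = algebraMap K F b * u ^ n / (u ^ n - algebraMap K F b) ^ 2 := rfl

theorem ymodG1_def (u : F) (b : K) (n : ℕ) :
    ymodG1 u b n = (1 - algebraMap K F b / u ^ n) ^ 2 := rfl

theorem ymodG2_def (u : F) (b : K) (n : ℕ) :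
    ymodG2 u b n = (1 - u ^ n / algebraMap K F b) ^ 2 := rfl

/-- `y = y₀ (1 + y₀)` with `y₀ = b / (u^n - b)`. -/
theorem ymodY_eq_mul (u : F) (b : K) (n : ℕ) (hw : u ^ n - algebraMap K F b ≠ 0) :
    ymodY u b n = algebraMap K F b / (u ^ n - algebraMap K F b) *
      (1 + algebraMap K F b / (u ^ n - algebraMap K F b)) := by
  unfold ymodY
  field_simp
  ring

/-- `G₁ = ((u^n - b) / u^n)^2`. -/
theorem ymodG1_eq (u : F) (b : K) (n : ℕ) (hu : u ≠ 0) :
    ymodG1 u b n = ((u ^ n - algebraMap K F b) / u ^ n) ^ 2 := by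
  unfold ymodG1
  have h : u ^ n ≠ 0 := pow_ne_zero n hu
  congr 1
  field_simp

/-- `G₂ = ((u^n - b) / b)^2`. -/
theorem ymodG2_eq (u : F) (b : K) (n : ℕ) (hb : b ≠ 0) :
    ymodG2 u b n = ((u ^ n - algebraMap K F b) / algebraMap K F b) ^ 2 := by
  unfold ymodG2
  have h : algebraMap K F b ≠ 0 := by simpa using hb
  have e : 1 - u ^ n / algebraMap K F b = -((u ^ n - algebraMap K F b) / algebraMap K F b) := by
    field_simp
    ring
  rw [e, neg_sq]

/-- `y G₁ = b / u^n`-type identity: `y * G₁ = b / u ^ n`. -/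
theorem ymodY_mul_G1 (u : F) (b : K) (n : ℕ) (hu : u ≠ 0)
    (hw : u ^ n - algebraMap K F b ≠ 0) :
    ymodY u b n * ymodG1 u b n = algebraMap K F b / u ^ n := by
  rw [ymodG1_eq u b n hu]
  unfold ymodY
  have h : u ^ n ≠ 0 := pow_ne_zero n hu
  field_simp

/-- `y * G₂ = u ^ n / b`. -/
theorem ymodY_mul_G2 (u : F) (b : K) (n : ℕ) (hb : b ≠ 0)
    (hw : u ^ n - algebraMap K F b ≠ 0) :
    ymodY u b n * ymodG2 u b n = u ^ n / algebraMap K F b := by
  rw [ymodG2_eq u b n hb]
  unfold ymodY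
  have h : algebraMap K F b ≠ 0 := by simpa using hb
  field_simp

end Fermat.Agent.S36G
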