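import Mathlib
import Fermat.Agent.S36.G.SeedInst
import Fermat.Agent.Lib.BadRed.Graph.Deuring.PermNode

set_option autoImplicit false
set_option linter.unusedSectionVars false

/-!
# Cluster G (S36), SEED-PERM: automorphisms of the modular seed  (helper92)

The export asked by INERT-MOD (`hF3`): the modular seed `I.seed x ..` of helper40's
`ModMatchInput` (`S36/G/SeedInst.lean`) is a WEAK automorphism target
(`GraphSeed.IsPermAutW`, `Lib/BadRed/Graph/Deuring/PermNode.lean`) for every semilinear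
automorphism `t` which

* maps `O_c` to `O_{π c}` compatibly with the reductions (`mem`, `red`),
* fixes the seed function (`t • x = x`: the seed function of SEED v3 is a rational function of
  `u₁` with rational coefficients),
* preserves the two kinds of branch points: the points `P_v` on the vertical components and the
  ends `PJA ∪ PJM ∪ PJ2` on the horizontal components.

Abstract part:

* `seedPermPlace e Q`, `seedPerm_placeCorr` : the image of a place under an isomorphism of function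
  fields, `PlaceCorr e Q (seedPermPlace e Q)`; `seedPerm_placeCorr_unique`;
* `seedPerm_poleDiv_corr` : `(e y)_∞ (Q') = (y)_∞ (Q)`;
* `seedPerm_poleDiv_smul` : `t • x = x ⟹ (x)_∞ (t • P) = (x)_∞ (P)`.

Modular part (`ModMatchInput`):

* `ModMatchInput.isBr_core_iff` : the branches of the core are the `P_v` and the ends;
* `ModMatchInput.seedPerm_isPermAutW` : the statement above.
-/

noncomputable section

open AlgebraicCurve Fermat.Agent.RR Fermat.Agent.Deuring

namespace Fermat.Agent.S36G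

open Fermat.Agent.BadRed Fermat.Agent.BadRedG

/-! ### The image of a place under an isomorphism -/

section Corr

variable {k L L' : Type*} [Field k] [Field L] [Field L'] [Algebra k L] [Algebra k L']

/-- the image of a valuation subring under an isomorphism. -/
def seedPermVS (e : L ≃ₐ[k] L') (A : ValuationSubring L) : ValuationSubring L' :=
  A.comap (e.symm : L' →+* L)

theorem mem_seedPermVS (e : L ≃ₐ[k] L') (A : ValuationSubring L) (y : L') :
    y ∈ seedPermVS e A ↔ e.symm y ∈ A := Iff.rfl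

theorem apply_mem_seedPermVS (e : L ≃ₐ[k] L') (A : ValuationSubring L) {x : L} (hx : x ∈ A) :
    e x ∈ seedPermVS e A := by
  rw [mem_seedPermVS, e.symm_apply_apply]
  exact hx

/-- the isomorphism of the valuation rings. -/
def seedPermVSEquiv (e : L ≃ₐ[k] L') (A : ValuationSubring L) : A ≃+* seedPermVS e A where
  toFun x := ⟨e x, apply_mem_seedPermVS e A x.2⟩
  invFun y := ⟨e.symm y, y.2⟩
  left_inv x := by
    ext
    simp
  right_inv y := by
    ext
    simp
  map_mul' x y := by
    ext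
    simp
  map_add' x y := by
    ext
    simp

@[simp]
theorem coe_seedPermVSEquiv (e : L ≃ₐ[k] L') (A : ValuationSubring L) (x : A) :
    ((seedPermVSEquiv e A x : seedPermVS e A) : L') = e (x : L) := rfl

/-- the image of a place under an isomorphism of function fields. -/
def seedPermPlace (e : L ≃ₐ[k] L') (Q : Place k L) : Place k L' where
  toValuationSubring := seedPermVS e Q.toValuationSubring
  algebraMap_mem' := fun a => by
    rw [mem_seedPermVS, e.symm.commutes]
    exact Q.algebraMap_mem' a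
  ne_top' := fun h => Q.ne_top' (by
    refine SetLike.ext fun x => ⟨fun _ => ValuationSubring.mem_top x, fun _ => ?_⟩
    have h1 : e x ∈ seedPermVS e Q.toValuationSubring := by
      rw [h]
      exact ValuationSubring.mem_top _
    rw [mem_seedPermVS, e.symm_apply_apply] at h1
    exact h1)
  isPrincipalIdealRing' :=
    IsPrincipalIdealRing.of_surjective
      (seedPermVSEquiv e Q.toValuationSubring : _ ≃+* _)
      (seedPermVSEquiv e Q.toValuationSubring).surjective

/-- **the image place corresponds**: `ord_{Q'} (e y) = ord_Q y`. -/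
theorem seedPerm_placeCorr (e : L ≃ₐ[k] L') (Q : Place k L) :
    PlaceCorr e Q (seedPermPlace e Q) := by
  intro y
  rcases eq_or_ne y 0 with rfl | hy
  · simp
  obtain ⟨π, hπ⟩ := IsDiscreteValuationRing.exists_irreducible Q.toValuationSubring
  obtain ⟨u, hu⟩ := Q.exists_unit_mul_zpow hy hπ
  set n := Q.ord y with hn
  set f := seedPermVSEquiv e Q.toValuationSubring with hf
  have hπ' : Irreducible (f π) := (MulEquiv.irreducible_iff f).mpr hπ
  have hu' : IsUnit (f (u : Q.toValuationSubring)) := u.isUnit.map f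
  have hcoeu : ((Units.val hu'.unit : seedPermVS e Q.toValuationSubring) : L') =
      e ((u : Q.toValuationSubring) : L) := by
    rw [IsUnit.unit_spec]
    rfl
  have hcoeπ : ((f π : seedPermVS e Q.toValuationSubring) : L') = e (π : L) := rfl
  have key : e y = ((Units.val hu'.unit : seedPermVS e Q.toValuationSubring) : L') *
      (((f π : seedPermVS e Q.toValuationSubring) : L') ^ n) := by
    rw [hcoeu, hcoeπ]
    conv_lhs => rw [hu]
    rw [map_mul, map_zpow₀]
  rw [key]
  exact (seedPermPlace e Q).ord_unit_smul_zpow (u := hu'.unit) (π := f π) hπ' n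

/-- every place has an image. -/
theorem seedPerm_exists_placeCorr (e : L ≃ₐ[k] L') (Q : Place k L) :
    ∃ Q' : Place k L', PlaceCorr e Q Q' :=
  ⟨seedPermPlace e Q, seedPerm_placeCorr e Q⟩

/-- a place is determined by its order function. -/
theorem seedPerm_place_ext {Q Q' : Place k L} (h : ∀ y : L, Q'.ord y = Q.ord y) : Q' = Q := by
  have hmem : ∀ (R : Place k L) (y : L), y ∈ R.toValuationSubring ↔ y = 0 ∨ 0 ≤ R.ord y := by
    intro R y
    constructor
    · intro hy
      rcases eq_or_ne y 0 with rfl | hy0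
      · exact Or.inl rfl
      right
      obtain ⟨π, hπ⟩ := IsDiscreteValuationRing.exists_irreducible R.toValuationSubring
      have hy0' : (⟨y, hy⟩ : R.toValuationSubring) ≠ 0 := by
        intro h0
        exact hy0 (congrArg Subtype.val h0)
      obtain ⟨m, v, hv⟩ := IsDiscreteValuationRing.eq_unit_mul_pow_irreducible hy0' hπ
      have h1 : y = ((v : R.toValuationSubring) : L) * ((π : L) ^ (m : ℤ)) := by
        have := congrArg Subtype.val hv
        simpa using this
      rw [h1, R.ord_unit_smul_zpow v hπ]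
      exact Int.natCast_nonneg m
    · rintro (rfl | hy)
      · exact zero_mem _
      by_contra hmem
      have hy0 : y ≠ 0 := fun h0 => hmem (h0 ▸ zero_mem _)
      have hinv : y⁻¹ ∈ R.toValuationSubring :=
        (R.toValuationSubring.mem_or_inv_mem y).resolve_left hmem
      obtain ⟨π, hπ⟩ := IsDiscreteValuationRing.exists_irreducible R.toValuationSubring
      have hinv0 : (⟨y⁻¹, hinv⟩ : R.toValuationSubring) ≠ 0 := by
        intro h0
        exact inv_ne_zero hy0 (congrArg Subtype.val h0)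
      obtain ⟨m, v, hv⟩ := IsDiscreteValuationRing.eq_unit_mul_pow_irreducible hinv0 hπ
      have h1 : y⁻¹ = ((v : R.toValuationSubring) : L) * ((π : L) ^ (m : ℤ)) := by
        have := congrArg Subtype.val hv
        simpa using this
      have h2 : R.ord y⁻¹ = (m : ℤ) := by rw [h1, R.ord_unit_smul_zpow v hπ]
      rw [R.ord_inv] at h2
      have hm0 : m = 0 := by omega
      subst hm0
      have h3 : y⁻¹ = ((v : R.toValuationSubring) : L) := by
        rw [h1]
        simp
      apply hmem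
      have h4 : y = (((v⁻¹ : (R.toValuationSubring)ˣ) : R.toValuationSubring) : L) := by
        have h5 : ((v : R.toValuationSubring) : L) *
            (((v⁻¹ : (R.toValuationSubring)ˣ) : R.toValuationSubring) : L) = 1 := by
          rw [← MulMemClass.coe_mul, Units.mul_inv]
          rfl
        rw [← h3] at h5
        field_simp at h5
        exact h5.symm
      rw [h4]
      exact SetLike.coe_mem _
  apply Place.ext
  ext y
  rw [hmem Q' y, hmem Q y, h y]

/-- the image of a place is unique. -/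
theorem seedPerm_placeCorr_unique {e : L ≃ₐ[k] L'} {Q : Place k L} {Q' Q'' : Place k L'}
    (h : PlaceCorr e Q Q') (h' : PlaceCorr e Q Q'') : Q' = Q'' := by
  apply seedPerm_place_ext
  intro y
  have h1 := h (e.symm y)
  have h2 := h' (e.symm y)
  rw [e.apply_symm_apply] at h1 h2
  rw [h1, h2]

/-- corresponding places have the same multiplicity in the pole divisors. -/
theorem seedPerm_poleDiv_corr (hL : IsRRField k L) (hL' : IsRRField k L') {e : L ≃ₐ[k] L'}
    {Q : Place k L} {Q' : Place k L'} (h : PlaceCorr e Q Q') (y : L) :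
    poleDiv hL' (e y) Q' = poleDiv hL y Q := by
  rw [poleDiv_apply, poleDiv_apply, h y]

end Corr

section Smul

variable {K F : Type*} [Field K] [Field F] [Algebra K F]

/-- the pole divisor of a function fixed by `t` is fixed by `t`. -/
theorem seedPerm_poleDiv_smul (h : IsRRField K F) (t : SemilinearAut K F) {x : F}
    (hx : t • x = x) (P : Place K F) : poleDiv h x (t • P) = poleDiv h x P := by
  rw [poleDiv_apply, poleDiv_apply]
  have h1 := SemilinearAut.ord_smul t P x
  rw [hx] at h1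
  rw [h1]

end Smul

/-! ### The modular seed -/

section Mod

variable {K F k : Type} [Field K] [Field F] [Algebra K F] [Field k]
  {Mid SS : Type} [Fintype Mid] [Fintype SS]
  {Fk0 : Type} [Field Fk0] [Algebra k Fk0]
  {FkM : Mid → Type} [∀ m, Field (FkM m)] [∀ m, Algebra k (FkM m)]
  {FkP : SS → Type} [∀ P, Field (FkP P)] [∀ P, Algebra k (FkP P)]

namespace ModMatchInput

variable (I : ModMatchInput K F k Mid SS Fk0 FkM FkP)

/-- `p` is one of the ends `p_∞`, `p_m`, `p_0` of a horizontal component. -/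
def IsEnd (p : Σ c, Place k (FkOf Fk0 FkM FkP c)) : Prop :=
  p ∈ I.PJA ∨ p ∈ I.PJM ∨ p ∈ I.PJ2

/-- `p` is one of the supersingular points `P_v` of a vertical component. -/
def IsVertBr (p : Σ c, Place k (FkOf Fk0 FkM FkP c)) : Prop :=
  ∃ (P : SS) (v : Vrt Mid), p = I.ptV P v

theorem isVertBr_fst {p : Σ c, Place k (FkOf Fk0 FkM FkP c)} (h : I.IsVertBr p) :
    ∃ v : Vrt Mid, p.1 = Vtx.vert v := by
  obtain ⟨P, v, rfl⟩ := h
  exact ⟨v, rfl⟩

theorem not_isVertBr_hor (P : SS) (Q : Place k (FkOf Fk0 FkM FkP (Vtx.hor P))) :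
    ¬ I.IsVertBr ⟨Vtx.hor P, Q⟩ := by
  intro h
  obtain ⟨v, hv⟩ := I.isVertBr_fst h
  cases hv

theorem isVertBr_vert_iff (v : Vrt Mid) (Q : Place k (FkOf Fk0 FkM FkP (Vtx.vert v))) :
    I.IsVertBr ⟨Vtx.vert v, Q⟩ ↔ ∃ P : SS, Q = I.pv P v := by
  constructor
  · rintro ⟨P, v', h⟩
    have h1 : (Vtx.vert v : Vtx Mid SS) = Vtx.vert v' := congrArg Sigma.fst h
    have h2 : v = v' := Vtx.vert.inj h1
    subst h2
    unfold ptV at h
    rw [Sigma.mk.injEq] at h
    exact ⟨P, eq_of_heq h.2⟩
  · rintro ⟨P, rfl⟩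
    exact ⟨P, v, rfl⟩

variable [Infinite k]

theorem exists_ptH_of_isEnd {p : Σ c, Place k (FkOf Fk0 FkM FkP c)} (h : I.IsEnd p) :
    ∃ i : Nod Mid SS, I.ptH i = p := by
  rcases h with h | h | h
  · obtain ⟨P, hP⟩ := I.exists_ptH_eqA p h
    exact ⟨(P, Vrt.oo), hP⟩
  · obtain ⟨P, m, hP⟩ := I.exists_ptH_eqM p h
    exact ⟨(P, Vrt.mid m), hP⟩
  · obtain ⟨P, hP⟩ := I.exists_ptH_eq2 p h
    exact ⟨(P, Vrt.zero), hP⟩

theorem isEnd_fst {p : Σ c, Place k (FkOf Fk0 FkM FkP c)} (h : I.IsEnd p) :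
    ∃ P : SS, p.1 = Vtx.hor P := by
  obtain ⟨i, rfl⟩ := I.exists_ptH_of_isEnd h
  exact ⟨i.1, rfl⟩

theorem not_isEnd_vert (v : Vrt Mid) (Q : Place k (FkOf Fk0 FkM FkP (Vtx.vert v))) :
    ¬ I.IsEnd ⟨Vtx.vert v, Q⟩ := by
  intro h
  obtain ⟨P, hP⟩ := I.isEnd_fst h
  cases hP

variable [Nonempty SS]

theorem isEnd_ptH (i : Nod Mid SS) : I.IsEnd (I.ptH i) := I.ptH_mem i

/-- **the branches of the modular core**: the points `P_v` and the ends. -/
theorem isBr_core_iff (p : Σ c, Place k (FkOf Fk0 FkM FkP c)) :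
    I.core.IsBr p ↔ I.IsVertBr p ∨ I.IsEnd p := by
  unfold GraphCore.IsBr
  constructor
  · rintro (⟨i, hi⟩ | ⟨i, hi⟩)
    · exact Or.inl ⟨i.1, i.2, hi⟩
    · right
      rw [hi]
      exact I.ptH_mem i
  · rintro (⟨P, v, h⟩ | h)
    · exact Or.inl ⟨(P, v), h⟩
    · obtain ⟨i, hi⟩ := I.exists_ptH_of_isEnd h
      exact Or.inr ⟨i, hi.symm⟩

section Seed

variable (x : F) (hx : ∀ c, x ∈ (I.S c).Ov)
    (hD₀ : I.D₀ = poleDiv (I.S (Vtx.vert Vrt.oo)).hF x)
    (hpos : ∀ c, 0 < Divisor.degree (poleDiv (I.S c).hFk ((I.S c).red x)))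
    (hn₁ : ∀ (P : SS) (v : Vrt Mid), 0 ≤ (I.pv P v).ord ((I.S (Vtx.vert v)).red x))
    (hn₂ : ∀ p : Σ c, Place k (FkOf Fk0 FkM FkP c), p ∈ I.PJA ∨ p ∈ I.PJM ∨ p ∈ I.PJ2 →
      0 ≤ p.2.ord ((I.S p.1).red x))
    (hdeg : Divisor.degree (poleDiv (I.S (Vtx.vert Vrt.oo)).hF x) ≤
      ∑ c, Divisor.degree (poleDiv (I.S c).hFk ((I.S c).red x)))
    (hgenus : genusFF K F + Fintype.card (Vtx Mid SS) ≤
      (∑ c, genusFF k (FkOf Fk0 FkM FkP c)) + Fintype.card (Nod Mid SS) + 1)

/-- **the modular seed and its automorphisms** (general form): a semilinear automorphism `t`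
which permutes the valuation rings compatibly with the reductions, fixes the seed function and
preserves the two kinds of branch points is a weak automorphism of the seed. -/
theorem seedPerm_isPermAutW (t : SemilinearAut K F) (π : Equiv.Perm (Vtx Mid SS))
    (e : ∀ c, FkOf Fk0 FkM FkP c ≃ₐ[k] FkOf Fk0 FkM FkP (π c))
    (hmem : ∀ (c : Vtx Mid SS) (f : F), f ∈ (I.S c).Ov → t • f ∈ (I.S (π c)).Ov)
    (hred : ∀ (c : Vtx Mid SS) (f : F), f ∈ (I.S c).Ov →
      (I.S (π c)).red (t • f) = e c ((I.S c).red f))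
    (htx : t • x = x)
    (hV : ∀ (c : Vtx Mid SS) (Q : Place k (FkOf Fk0 FkM FkP c))
      (Q' : Place k (FkOf Fk0 FkM FkP (π c))), PlaceCorr (e c) Q Q' →
        (I.IsVertBr ⟨c, Q⟩ ↔ I.IsVertBr ⟨π c, Q'⟩))
    (hE : ∀ (c : Vtx Mid SS) (Q : Place k (FkOf Fk0 FkM FkP c))
      (Q' : Place k (FkOf Fk0 FkM FkP (π c))), PlaceCorr (e c) Q Q' →
        (I.IsEnd ⟨c, Q⟩ ↔ I.IsEnd ⟨π c, Q'⟩)) :
    (I.seed x hx hD₀ hpos hn₁ hn₂ hdeg hgenus).IsPermAutW t π e where
  mem := hmem
  red := hred
  D₀_smul := fun P => by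
    rw [seed_D₀]
    exact seedPerm_poleDiv_smul _ t htx P
  R_smul := fun c Q => by
    refine ⟨seedPermPlace (e c) Q, seedPerm_placeCorr (e c) Q, ?_⟩
    rw [seed_R, seed_R]
    have h1 : (I.S (π c)).red x = e c ((I.S c).red x) := by
      have h2 := hred c x (hx c)
      rwa [htx] at h2
    rw [h1]
    exact seedPerm_poleDiv_corr _ _ (seedPerm_placeCorr (e c) Q) _
  br_iff := fun c Q Q' hcorr => by
    rw [seed_toGraphCore, isBr_core_iff, isBr_core_iff, hV c Q Q' hcorr, hE c Q Q' hcorr]

/-- **the modular seed and its automorphisms** (form used by INERT-MOD): `π` maps vertical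
components to vertical components and horizontal components to horizontal components; then only
the supersingular points of the vertical components and the ends of the horizontal components
have to be checked. -/
theorem seedPerm_isPermAutW' (t : SemilinearAut K F) (π : Equiv.Perm (Vtx Mid SS))
    (e : ∀ c, FkOf Fk0 FkM FkP c ≃ₐ[k] FkOf Fk0 FkM FkP (π c))
    (hmem : ∀ (c : Vtx Mid SS) (f : F), f ∈ (I.S c).Ov → t • f ∈ (I.S (π c)).Ov)
    (hred : ∀ (c : Vtx Mid SS) (f : F), f ∈ (I.S c).Ov →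
      (I.S (π c)).red (t • f) = e c ((I.S c).red f))
    (htx : t • x = x)
    (hπv : ∀ v : Vrt Mid, ∃ v' : Vrt Mid, π (Vtx.vert v) = Vtx.vert v')
    (hπh : ∀ P : SS, ∃ P' : SS, π (Vtx.hor P) = Vtx.hor P')
    (hV : ∀ (v : Vrt Mid) (Q : Place k (FkOf Fk0 FkM FkP (Vtx.vert v)))
      (Q' : Place k (FkOf Fk0 FkM FkP (π (Vtx.vert v)))), PlaceCorr (e (Vtx.vert v)) Q Q' →
        ((∃ P : SS, Q = I.pv P v) ↔ I.IsVertBr ⟨π (Vtx.vert v), Q'⟩))
    (hE : ∀ (P : SS) (Q : Place k (FkOf Fk0 FkM FkP (Vtx.hor P)))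
      (Q' : Place k (FkOf Fk0 FkM FkP (π (Vtx.hor P)))), PlaceCorr (e (Vtx.hor P)) Q Q' →
        (I.IsEnd ⟨Vtx.hor P, Q⟩ ↔ I.IsEnd ⟨π (Vtx.hor P), Q'⟩)) :
    (I.seed x hx hD₀ hpos hn₁ hn₂ hdeg hgenus).IsPermAutW t π e := by
  have hnotE : ∀ (c : Vtx Mid SS) (v : Vrt Mid), c = Vtx.vert v →
      ∀ Q : Place k (FkOf Fk0 FkM FkP c), ¬ I.IsEnd ⟨c, Q⟩ := by
    rintro c v rfl Q
    exact I.not_isEnd_vert v Q
  have hnotV : ∀ (c : Vtx Mid SS) (P : SS), c = Vtx.hor P →
      ∀ Q : Place k (FkOf Fk0 FkM FkP c), ¬ I.IsVertBr ⟨c, Q⟩ := by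
    rintro c P rfl Q
    exact I.not_isVertBr_hor P Q
  refine I.seedPerm_isPermAutW x hx hD₀ hpos hn₁ hn₂ hdeg hgenus t π e hmem hred htx ?_ ?_
  · intro c Q Q' hcorr
    cases c with
    | vert v =>
      rw [I.isVertBr_vert_iff]
      exact hV v Q Q' hcorr
    | hor P =>
      obtain ⟨P', hP'⟩ := hπh P
      exact iff_of_false (I.not_isVertBr_hor P Q) (hnotV _ P' hP' Q')
  · intro c Q Q' hcorr
    cases c with
    | vert v =>
      obtain ⟨v', hv'⟩ := hπv v
      exact iff_of_false (I.not_isEnd_vert v Q) (hnotE _ v' hv' Q')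
    | hor P => exact hE P Q Q' hcorr

end Seed

end ModMatchInput

end Mod

end Fermat.Agent.S36G
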