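import Mathlib
import Fermat.Agent.S36.G.SeedInst
import Fermat.Agent.S36.Seed.Deg

set_option autoImplicit false
set_option linter.unusedSectionVars false

/-!
# Cluster G (S36), seat SEED-POS (helper7): `hx`, `hpos`, `hn₁`, `hn₂` of the modular seed

Seed function `x = u + ϖ / u + ∑_cl y cl` (for the modular graph: `u = u₁`, `ϖ = q ^ 12`, `y` the
lifted function(s) of the horizontal components).

## Generic part (any family `S c` of constant reductions)

* `spos_red_sum`, `spos_mem` : `red_c` of a finite sum; `x ∈ O_c`;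
* `spos_red_eq_u`, `spos_red_eq_u'`, `spos_red_eq_y` : `red_c x` is the reduction of the ONE
  summand which does not reduce to `0`;
* `spos_degree_pos` : `0 < deg (red_c x)_∞` as soon as `red_c x` is transcendental.

## Modular part (`κ = Vtx Mid SS`)

`SeedFunData S pv PJ cls u ϖ y` : what the modular side has to provide about the three kinds of
summands (membership, vanishing reductions, transcendence, regularity at the supersingular points
`pv P v` and at the ends `PJ`).  Then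

* `SeedFunData.mem`, `.red_vert`, `.red_zero`, `.red_hor` : `x ∈ ⋂ O_c` and the reductions of `x`;
* `SeedFunData.hpos`, `.hn₁`, `.hn₂` : the three hypotheses of `ModMatchInput.seed`;
* `sposV₁`, `sposV₂`, `sposVP` + `SeedFunData.hr₁ / hr₂ / hrP / htr₁ / htr₂ / htrP` and the
  disjointness lemmas: the hypotheses of `sdeg_hdeg` (SEED-DEG) which do not involve degrees;
* `SeedFunData.hdeg` : `hdeg` from the three degree inequalities.
-/

noncomputable section

open AlgebraicCurve Fermat.Agent.RR Fermat.Agent.Deuring IntermediateField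

namespace Fermat.Agent.S36G

open Fermat.Agent.BadRed Fermat.Agent.BadRedG

/-! ### Generic part -/

section Generic

variable {K F k Fk : Type*} [Field K] [Field F] [Algebra K F] [Field k] [Field Fk] [Algebra k Fk]
  (S : ValSetup K F k Fk)

/-- the reduction of a finite sum of integral elements. -/
theorem spos_red_sum {J : Type*} (s : Finset J) (f : J → F) (hf : ∀ j ∈ s, f j ∈ S.Ov) :
    (∑ j ∈ s, f j) ∈ S.Ov ∧ S.red (∑ j ∈ s, f j) = ∑ j ∈ s, S.red (f j) := by
  classical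
  induction s using Finset.induction_on with
  | empty =>
    rw [Finset.sum_empty, Finset.sum_empty]
    exact ⟨S.Ov.zero_mem, S.red_zero⟩
  | insert a s ha ih =>
    have h1 := ih fun j hj => hf j (Finset.mem_insert_of_mem hj)
    have h2 := hf a (Finset.mem_insert_self a s)
    rw [Finset.sum_insert ha, Finset.sum_insert ha]
    exact ⟨add_mem h2 h1.1, by rw [S.red_add h2 h1.1, h1.2]⟩

variable {Cl : Type*} [Fintype Cl] {u : F} {ϖ : K} {y : Cl → F}

/-- the seed function is integral. -/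
theorem spos_mem (hu : u ∈ S.Ov) (hu' : algebraMap K F ϖ / u ∈ S.Ov) (hy : ∀ cl, y cl ∈ S.Ov) :
    u + algebraMap K F ϖ / u + ∑ cl, y cl ∈ S.Ov :=
  add_mem (add_mem hu hu') (spos_red_sum S Finset.univ y fun cl _ => hy cl).1

/-- the reduction of the seed function, all summands. -/
theorem spos_red (hu : u ∈ S.Ov) (hu' : algebraMap K F ϖ / u ∈ S.Ov) (hy : ∀ cl, y cl ∈ S.Ov) :
    S.red (u + algebraMap K F ϖ / u + ∑ cl, y cl) =
      S.red u + S.red (algebraMap K F ϖ / u) + ∑ cl, S.red (y cl) := by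
  have h1 := spos_red_sum S Finset.univ y fun cl _ => hy cl
  rw [S.red_add (add_mem hu hu') h1.1, S.red_add hu hu', h1.2]

/-- on a component where `ϖ / u` and the `y cl` reduce to `0`: `red x = red u`. -/
theorem spos_red_eq_u (hu : u ∈ S.Ov) (hu' : algebraMap K F ϖ / u ∈ S.Ov)
    (hy : ∀ cl, y cl ∈ S.Ov) (h0 : S.red (algebraMap K F ϖ / u) = 0)
    (hy0 : ∀ cl, S.red (y cl) = 0) :
    S.red (u + algebraMap K F ϖ / u + ∑ cl, y cl) = S.red u := by
  rw [spos_red S hu hu' hy, h0, Finset.sum_eq_zero fun cl _ => hy0 cl, add_zero, add_zero]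

/-- on a component where `u` and the `y cl` reduce to `0`: `red x = red (ϖ / u)`. -/
theorem spos_red_eq_u' (hu : u ∈ S.Ov) (hu' : algebraMap K F ϖ / u ∈ S.Ov)
    (hy : ∀ cl, y cl ∈ S.Ov) (h0 : S.red u = 0) (hy0 : ∀ cl, S.red (y cl) = 0) :
    S.red (u + algebraMap K F ϖ / u + ∑ cl, y cl) = S.red (algebraMap K F ϖ / u) := by
  rw [spos_red S hu hu' hy, h0, Finset.sum_eq_zero fun cl _ => hy0 cl, add_zero, zero_add]

/-- on a component where `u`, `ϖ / u` and the `y cl'`, `cl' ≠ cl`, reduce to `0`: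
`red x = red (y cl)`. -/
theorem spos_red_eq_y (hu : u ∈ S.Ov) (hu' : algebraMap K F ϖ / u ∈ S.Ov)
    (hy : ∀ cl, y cl ∈ S.Ov) (h0 : S.red u = 0) (h0' : S.red (algebraMap K F ϖ / u) = 0)
    (cl : Cl) (hy0 : ∀ cl', cl' ≠ cl → S.red (y cl') = 0) :
    S.red (u + algebraMap K F ϖ / u + ∑ cl, y cl) = S.red (y cl) := by
  classical
  rw [spos_red S hu hu' hy, h0, h0', add_zero, zero_add,
    Finset.sum_eq_single cl (fun cl' _ hne => hy0 cl' hne)
      (fun h => absurd (Finset.mem_univ cl) h)]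

/-- a transcendental function has a pole. -/
theorem spos_degree_pos {f : Fk} (hf : Transcendental k f) :
    0 < Divisor.degree (poleDiv S.hFk f) :=
  Fermat.Agent.RRHur.degree_poleDiv_pos S.hFk hf

end Generic

/-! ### Modular part -/

section Mod

variable {K F k : Type} [Field K] [Field F] [Algebra K F] [Field k]
  {Mid SS : Type} [Fintype Mid] [Fintype SS]
  {Fk0 : Type} [Field Fk0] [Algebra k Fk0]
  {FkM : Mid → Type} [∀ m, Field (FkM m)] [∀ m, Algebra k (FkM m)]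
  {FkP : SS → Type} [∀ P, Field (FkP P)] [∀ P, Algebra k (FkP P)]
  {Cl : Type} [Fintype Cl]

/-- **What the modular side has to provide about the seed function**
`x = u + ϖ / u + ∑_cl y cl` on the modular graph:

* all summands are integral for all components;
* `ϖ / u` and the `y cl` reduce to `0` on `∞` and the middle components, `u` and the `y cl` reduce
  to `0` on the component `0`, `u`, `ϖ / u` and the `y cl`, `cl ≠ cls P`, reduce to `0` on `H_P`;
* the remaining reductions are transcendental;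
* `red_v u` (`v = ∞, mid m`) resp. `red_0 (ϖ / u)` are regular at the supersingular points
  `pv P v`, and the ends `PJ` lie on horizontal components, where `red (y (cls P))` is regular. -/
structure SeedFunData (S : ∀ c : Vtx Mid SS, ValSetup K F k (FkOf Fk0 FkM FkP c))
    (pv : ∀ (_ : SS) (v : Vrt Mid), Place k (FkOf Fk0 FkM FkP (Vtx.vert v)))
    (PJ : Set (Σ c, Place k (FkOf Fk0 FkM FkP c))) (cls : SS → Cl)
    (u : F) (ϖ : K) (y : Cl → F) : Prop where
  u_mem : ∀ c, u ∈ (S c).Ov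
  u'_mem : ∀ c, algebraMap K F ϖ / u ∈ (S c).Ov
  y_mem : ∀ c cl, y cl ∈ (S c).Ov
  red_u'_vert : ∀ v : Vrt Mid, v ≠ Vrt.zero →
    (S (Vtx.vert v)).red (algebraMap K F ϖ / u) = 0
  red_u_zero : (S (Vtx.vert Vrt.zero)).red u = 0
  red_y_vert : ∀ (v : Vrt Mid) cl, (S (Vtx.vert v)).red (y cl) = 0
  red_u_hor : ∀ P : SS, (S (Vtx.hor P)).red u = 0
  red_u'_hor : ∀ P : SS, (S (Vtx.hor P)).red (algebraMap K F ϖ / u) = 0
  red_y_hor : ∀ (P : SS) cl, cl ≠ cls P → (S (Vtx.hor P)).red (y cl) = 0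
  tr_u : ∀ v : Vrt Mid, v ≠ Vrt.zero → Transcendental k ((S (Vtx.vert v)).red u)
  tr_u' : Transcendental k ((S (Vtx.vert Vrt.zero)).red (algebraMap K F ϖ / u))
  tr_y : ∀ P : SS, Transcendental k ((S (Vtx.hor P)).red (y (cls P)))
  ord_u : ∀ (P : SS) (v : Vrt Mid), v ≠ Vrt.zero → 0 ≤ (pv P v).ord ((S (Vtx.vert v)).red u)
  ord_u' : ∀ P : SS,
    0 ≤ (pv P Vrt.zero).ord ((S (Vtx.vert Vrt.zero)).red (algebraMap K F ϖ / u))
  end_hor : ∀ p : Σ c, Place k (FkOf Fk0 FkM FkP c), p ∈ PJ → ∃ P : SS, p.1 = Vtx.hor P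
  ord_y : ∀ (P : SS) (Q : Place k (FkOf Fk0 FkM FkP (Vtx.hor P))),
    (⟨Vtx.hor P, Q⟩ : Σ c, Place k (FkOf Fk0 FkM FkP c)) ∈ PJ →
      0 ≤ Q.ord ((S (Vtx.hor P)).red (y (cls P)))

namespace SeedFunData

variable {S : ∀ c : Vtx Mid SS, ValSetup K F k (FkOf Fk0 FkM FkP c)}
  {pv : ∀ (_ : SS) (v : Vrt Mid), Place k (FkOf Fk0 FkM FkP (Vtx.vert v))}
  {PJ : Set (Σ c, Place k (FkOf Fk0 FkM FkP c))} {cls : SS → Cl}
  {u : F} {ϖ : K} {y : Cl → F}

/-- `x ∈ ⋂_c O_c`. -/
theorem mem (D : SeedFunData S pv PJ cls u ϖ y) (c : Vtx Mid SS) : u + algebraMap K F ϖ / u + ∑ cl, y cl ∈ (S c).Ov :=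
  spos_mem (S c) (D.u_mem c) (D.u'_mem c) (D.y_mem c)

/-- on `∞` and the middle components: `red x = red u`. -/
theorem red_vert (D : SeedFunData S pv PJ cls u ϖ y) (v : Vrt Mid) (hv : v ≠ Vrt.zero) :
    (S (Vtx.vert v)).red (u + algebraMap K F ϖ / u + ∑ cl, y cl) = (S (Vtx.vert v)).red u :=
  spos_red_eq_u (S (Vtx.vert v)) (D.u_mem _) (D.u'_mem _) (D.y_mem _) (D.red_u'_vert v hv)
    (D.red_y_vert v)

/-- on the component `0`: `red x = red (ϖ / u)`. -/
theorem red_zero (D : SeedFunData S pv PJ cls u ϖ y) :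
    (S (Vtx.vert Vrt.zero)).red (u + algebraMap K F ϖ / u + ∑ cl, y cl) =
      (S (Vtx.vert Vrt.zero)).red (algebraMap K F ϖ / u) :=
  spos_red_eq_u' (S (Vtx.vert Vrt.zero)) (D.u_mem _) (D.u'_mem _) (D.y_mem _) D.red_u_zero
    (D.red_y_vert Vrt.zero)

/-- on `H_P`: `red x = red (y (cls P))`. -/
theorem red_hor (D : SeedFunData S pv PJ cls u ϖ y) (P : SS) :
    (S (Vtx.hor P)).red (u + algebraMap K F ϖ / u + ∑ cl, y cl) =
      (S (Vtx.hor P)).red (y (cls P)) :=
  spos_red_eq_y (S (Vtx.hor P)) (D.u_mem _) (D.u'_mem _) (D.y_mem _) (D.red_u_hor P)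
    (D.red_u'_hor P) (cls P) (D.red_y_hor P)

/-- the reduction of the seed function is transcendental on every component. -/
theorem transcendental_red (D : SeedFunData S pv PJ cls u ϖ y) (c : Vtx Mid SS) :
    Transcendental k ((S c).red (u + algebraMap K F ϖ / u + ∑ cl, y cl)) := by
  cases c with
  | vert v =>
    by_cases hv : v = Vrt.zero
    · subst hv
      rw [D.red_zero]
      exact D.tr_u'
    · rw [D.red_vert v hv]
      exact D.tr_u v hv
  | hor P =>
    rw [D.red_hor P]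
    exact D.tr_y P

/-- **`hpos`** of `ModMatchInput.seed`. -/
theorem hpos (D : SeedFunData S pv PJ cls u ϖ y) (c : Vtx Mid SS) :
    0 < Divisor.degree (poleDiv (S c).hFk
      ((S c).red (u + algebraMap K F ϖ / u + ∑ cl, y cl))) :=
  spos_degree_pos (S c) (D.transcendental_red c)

/-- **`hn₁`** of `ModMatchInput.seed`: the reductions of the seed function are regular at the
supersingular points of the vertical components. -/
theorem hn₁ (D : SeedFunData S pv PJ cls u ϖ y) (P : SS) (v : Vrt Mid) :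
    0 ≤ (pv P v).ord ((S (Vtx.vert v)).red (u + algebraMap K F ϖ / u + ∑ cl, y cl)) := by
  by_cases hv : v = Vrt.zero
  · subst hv
    rw [D.red_zero]
    exact D.ord_u' P
  · rw [D.red_vert v hv]
    exact D.ord_u P v hv

/-- **`hn₂`** of `ModMatchInput.seed`: the reductions of the seed function are regular at the
ends of the horizontal components. -/
theorem hn₂ (D : SeedFunData S pv PJ cls u ϖ y) (p : Σ c, Place k (FkOf Fk0 FkM FkP c))
    (hp : p ∈ PJ) :
    0 ≤ p.2.ord ((S p.1).red (u + algebraMap K F ϖ / u + ∑ cl, y cl)) := by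
  obtain ⟨c, Q⟩ := p
  obtain ⟨P, hP⟩ := D.end_hor ⟨c, Q⟩ hp
  have hc : c = Vtx.hor P := hP
  subst hc
  show 0 ≤ Q.ord ((S (Vtx.hor P)).red (u + algebraMap K F ϖ / u + ∑ cl, y cl))
  rw [D.red_hor P]
  exact D.ord_y P Q hp

end SeedFunData

/-! ### The three sets of components of SEED-DEG -/

section Sets

variable (Mid SS)

open Classical in
/-- `V₁`: `∞` and the middle components. -/
def sposV₁ : Finset (Vtx Mid SS) :=
  Finset.univ.filter fun c => ∃ v : Vrt Mid, v ≠ Vrt.zero ∧ c = Vtx.vert v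

/-- `V₂`: the component `0`. -/
def sposV₂ : Finset (Vtx Mid SS) := {Vtx.vert Vrt.zero}

variable {SS}

open Classical in
/-- `VP cl`: the horizontal components `H_P`, `cls P = cl`. -/
def sposVP (cls : SS → Cl) (cl : Cl) : Finset (Vtx Mid SS) :=
  Finset.univ.filter fun c => ∃ P : SS, cls P = cl ∧ c = Vtx.hor P

variable {Mid}

theorem mem_sposV₁ {c : Vtx Mid SS} :
    c ∈ sposV₁ Mid SS ↔ ∃ v : Vrt Mid, v ≠ Vrt.zero ∧ c = Vtx.vert v := by
  classical
  simp [sposV₁]

theorem mem_sposV₂ {c : Vtx Mid SS} : c ∈ sposV₂ Mid SS ↔ c = Vtx.vert Vrt.zero := by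
  simp [sposV₂]

theorem mem_sposVP {cls : SS → Cl} {cl : Cl} {c : Vtx Mid SS} :
    c ∈ sposVP Mid cls cl ↔ ∃ P : SS, cls P = cl ∧ c = Vtx.hor P := by
  classical
  simp [sposVP]

theorem spos_disjoint₁₂ : Disjoint (sposV₁ Mid SS) (sposV₂ Mid SS) := by
  rw [Finset.disjoint_left]
  intro c h1 h2
  obtain ⟨v, hv, rfl⟩ := mem_sposV₁.mp h1
  have := mem_sposV₂.mp h2
  exact hv (Vtx.vert.inj this)

theorem spos_disjoint₁P (cls : SS → Cl) (cl : Cl) :
    Disjoint (sposV₁ Mid SS) (sposVP Mid cls cl) := by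
  rw [Finset.disjoint_left]
  intro c h1 h2
  obtain ⟨v, _, rfl⟩ := mem_sposV₁.mp h1
  obtain ⟨P, _, hP⟩ := mem_sposVP.mp h2
  cases hP

theorem spos_disjoint₂P (cls : SS → Cl) (cl : Cl) :
    Disjoint (sposV₂ Mid SS) (sposVP Mid cls cl) := by
  rw [Finset.disjoint_left]
  intro c h1 h2
  have h := mem_sposV₂.mp h1
  subst h
  obtain ⟨P, _, hP⟩ := mem_sposVP.mp h2
  cases hP

theorem spos_disjointPP (cls : SS → Cl) (cl cl' : Cl) (h : cl ≠ cl') :
    Disjoint (sposVP Mid cls cl) (sposVP Mid cls cl') := by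
  rw [Finset.disjoint_left]
  intro c h1 h2
  obtain ⟨P, hP, rfl⟩ := mem_sposVP.mp h1
  obtain ⟨P', hP', hPP⟩ := mem_sposVP.mp h2
  have : P = P' := Vtx.hor.inj hPP
  subst this
  exact h (hP.symm.trans hP')

end Sets

namespace SeedFunData

variable {S : ∀ c : Vtx Mid SS, ValSetup K F k (FkOf Fk0 FkM FkP c)}
  {pv : ∀ (_ : SS) (v : Vrt Mid), Place k (FkOf Fk0 FkM FkP (Vtx.vert v))}
  {PJ : Set (Σ c, Place k (FkOf Fk0 FkM FkP c))} {cls : SS → Cl}
  {u : F} {ϖ : K} {y : Cl → F}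

theorem hr₁ (D : SeedFunData S pv PJ cls u ϖ y) (c : Vtx Mid SS) (hc : c ∈ sposV₁ Mid SS) :
    (S c).red (u + algebraMap K F ϖ / u + ∑ cl, y cl) = (S c).red u := by
  obtain ⟨v, hv, rfl⟩ := mem_sposV₁.mp hc
  exact D.red_vert v hv

theorem hr₂ (D : SeedFunData S pv PJ cls u ϖ y) (c : Vtx Mid SS) (hc : c ∈ sposV₂ Mid SS) :
    (S c).red (u + algebraMap K F ϖ / u + ∑ cl, y cl) = (S c).red (algebraMap K F ϖ / u) := by
  have h := mem_sposV₂.mp hc
  subst h
  exact D.red_zero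

theorem hrP (D : SeedFunData S pv PJ cls u ϖ y) (cl : Cl) (c : Vtx Mid SS) (hc : c ∈ sposVP Mid cls cl) :
    (S c).red (u + algebraMap K F ϖ / u + ∑ cl, y cl) = (S c).red (y cl) := by
  obtain ⟨P, hP, rfl⟩ := mem_sposVP.mp hc
  rw [D.red_hor P, hP]

theorem htr₁ (D : SeedFunData S pv PJ cls u ϖ y) (c : Vtx Mid SS) (hc : c ∈ sposV₁ Mid SS) :
    Transcendental k ((S c).red u) := by
  obtain ⟨v, hv, rfl⟩ := mem_sposV₁.mp hc
  exact D.tr_u v hv

theorem htr₂ (D : SeedFunData S pv PJ cls u ϖ y) (c : Vtx Mid SS) (hc : c ∈ sposV₂ Mid SS) :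
    Transcendental k ((S c).red (algebraMap K F ϖ / u)) := by
  have h := mem_sposV₂.mp hc
  subst h
  exact D.tr_u'

theorem htrP (D : SeedFunData S pv PJ cls u ϖ y) (cl : Cl) (c : Vtx Mid SS) (hc : c ∈ sposVP Mid cls cl) :
    Transcendental k ((S c).red (y cl)) := by
  obtain ⟨P, hP, rfl⟩ := mem_sposVP.mp hc
  have := D.tr_y P
  rwa [hP] at this

/-- **`hdeg`** of `ModMatchInput.seed` from the three degree inequalities (SEED-DEG,
`sdeg_hdeg`). -/
theorem hdeg (D : SeedFunData S pv PJ cls u ϖ y) (hF : IsRRField K F)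
    (hu : Transcendental K u) [FiniteDimensional K⟮u⟯ F] (hϖ : ϖ ≠ 0)
    (hy : ∀ cl, Transcendental K (y cl)) (hyfin : ∀ cl, FiniteDimensional K⟮y cl⟯ F)
    (deg₁ : Module.finrank K⟮u⟯ F ≤
      ∑ c ∈ sposV₁ Mid SS, Module.finrank k⟮(S c).red u⟯ (FkOf Fk0 FkM FkP c))
    (deg₂ : Module.finrank K⟮u⟯ F ≤
      ∑ c ∈ sposV₂ Mid SS,
        Module.finrank k⟮(S c).red (algebraMap K F ϖ / u)⟯ (FkOf Fk0 FkM FkP c))
    (degP : ∀ cl, Module.finrank K⟮y cl⟯ F ≤
      ∑ c ∈ sposVP Mid cls cl, Module.finrank k⟮(S c).red (y cl)⟯ (FkOf Fk0 FkM FkP c)) :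
    Divisor.degree (poleDiv hF (u + algebraMap K F ϖ / u + ∑ cl, y cl)) ≤
      ∑ c, Divisor.degree (poleDiv (S c).hFk
        ((S c).red (u + algebraMap K F ϖ / u + ∑ cl, y cl))) := by
  classical
  exact sdeg_hdeg S hF u ϖ y hu hϖ hy hyfin (sposV₁ Mid SS) (sposV₂ Mid SS) (sposVP Mid cls)
    spos_disjoint₁₂ (spos_disjoint₁P cls) (spos_disjoint₂P cls) (spos_disjointPP cls)
    D.hr₁ D.hr₂ D.hrP D.htr₁ D.htr₂ D.htrP deg₁ deg₂ degP

end SeedFunData

/-! ### The seed of a `ModMatchInput` -/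

namespace ModMatchInput

variable (I : ModMatchInput K F k Mid SS Fk0 FkM FkP) [Infinite k] [Nonempty SS]
  {cls : SS → Cl} {u : F} {ϖ : K} {y : Cl → F}

/-- **The modular `GraphSeed`** attached to the seed function `x = u + ϖ / u + ∑ y cl`, from
`SeedFunData` (SEED-POS), `hdeg` (SEED-DEG) and the genus inequality (GENUS). -/
def seedOfData
    (D : SeedFunData I.S I.pv {p | p ∈ I.PJA ∨ p ∈ I.PJM ∨ p ∈ I.PJ2} cls u ϖ y)
    (hD₀ : I.D₀ = poleDiv (I.S (Vtx.vert Vrt.oo)).hF (u + algebraMap K F ϖ / u + ∑ cl, y cl))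
    (hdeg : Divisor.degree (poleDiv (I.S (Vtx.vert Vrt.oo)).hF
        (u + algebraMap K F ϖ / u + ∑ cl, y cl)) ≤
      ∑ c, Divisor.degree (poleDiv (I.S c).hFk
        ((I.S c).red (u + algebraMap K F ϖ / u + ∑ cl, y cl))))
    (hgenus : genusFF K F + Fintype.card (Vtx Mid SS) ≤
      (∑ c, genusFF k (FkOf Fk0 FkM FkP c)) + Fintype.card (Nod Mid SS) + 1) :
    GraphSeed K F k (Vtx Mid SS) (FkOf Fk0 FkM FkP) (Nod Mid SS) :=
  I.seed (u + algebraMap K F ϖ / u + ∑ cl, y cl) D.mem hD₀ D.hpos D.hn₁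
    (fun p hp => D.hn₂ p hp) hdeg hgenus

end ModMatchInput

end Mod

end Fermat.Agent.S36G
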