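import Mathlib
import Fermat.Agent.Lib.Deuring.Basic
import Fermat.Agent.Lib.GoodRed.Small.GenusZero
import Fermat.Agent.S36.Seed.YDefs

set_option autoImplicit false
set_option linter.unusedSectionVars false

/-!
# Cluster G (S36), SEED v3: the seed term `y = b u^n / (u^n - b)^2` under ONE constant reduction
(helper74)

`S : ValSetup K F k Fk`, `u : F`, `b : K`.  With `T = b / u^n` resp. `T' = u^n / b`:
`y = T / (1 - T)^2 = T' / (1 - T')^2`.

* `ymodY_eq_T`, `ymodY_eq_T'` : the two forms of `y`;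
* `ymod_red_frac`   : `T ∈ O`, `red T ≠ 1` ⟹ `T / (1 - T)^2 ∈ O` and its reduction;
* `ymod_const_div_unit`, `ymod_unit` : **(A)** `u` a unit of `O`, `ϖ, b ∈ 𝔪_A` ⟹
  `ϖ / u, y ∈ 𝔪_O`   (the components `∞`, `mid m`);
* `ymod_u_of_inv`, `ymod_zero` : **(B)** `ϖ / u` a unit of `O`, `ϖ ∈ 𝔪_A`, `ϖ^n = c b`, `c ∈ 𝔪_A`
  ⟹ `u, y ∈ 𝔪_O`     (the component `0`);
* `ymod_hor` : **(C)** `W = ϖ₁ / u` a unit of `O` with transcendental reduction, `b = e ϖ₁^n`,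
  `e` a unit of `A` ⟹ `y ∈ O`, `red y = T̄ / (1 - T̄)^2`, `T̄ = ē W̄^n`   (the components `H_P`);
  `ymod_hor_u`, `ymod_hor_u'` : `u, ϖ / u ∈ 𝔪_O` there (`ϖ = ϖ₁ ϖ₂`, `ϖ₂ ∈ 𝔪_A`);
* `ymod_frac_transcendental` : `T̄` transcendental ⟹ `T̄ / (1 - T̄)^2` transcendental;
* `ymod_frac_ord` : `ord_Q (T̄ / (1 - T̄)^2) = |ord_Q T̄|` if `ord_Q T̄ ≠ 0`;
* `ymod_hor_transcendental`, `ymod_hor_ord_pos` : `red y` is transcendental and vanishes at every
  zero and every pole of `W̄` (= at all the ends of `H_P`).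
-/

noncomputable section

open AlgebraicCurve Fermat.Agent.RR Fermat.Agent.Deuring IntermediateField

namespace Fermat.Agent.S36G

/-! ### the two forms of `y` -/

section Alg

variable {K F : Type*} [Field K] [Field F] [Algebra K F]

/-- `y = T / (1 - T)^2`, `T = b / u^n`. -/
theorem ymodY_eq_T (u : F) (b : K) (n : ℕ) (hu : u ≠ 0) :
    ymodY u b n = (algebraMap K F b / u ^ n) / (1 - algebraMap K F b / u ^ n) ^ 2 := by
  have h : u ^ n ≠ 0 := pow_ne_zero n hu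
  by_cases hw : u ^ n - algebraMap K F b = 0
  · have h1 : algebraMap K F b / u ^ n = 1 := by
      rw [div_eq_one_iff_eq h]
      exact (sub_eq_zero.mp hw).symm
    rw [ymodY_def, hw, h1]
    simp
  · have h1 : 1 - algebraMap K F b / u ^ n = (u ^ n - algebraMap K F b) / u ^ n := by
      field_simp
    rw [ymodY_def, h1]
    field_simp

/-- `y = T' / (1 - T')^2`, `T' = u^n / b`. -/
theorem ymodY_eq_T' (u : F) (b : K) (n : ℕ) (hb : b ≠ 0) :
    ymodY u b n = (u ^ n / algebraMap K F b) / (1 - u ^ n / algebraMap K F b) ^ 2 := by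
  have h : algebraMap K F b ≠ 0 := (_root_.map_ne_zero _).mpr hb
  by_cases hw : u ^ n - algebraMap K F b = 0
  · have h1 : u ^ n / algebraMap K F b = 1 := by
      rw [div_eq_one_iff_eq h]
      exact sub_eq_zero.mp hw
    rw [ymodY_def, hw, h1]
    simp
  · have h1 : 1 - u ^ n / algebraMap K F b = -((u ^ n - algebraMap K F b) / algebraMap K F b) := by
      field_simp
      ring
    rw [ymodY_def, h1, neg_sq]
    field_simp

end Alg

/-! ### one constant reduction -/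

section One

variable {K F k Fk : Type*} [Field K] [Field F] [Algebra K F] [Field k] [Field Fk] [Algebra k Fk]
  (S : ValSetup K F k Fk)

/-- `T ∈ O`, `red T ≠ 1` ⟹ `T / (1 - T)^2 ∈ O`, with reduction `T̄ / (1 - T̄)^2`. -/
theorem ymod_red_frac {T : F} (hT : T ∈ S.Ov) (h1 : S.red T ≠ 1) :
    T / (1 - T) ^ 2 ∈ S.Ov ∧ S.red (T / (1 - T) ^ 2) = S.red T / (1 - S.red T) ^ 2 := by
  have h1T : (1 - T) ∈ S.Ov := sub_mem (one_mem _) hT
  have hr : S.red (1 - T) = 1 - S.red T := by rw [S.red_sub (one_mem _) hT, S.red_one]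
  have hne : S.red (1 - T) ≠ 0 := by
    rw [hr]
    exact sub_ne_zero.mpr (Ne.symm h1)
  have hinv := S.inv_mem_of_red_ne_zero hne
  have h0 := S.ne_zero_of_red_ne_zero hne
  have hri := S.red_inv h1T hinv h0
  have e : T / (1 - T) ^ 2 = T * ((1 - T)⁻¹) ^ 2 := by rw [div_eq_mul_inv, inv_pow]
  rw [e]
  refine ⟨mul_mem hT (pow_mem hinv 2), ?_⟩
  rw [S.red_mul hT (pow_mem hinv 2), S.red_pow hinv, hri, hr, div_eq_mul_inv, inv_pow]

/-- `T ∈ 𝔪_O` ⟹ `T / (1 - T)^2 ∈ 𝔪_O`. -/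
theorem ymod_red_frac_zero {T : F} (hT : T ∈ S.Ov) (h0 : S.red T = 0) :
    T / (1 - T) ^ 2 ∈ S.Ov ∧ S.red (T / (1 - T) ^ 2) = 0 := by
  have h := ymod_red_frac S hT (by rw [h0]; exact zero_ne_one)
  refine ⟨h.1, ?_⟩
  rw [h.2, h0, zero_div]

/-- a constant of `𝔪_A` times an element of `O` lies in `𝔪_O`. -/
theorem ymod_const_mul {c : K} (hc : c ∈ S.A) (hc0 : S.res ⟨c, hc⟩ = 0) {f : F} (hf : f ∈ S.Ov) :
    algebraMap K F c * f ∈ S.Ov ∧ S.red (algebraMap K F c * f) = 0 := by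
  refine ⟨mul_mem (S.algebraMap_mem hc) hf, ?_⟩
  rw [S.red_mul (S.algebraMap_mem hc) hf, S.red_algebraMap hc, hc0, map_zero, zero_mul]

/-- **(A)** `u` a unit of `O`, `ϖ ∈ 𝔪_A` ⟹ `ϖ / u ∈ 𝔪_O`. -/
theorem ymod_const_div_unit {u : F} {ϖ : K} (hur : S.red u ≠ 0) (hϖ : ϖ ∈ S.A)
    (hϖ0 : S.res ⟨ϖ, hϖ⟩ = 0) :
    algebraMap K F ϖ / u ∈ S.Ov ∧ S.red (algebraMap K F ϖ / u) = 0 := by
  rw [div_eq_mul_inv]
  exact ymod_const_mul S hϖ hϖ0 (S.inv_mem_of_red_ne_zero hur)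

/-- **(A)** `u` a unit of `O`, `b ∈ 𝔪_A` ⟹ `y ∈ 𝔪_O`. -/
theorem ymod_unit {u : F} {b : K} (n : ℕ) (hur : S.red u ≠ 0) (hb : b ∈ S.A)
    (hb0 : S.res ⟨b, hb⟩ = 0) :
    ymodY u b n ∈ S.Ov ∧ S.red (ymodY u b n) = 0 := by
  have hu0 : u ≠ 0 := S.ne_zero_of_red_ne_zero hur
  rw [ymodY_eq_T u b n hu0]
  have hT : algebraMap K F b / u ^ n ∈ S.Ov ∧ S.red (algebraMap K F b / u ^ n) = 0 := by
    rw [div_eq_mul_inv, ← inv_pow]
    exact ymod_const_mul S hb hb0 (pow_mem (S.inv_mem_of_red_ne_zero hur) n)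
  exact ymod_red_frac_zero S hT.1 hT.2

/-- **(B)** `ϖ / u` a unit of `O`, `ϖ ∈ 𝔪_A` ⟹ `u ∈ 𝔪_O`. -/
theorem ymod_u_of_inv {u : F} {ϖ : K} (hur : S.red (algebraMap K F ϖ / u) ≠ 0) (hϖ : ϖ ∈ S.A)
    (hϖ0 : S.res ⟨ϖ, hϖ⟩ = 0) : u ∈ S.Ov ∧ S.red u = 0 := by
  have h0 : algebraMap K F ϖ / u ≠ 0 := S.ne_zero_of_red_ne_zero hur
  have hu0 : u ≠ 0 := fun h => h0 (by rw [h, div_zero])
  have hϖF : algebraMap K F ϖ ≠ 0 := fun h => h0 (by rw [h, zero_div])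
  have e : u = algebraMap K F ϖ * (algebraMap K F ϖ / u)⁻¹ := by
    field_simp
  rw [e]
  exact ymod_const_mul S hϖ hϖ0 (S.inv_mem_of_red_ne_zero hur)

/-- **(B)** `ϖ / u` a unit of `O`, `ϖ ^ n = c b` with `c ∈ 𝔪_A`, `b ≠ 0` ⟹ `y ∈ 𝔪_O`. -/
theorem ymod_zero {u : F} {ϖ b c : K} (n : ℕ) (hur : S.red (algebraMap K F ϖ / u) ≠ 0)
    (hb : b ≠ 0) (hc : c ∈ S.A) (hc0 : S.res ⟨c, hc⟩ = 0) (hrel : ϖ ^ n = c * b) :
    ymodY u b n ∈ S.Ov ∧ S.red (ymodY u b n) = 0 := by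
  have h0 : algebraMap K F ϖ / u ≠ 0 := S.ne_zero_of_red_ne_zero hur
  have hu0 : u ≠ 0 := fun h => h0 (by rw [h, div_zero])
  have hϖF : algebraMap K F ϖ ≠ 0 := fun h => h0 (by rw [h, zero_div])
  have hbF : algebraMap K F b ≠ 0 := (_root_.map_ne_zero _).mpr hb
  rw [ymodY_eq_T' u b n hb]
  have e : u ^ n / algebraMap K F b = algebraMap K F c * ((algebraMap K F ϖ / u)⁻¹) ^ n := by
    have h2 : algebraMap K F ϖ ^ n = algebraMap K F c * algebraMap K F b := by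
      rw [← map_pow, hrel, map_mul]
    have hcF : algebraMap K F c ≠ 0 := by
      intro h
      rw [h, zero_mul] at h2
      exact pow_ne_zero n hϖF h2
    rw [inv_div, div_pow, h2]
    field_simp
  have hT : u ^ n / algebraMap K F b ∈ S.Ov ∧ S.red (u ^ n / algebraMap K F b) = 0 := by
    rw [e]
    exact ymod_const_mul S hc hc0 (pow_mem (S.inv_mem_of_red_ne_zero hur) n)
  exact ymod_red_frac_zero S hT.1 hT.2

/-- **(C)** `ϖ₁ / u` a unit of `O`, `ϖ₁ ∈ 𝔪_A` ⟹ `u ∈ 𝔪_O`. -/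
theorem ymod_hor_u {u : F} {ϖ₁ : K} (hur : S.red (algebraMap K F ϖ₁ / u) ≠ 0) (hϖ : ϖ₁ ∈ S.A)
    (hϖ0 : S.res ⟨ϖ₁, hϖ⟩ = 0) : u ∈ S.Ov ∧ S.red u = 0 :=
  ymod_u_of_inv S hur hϖ hϖ0

/-- **(C)** `ϖ₁ / u ∈ O`, `ϖ = ϖ₁ ϖ₂`, `ϖ₂ ∈ 𝔪_A` ⟹ `ϖ / u ∈ 𝔪_O`. -/
theorem ymod_hor_u' {u : F} {ϖ ϖ₁ ϖ₂ : K} (hW : algebraMap K F ϖ₁ / u ∈ S.Ov)
    (hϖ₂ : ϖ₂ ∈ S.A) (hϖ₂0 : S.res ⟨ϖ₂, hϖ₂⟩ = 0) (hrel : ϖ = ϖ₁ * ϖ₂) :
    algebraMap K F ϖ / u ∈ S.Ov ∧ S.red (algebraMap K F ϖ / u) = 0 := by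
  have e : algebraMap K F ϖ / u = algebraMap K F ϖ₂ * (algebraMap K F ϖ₁ / u) := by
    rw [hrel, map_mul]
    ring
  rw [e]
  exact ymod_const_mul S hϖ₂ hϖ₂0 hW

/-- a transcendental element times a nonzero constant power is not `1`. -/
theorem ymod_T_ne_one {W : Fk} (hW : Transcendental k W) {a : k} (ha : a ≠ 0) {n : ℕ}
    (hn : n ≠ 0) : algebraMap k Fk a * W ^ n ≠ 1 := by
  intro h
  apply hW
  refine ⟨Polynomial.C a * Polynomial.X ^ n - 1, ?_, ?_⟩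
  · intro h0
    have h1 := congrArg (fun p : Polynomial k => p.coeff n) h0
    simp only [Polynomial.coeff_sub, Polynomial.coeff_C_mul, Polynomial.coeff_X_pow,
      Polynomial.coeff_one, Polynomial.coeff_zero] at h1
    simp [hn] at h1
    exact ha h1
  · simp only [map_sub, map_mul, Polynomial.aeval_C, map_pow, Polynomial.aeval_X, map_one]
    rw [h, sub_self]

/-- `T̄ = ē W̄^n` is transcendental. -/
theorem ymod_T_transcendental {W : Fk} (hW : Transcendental k W) {a : k} (ha : a ≠ 0) {n : ℕ}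
    (hn : n ≠ 0) : Transcendental k (algebraMap k Fk a * W ^ n) := by
  have h := hW.aeval (Polynomial.C a * Polynomial.X ^ n) (by
    rw [Polynomial.natDegree_C_mul_X_pow n a ha]; exact hn)
    (mem_nonZeroDivisors_of_ne_zero (by
      rw [Polynomial.leadingCoeff_mul, Polynomial.leadingCoeff_C, Polynomial.leadingCoeff_X_pow,
        mul_one]
      exact ha))
  simpa using h

/-- **(C)** `W = ϖ₁ / u` a unit of `O` with transcendental reduction `W̄`, `b = e ϖ₁^n` with `e` a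
unit of `A`, `n ≠ 0` ⟹ `y ∈ O` and `red y = T̄ / (1 - T̄)^2`, `T̄ = ē W̄^n`. -/
theorem ymod_hor {u : F} {ϖ₁ b e : K} {n : ℕ} (hn : n ≠ 0)
    (hW : algebraMap K F ϖ₁ / u ∈ S.Ov)
    (hWtr : Transcendental k (S.red (algebraMap K F ϖ₁ / u)))
    (he : e ∈ S.A) (he0 : S.res ⟨e, he⟩ ≠ 0) (hrel : b = e * ϖ₁ ^ n) :
    ymodY u b n ∈ S.Ov ∧
      S.red (ymodY u b n) =
        (algebraMap k Fk (S.res ⟨e, he⟩) * S.red (algebraMap K F ϖ₁ / u) ^ n) /
          (1 - algebraMap k Fk (S.res ⟨e, he⟩) * S.red (algebraMap K F ϖ₁ / u) ^ n) ^ 2 := by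
  have hur : S.red (algebraMap K F ϖ₁ / u) ≠ 0 := fun h => hWtr (by rw [h]; exact isAlgebraic_zero)
  have h0 : algebraMap K F ϖ₁ / u ≠ 0 := S.ne_zero_of_red_ne_zero hur
  have hu0 : u ≠ 0 := fun h => h0 (by rw [h, div_zero])
  rw [ymodY_eq_T u b n hu0]
  have e1 : algebraMap K F b / u ^ n = algebraMap K F e * (algebraMap K F ϖ₁ / u) ^ n := by
    rw [hrel, map_mul, map_pow, div_pow]
    ring
  have hT : algebraMap K F b / u ^ n ∈ S.Ov := by
    rw [e1]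
    exact mul_mem (S.algebraMap_mem he) (pow_mem hW n)
  have hTr : S.red (algebraMap K F b / u ^ n) =
      algebraMap k Fk (S.res ⟨e, he⟩) * S.red (algebraMap K F ϖ₁ / u) ^ n := by
    rw [e1, S.red_mul (S.algebraMap_mem he) (pow_mem hW n), S.red_algebraMap he, S.red_pow hW]
  have h := ymod_red_frac S hT (by rw [hTr]; exact ymod_T_ne_one hWtr he0 hn)
  refine ⟨h.1, ?_⟩
  rw [h.2, hTr]

end One

/-! ### the function `T / (1 - T)^2` on the special fibre -/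

section Frac

variable {k Fk : Type*} [Field k] [Field Fk] [Algebra k Fk]

/-- `T / (1 - T)^2 = s^2 - s`, `s = (1 - T)⁻¹`. -/
theorem ymod_frac_eq {T : Fk} (h : 1 - T ≠ 0) :
    T / (1 - T) ^ 2 = ((1 - T)⁻¹) ^ 2 - (1 - T)⁻¹ := by
  field_simp
  ring

/-- `T` transcendental ⟹ `T / (1 - T)^2` transcendental. -/
theorem ymod_frac_transcendental {T : Fk} (hT : Transcendental k T) :
    Transcendental k (T / (1 - T) ^ 2) := by
  have h1 : 1 - T ≠ 0 := by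
    intro h
    apply hT
    have : T = 1 := (sub_eq_zero.mp h).symm
    rw [this]
    exact isAlgebraic_one
  have h2 : Transcendental k (1 - T) := by
    intro h
    apply hT
    have h3 : IsAlgebraic k (1 - (1 - T)) := isAlgebraic_one.sub h
    rwa [sub_sub_cancel] at h3
  have h3 : Transcendental k (1 - T)⁻¹ := by
    intro h
    apply h2
    have := h.inv
    rwa [inv_inv] at this
  rw [ymod_frac_eq h1]
  have h4 := h3.aeval (Polynomial.X ^ 2 - Polynomial.X) (by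
    have : (Polynomial.X ^ 2 - Polynomial.X : Polynomial k).natDegree = 2 := by
      rw [Polynomial.natDegree_sub_eq_left_of_natDegree_lt]
      · exact Polynomial.natDegree_X_pow 2
      · rw [Polynomial.natDegree_X_pow, Polynomial.natDegree_X]
        norm_num
    rw [this]
    norm_num)
    (mem_nonZeroDivisors_of_ne_zero (by
      have hm : (Polynomial.X ^ 2 - Polynomial.X : Polynomial k).Monic := by
        apply Polynomial.Monic.sub_of_left (Polynomial.monic_X_pow 2)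
        rw [Polynomial.degree_X_pow, Polynomial.degree_X]
        norm_num
      rw [hm.leadingCoeff]
      exact one_ne_zero))
  simpa using h4

/-- `ord_Q (T / (1 - T)^2) = ord_Q T` at a zero of `T`. -/
theorem ymod_frac_ord_of_pos (Q : Place k Fk) {T : Fk} (hT : 0 < Q.ord T) :
    Q.ord (T / (1 - T) ^ 2) = Q.ord T := by
  have hT0 : T ≠ 0 := by
    rintro rfl
    rw [Q.ord_zero] at hT
    exact lt_irrefl _ hT
  have hnT : -T ≠ 0 := neg_ne_zero.mpr hT0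
  have h1 : Q.ord (1 - T) = 0 := by
    have := Fermat.Agent.GoodRedSmall.ord_add_eq_of_lt Q (one_ne_zero) hnT (by
      rw [Q.ord_one, Fermat.Agent.GoodRedSmall.ord_neg']
      exact hT)
    rw [Q.ord_one, ← sub_eq_add_neg] at this
    exact this
  have h1' : 1 - T ≠ 0 := by
    intro h
    have h2 : T = 1 := (sub_eq_zero.mp h).symm
    rw [h2, Q.ord_one] at hT
    exact lt_irrefl _ hT
  rw [div_eq_mul_inv, Q.ord_mul hT0 (inv_ne_zero (pow_ne_zero 2 h1')), Q.ord_inv,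
    Fermat.Agent.GoodRedSmall.ord_pow', h1]
  simp

/-- `ord_Q (T / (1 - T)^2) = - ord_Q T` at a pole of `T`. -/
theorem ymod_frac_ord_of_neg (Q : Place k Fk) {T : Fk} (hT : Q.ord T < 0) :
    Q.ord (T / (1 - T) ^ 2) = - Q.ord T := by
  have hT0 : T ≠ 0 := by
    rintro rfl
    rw [Q.ord_zero] at hT
    exact lt_irrefl _ hT
  have hnT : -T ≠ 0 := neg_ne_zero.mpr hT0
  have h1 : Q.ord (1 - T) = Q.ord T := by
    have := Fermat.Agent.GoodRedSmall.ord_add_eq_of_lt Q hnT (one_ne_zero) (by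
      rw [Q.ord_one, Fermat.Agent.GoodRedSmall.ord_neg']
      exact hT)
    rw [Fermat.Agent.GoodRedSmall.ord_neg', neg_add_eq_sub] at this
    exact this
  have h1' : 1 - T ≠ 0 := by
    intro h
    have h2 : T = 1 := (sub_eq_zero.mp h).symm
    rw [h2, Q.ord_one] at hT
    exact lt_irrefl _ hT
  rw [div_eq_mul_inv, Q.ord_mul hT0 (inv_ne_zero (pow_ne_zero 2 h1')), Q.ord_inv,
    Fermat.Agent.GoodRedSmall.ord_pow', h1]
  push_cast
  ring

/-- `T / (1 - T)^2` vanishes at every zero and every pole of `T`. -/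
theorem ymod_frac_ord_pos (Q : Place k Fk) {T : Fk} (hT : Q.ord T ≠ 0) :
    0 < Q.ord (T / (1 - T) ^ 2) := by
  rcases lt_or_gt_of_ne hT with h | h
  · rw [ymod_frac_ord_of_neg Q h]
    omega
  · rw [ymod_frac_ord_of_pos Q h]
    exact h

/-- `ord_Q (ē W̄^n) = n ord_Q W̄`. -/
theorem ymod_T_ord (Q : Place k Fk) {W : Fk} (hW : W ≠ 0) {a : k} (ha : a ≠ 0) (n : ℕ) :
    Q.ord (algebraMap k Fk a * W ^ n) = n * Q.ord W := by
  rw [Q.ord_mul ((_root_.map_ne_zero _).mpr ha) (pow_ne_zero n hW),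
    Fermat.Agent.GoodRedSmall.ord_const, Fermat.Agent.GoodRedSmall.ord_pow', zero_add]

end Frac

/-! ### (C): transcendence and the ends -/

section Hor

variable {K F k Fk : Type*} [Field K] [Field F] [Algebra K F] [Field k] [Field Fk] [Algebra k Fk]
  (S : ValSetup K F k Fk)

/-- **(C)** `red y` is transcendental. -/
theorem ymod_hor_transcendental {u : F} {ϖ₁ b e : K} {n : ℕ} (hn : n ≠ 0)
    (hW : algebraMap K F ϖ₁ / u ∈ S.Ov)
    (hWtr : Transcendental k (S.red (algebraMap K F ϖ₁ / u)))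
    (he : e ∈ S.A) (he0 : S.res ⟨e, he⟩ ≠ 0) (hrel : b = e * ϖ₁ ^ n) :
    Transcendental k (S.red (ymodY u b n)) := by
  rw [(ymod_hor S hn hW hWtr he he0 hrel).2]
  exact ymod_frac_transcendental (ymod_T_transcendental hWtr he0 hn)

/-- **(C)** `red y` vanishes at every zero and every pole of `W̄ = red (ϖ₁ / u)`. -/
theorem ymod_hor_ord_pos {u : F} {ϖ₁ b e : K} {n : ℕ} (hn : n ≠ 0)
    (hW : algebraMap K F ϖ₁ / u ∈ S.Ov)
    (hWtr : Transcendental k (S.red (algebraMap K F ϖ₁ / u)))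
    (he : e ∈ S.A) (he0 : S.res ⟨e, he⟩ ≠ 0) (hrel : b = e * ϖ₁ ^ n)
    (Q : Place k Fk) (hQ : Q.ord (S.red (algebraMap K F ϖ₁ / u)) ≠ 0) :
    0 < Q.ord (S.red (ymodY u b n)) := by
  have hur : S.red (algebraMap K F ϖ₁ / u) ≠ 0 := fun h => hWtr (by rw [h]; exact isAlgebraic_zero)
  rw [(ymod_hor S hn hW hWtr he he0 hrel).2]
  apply ymod_frac_ord_pos
  rw [ymod_T_ord Q hur he0 n]
  exact mul_ne_zero (by exact_mod_cast hn) hQ

/-- **(C)** the reduction of `u / ϖ₁` is the inverse of the reduction of `ϖ₁ / u`. -/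
theorem ymod_hor_red_inv {u : F} {ϖ₁ : K}
    (hW : algebraMap K F ϖ₁ / u ∈ S.Ov) (hur : S.red (algebraMap K F ϖ₁ / u) ≠ 0) :
    u / algebraMap K F ϖ₁ ∈ S.Ov ∧
      S.red (u / algebraMap K F ϖ₁) = (S.red (algebraMap K F ϖ₁ / u))⁻¹ := by
  have h0 : algebraMap K F ϖ₁ / u ≠ 0 := S.ne_zero_of_red_ne_zero hur
  have hinv := S.inv_mem_of_red_ne_zero hur
  have e : u / algebraMap K F ϖ₁ = (algebraMap K F ϖ₁ / u)⁻¹ := by rw [inv_div]
  rw [e]
  exact ⟨hinv, S.red_inv hW hinv h0⟩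

end Hor

end Fermat.Agent.S36G
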