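import Mathlib
import Fermat.Agent.S36.G.SeedInput
import Fermat.Agent.S36.Seed.Pos
import Fermat.Agent.S36.Seed.YMod

set_option autoImplicit false
set_option linter.unusedSectionVars false

/-!
# Cluster G (S36), SEED v3: `SeedFunData` of the seed built from `u₁` only  (helper74)

`E : ModEndsInput ..` (helper40, `S36/G/SeedInput.lean`) with `E.u2 = E.u1 / ϖ₁`,
`ϖ₁ ^ n = b = ϖ₁ ϖ₂`, `2 ≤ n`  (modular: `u₁ = Δ(z)/Δ(qz)`-type parameter, `n = q + 1`,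
`b = q ^ 12`).  Seed function (helper7's shape, `Cl = Unit`):

  `x = u₁ + b / u₁ + ∑ cl : Unit, ymodY u₁ b n`,   `ymodY u b n = b u^n / (u^n - b)^2`.

* `ModEndsInput.ymod_b_mem`, `.ymod_b_res` : `b ∈ 𝔪_A`;
* `ModEndsInput.ymod_u'_eq` : `ϖ₂ / u₂ = b / u₁`;
* `ModEndsInput.ymod_vert`, `.ymod_zero'`, `.ymod_horP` : the three kinds of components;
* `ModEndsInput.ymod_seedFunData` : **the `SeedFunData`** (all the fields; the ends are those of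
  `E.toMatchInput`).
-/

noncomputable section

open AlgebraicCurve Fermat.Agent.RR Fermat.Agent.Deuring IntermediateField

namespace Fermat.Agent.S36G

open Fermat.Agent.BadRed Fermat.Agent.BadRedG

variable {K F k : Type} [Field K] [Field F] [Algebra K F] [Field k]
  {Mid SS : Type} [Fintype Mid] [Fintype SS]
  {Fk0 : Type} [Field Fk0] [Algebra k Fk0]
  {FkM : Mid → Type} [∀ m, Field (FkM m)] [∀ m, Algebra k (FkM m)]
  {FkP : SS → Type} [∀ P, Field (FkP P)] [∀ P, Algebra k (FkP P)]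

namespace ModEndsInput

variable (E : ModEndsInput K F k Mid SS Fk0 FkM FkP) {b : K} {n : ℕ}

/-- `b = ϖ₁ ^ n ∈ A`. -/
theorem ymod_b_mem (hb : E.ϖ1 ^ n = b) (c : Vtx Mid SS) : b ∈ (E.S c).A := by
  rw [← hb]
  exact pow_mem (E.D1.ϖ_mem c) n

/-- `b = ϖ₁ ^ n ∈ 𝔪_A` (`n ≠ 0`). -/
theorem ymod_b_res (hn : n ≠ 0) (hb : E.ϖ1 ^ n = b) (c : Vtx Mid SS) (h : b ∈ (E.S c).A) :
    (E.S c).res ⟨b, h⟩ = 0 := by
  subst hb
  have h1 : (⟨E.ϖ1 ^ n, h⟩ : (E.S c).A) = (⟨E.ϖ1, E.D1.ϖ_mem c⟩ : (E.S c).A) ^ n := rfl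
  rw [h1, map_pow, E.D1.ϖ_res c, zero_pow hn]

/-- `b ^ (n - 1) ∈ 𝔪_A` (`2 ≤ n`). -/
theorem ymod_bpow_res (hn : 2 ≤ n) (hb : E.ϖ1 ^ n = b) (c : Vtx Mid SS)
    (h : b ^ (n - 1) ∈ (E.S c).A) : (E.S c).res ⟨b ^ (n - 1), h⟩ = 0 := by
  have hb' := E.ymod_b_mem hb c
  have h1 : (⟨b ^ (n - 1), h⟩ : (E.S c).A) = (⟨b, hb'⟩ : (E.S c).A) ^ (n - 1) := rfl
  rw [h1, map_pow, E.ymod_b_res (by omega) hb c hb', zero_pow (by omega)]

theorem ymod_ϖ1_ne : E.ϖ1 ≠ 0 := E.D1.ϖ_ne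

theorem ymod_b_ne (hb : E.ϖ1 ^ n = b) : b ≠ 0 := by
  rw [← hb]
  exact pow_ne_zero n E.D1.ϖ_ne

/-- `ϖ₂ / u₂ = b / u₁`. -/
theorem ymod_u'_eq (h12 : E.ϖ1 * E.ϖ2 = b) (hu2 : E.u2 = E.u1 / algebraMap K F E.ϖ1) :
    algebraMap K F E.ϖ2 / E.u2 = algebraMap K F b / E.u1 := by
  have h1 : algebraMap K F E.ϖ1 ≠ 0 := (_root_.map_ne_zero _).mpr E.D1.ϖ_ne
  rw [hu2, ← h12, map_mul]
  by_cases hu : E.u1 = 0
  · rw [hu]
    simp
  · field_simp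

/-! ### the vertical components `∞`, `mid m` -/

theorem ymod_mem_V1₁ (v : Vrt Mid) (hv : v ≠ Vrt.zero) : (Vtx.vert v : Vtx Mid SS) ∈ E.V1₁ := by
  rw [E.mem_V1₁]
  cases v with
  | oo => exact Or.inl rfl
  | zero => exact absurd rfl hv
  | mid m => exact Or.inr ⟨m, rfl⟩

theorem ymod_red_u_vert_ne (v : Vrt Mid) (hv : v ≠ Vrt.zero) :
    (E.S (Vtx.vert v)).red E.u1 ≠ 0 := fun h =>
  E.D1.u_tr _ (E.ymod_mem_V1₁ v hv) (by rw [h]; exact isAlgebraic_zero)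

/-- on `∞` and the middle components: `b / u₁, y ∈ 𝔪`. -/
theorem ymod_vert (hn : n ≠ 0) (hb : E.ϖ1 ^ n = b) (v : Vrt Mid) (hv : v ≠ Vrt.zero) :
    (algebraMap K F b / E.u1 ∈ (E.S (Vtx.vert v)).Ov ∧
      (E.S (Vtx.vert v)).red (algebraMap K F b / E.u1) = 0) ∧
    (ymodY E.u1 b n ∈ (E.S (Vtx.vert v)).Ov ∧ (E.S (Vtx.vert v)).red (ymodY E.u1 b n) = 0) :=
  ⟨ymod_const_div_unit _ (E.ymod_red_u_vert_ne v hv) (E.ymod_b_mem hb _)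
      (E.ymod_b_res hn hb _ _),
    ymod_unit _ n (E.ymod_red_u_vert_ne v hv) (E.ymod_b_mem hb _) (E.ymod_b_res hn hb _ _)⟩

/-! ### the vertical component `0` -/

theorem ymod_mem_V2₂ : (Vtx.vert Vrt.zero : Vtx Mid SS) ∈ E.V2₂ := (E.mem_V2₂ _).mpr rfl

theorem ymod_zero_mem (h12 : E.ϖ1 * E.ϖ2 = b) (hu2 : E.u2 = E.u1 / algebraMap K F E.ϖ1) :
    algebraMap K F b / E.u1 ∈ (E.S (Vtx.vert Vrt.zero)).Ov := by
  rw [← E.ymod_u'_eq h12 hu2]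
  exact E.D2.u'_mem _ E.ymod_mem_V2₂

theorem ymod_zero_tr (h12 : E.ϖ1 * E.ϖ2 = b) (hu2 : E.u2 = E.u1 / algebraMap K F E.ϖ1) :
    Transcendental k ((E.S (Vtx.vert Vrt.zero)).red (algebraMap K F b / E.u1)) := by
  rw [← E.ymod_u'_eq h12 hu2]
  exact E.D2.u'_tr _ E.ymod_mem_V2₂

theorem ymod_zero_ne (h12 : E.ϖ1 * E.ϖ2 = b) (hu2 : E.u2 = E.u1 / algebraMap K F E.ϖ1) :
    (E.S (Vtx.vert Vrt.zero)).red (algebraMap K F b / E.u1) ≠ 0 := fun h =>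
  E.ymod_zero_tr h12 hu2 (by rw [h]; exact isAlgebraic_zero)

/-- on the component `0`: `u₁, y ∈ 𝔪`. -/
theorem ymod_zero' (hn : 2 ≤ n) (hb : E.ϖ1 ^ n = b) (h12 : E.ϖ1 * E.ϖ2 = b)
    (hu2 : E.u2 = E.u1 / algebraMap K F E.ϖ1) :
    (E.u1 ∈ (E.S (Vtx.vert Vrt.zero)).Ov ∧ (E.S (Vtx.vert Vrt.zero)).red E.u1 = 0) ∧
    (ymodY E.u1 b n ∈ (E.S (Vtx.vert Vrt.zero)).Ov ∧
      (E.S (Vtx.vert Vrt.zero)).red (ymodY E.u1 b n) = 0) := by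
  have hbm := E.ymod_b_mem hb (Vtx.vert Vrt.zero)
  refine ⟨ymod_u_of_inv _ (E.ymod_zero_ne h12 hu2) hbm (E.ymod_b_res (by omega) hb _ _), ?_⟩
  have hc : b ^ (n - 1) ∈ (E.S (Vtx.vert Vrt.zero)).A := pow_mem hbm _
  refine ymod_zero _ n (E.ymod_zero_ne h12 hu2) (E.ymod_b_ne hb) hc
    (E.ymod_bpow_res hn hb _ hc) ?_
  rw [← pow_succ]
  congr 1
  omega

/-! ### the horizontal components -/

theorem ymod_mem_V1₂ (P : SS) : (Vtx.hor P : Vtx Mid SS) ∈ E.V1₂ := (E.mem_V1₂ _).mpr ⟨P, rfl⟩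

theorem ymod_hor_W_mem (P : SS) : algebraMap K F E.ϖ1 / E.u1 ∈ (E.S (Vtx.hor P)).Ov :=
  E.D1.u'_mem _ (E.ymod_mem_V1₂ P)

theorem ymod_hor_W_tr (P : SS) :
    Transcendental k ((E.S (Vtx.hor P)).red (algebraMap K F E.ϖ1 / E.u1)) :=
  E.D1.u'_tr _ (E.ymod_mem_V1₂ P)

theorem ymod_hor_W_ne (P : SS) : (E.S (Vtx.hor P)).red (algebraMap K F E.ϖ1 / E.u1) ≠ 0 :=
  fun h => E.ymod_hor_W_tr P (by rw [h]; exact isAlgebraic_zero)

theorem ymod_one_res (c : Vtx Mid SS) : (E.S c).res ⟨1, (E.S c).A.one_mem⟩ ≠ 0 := by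
  have h1 : (⟨1, (E.S c).A.one_mem⟩ : (E.S c).A) = 1 := rfl
  rw [h1, map_one]
  exact one_ne_zero

/-- on `H_P`: `u₁, b / u₁ ∈ 𝔪`, `y ∈ O`. -/
theorem ymod_horP (hn : n ≠ 0) (hb : E.ϖ1 ^ n = b) (h12 : E.ϖ1 * E.ϖ2 = b) (P : SS) :
    (E.u1 ∈ (E.S (Vtx.hor P)).Ov ∧ (E.S (Vtx.hor P)).red E.u1 = 0) ∧
    (algebraMap K F b / E.u1 ∈ (E.S (Vtx.hor P)).Ov ∧
      (E.S (Vtx.hor P)).red (algebraMap K F b / E.u1) = 0) ∧
    ymodY E.u1 b n ∈ (E.S (Vtx.hor P)).Ov :=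
  ⟨ymod_hor_u _ (E.ymod_hor_W_ne P) (E.D1.ϖ_mem _) (E.D1.ϖ_res _ _),
    ymod_hor_u' _ (E.ymod_hor_W_mem P) (E.D2.ϖ_mem _) (E.D2.ϖ_res _ _) h12.symm,
    (ymod_hor _ hn (E.ymod_hor_W_mem P) (E.ymod_hor_W_tr P) (E.S _).A.one_mem
      (E.ymod_one_res _) (by rw [one_mul, hb])).1⟩

/-- on `H_P`: `red y` is transcendental. -/
theorem ymod_horP_tr (hn : n ≠ 0) (hb : E.ϖ1 ^ n = b) (P : SS) :
    Transcendental k ((E.S (Vtx.hor P)).red (ymodY E.u1 b n)) :=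
  ymod_hor_transcendental _ hn (E.ymod_hor_W_mem P) (E.ymod_hor_W_tr P) (E.S _).A.one_mem
    (E.ymod_one_res _) (by rw [one_mul, hb])

/-- on `H_P`: `red y = W̄^n / (1 - W̄^n)^2`, `W̄ = red (ϖ₁ / u₁)`. -/
theorem ymod_horP_red (hn : n ≠ 0) (hb : E.ϖ1 ^ n = b) (P : SS) :
    (E.S (Vtx.hor P)).red (ymodY E.u1 b n) =
      (E.S (Vtx.hor P)).red (algebraMap K F E.ϖ1 / E.u1) ^ n /
        (1 - (E.S (Vtx.hor P)).red (algebraMap K F E.ϖ1 / E.u1) ^ n) ^ 2 := by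
  have h := (ymod_hor (E.S (Vtx.hor P)) hn (E.ymod_hor_W_mem P) (E.ymod_hor_W_tr P)
    (E.S _).A.one_mem (E.ymod_one_res _) (by rw [one_mul, hb] : b = 1 * E.ϖ1 ^ n)).2
  have h1 : (⟨1, (E.S (Vtx.hor P)).A.one_mem⟩ : (E.S (Vtx.hor P)).A) = 1 := rfl
  rw [h, h1, map_one, map_one, one_mul]

/-- on `H_P`: `red y` vanishes at every zero of `red (ϖ₁ / u₁)` and of `red u₂`. -/
theorem ymod_horP_ord (hn : n ≠ 0) (hb : E.ϖ1 ^ n = b)
    (hu2 : E.u2 = E.u1 / algebraMap K F E.ϖ1) (P : SS)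
    (Q : Place k (FkOf Fk0 FkM FkP (Vtx.hor P)))
    (hQ : 0 < Q.ord ((E.S (Vtx.hor P)).red (algebraMap K F E.ϖ1 / E.u1)) ∨
      0 < Q.ord ((E.S (Vtx.hor P)).red E.u2)) :
    0 < Q.ord ((E.S (Vtx.hor P)).red (ymodY E.u1 b n)) := by
  refine ymod_hor_ord_pos _ hn (E.ymod_hor_W_mem P) (E.ymod_hor_W_tr P) (E.S _).A.one_mem
    (E.ymod_one_res _) (by rw [one_mul, hb]) Q ?_
  rcases hQ with h | h
  · exact h.ne'
  · rw [hu2, (ymod_hor_red_inv _ (E.ymod_hor_W_mem P) (E.ymod_hor_W_ne P)).2, Q.ord_inv] at h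
    omega

/-! ### the `SeedFunData` -/

/-- **SEED v3**: the `SeedFunData` of `x = u₁ + b / u₁ + ∑ cl : Unit, ymodY u₁ b n`. -/
theorem ymod_seedFunData [Infinite k] (hn : 2 ≤ n) (hb : E.ϖ1 ^ n = b)
    (h12 : E.ϖ1 * E.ϖ2 = b) (hu2 : E.u2 = E.u1 / algebraMap K F E.ϖ1) :
    SeedFunData E.S E.pv
      {p | p ∈ E.toMatchInput.PJA ∨ p ∈ E.toMatchInput.PJM ∨ p ∈ E.toMatchInput.PJ2}
      (fun _ : SS => ()) E.u1 b (fun _ : Unit => ymodY E.u1 b n) where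
  u_mem := by
    intro c
    cases c with
    | vert v =>
      by_cases hv : v = Vrt.zero
      · subst hv
        exact (E.ymod_zero' hn hb h12 hu2).1.1
      · exact E.D1.u_mem _ (E.ymod_mem_V1₁ v hv)
    | hor P => exact (E.ymod_horP (by omega) hb h12 P).1.1
  u'_mem := by
    intro c
    cases c with
    | vert v =>
      by_cases hv : v = Vrt.zero
      · subst hv
        exact E.ymod_zero_mem h12 hu2
      · exact (E.ymod_vert (by omega) hb v hv).1.1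
    | hor P => exact (E.ymod_horP (by omega) hb h12 P).2.1.1
  y_mem := by
    intro c _
    cases c with
    | vert v =>
      by_cases hv : v = Vrt.zero
      · subst hv
        exact (E.ymod_zero' hn hb h12 hu2).2.1
      · exact (E.ymod_vert (by omega) hb v hv).2.1
    | hor P => exact (E.ymod_horP (by omega) hb h12 P).2.2
  red_u'_vert := fun v hv => (E.ymod_vert (by omega) hb v hv).1.2
  red_u_zero := (E.ymod_zero' hn hb h12 hu2).1.2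
  red_y_vert := by
    intro v _
    by_cases hv : v = Vrt.zero
    · subst hv
      exact (E.ymod_zero' hn hb h12 hu2).2.2
    · exact (E.ymod_vert (by omega) hb v hv).2.2
  red_u_hor := fun P => (E.ymod_horP (by omega) hb h12 P).1.2
  red_u'_hor := fun P => (E.ymod_horP (by omega) hb h12 P).2.1.2
  red_y_hor := fun P cl hcl => absurd rfl hcl
  tr_u := fun v hv => E.D1.u_tr _ (E.ymod_mem_V1₁ v hv)
  tr_u' := E.ymod_zero_tr h12 hu2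
  tr_y := fun P => E.ymod_horP_tr (by omega) hb P
  ord_u := by
    intro P v hv
    cases v with
    | oo => rw [E.o1oo P]; exact E.w1_pos.le
    | zero => exact absurd rfl hv
    | mid m => rw [E.o1m P m]; exact E.wM_pos.le
  ord_u' := by
    intro P
    rw [← E.ymod_u'_eq h12 hu2, E.o2 P]
    exact E.w2_pos.le
  end_hor := fun p hp => ((E.mem_ends_iff p).mp hp).1
  ord_y := by
    intro P Q hp
    exact (E.ymod_horP_ord (by omega) hb hu2 P Q ((E.mem_ends_iff ⟨Vtx.hor P, Q⟩).mp hp).2).le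

end ModEndsInput

end Fermat.Agent.S36G
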