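import Mathlib
import Fermat.Agent.S36.Seed.YModData

set_option autoImplicit false
set_option linter.unusedSectionVars false

/-!
# Cluster G (S36), SEED-MAIN: the modular `GraphSeed` of SEED v3  (helper92)

For `E : ModEndsInput ..` (helper40, `S36/G/SeedInput.lean`) with `E.u2 = E.u1 / ϖ₁`,
`ϖ₁ ^ n = b = ϖ₁ ϖ₂`, `2 ≤ n` (modular: `n = q + 1`, `b = q ^ 12`):

* `ModEndsInput.ymodX b n` : the seed function `x = u₁ + b / u₁ + ∑ cl : Unit, ymodY u₁ b n`;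
* `ModEndsInput.ymodX_eq` : `x = u₁ + b / u₁ + ymodY u₁ b n`;
* `ModEndsInput.ymodSeed` : **the `GraphSeed`** `E.toMatchInput.seedOfData ..` of `x`, from
  helper74's `ymod_seedFunData`, the degree inequality `hdeg` and the genus inequality `hgenus`;
* `ymodSeed_eq_seed` : it is `E.toMatchInput.seed x ..` (the shape used by the consumers
  `ModEndsInput.cocycleF3_of_ends`, `seed_isPermAut`, ..);
* `ymodSeed_S`, `_src`, `_tgt`, `_s₁`, `_s₂`, `_D₀`, `_D₀'`, `_R`, `_A`, `_toGraphCore` : the fields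
  (all `rfl`).
-/

noncomputable section

open AlgebraicCurve Fermat.Agent.RR Fermat.Agent.Deuring IntermediateField

namespace Fermat.Agent.S36G

open Fermat.Agent.BadRed Fermat.Agent.BadRedG

variable {K F k : Type} [Field K] [Field F] [Algebra K F] [Field k]
  {Mid SS : Type} [Fintype Mid] [Fintype SS]
  {Fk0 : Type} [Field Fk0] [Algebra k Fk0]
  {FkM : Mid → Type} [∀ m, Field (FkM m)] [∀ m, Algebra k (FkM m)]
  {FkP : SS → Type} [∀ P, Field (FkP P)] [∀ P, Algebra k (FkP P)]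

namespace ModEndsInput

variable (E : ModEndsInput K F k Mid SS Fk0 FkM FkP)

/-- **the seed function of SEED v3**: `x = u₁ + b / u₁ + ∑ cl : Unit, b u₁ⁿ / (u₁ⁿ - b)²`. -/
def ymodX (b : K) (n : ℕ) : F :=
  E.u1 + algebraMap K F b / E.u1 + ∑ _cl : Unit, ymodY E.u1 b n

theorem ymodX_eq (b : K) (n : ℕ) :
    E.ymodX b n = E.u1 + algebraMap K F b / E.u1 + ymodY E.u1 b n := by
  unfold ymodX
  simp

variable {b : K} {n : ℕ} [Infinite k] [Nonempty SS]

/-- the seed function is integral on every component. -/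
theorem ymodX_mem (hn : 2 ≤ n) (hb : E.ϖ1 ^ n = b) (h12 : E.ϖ1 * E.ϖ2 = b)
    (hu2 : E.u2 = E.u1 / algebraMap K F E.ϖ1) (c : Vtx Mid SS) :
    E.ymodX b n ∈ (E.S c).Ov :=
  (E.ymod_seedFunData hn hb h12 hu2).mem c

/-- **SEED-MAIN**: the modular `GraphSeed` of the seed function `x = E.ymodX b n`. -/
def ymodSeed (hn : 2 ≤ n) (hb : E.ϖ1 ^ n = b) (h12 : E.ϖ1 * E.ϖ2 = b)
    (hu2 : E.u2 = E.u1 / algebraMap K F E.ϖ1)
    (hD₀ : E.D₀ = poleDiv (E.S (Vtx.vert Vrt.oo)).hF (E.ymodX b n))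
    (hdeg : Divisor.degree (poleDiv (E.S (Vtx.vert Vrt.oo)).hF (E.ymodX b n)) ≤
      ∑ c, Divisor.degree (poleDiv (E.S c).hFk ((E.S c).red (E.ymodX b n))))
    (hgenus : genusFF K F + Fintype.card (Vtx Mid SS) ≤
      (∑ c, genusFF k (FkOf Fk0 FkM FkP c)) + Fintype.card (Nod Mid SS) + 1) :
    GraphSeed K F k (Vtx Mid SS) (FkOf Fk0 FkM FkP) (Nod Mid SS) :=
  E.toMatchInput.seedOfData (E.ymod_seedFunData hn hb h12 hu2) hD₀ hdeg hgenus

section Fields

variable (hn : 2 ≤ n) (hb : E.ϖ1 ^ n = b) (h12 : E.ϖ1 * E.ϖ2 = b)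
    (hu2 : E.u2 = E.u1 / algebraMap K F E.ϖ1)
    (hD₀ : E.D₀ = poleDiv (E.S (Vtx.vert Vrt.oo)).hF (E.ymodX b n))
    (hdeg : Divisor.degree (poleDiv (E.S (Vtx.vert Vrt.oo)).hF (E.ymodX b n)) ≤
      ∑ c, Divisor.degree (poleDiv (E.S c).hFk ((E.S c).red (E.ymodX b n))))
    (hgenus : genusFF K F + Fintype.card (Vtx Mid SS) ≤
      (∑ c, genusFF k (FkOf Fk0 FkM FkP c)) + Fintype.card (Nod Mid SS) + 1)

/-- the seed in the shape `E.toMatchInput.seed x ..` used by the consumers. -/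
theorem ymodSeed_eq_seed :
    E.ymodSeed hn hb h12 hu2 hD₀ hdeg hgenus =
      E.toMatchInput.seed (E.ymodX b n) (E.ymod_seedFunData hn hb h12 hu2).mem hD₀
        (E.ymod_seedFunData hn hb h12 hu2).hpos (E.ymod_seedFunData hn hb h12 hu2).hn₁
        (fun p hp => (E.ymod_seedFunData hn hb h12 hu2).hn₂ p hp) hdeg hgenus := rfl

@[simp] theorem ymodSeed_toGraphCore :
    (E.ymodSeed hn hb h12 hu2 hD₀ hdeg hgenus).toGraphCore = E.toMatchInput.core := rfl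

@[simp] theorem ymodSeed_S : (E.ymodSeed hn hb h12 hu2 hD₀ hdeg hgenus).S = E.S := rfl

@[simp] theorem ymodSeed_src : (E.ymodSeed hn hb h12 hu2 hD₀ hdeg hgenus).src = nodSrc := rfl

@[simp] theorem ymodSeed_tgt : (E.ymodSeed hn hb h12 hu2 hD₀ hdeg hgenus).tgt = nodTgt := rfl

theorem ymodSeed_src_apply (i : Nod Mid SS) :
    (E.ymodSeed hn hb h12 hu2 hD₀ hdeg hgenus).src i = nodSrc i := rfl

theorem ymodSeed_tgt_apply (i : Nod Mid SS) :
    (E.ymodSeed hn hb h12 hu2 hD₀ hdeg hgenus).tgt i = nodTgt i := rfl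

theorem ymodSeed_s₁ (i : Nod Mid SS) :
    (E.ymodSeed hn hb h12 hu2 hD₀ hdeg hgenus).s₁ i = E.pv i.1 i.2 := rfl

theorem ymodSeed_s₂ (i : Nod Mid SS) :
    (E.ymodSeed hn hb h12 hu2 hD₀ hdeg hgenus).s₂ i = E.toMatchInput.s₂ i := rfl

@[simp] theorem ymodSeed_D₀ :
    (E.ymodSeed hn hb h12 hu2 hD₀ hdeg hgenus).D₀ =
      poleDiv (E.S (Vtx.vert Vrt.oo)).hF (E.ymodX b n) := rfl

theorem ymodSeed_D₀' : (E.ymodSeed hn hb h12 hu2 hD₀ hdeg hgenus).D₀ = E.D₀ := hD₀.symm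

@[simp] theorem ymodSeed_R (c : Vtx Mid SS) :
    (E.ymodSeed hn hb h12 hu2 hD₀ hdeg hgenus).R c =
      poleDiv (E.S c).hFk ((E.S c).red (E.ymodX b n)) := rfl

/-- the valuation ring of the constants of the seed is the one of `E` (field `hA` of the end
junction). -/
theorem ymodSeed_A (c : Vtx Mid SS) :
    ((E.ymodSeed hn hb h12 hu2 hD₀ hdeg hgenus).S c).A = (E.S c).A := rfl

end Fields

end ModEndsInput

end Fermat.Agent.S36G
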