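import Mathlib
import Fermat.Agent.S36.G.SeedInput
import Fermat.Agent.S36.Igusa.Defs
import Fermat.Agent.Lib.HP.YEnds

set_option autoImplicit false
set_option linter.unusedSectionVars false
set_option linter.unusedVariables false
set_option linter.style.haveILetI false

/-!
# Cluster G (S36), SEED, seat SEED-ENDS, the side of the horizontal components  (helper18)

The fields `hA`, `h1A`, `h1M`, `h2`, `h2dis` of helper40's `ModEndsInput`
(`S36/G/SeedInput.lean`): the orders at the zeros, on the horizontal component `H_P`, of the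
reductions of the parameters of the three node theorems,

* (A) `ϖ_A / u_A` (`u_A = u₂`, `ϖ_A = ϖ ^ (12 q)`): reduction `c · X₂ ^ 12`,
  its only zero is `p_∞`, of order `12 q`;
* (1) `ϖ₁ / u₁` (`ϖ₁ = ϖ ^ 12`): reduction `c / X₁ ^ 12`, zeros `p_∞` (order `12`) and the
  places `p_m` over `s = 1` (order `12 e_m`, `e_m = midDeg q`);
* (2) `u₁ / ϖ₁`: reduction `c · X₁ ^ 12`, its only zero is `p_0`, of order `12 q`.

Here `X₁ = red W`, `X₂ = red Zc` are the coordinates of `H_P : X₁ X₂ (X₁ - X₂)^(q-1) = c`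
(`WPOut.H`, `WPOut.red_W`, `WPOut.red_Z` of `S36/HPVal/Defs.lean`); the three reductions are the
output of SEED-UP.

## Single curve (`H : HPCurve k E q`, `k` algebraically closed of characteristic `q`)
* `ends_hq1`          : `q + 1 ≠ 0` in `k`;
* `ends_two_ne`       : `2 ≠ 0` in `k` for `q` odd;
* `ends_ord_X1_mid`   : over `s = 1`, `ord X₁ = - midDeg q`;
* `ends_ord_X1_of_neg`: a pole of `X₁` is `p_∞` (order `1`) or lies over `s = 1`
  (order `midDeg q`);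
* ord-level statements `ends_ordA`, `ends_ord1A`, `ends_ord1M`, `ends_ord2`, `ends_ord2dis`
  (hypotheses: `ord rA = 12 ord X₂`, `ord r1 = - 12 ord X₁`, `ord r2 = 12 ord X₁`);
* `ends_ord_const_mul_pow`, `ends_ord_const_mul_pow_inv` : the hypotheses of the ord-level
  statements for `r = c · X ^ 12`, `r = c · (X ^ 12)⁻¹`, `c ≠ 0`.

## Family (`S c : ValSetup K F k (FkOf Fk0 FkM FkP c)`, `H P : HPCurve k (FkP P) q`)
* `ends_hA`, `ends_h1A`, `ends_h1M`, `ends_h2`, `ends_h2dis` : VERBATIM the fields of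
  `ModEndsInput`, with `wA = w2 = 12 q`, `w1 = 12`, `wM = 12 midDeg q`;
* `ends_zero_iffA`, `ends_zero_iff1`, `ends_zero_iff2` : the zeros are `p_∞`; `p_∞` and the `p_m`;
  `p_0`;
* `ends_wA_pos`, `ends_w1_pos`, `ends_wM_pos` : positivity of the weights.
-/

noncomputable section

open AlgebraicCurve

namespace Fermat.Agent.S36G

open Fermat.Agent.RR Fermat.Agent.Deuring Fermat.Agent.BadRed Fermat.Agent.BadRedG
  Fermat.Agent.HP

/-! ### the weights -/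

theorem ends_midDeg_pos {q : ℕ} (hq : q.Prime) : 0 < midDeg q := by
  unfold midDeg midCard
  by_cases h2 : q = 2
  · subst h2
    simp
  · rw [if_neg h2]
    have h3 : 3 ≤ q := by
      have := hq.two_le
      omega
    exact Nat.div_pos (by omega) (by norm_num)

theorem ends_wA_pos {q : ℕ} (hq : q.Prime) : (0 : ℤ) < 12 * (q : ℤ) := by
  have : (0 : ℤ) < q := by exact_mod_cast hq.pos
  omega

theorem ends_w1_pos : (0 : ℤ) < 12 := by norm_num

theorem ends_wM_pos {q : ℕ} (hq : q.Prime) : (0 : ℤ) < 12 * (midDeg q : ℤ) := by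
  have : (0 : ℤ) < midDeg q := by exact_mod_cast ends_midDeg_pos hq
  omega

theorem ends_midDeg_even {q : ℕ} (hq : q.Prime) (he : Even q) : (midDeg q : ℤ) = (q : ℤ) - 1 := by
  have h2 : q = 2 := (Nat.Prime.even_iff hq).mp he
  subst h2
  unfold midDeg midCard
  simp

theorem ends_midDeg_odd {q : ℕ} (hq : q.Prime) (ho : Odd q) :
    (midDeg q : ℤ) = (((q + 1) / 2 : ℕ) : ℤ) - 1 := by
  have h2 : q ≠ 2 := by
    rintro rfl
    exact absurd ho (by decide)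
  have h3 : 3 ≤ q := by
    have := hq.two_le
    omega
  unfold midDeg midCard
  rw [if_neg h2]
  obtain ⟨j, hj⟩ := ho
  have h4 : (q - 1) / 2 = j := by omega
  have h5 : (q + 1) / 2 = j + 1 := by omega
  rw [h4, h5]
  push_cast
  ring

/-! ### a single curve -/

section Single

variable {k E : Type*} [Field k] [Field E] [Algebra k E] {q : ℕ}

/-- `q + 1 ≠ 0` in characteristic `q`. -/
theorem ends_hq1 (hq : q.Prime) [CharP k q] : ((q + 1 : ℕ) : k) ≠ 0 := by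
  rw [Ne, CharP.cast_eq_zero_iff k q]
  intro h
  have h1 : q ∣ 1 := (Nat.dvd_add_right (dvd_refl q)).mp h
  exact hq.one_lt.ne' (Nat.dvd_one.mp h1)

/-- `2 ≠ 0` in odd characteristic. -/
theorem ends_two_ne (hq : q.Prime) [CharP k q] (ho : Odd q) : (2 : k) ≠ 0 := by
  have h : ((2 : ℕ) : k) ≠ 0 := by
    rw [Ne, CharP.cast_eq_zero_iff k q]
    intro h
    have h1 : q = 2 := (Nat.prime_dvd_prime_iff_eq hq Nat.prime_two).mp h
    subst h1
    exact absurd ho (by decide)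
  exact_mod_cast h

variable (H : HPCurve k E q) [IsAlgClosed k]

/-- over `s = 1`: `ord X₁ = - midDeg q`. -/
theorem ends_ord_X1_mid (hq : q.Prime) [CharP k q] (v : Place k E)
    (hv : 0 < v.ord (H.s - algebraMap k E 1)) : v.ord H.X1 = -(midDeg q : ℤ) := by
  rcases Nat.even_or_odd q with he | ho
  · rw [H.ord_X1_mid_even (ends_hq1 hq) he v hv, ends_midDeg_even hq he]
  · rw [H.ord_X1_mid_odd (ends_hq1 hq) ho (ends_two_ne hq ho) v hv, ends_midDeg_odd hq ho]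
    rfl

/-- a pole of `X₁` which is not the zero `p_∞` of `X₂` has order `midDeg q`. -/
theorem ends_ord_X1_of_neg (hq : q.Prime) [CharP k q] (v : Place k E) (hv : v.ord H.X1 < 0)
    (hv' : ¬ 0 < v.ord H.X2) : v.ord H.X1 = -(midDeg q : ℤ) := by
  rcases (H.ord_X1_neg_iff (ends_hq1 hq) v).mp hv with h | h
  · exact absurd ((H.ord_X2_pos_iff (ends_hq1 hq) v).mpr h) hv'
  · exact ends_ord_X1_mid H hq v h

/-- at a zero of `X₂`: `ord X₂ = q`, `ord X₁ = -1`. -/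
theorem ends_ord_of_X2_pos (hq : q.Prime) [CharP k q] (v : Place k E) (hv : 0 < v.ord H.X2) :
    v.ord H.X2 = (q : ℤ) ∧ v.ord H.X1 = -1 := by
  have h := (H.ord_X2_pos_iff (ends_hq1 hq) v).mp hv
  rw [h]
  exact ⟨H.ord_X2_pInf (ends_hq1 hq), H.ord_X1_pInf (ends_hq1 hq)⟩

/-- at a zero of `X₁`: `ord X₁ = q`. -/
theorem ends_ord_of_X1_pos (hq : q.Prime) [CharP k q] (v : Place k E) (hv : 0 < v.ord H.X1) :
    v.ord H.X1 = (q : ℤ) := by
  have h := (H.ord_X1_pos_iff (ends_hq1 hq) v).mp hv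
  rw [h]
  exact H.ord_X1_pZero (ends_hq1 hq)

/-! #### the ord-level statements -/

/-- (A): the zeros of `rA` (`ord rA = 12 ord X₂`) have order `12 q`. -/
theorem ends_ordA (hq : q.Prime) [CharP k q] {rA : E}
    (hrA : ∀ v : Place k E, v.ord rA = 12 * v.ord H.X2) (v : Place k E) (hv : 0 < v.ord rA) :
    v.ord rA = 12 * (q : ℤ) := by
  have h1 : 0 < v.ord H.X2 := by
    rw [hrA v] at hv
    omega
  rw [hrA v, (ends_ord_of_X2_pos H hq v h1).1]

/-- (A): the only zero of `rA` is `p_∞`. -/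
theorem ends_zero_iffA_single (hq : q.Prime) [CharP k q] {rA : E}
    (hrA : ∀ v : Place k E, v.ord rA = 12 * v.ord H.X2) (v : Place k E) :
    0 < v.ord rA ↔ v = H.pInf (ends_hq1 hq) := by
  rw [← H.ord_X2_pos_iff (ends_hq1 hq) v, hrA v]
  constructor <;> intro h <;> omega

/-- (1) at `p_∞`: a zero of `rA` is a zero of `r1` (`ord r1 = - 12 ord X₁`) of order `12`. -/
theorem ends_ord1A (hq : q.Prime) [CharP k q] {rA r1 : E}
    (hrA : ∀ v : Place k E, v.ord rA = 12 * v.ord H.X2)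
    (hr1 : ∀ v : Place k E, v.ord r1 = -(12 * v.ord H.X1)) (v : Place k E)
    (hv : 0 < v.ord rA) : v.ord r1 = 12 := by
  have h1 : 0 < v.ord H.X2 := by
    rw [hrA v] at hv
    omega
  rw [hr1 v, (ends_ord_of_X2_pos H hq v h1).2]
  norm_num

/-- (1) at the `p_m`: a zero of `r1` which is not a zero of `rA` has order `12 midDeg q`. -/
theorem ends_ord1M (hq : q.Prime) [CharP k q] {rA r1 : E}
    (hrA : ∀ v : Place k E, v.ord rA = 12 * v.ord H.X2)
    (hr1 : ∀ v : Place k E, v.ord r1 = -(12 * v.ord H.X1)) (v : Place k E)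
    (hv : 0 < v.ord r1) (hv' : ¬ 0 < v.ord rA) : v.ord r1 = 12 * (midDeg q : ℤ) := by
  have h1 : v.ord H.X1 < 0 := by
    rw [hr1 v] at hv
    omega
  have h2 : ¬ 0 < v.ord H.X2 := by
    intro h
    apply hv'
    rw [hrA v]
    omega
  rw [hr1 v, ends_ord_X1_of_neg H hq v h1 h2]
  ring

/-- (1): the zeros of `r1` are `p_∞` and the places over `s = 1`. -/
theorem ends_zero_iff1_single (hq : q.Prime) [CharP k q] {r1 : E}
    (hr1 : ∀ v : Place k E, v.ord r1 = -(12 * v.ord H.X1)) (v : Place k E) :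
    0 < v.ord r1 ↔ v = H.pInf (ends_hq1 hq) ∨ 0 < v.ord (H.s - algebraMap k E 1) := by
  rw [← H.ord_X1_neg_iff (ends_hq1 hq) v, hr1 v]
  constructor <;> intro h <;> omega

/-- (2): the zeros of `r2` (`ord r2 = 12 ord X₁`) have order `12 q`. -/
theorem ends_ord2 (hq : q.Prime) [CharP k q] {r2 : E}
    (hr2 : ∀ v : Place k E, v.ord r2 = 12 * v.ord H.X1) (v : Place k E) (hv : 0 < v.ord r2) :
    v.ord r2 = 12 * (q : ℤ) := by
  have h1 : 0 < v.ord H.X1 := by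
    rw [hr2 v] at hv
    omega
  rw [hr2 v, ends_ord_of_X1_pos H hq v h1]

/-- (2): the only zero of `r2` is `p_0`. -/
theorem ends_zero_iff2_single (hq : q.Prime) [CharP k q] {r2 : E}
    (hr2 : ∀ v : Place k E, v.ord r2 = 12 * v.ord H.X1) (v : Place k E) :
    0 < v.ord r2 ↔ v = H.pZero (ends_hq1 hq) := by
  rw [← H.ord_X1_pos_iff (ends_hq1 hq) v, hr2 v]
  constructor <;> intro h <;> omega

/-- (2) and (1) have no common zero. -/
theorem ends_ord2dis {r1 r2 : E}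
    (hr1 : ∀ v : Place k E, v.ord r1 = -(12 * v.ord H.X1))
    (hr2 : ∀ v : Place k E, v.ord r2 = 12 * v.ord H.X1) (v : Place k E) (hv : 0 < v.ord r2) :
    ¬ 0 < v.ord r1 := by
  rw [hr2 v] at hv
  rw [hr1 v]
  omega

/-! #### the hypotheses of the ord-level statements -/

omit [IsAlgClosed k] in
/-- `ord (c X ^ n) = n ord X`. -/
theorem ends_ord_const_mul_pow {c : k} (hc : c ≠ 0) (X : E) (n : ℕ) {r : E}
    (hr : r = algebraMap k E c * X ^ n) (v : Place k E) : v.ord r = (n : ℤ) * v.ord X := by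
  rcases eq_or_ne X 0 with hX | hX
  · rcases Nat.eq_zero_or_pos n with hn | hn
    · rw [hr, hn, pow_zero, mul_one, Fermat.Agent.S24Res.ord_algebraMap]
      simp
    · rw [hr, hX, zero_pow hn.ne', mul_zero, Place.ord_zero, mul_zero]
  have hcE : algebraMap k E c ≠ 0 := by
    rw [Ne, map_eq_zero_iff _ (algebraMap k E).injective]
    exact hc
  rw [hr, v.ord_mul hcE (pow_ne_zero n hX), Fermat.Agent.S24Res.ord_algebraMap, zero_add,
    hp_ord_pow]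

omit [IsAlgClosed k] in
/-- `ord (c / X ^ n) = - n ord X`. -/
theorem ends_ord_const_mul_pow_inv {c : k} (hc : c ≠ 0) (X : E) (n : ℕ) {r : E}
    (hr : r = algebraMap k E c * (X ^ n)⁻¹) (v : Place k E) :
    v.ord r = -((n : ℤ) * v.ord X) := by
  have h := ends_ord_const_mul_pow hc X⁻¹ n (r := r) (by rw [hr, inv_pow]) v
  rw [h, Place.ord_inv]
  ring

end Single

/-! ### the family: the fields of `ModEndsInput` -/

section Family

variable {K F k : Type} [Field K] [Field F] [Algebra K F] [Field k] [IsAlgClosed k]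
  {Mid SS : Type}
  {Fk0 : Type} [Field Fk0] [Algebra k Fk0]
  {FkM : Mid → Type} [∀ m, Field (FkM m)] [∀ m, Algebra k (FkM m)]
  {FkP : SS → Type} [∀ P, Field (FkP P)] [∀ P, Algebra k (FkP P)]
  (S : ∀ c : Vtx Mid SS, ValSetup K F k (FkOf Fk0 FkM FkP c))
  {q : ℕ} (H : ∀ P : SS, HPCurve k (FkOf Fk0 FkM FkP (Vtx.hor P)) q)

/-- the hypothesis (A) of SEED-UP: `red_P xA = c · X₂ ^ 12`, `c ≠ 0`. -/
def EndsRedA (xA : F) : Prop :=
  ∀ P : SS, ∃ c : k, c ≠ 0 ∧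
    (S (Vtx.hor P)).red xA = algebraMap k (FkOf Fk0 FkM FkP (Vtx.hor P)) c * (H P).X2 ^ 12

/-- the hypothesis (1) of SEED-UP: `red_P x1 = c · (X₁ ^ 12)⁻¹`, `c ≠ 0`. -/
def EndsRed1 (x1 : F) : Prop :=
  ∀ P : SS, ∃ c : k, c ≠ 0 ∧
    (S (Vtx.hor P)).red x1 = algebraMap k (FkOf Fk0 FkM FkP (Vtx.hor P)) c * ((H P).X1 ^ 12)⁻¹

/-- the hypothesis (2) of SEED-UP: `red_P x2 = c · X₁ ^ 12`, `c ≠ 0`. -/
def EndsRed2 (x2 : F) : Prop :=
  ∀ P : SS, ∃ c : k, c ≠ 0 ∧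
    (S (Vtx.hor P)).red x2 = algebraMap k (FkOf Fk0 FkM FkP (Vtx.hor P)) c * (H P).X1 ^ 12

variable {S H}

theorem EndsRedA.ord {xA : F} (h : EndsRedA S H xA) (P : SS)
    (Q : Place k (FkOf Fk0 FkM FkP (Vtx.hor P))) :
    Q.ord ((S (Vtx.hor P)).red xA) = 12 * Q.ord (H P).X2 := by
  obtain ⟨c, hc, hr⟩ := h P
  exact ends_ord_const_mul_pow hc _ 12 hr Q

theorem EndsRed1.ord {x1 : F} (h : EndsRed1 S H x1) (P : SS)
    (Q : Place k (FkOf Fk0 FkM FkP (Vtx.hor P))) :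
    Q.ord ((S (Vtx.hor P)).red x1) = -(12 * Q.ord (H P).X1) := by
  obtain ⟨c, hc, hr⟩ := h P
  exact ends_ord_const_mul_pow_inv hc _ 12 hr Q

theorem EndsRed2.ord {x2 : F} (h : EndsRed2 S H x2) (P : SS)
    (Q : Place k (FkOf Fk0 FkM FkP (Vtx.hor P))) :
    Q.ord ((S (Vtx.hor P)).red x2) = 12 * Q.ord (H P).X1 := by
  obtain ⟨c, hc, hr⟩ := h P
  exact ends_ord_const_mul_pow hc _ 12 hr Q

omit [IsAlgClosed k] in
/-- the reduction of the inverse of a unit. -/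
theorem ends_red_inv {Fk : Type*} [Field Fk] [Algebra k Fk] (T : ValSetup K F k Fk) {x : F}
    (h : T.red x ≠ 0) : T.red x⁻¹ = (T.red x)⁻¹ :=
  T.red_inv (T.mem_of_red_ne_zero h) (T.inv_mem_of_red_ne_zero h) (T.ne_zero_of_red_ne_zero h)

omit [IsAlgClosed k] in
/-- (1) from (2): `red_P x2⁻¹ = c⁻¹ (X₁ ^ 12)⁻¹`. -/
theorem EndsRed2.inv {x2 : F} (h : EndsRed2 S H x2) : EndsRed1 S H x2⁻¹ := by
  intro P
  obtain ⟨c, hc, hr⟩ := h P
  have hcE : algebraMap k (FkOf Fk0 FkM FkP (Vtx.hor P)) c ≠ 0 := by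
    rw [Ne, map_eq_zero_iff _ (algebraMap k _).injective]
    exact hc
  have hne : (S (Vtx.hor P)).red x2 ≠ 0 := by
    rw [hr]
    exact mul_ne_zero hcE (pow_ne_zero _ (H P).X1_ne)
  refine ⟨c⁻¹, inv_ne_zero hc, ?_⟩
  rw [ends_red_inv (S (Vtx.hor P)) hne, hr, mul_inv, map_inv₀]

omit [IsAlgClosed k] in
/-- (2) from (1): `red_P x1⁻¹ = c⁻¹ X₁ ^ 12`. -/
theorem EndsRed1.inv {x1 : F} (h : EndsRed1 S H x1) : EndsRed2 S H x1⁻¹ := by
  intro P
  obtain ⟨c, hc, hr⟩ := h P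
  have hcE : algebraMap k (FkOf Fk0 FkM FkP (Vtx.hor P)) c ≠ 0 := by
    rw [Ne, map_eq_zero_iff _ (algebraMap k _).injective]
    exact hc
  have hne : (S (Vtx.hor P)).red x1 ≠ 0 := by
    rw [hr]
    exact mul_ne_zero hcE (inv_ne_zero (pow_ne_zero _ (H P).X1_ne))
  refine ⟨c⁻¹, inv_ne_zero hc, ?_⟩
  rw [ends_red_inv (S (Vtx.hor P)) hne, hr, mul_inv, inv_inv, map_inv₀]

omit [IsAlgClosed k] in
/-- (A) from the reduction of the inverse: if `red_P xA⁻¹ = c (X₂ ^ 12)⁻¹` (`xA⁻¹ = u_A / ϖ_A`),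
then `red_P xA = c⁻¹ X₂ ^ 12`. -/
theorem EndsRedA.of_inv {xA : F}
    (h : ∀ P : SS, ∃ c : k, c ≠ 0 ∧ (S (Vtx.hor P)).red xA⁻¹ =
      algebraMap k (FkOf Fk0 FkM FkP (Vtx.hor P)) c * ((H P).X2 ^ 12)⁻¹) :
    EndsRedA S H xA := by
  intro P
  obtain ⟨c, hc, hr⟩ := h P
  have hcE : algebraMap k (FkOf Fk0 FkM FkP (Vtx.hor P)) c ≠ 0 := by
    rw [Ne, map_eq_zero_iff _ (algebraMap k _).injective]
    exact hc
  have hne : (S (Vtx.hor P)).red xA⁻¹ ≠ 0 := by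
    rw [hr]
    exact mul_ne_zero hcE (inv_ne_zero (pow_ne_zero _ (H P).X2_ne))
  refine ⟨c⁻¹, inv_ne_zero hc, ?_⟩
  have h1 := ends_red_inv (S (Vtx.hor P)) hne
  rw [inv_inv] at h1
  rw [h1, hr, mul_inv, inv_inv, map_inv₀]

omit [IsAlgClosed k] in
/-- (2) from (1): if `x1 x2 = 1` and `x1` is a unit of `O_P`, then `red_P x2 = c⁻¹ X₁ ^ 12`. -/
theorem EndsRed1.red2 {x1 x2 : F} (h : EndsRed1 S H x1) (h12 : x1 * x2 = 1)
    (hmem1 : ∀ P : SS, x1 ∈ (S (Vtx.hor P)).Ov) (hmem2 : ∀ P : SS, x2 ∈ (S (Vtx.hor P)).Ov) :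
    EndsRed2 S H x2 := by
  intro P
  obtain ⟨c, hc, hr⟩ := h P
  refine ⟨c⁻¹, inv_ne_zero hc, ?_⟩
  have h1 : (S (Vtx.hor P)).red x1 * (S (Vtx.hor P)).red x2 = 1 := by
    rw [← (S (Vtx.hor P)).red_mul (hmem1 P) (hmem2 P), h12, (S (Vtx.hor P)).red_one]
  have hX : (H P).X1 ^ 12 ≠ 0 := pow_ne_zero _ (H P).X1_ne
  have hcE : algebraMap k (FkOf Fk0 FkM FkP (Vtx.hor P)) c ≠ 0 := by
    rw [Ne, map_eq_zero_iff _ (algebraMap k _).injective]
    exact hc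
  have h2 : (S (Vtx.hor P)).red x2 = ((S (Vtx.hor P)).red x1)⁻¹ :=
    eq_inv_of_mul_eq_one_right h1
  rw [h2, hr, mul_inv, inv_inv, map_inv₀]

/-- **field `h2dis` of `ModEndsInput`**. -/
theorem ends_h2dis {x1 x2 : F} (hx1 : EndsRed1 S H x1) (hx2 : EndsRed2 S H x2) (P : SS)
    (Q : Place k (FkOf Fk0 FkM FkP (Vtx.hor P)))
    (h0 : 0 < Q.ord ((S (Vtx.hor P)).red x2)) :
    ¬ 0 < Q.ord ((S (Vtx.hor P)).red x1) := by
  have h1 := hx1.ord P Q
  have h2 := hx2.ord P Q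
  rw [h2] at h0
  rw [h1]
  omega

variable (hq : q.Prime) [CharP k q]

include hq

/-- **field `hA` of `ModEndsInput`** (`wA = 12 q`). -/
theorem ends_hA {xA : F} (hxA : EndsRedA S H xA) (P : SS)
    (Q : Place k (FkOf Fk0 FkM FkP (Vtx.hor P)))
    (h0 : 0 < Q.ord ((S (Vtx.hor P)).red xA)) :
    Q.ord ((S (Vtx.hor P)).red xA) = 12 * (q : ℤ) :=
  ends_ordA (H P) hq (hxA.ord P) Q h0

/-- **field `h1A` of `ModEndsInput`** (`w1 = 12`). -/
theorem ends_h1A {xA x1 : F} (hxA : EndsRedA S H xA) (hx1 : EndsRed1 S H x1) (P : SS)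
    (Q : Place k (FkOf Fk0 FkM FkP (Vtx.hor P)))
    (h0 : 0 < Q.ord ((S (Vtx.hor P)).red xA)) :
    Q.ord ((S (Vtx.hor P)).red x1) = 12 :=
  ends_ord1A (H P) hq (hxA.ord P) (hx1.ord P) Q h0

/-- **field `h1M` of `ModEndsInput`** (`wM = 12 midDeg q`). -/
theorem ends_h1M {xA x1 : F} (hxA : EndsRedA S H xA) (hx1 : EndsRed1 S H x1) (P : SS)
    (Q : Place k (FkOf Fk0 FkM FkP (Vtx.hor P)))
    (h0 : 0 < Q.ord ((S (Vtx.hor P)).red x1))
    (h0' : ¬ 0 < Q.ord ((S (Vtx.hor P)).red xA)) :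
    Q.ord ((S (Vtx.hor P)).red x1) = 12 * (midDeg q : ℤ) :=
  ends_ord1M (H P) hq (hxA.ord P) (hx1.ord P) Q h0 h0'

/-- **field `h2` of `ModEndsInput`** (`w2 = 12 q`). -/
theorem ends_h2 {x2 : F} (hx2 : EndsRed2 S H x2) (P : SS)
    (Q : Place k (FkOf Fk0 FkM FkP (Vtx.hor P)))
    (h0 : 0 < Q.ord ((S (Vtx.hor P)).red x2)) :
    Q.ord ((S (Vtx.hor P)).red x2) = 12 * (q : ℤ) :=
  ends_ord2 (H P) hq (hx2.ord P) Q h0

/-- **the five fields `hA`, `h1A`, `h1M`, `h2`, `h2dis` of `ModEndsInput`** for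
`u2 = u1 / ϖ1` (so that `ϖ1 / u1 = u2⁻¹`), with `wA = w2 = 12 q`, `w1 = 12`,
`wM = 12 midDeg q`, from the two reductions `red_P (ϖA / uA) = c X₂ ^ 12`,
`red_P (u1 / ϖ1) = c X₁ ^ 12`. -/
theorem ends_fields {uA u1 : F} {ϖA ϖ1 : K}
    (hxA : EndsRedA S H (algebraMap K F ϖA / uA))
    (hx2 : EndsRed2 S H (u1 / algebraMap K F ϖ1)) :
    (∀ (P : SS) (Q : Place k (FkOf Fk0 FkM FkP (Vtx.hor P))),
      0 < Q.ord ((S (Vtx.hor P)).red (algebraMap K F ϖA / uA)) →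
        Q.ord ((S (Vtx.hor P)).red (algebraMap K F ϖA / uA)) = 12 * (q : ℤ)) ∧
    (∀ (P : SS) (Q : Place k (FkOf Fk0 FkM FkP (Vtx.hor P))),
      0 < Q.ord ((S (Vtx.hor P)).red (algebraMap K F ϖA / uA)) →
        Q.ord ((S (Vtx.hor P)).red (algebraMap K F ϖ1 / u1)) = 12) ∧
    (∀ (P : SS) (Q : Place k (FkOf Fk0 FkM FkP (Vtx.hor P))),
      0 < Q.ord ((S (Vtx.hor P)).red (algebraMap K F ϖ1 / u1)) →
        ¬ 0 < Q.ord ((S (Vtx.hor P)).red (algebraMap K F ϖA / uA)) →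
          Q.ord ((S (Vtx.hor P)).red (algebraMap K F ϖ1 / u1)) = 12 * (midDeg q : ℤ)) ∧
    (∀ (P : SS) (Q : Place k (FkOf Fk0 FkM FkP (Vtx.hor P))),
      0 < Q.ord ((S (Vtx.hor P)).red (u1 / algebraMap K F ϖ1)) →
        Q.ord ((S (Vtx.hor P)).red (u1 / algebraMap K F ϖ1)) = 12 * (q : ℤ)) ∧
    ∀ (P : SS) (Q : Place k (FkOf Fk0 FkM FkP (Vtx.hor P))),
      0 < Q.ord ((S (Vtx.hor P)).red (u1 / algebraMap K F ϖ1)) →
        ¬ 0 < Q.ord ((S (Vtx.hor P)).red (algebraMap K F ϖ1 / u1)) := by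
  have hx1 : EndsRed1 S H (algebraMap K F ϖ1 / u1) := by
    have h := hx2.inv
    rwa [inv_div] at h
  exact ⟨ends_hA hq hxA, ends_h1A hq hxA hx1, ends_h1M hq hxA hx1, ends_h2 hq hx2,
    ends_h2dis hx1 hx2⟩

/-- the zeros of (A) on `H_P`: `p_∞`. -/
theorem ends_zero_iffA {xA : F} (hxA : EndsRedA S H xA) (P : SS)
    (Q : Place k (FkOf Fk0 FkM FkP (Vtx.hor P))) :
    0 < Q.ord ((S (Vtx.hor P)).red xA) ↔ Q = (H P).pInf (ends_hq1 hq) :=
  ends_zero_iffA_single (H P) hq (hxA.ord P) Q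

/-- the zeros of (1) on `H_P`: `p_∞` and the places over `s = 1`. -/
theorem ends_zero_iff1 {x1 : F} (hx1 : EndsRed1 S H x1) (P : SS)
    (Q : Place k (FkOf Fk0 FkM FkP (Vtx.hor P))) :
    0 < Q.ord ((S (Vtx.hor P)).red x1) ↔
      Q = (H P).pInf (ends_hq1 hq) ∨
        0 < Q.ord ((H P).s - algebraMap k (FkOf Fk0 FkM FkP (Vtx.hor P)) 1) :=
  ends_zero_iff1_single (H P) hq (hx1.ord P) Q

/-- the zeros of (2) on `H_P`: `p_0`. -/
theorem ends_zero_iff2 {x2 : F} (hx2 : EndsRed2 S H x2) (P : SS)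
    (Q : Place k (FkOf Fk0 FkM FkP (Vtx.hor P))) :
    0 < Q.ord ((S (Vtx.hor P)).red x2) ↔ Q = (H P).pZero (ends_hq1 hq) :=
  ends_zero_iff2_single (H P) hq (hx2.ord P) Q

end Family

end Fermat.Agent.S36G
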