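/-
Cluster G (S36, bad reduction at `q² ∥ M`), seat SEED-CUSP (helper15; sub-architect helper92,
architect helper80): **the zeros and poles of `u₁ = Δ(z)/Δ(qz)` and of `u₂ = Δ(qz)/Δ(q²z)` are the
same places of `X₀(N)`, `q² ∣ N`** (the cusps): both are the poles of `j₁ = j(qz)`.

* `uCuspEq_jq_uF2`   : `UCuspEq ℚ̄ q j₁ u₂`            (the modular equation of `u`, at `t ↦ t^q`);
* `uCuspEq_jq_dual`  : `UCuspEq ℚ̄ q j₁ (q¹² · u₁⁻¹)`   (the dual modular equation);
* `ord_jq_neg_iff_uF2`, `ord_jq_neg_iff_uF` : the poles of `j₁` are the zeros and poles of `u₂`,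
  resp. of `u₁`;
* `ord_uF_ne_zero_iff_uF2` : **`ord_P u₁ ≠ 0 ↔ ord_P u₂ ≠ 0`**  (`𝔏₁ ⊆ 𝔏_A`);
* `ord_jBar_neg_iff_jq`, `ord_jBar_neg_iff_uF2` : the same with the poles of `j`.
-/
import Mathlib
import Fermat.Agent.S36.Seed.U2
import Fermat.Agent.E.S15.CuspJp
import Fermat.Agent.Lib.BadRed.Mod.UCuspDegFinal

set_option autoImplicit false
set_option linter.style.haveILetI false
set_option linter.unusedSectionVars false
set_option synthInstance.maxHeartbeats 400000

noncomputable section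

namespace Fermat.Agent.S36G

open ModularCurve AlgebraicCurve Fermat.Agent.AtkinLehner Fermat.Agent.BadRed Fermat.Agent.S24
  Fermat.Agent.ES15 Polynomial

local notation "Qb" => AlgebraicClosure ℚ

section Series

variable (q : ℕ) [NeZero q]

/-- `t ↦ t ^ q` as a `ℚ̄`-algebra endomorphism of `ℚ̄((t))`. -/
def cuspExpand : LaurentSeries Qb →ₐ[Qb] LaurentSeries Qb :=
  { qExpand Qb q with
    commutes' := fun a => by
      show qExpand Qb q (algebraMap Qb (LaurentSeries Qb) a) = algebraMap Qb (LaurentSeries Qb) a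
      rw [algebraMap_laurentSeries_eq_single, qExpand_single, mul_zero] }

theorem cuspExpand_apply (x : LaurentSeries Qb) : cuspExpand q x = qExpand Qb q x := rfl

/-- the modular equation of `u₂` over `ℚ̄(j₁)`, in `ℚ̄((t))`. -/
theorem uCuspEq_ser2 (hq : q.Prime) :
    UCuspEq Qb q (qExpand Qb q (jqModC Qb)) (uSer2 Qb q) :=
  ucMap (uCuspEq_ser q hq) (cuspExpand q)

end Series

section Level

variable (N q : ℕ) [NeZero N] [NeZero q] (h : q * q ∣ N)

/-- **the modular equation of `u₂` over `ℚ̄(j₁)`.** -/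
theorem uCuspEq_jq_uF2 (hq : q.Prime) :
    UCuspEq Qb q (jF N q (seedU_dvd h)) (uF2 N q h) := by
  apply ucOfMap (modularFunctionFieldBar N).val
  have e2 : (modularFunctionFieldBar N).val (uF2 N q h) = uSer2 Qb q := coe_uF2 N q h
  have e1 : (modularFunctionFieldBar N).val (jF N q (seedU_dvd h)) =
      qExpand Qb q (jqModC Qb) := rfl
  rw [e1, e2]
  exact uCuspEq_ser2 q hq

/-- **the dual modular equation of `u₁`**: `UCuspEq ℚ̄ q j₁ (q¹² · u₁⁻¹)`. -/
theorem uCuspEq_jq_dual (hq : q.Prime) (hN : q ∣ N) :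
    UCuspEq Qb q (jF N q hN)
      (algebraMap Qb (modularFunctionFieldBar N) ((q : Qb) ^ 12) * (uF N q hN)⁻¹) := by
  apply ucOfMap (modularFunctionFieldBar N).val
  have e1 : (modularFunctionFieldBar N).val (jF N q hN) = qExpand Qb q (jqModC Qb) := rfl
  have e2 : (modularFunctionFieldBar N).val
      (algebraMap Qb (modularFunctionFieldBar N) ((q : Qb) ^ 12) * (uF N q hN)⁻¹) =
      algebraMap Qb (LaurentSeries Qb) ((q : Qb) ^ 12) * (uSer Qb q)⁻¹ := rfl
  rw [e1, e2]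
  exact uCuspEq_ser_dual q hq

/-- the poles of `j₁` are the zeros and poles of `u₂`. -/
theorem ord_jq_neg_iff_uF2 (hq : q.Prime) (v : Place Qb ↥(modularFunctionFieldBar N)) :
    v.ord (jF N q (seedU_dvd h)) < 0 ↔ v.ord (uF2 N q h) ≠ 0 :=
  (uCuspEq_jq_uF2 N q h hq).ord_j_neg_iff v

/-- the poles of `j₁` are the zeros and poles of `u₁`. -/
theorem ord_jq_neg_iff_uF (hq : q.Prime) (hN : q ∣ N)
    (v : Place Qb ↥(modularFunctionFieldBar N)) :
    v.ord (jF N q hN) < 0 ↔ v.ord (uF N q hN) ≠ 0 := by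
  rw [(uCuspEq_jq_dual N q hq hN).ord_j_neg_iff v]
  have hc : algebraMap Qb (modularFunctionFieldBar N) ((q : Qb) ^ 12) ≠ 0 :=
    (_root_.map_ne_zero _).mpr (natCast_pow_ne_zero q 12)
  have hu := uF_ne_zero N q hN
  rw [v.ord_mul hc (inv_ne_zero hu), Fermat.Agent.S24Res.ord_algebraMap v, zero_add,
    Place.ord_inv, neg_ne_zero]

/-- **SEED-CUSP**: the zeros and poles of `u₁` are the zeros and poles of `u₂`. -/
theorem ord_uF_ne_zero_iff_uF2 (hq : q.Prime) (v : Place Qb ↥(modularFunctionFieldBar N)) :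
    v.ord (uF N q (seedU_dvd h)) ≠ 0 ↔ v.ord (uF2 N q h) ≠ 0 := by
  rw [← ord_jq_neg_iff_uF N q hq (seedU_dvd h) v, ord_jq_neg_iff_uF2 N q h hq v]

/-- the poles of `j` are the poles of `j₁`. -/
theorem ord_jBar_neg_iff_jq (hq : q.Prime) (hN : q ∣ N)
    (v : Place Qb ↥(modularFunctionFieldBar N)) :
    v.ord (jBar N) < 0 ↔ v.ord (jF N q hN) < 0 := by
  rw [ord_jBar_neg_iff_uF hq hN v, ord_jq_neg_iff_uF N q hq hN v]

/-- the poles of `j` are the zeros and poles of `u₂`. -/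
theorem ord_jBar_neg_iff_uF2 (hq : q.Prime) (v : Place Qb ↥(modularFunctionFieldBar N)) :
    v.ord (jBar N) < 0 ↔ v.ord (uF2 N q h) ≠ 0 := by
  rw [ord_jBar_neg_iff_uF hq (seedU_dvd h) v, ord_uF_ne_zero_iff_uF2 N q h hq v]

/-- functions with poles at the zeros and poles of `u₁` only have poles at the zeros and poles of
`u₂` only (`𝔏₁ ⊆ 𝔏_A`), and conversely. -/
theorem cusp_poles_uF_iff_uF2 (hq : q.Prime) (f : ↥(modularFunctionFieldBar N)) :
    (∀ v : Place Qb ↥(modularFunctionFieldBar N), v.ord f < 0 →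
        v.ord (uF N q (seedU_dvd h)) ≠ 0) ↔
      ∀ v : Place Qb ↥(modularFunctionFieldBar N), v.ord f < 0 → v.ord (uF2 N q h) ≠ 0 := by
  constructor
  · intro hf v hv
    exact (ord_uF_ne_zero_iff_uF2 N q h hq v).mp (hf v hv)
  · intro hf v hv
    exact (ord_uF_ne_zero_iff_uF2 N q h hq v).mpr (hf v hv)

end Level

section Const

variable {F : Type*} [Field F] [Algebra Qb F]

/-- `ord (u / c) ≠ 0 ↔ ord u ≠ 0` for a constant `c ≠ 0` (the parameter `u₁ / ϖ₁` of node 2). -/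
theorem cusp_ord_div_const_ne_zero_iff (v : Place Qb F) {u : F} (hu : u ≠ 0) {c : Qb}
    (hc : c ≠ 0) : v.ord (u / algebraMap Qb F c) ≠ 0 ↔ v.ord u ≠ 0 := by
  have hc' : algebraMap Qb F c ≠ 0 := (_root_.map_ne_zero _).mpr hc
  rw [div_eq_mul_inv, v.ord_mul hu (inv_ne_zero hc'), Place.ord_inv,
    Fermat.Agent.S24Res.ord_algebraMap v, neg_zero, add_zero]

/-- `ord (c / u) ≠ 0 ↔ ord u ≠ 0` for a constant `c ≠ 0` (the parameter `ϖ / u`). -/
theorem cusp_ord_const_div_ne_zero_iff (v : Place Qb F) {u : F} (hu : u ≠ 0) {c : Qb}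
    (hc : c ≠ 0) : v.ord (algebraMap Qb F c / u) ≠ 0 ↔ v.ord u ≠ 0 := by
  have hc' : algebraMap Qb F c ≠ 0 := (_root_.map_ne_zero _).mpr hc
  rw [div_eq_mul_inv, v.ord_mul hc' (inv_ne_zero hu), Place.ord_inv,
    Fermat.Agent.S24Res.ord_algebraMap v, zero_add, neg_ne_zero]

end Const

end Fermat.Agent.S36G
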