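import Mathlib
import Fermat.Agent.S36.G.Types
import Fermat.Agent.Lib.BadRed.Graph.MultiNodeDefs
import Fermat.Agent.Lib.BadRed.Graph.NodeMultiWire
import Fermat.Agent.Lib.BadRed.Graph.RootCount

set_option autoImplicit false
set_option linter.unusedSectionVars false
set_option linter.style.haveILetI false

/-!
# Cluster G (S36), SEED, seat SEED-MN-1: the multi-node data of the node family (1)  (helper18)

Node family (1) of helper92's SEED blueprint v1.1: the parameter `u = u₁`, the constant `ϖ = ϖ₁`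
(`w_P (u₁) = v (ϖ₁)`), radii `0 | 12 / (q + 1)`:

* `V₁ = {∞} ∪ Mid`  (`mn1V₁`): ALL the extensions of the Gauss valuation of `K(u)`;
* `V₂ = {hor P}`     (`mn1V₂`): ALL the extensions of the Gauss valuation of `K(ϖ / u)`.

Everything is stated for an arbitrary family `S c : ValSetup K F k (Fk c)`, `c : Vtx Mid SS`
(no nodes are needed: the nodes of the modular graph are CONSTRUCTED from the conclusion).  The
modular inputs are the hypotheses of `mn1_data`, named after the seats which export them: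

* `hu_oo`, `htr_oo`   : **U1** (`uF_mem_Ov`, `transcendental_red_uF` of cluster T, level `q² M₀`);
* `hu_mid`, `htr_mid` : **UMID** (the reductions of `u₁` on the Igusa components);
* `hu_hor`, `htr_hor` : **W-P** (`red_P (ϖ₁ / u₁) = c W ^ (-12)` is transcendental);
* `hdeg₁`, `hdeg₂`    : **UDEG** (`[F : K(u₁)] = 12 s q` = the sum of the residue degrees at each of
  the two radii).

Results:
* `mn1_data`  : `MNData S (mn1V₁ Mid SS) (mn1V₂ Mid SS) u ϖ`;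
* `mn1_multiNode` : the conclusion of the multi-extension node theorem for this family
  (`multiNode_of_rootCount` + `rootCount`), in the form of `MultiNodeStatement`;
* `mn1_node`  : the same, written out on the vertices `∞`, `mid m`, `hor P`.
-/

noncomputable section

open AlgebraicCurve Polynomial IntermediateField

namespace Fermat.Agent.S36G

open Fermat.Agent.RR Fermat.Agent.Deuring Fermat.Agent.BadRed Fermat.Agent.BadRedG

variable {Mid SS : Type}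

/-! ### the two families of vertices -/

/-- `∞` and the middle vertices, indexed by `Option Mid`. -/
def mn1Vert : Option Mid → Vtx Mid SS
  | none => Vtx.vert Vrt.oo
  | some m => Vtx.vert (Vrt.mid m)

theorem mn1Vert_injective : Function.Injective (mn1Vert : Option Mid → Vtx Mid SS) := by
  intro a b h
  cases a <;> cases b <;> simp only [mn1Vert] at h
  · rfl
  · cases h
  · cases h
  · cases h
    rfl

theorem mn1_hor_injective : Function.Injective (Vtx.hor : SS → Vtx Mid SS) := by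
  intro a b h
  cases h
  rfl

/-- the first family `V₁ = {∞} ∪ Mid`. -/
def mn1V₁ (Mid SS : Type) [Fintype Mid] : Finset (Vtx Mid SS) :=
  Finset.univ.map ⟨mn1Vert, mn1Vert_injective⟩

/-- the second family `V₂ = {hor P}`. -/
def mn1V₂ (Mid SS : Type) [Fintype SS] : Finset (Vtx Mid SS) :=
  Finset.univ.map ⟨Vtx.hor, mn1_hor_injective⟩

theorem mem_mn1V₁ [Fintype Mid] {c : Vtx Mid SS} :
    c ∈ mn1V₁ Mid SS ↔ c = Vtx.vert Vrt.oo ∨ ∃ m, c = Vtx.vert (Vrt.mid m) := by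
  unfold mn1V₁
  rw [Finset.mem_map]
  constructor
  · rintro ⟨o, -, rfl⟩
    cases o with
    | none => exact Or.inl rfl
    | some m => exact Or.inr ⟨m, rfl⟩
  · rintro (rfl | ⟨m, rfl⟩)
    · exact ⟨none, Finset.mem_univ _, rfl⟩
    · exact ⟨some m, Finset.mem_univ _, rfl⟩

theorem mem_mn1V₂ [Fintype SS] {c : Vtx Mid SS} :
    c ∈ mn1V₂ Mid SS ↔ ∃ P, c = Vtx.hor P := by
  unfold mn1V₂
  rw [Finset.mem_map]
  constructor
  · rintro ⟨P, -, rfl⟩
    exact ⟨P, rfl⟩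
  · rintro ⟨P, rfl⟩
    exact ⟨P, Finset.mem_univ _, rfl⟩

theorem oo_mem_mn1V₁ [Fintype Mid] : (Vtx.vert Vrt.oo : Vtx Mid SS) ∈ mn1V₁ Mid SS :=
  mem_mn1V₁.mpr (Or.inl rfl)

theorem mid_mem_mn1V₁ [Fintype Mid] (m : Mid) :
    (Vtx.vert (Vrt.mid m) : Vtx Mid SS) ∈ mn1V₁ Mid SS :=
  mem_mn1V₁.mpr (Or.inr ⟨m, rfl⟩)

theorem hor_mem_mn1V₂ [Fintype SS] (P : SS) : (Vtx.hor P : Vtx Mid SS) ∈ mn1V₂ Mid SS :=
  mem_mn1V₂.mpr ⟨P, rfl⟩

theorem zero_notMem_mn1V₁ [Fintype Mid] : (Vtx.vert Vrt.zero : Vtx Mid SS) ∉ mn1V₁ Mid SS := by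
  intro h
  rcases mem_mn1V₁.mp h with h | ⟨m, h⟩ <;> cases h

theorem disjoint_mn1 [Fintype Mid] [Fintype SS] : Disjoint (mn1V₁ Mid SS) (mn1V₂ Mid SS) := by
  rw [Finset.disjoint_left]
  intro c h₁ h₂
  obtain ⟨P, rfl⟩ := mem_mn1V₂.mp h₂
  rcases mem_mn1V₁.mp h₁ with h | ⟨m, h⟩ <;> cases h

/-- sums over the first family. -/
theorem sum_mn1V₁ [Fintype Mid] {M : Type*} [AddCommMonoid M] (g : Vtx Mid SS → M) :
    ∑ c ∈ mn1V₁ Mid SS, g c = g (Vtx.vert Vrt.oo) + ∑ m, g (Vtx.vert (Vrt.mid m)) := by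
  unfold mn1V₁
  rw [Finset.sum_map, Fintype.sum_option]
  rfl

/-- sums over the second family. -/
theorem sum_mn1V₂ [Fintype SS] {M : Type*} [AddCommMonoid M] (g : Vtx Mid SS → M) :
    ∑ c ∈ mn1V₂ Mid SS, g c = ∑ P, g (Vtx.hor P) := by
  unfold mn1V₂
  rw [Finset.sum_map]
  rfl

/-! ### the multi-node data -/

variable {K F k : Type*} [Field K] [Field F] [Algebra K F] [Field k]
  [Fintype Mid] [Fintype SS]
  {Fk : Vtx Mid SS → Type*} [∀ c, Field (Fk c)] [∀ c, Algebra k (Fk c)]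
  (S : ∀ c : Vtx Mid SS, ValSetup K F k (Fk c))

/-- **SEED-MN-1**: the multi-node data of the node family (1): `u = u₁`, `V₁ = {∞} ∪ Mid`,
`V₂ = {hor P}`. -/
theorem mn1_data [Nonempty SS]
    (hA : ∀ c c' : Vtx Mid SS, (S c).A = (S c').A)
    (hres : ∀ (c c' : Vtx Mid SS) (x : K) (h : x ∈ (S c).A) (h' : x ∈ (S c').A),
      (S c).res ⟨x, h⟩ = (S c').res ⟨x, h'⟩)
    (hindep : ∀ c c' : Vtx Mid SS, c ≠ c' → ¬ (S c).Ov ≤ (S c').Ov)
    {u : F} {ϖ : K} (hϖ0 : ϖ ≠ 0) (hϖ : ϖ ∈ (S (Vtx.vert Vrt.oo)).A)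
    (hϖres : (S (Vtx.vert Vrt.oo)).res ⟨ϖ, hϖ⟩ = 0)
    -- U1
    (hu_oo : u ∈ (S (Vtx.vert Vrt.oo)).Ov)
    (htr_oo : Transcendental k ((S (Vtx.vert Vrt.oo)).red u))
    -- UMID
    (hu_mid : ∀ m, u ∈ (S (Vtx.vert (Vrt.mid m))).Ov)
    (htr_mid : ∀ m, Transcendental k ((S (Vtx.vert (Vrt.mid m))).red u))
    -- W-P
    (hu_hor : ∀ P, algebraMap K F ϖ / u ∈ (S (Vtx.hor P)).Ov)
    (htr_hor : ∀ P, Transcendental k ((S (Vtx.hor P)).red (algebraMap K F ϖ / u)))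
    -- UDEG
    (hdeg₁ : Module.finrank K⟮u⟯ F ≤
      Module.finrank k⟮(S (Vtx.vert Vrt.oo)).red u⟯ (Fk (Vtx.vert Vrt.oo)) +
        ∑ m, Module.finrank k⟮(S (Vtx.vert (Vrt.mid m))).red u⟯ (Fk (Vtx.vert (Vrt.mid m))))
    (hdeg₂ : Module.finrank K⟮u⟯ F ≤
      ∑ P, Module.finrank k⟮(S (Vtx.hor P)).red (algebraMap K F ϖ / u)⟯ (Fk (Vtx.hor P))) :
    MNData S (mn1V₁ Mid SS) (mn1V₂ Mid SS) u ϖ where
  A_eq := hA
  res_eq := hres
  indep := hindep
  ne₁ := ⟨_, oo_mem_mn1V₁⟩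
  ne₂ := by
    obtain ⟨P⟩ := ‹Nonempty SS›
    exact ⟨_, hor_mem_mn1V₂ P⟩
  ϖ_ne := hϖ0
  ϖ_mem := fun c => hA (Vtx.vert Vrt.oo) c ▸ hϖ
  ϖ_res := fun c h => by rw [hres c (Vtx.vert Vrt.oo) ϖ h hϖ, hϖres]
  u_mem := by
    intro c hc
    rcases mem_mn1V₁.mp hc with rfl | ⟨m, rfl⟩
    · exact hu_oo
    · exact hu_mid m
  u_tr := by
    intro c hc
    rcases mem_mn1V₁.mp hc with rfl | ⟨m, rfl⟩
    · exact htr_oo
    · exact htr_mid m
  u'_mem := by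
    intro c hc
    obtain ⟨P, rfl⟩ := mem_mn1V₂.mp hc
    exact hu_hor P
  u'_tr := by
    intro c hc
    obtain ⟨P, rfl⟩ := mem_mn1V₂.mp hc
    exact htr_hor P
  deg₁ := by
    rw [sum_mn1V₁ (fun c => Module.finrank k⟮(S c).red u⟯ (Fk c))]
    exact hdeg₁
  deg₂ := by
    rw [sum_mn1V₂ (fun c => Module.finrank k⟮(S c).red (algebraMap K F ϖ / u)⟯ (Fk c))]
    exact hdeg₂

variable {S}

/-- the multi-extension node theorem for the family (1), in the form of `MultiNodeStatement`. -/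
theorem mn1_multiNode [Infinite k] {u : F} {ϖ : K}
    (D : MNData S (mn1V₁ Mid SS) (mn1V₂ Mid SS) u ϖ) (f : F)
    (hf₁ : ∀ c ∈ mn1V₁ Mid SS, f ∈ (S c).Ov) (hf₂ : ∀ c ∈ mn1V₂ Mid SS, f ∈ (S c).Ov)
    (hf : ∀ P : Place K F, P.ord f < 0 → P.ord u ≠ 0) :
    (∀ c ∈ mn1V₁ Mid SS, ∀ Q : Place k (Fk c),
      0 ≤ Q.ord ((S c).red u) → 0 ≤ Q.ord ((S c).red f)) ∧
    (∀ c ∈ mn1V₂ Mid SS, ∀ Q : Place k (Fk c),
      0 ≤ Q.ord ((S c).red (algebraMap K F ϖ / u)) → 0 ≤ Q.ord ((S c).red f)) ∧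
    ∀ a : k, ∑ c ∈ mn1V₁ Mid SS, mnCount (S c).hFk ((S c).red u) ((S c).red f) a =
      ∑ c ∈ mn1V₂ Mid SS,
        mnCount (S c).hFk ((S c).red (algebraMap K F ϖ / u)) ((S c).red f) a :=
  multiNode_of_rootCount S _ _ u ϖ (fun _ => rootCount) D f hf₁ hf₂ hf

/-- **the node theorem of the family (1)**, written out on the vertices: for `f` integral at
`∞`, at the middle vertices and at all the `hor P`, whose poles are zeros or poles of `u`, the
reductions are regular off the poles of `ū` resp. `ū'`, and for every `a : k` the weighted number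
of the zeros of `ū` on `Z_∞ ∪ ⋃ Ig_m` at which `f` takes the value `a` is the weighted number of
the zeros of `ū'` on `⋃ H_P` at which `f` takes the value `a`. -/
theorem mn1_node [Infinite k] {u : F} {ϖ : K}
    (D : MNData S (mn1V₁ Mid SS) (mn1V₂ Mid SS) u ϖ) (f : F)
    (hf_oo : f ∈ (S (Vtx.vert Vrt.oo)).Ov) (hf_mid : ∀ m, f ∈ (S (Vtx.vert (Vrt.mid m))).Ov)
    (hf_hor : ∀ P, f ∈ (S (Vtx.hor P)).Ov)
    (hf : ∀ P : Place K F, P.ord f < 0 → P.ord u ≠ 0) :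
    (∀ Q : Place k (Fk (Vtx.vert Vrt.oo)), 0 ≤ Q.ord ((S (Vtx.vert Vrt.oo)).red u) →
      0 ≤ Q.ord ((S (Vtx.vert Vrt.oo)).red f)) ∧
    (∀ (m : Mid) (Q : Place k (Fk (Vtx.vert (Vrt.mid m)))),
      0 ≤ Q.ord ((S (Vtx.vert (Vrt.mid m))).red u) →
        0 ≤ Q.ord ((S (Vtx.vert (Vrt.mid m))).red f)) ∧
    (∀ (P : SS) (Q : Place k (Fk (Vtx.hor P))),
      0 ≤ Q.ord ((S (Vtx.hor P)).red (algebraMap K F ϖ / u)) →
        0 ≤ Q.ord ((S (Vtx.hor P)).red f)) ∧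
    ∀ a : k,
      mnCount (S (Vtx.vert Vrt.oo)).hFk ((S (Vtx.vert Vrt.oo)).red u)
          ((S (Vtx.vert Vrt.oo)).red f) a +
        ∑ m, mnCount (S (Vtx.vert (Vrt.mid m))).hFk ((S (Vtx.vert (Vrt.mid m))).red u)
          ((S (Vtx.vert (Vrt.mid m))).red f) a =
      ∑ P, mnCount (S (Vtx.hor P)).hFk ((S (Vtx.hor P)).red (algebraMap K F ϖ / u))
        ((S (Vtx.hor P)).red f) a := by
  have hf₁ : ∀ c ∈ mn1V₁ Mid SS, f ∈ (S c).Ov := by
    intro c hc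
    rcases mem_mn1V₁.mp hc with rfl | ⟨m, rfl⟩
    · exact hf_oo
    · exact hf_mid m
  have hf₂ : ∀ c ∈ mn1V₂ Mid SS, f ∈ (S c).Ov := by
    intro c hc
    obtain ⟨P, rfl⟩ := mem_mn1V₂.mp hc
    exact hf_hor P
  obtain ⟨h1, h2, h3⟩ := mn1_multiNode D f hf₁ hf₂ hf
  refine ⟨h1 _ oo_mem_mn1V₁, fun m => h1 _ (mid_mem_mn1V₁ m), fun P => h2 _ (hor_mem_mn1V₂ P),
    fun a => ?_⟩
  have := h3 a
  rwa [sum_mn1V₁ (fun c => mnCount (S c).hFk ((S c).red u) ((S c).red f) a),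
    sum_mn1V₂ (fun c => mnCount (S c).hFk ((S c).red (algebraMap K F ϖ / u)) ((S c).red f) a)]
    at this

end Fermat.Agent.S36G
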