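/-
Cluster G (S36), SEED, seat SEED-INV (helper79; sub-architect helper92).

The seed function of the modular graph is a RATIONAL function of `u = u₁ = Δ(z) / Δ(qz)` with
RATIONAL coefficients (SEED v3: `x = u + q^12 / u + y`, `y ∈ ℚ(u)`), so it is fixed by the whole
Galois group `G_ℚ` acting on `F = ℚ̄ · F_N` (`arithmeticGalois`), in particular by the inertia
group at `A`; hence its pole divisor `D₀ = (x)_∞` is stable (`GraphSeed.IsPermAut.D₀_smul`).

* `seedInvFixed N σ`          : the subfield of the functions fixed by `σ`;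
* `uF_mem_seedInvFixed`, `natCast_mem_seedInvFixed`, `const_mem_seedInvFixed` : members;
* `seedInv_closure_le`        : `Subfield.closure {u} ≤ seedInvFixed N σ` (`ℚ(u)` is fixed);
* `seedInv_smul_eq`           : `x ∈ ℚ(u) ⟹ σ • x = x`;
* `seedInv_poleDiv`           : `x ∈ ℚ(u) ⟹ (x)_∞ (σ • P) = (x)_∞ P`   (**SEED-INV**);
* `seedInv_poleDiv_smul`      : the same in the form `σ • (x)_∞ = (x)_∞`;
* `seedInv_seedFun_mem`       : `u + ϖ / u + ∑ y cl ∈ ℚ(u)` if `ϖ` is a rational number and the
                                `y cl` are in `ℚ(u)`;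
* `seedInv_y_mem`, `seedInv_ySq_mem` : the candidates `y = b / (uⁿ - b)` and
                                `y = b uⁿ / (uⁿ - b)²` (`b` a natural number) are in `ℚ(u)`;
* `seedInv_D₀_smul`           : **SEED-INV** for `x = u + q^e / u + ∑ y cl`;
* `ymodY_mem_seedInvFixed`, `ymodG1_mem_seedInvFixed`, `ymodG2_mem_seedInvFixed` : helper74's
                                `ymodY u b n`, `ymodG1`, `ymodG2` (`YDefs.lean`) are fixed by `σ`
                                if `u` and `b` are;
* `seedInv_seedFun_fixed`     : `u + ϖ / u + ∑ y cl` is fixed by `σ` if `u`, `ϖ`, `y cl` are;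
* `seedInv_ymod_fixed`, `seedInv_ymod_D₀_smul` : **SEED-INV for the v3 seed**
                                `x = u₁ + q^e / u₁ + ∑ _ : Cl, ymodY u₁ (q^e) n`.
-/
import Mathlib
import Fermat.Agent.Lib.BadRed.Mod.GaloisSemi
import Fermat.Agent.S36.Seed.YDefs

set_option autoImplicit false
set_option linter.style.haveILetI false
set_option linter.unusedSectionVars false
set_option linter.unusedVariables false
set_option synthInstance.maxHeartbeats 400000

noncomputable section

namespace Fermat.Agent.S36G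

open ModularCurve AlgebraicCurve Fermat.Agent.F3 Fermat.Agent.F3G Fermat.Agent.GaussInt
  Fermat.Agent.RR Fermat.Agent.Deuring Fermat.Agent.BadRed

local notation "Qb" => AlgebraicClosure ℚ

variable (N : ℕ) [NeZero N] (σ : Qb ≃ₐ[ℚ] Qb)

/-- the subfield of the functions of level `N` fixed by `σ ∈ G_ℚ`. -/
def seedInvFixed : Subfield (modularFunctionFieldBar N) :=
  FixedBy.subfield (modularFunctionFieldBar N) (arithmeticGalois (modularFunctionFieldFull N) σ)

variable {N} {σ}

theorem mem_seedInvFixed {x : modularFunctionFieldBar N} :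
    x ∈ seedInvFixed N σ ↔ arithmeticGalois (modularFunctionFieldFull N) σ • x = x := Iff.rfl

/-- `u = Δ(z) / Δ(qz)` is fixed. -/
theorem uF_mem_seedInvFixed (q : ℕ) [NeZero q] (hq : q ∣ N) : uF N q hq ∈ seedInvFixed N σ :=
  mem_seedInvFixed.mpr (arithmeticGalois_smul_uF N q hq σ)

/-- the constants fixed by `σ` are fixed. -/
theorem const_mem_seedInvFixed {c : Qb} (hc : σ c = c) :
    algebraMap Qb (modularFunctionFieldBar N) c ∈ seedInvFixed N σ := by
  rw [mem_seedInvFixed, SemilinearAut.smul_algebraMap]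
  have e : SemilinearAut.baseAut (arithmeticGalois (modularFunctionFieldFull N) σ) c = c := hc
  rw [e]

/-- the rational constants are fixed. -/
theorem ratConst_mem_seedInvFixed (c : ℚ) :
    algebraMap Qb (modularFunctionFieldBar N) (algebraMap ℚ Qb c) ∈ seedInvFixed N σ :=
  const_mem_seedInvFixed (σ.commutes c)

/-- the constants `q ^ e` are fixed. -/
theorem natPow_mem_seedInvFixed (q e : ℕ) :
    algebraMap Qb (modularFunctionFieldBar N) ((q : Qb) ^ e) ∈ seedInvFixed N σ :=
  const_mem_seedInvFixed (by rw [map_pow, map_natCast])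

/-- **`ℚ(u)` is fixed by `G_ℚ`.** -/
theorem seedInv_closure_le (q : ℕ) [NeZero q] (hq : q ∣ N) :
    Subfield.closure ({uF N q hq} : Set (modularFunctionFieldBar N)) ≤ seedInvFixed N σ :=
  Subfield.closure_le.mpr (Set.singleton_subset_iff.mpr (uF_mem_seedInvFixed q hq))

/-- a rational function of `u` with rational coefficients is fixed by `G_ℚ`. -/
theorem seedInv_smul_eq (q : ℕ) [NeZero q] (hq : q ∣ N) {x : modularFunctionFieldBar N}
    (hx : x ∈ Subfield.closure ({uF N q hq} : Set (modularFunctionFieldBar N)))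
    (σ : Qb ≃ₐ[ℚ] Qb) :
    arithmeticGalois (modularFunctionFieldFull N) σ • x = x :=
  mem_seedInvFixed.mp (seedInv_closure_le q hq hx)

/-- **SEED-INV**: the pole divisor of a rational function of `u` is stable under `G_ℚ`. -/
theorem seedInv_poleDiv (h : IsRRField Qb (modularFunctionFieldBar N)) (q : ℕ) [NeZero q]
    (hq : q ∣ N) {x : modularFunctionFieldBar N}
    (hx : x ∈ Subfield.closure ({uF N q hq} : Set (modularFunctionFieldBar N)))
    (σ : Qb ≃ₐ[ℚ] Qb) (P : Place Qb (modularFunctionFieldBar N)) :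
    poleDiv h x (arithmeticGalois (modularFunctionFieldFull N) σ • P) = poleDiv h x P :=
  cs_poleDiv_smul h _ (seedInv_smul_eq q hq hx σ) P

/-- **SEED-INV**, in the form `σ • (x)_∞ = (x)_∞`. -/
theorem seedInv_poleDiv_smul (h : IsRRField Qb (modularFunctionFieldBar N)) (q : ℕ) [NeZero q]
    (hq : q ∣ N) {x : modularFunctionFieldBar N}
    (hx : x ∈ Subfield.closure ({uF N q hq} : Set (modularFunctionFieldBar N)))
    (σ : Qb ≃ₐ[ℚ] Qb) :
    arithmeticGalois (modularFunctionFieldFull N) σ • poleDiv h x = poleDiv h x := by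
  ext P
  have h1 := seedInv_poleDiv h q hq hx σ
    ((arithmeticGalois (modularFunctionFieldFull N) σ)⁻¹ • P)
  rw [smul_inv_smul] at h1
  rw [SemilinearAut.divisor_smul_apply]
  exact h1.symm

/-! ### the members of `ℚ(u)` -/

section Members

variable {F : Type*} [Field F] {u : F}

/-- natural numbers are in every subfield. -/
theorem seedInv_natCast_mem (s : Subfield F) (n : ℕ) : (n : F) ∈ s := natCast_mem s n

/-- the candidate `y = b / (uⁿ - b)`. -/
theorem seedInv_y_mem (b n : ℕ) :
    (b : F) / (u ^ n - (b : F)) ∈ Subfield.closure ({u} : Set F) :=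
  div_mem (natCast_mem _ b)
    (sub_mem (pow_mem (Subfield.subset_closure (Set.mem_singleton u)) n) (natCast_mem _ b))

/-- the candidate `y = b uⁿ / (uⁿ - b)²`. -/
theorem seedInv_ySq_mem (b n : ℕ) :
    (b : F) * u ^ n / (u ^ n - (b : F)) ^ 2 ∈ Subfield.closure ({u} : Set F) :=
  div_mem (mul_mem (natCast_mem _ b) (pow_mem (Subfield.subset_closure (Set.mem_singleton u)) n))
    (pow_mem (sub_mem (pow_mem (Subfield.subset_closure (Set.mem_singleton u)) n)
      (natCast_mem _ b)) 2)

/-- the clearing functions `1 - b / uⁿ` and `1 - uⁿ / b`. -/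
theorem seedInv_clear_mem (b n : ℕ) :
    1 - (b : F) / u ^ n ∈ Subfield.closure ({u} : Set F) ∧
      1 - u ^ n / (b : F) ∈ Subfield.closure ({u} : Set F) :=
  ⟨sub_mem (one_mem _)
      (div_mem (natCast_mem _ b) (pow_mem (Subfield.subset_closure (Set.mem_singleton u)) n)),
    sub_mem (one_mem _)
      (div_mem (pow_mem (Subfield.subset_closure (Set.mem_singleton u)) n) (natCast_mem _ b))⟩

end Members

/-- the constant `q ^ e`, as a function, is the natural number `q ^ e`. -/
theorem seedInv_algebraMap_natPow (q e : ℕ) :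
    algebraMap Qb (modularFunctionFieldBar N) ((q : Qb) ^ e) =
      ((q ^ e : ℕ) : modularFunctionFieldBar N) := by
  rw [map_pow, map_natCast, Nat.cast_pow]

/-- the seed function `u + q^e / u + ∑ y cl` is in `ℚ(u)` if the `y cl` are. -/
theorem seedInv_seedFun_mem (q : ℕ) [NeZero q] (hq : q ∣ N) (e : ℕ) {Cl : Type*} [Fintype Cl]
    (y : Cl → modularFunctionFieldBar N)
    (hy : ∀ cl, y cl ∈ Subfield.closure ({uF N q hq} : Set (modularFunctionFieldBar N))) :
    uF N q hq + algebraMap Qb (modularFunctionFieldBar N) ((q : Qb) ^ e) / uF N q hq +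
        ∑ cl, y cl ∈ Subfield.closure ({uF N q hq} : Set (modularFunctionFieldBar N)) := by
  have hu : uF N q hq ∈ Subfield.closure ({uF N q hq} : Set (modularFunctionFieldBar N)) :=
    Subfield.subset_closure (Set.mem_singleton _)
  refine add_mem (add_mem hu (div_mem ?_ hu)) (sum_mem fun cl _ => hy cl)
  rw [seedInv_algebraMap_natPow]
  exact natCast_mem _ _

/-- **SEED-INV** for the seed function `x = u + q^e / u + ∑ y cl`, `y cl ∈ ℚ(u)`: the divisor
`D₀ = (x)_∞` is stable under `G_ℚ` (in particular under the inertia group at `A`). -/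
theorem seedInv_D₀_smul (h : IsRRField Qb (modularFunctionFieldBar N)) (q : ℕ) [NeZero q]
    (hq : q ∣ N) (e : ℕ) {Cl : Type*} [Fintype Cl] (y : Cl → modularFunctionFieldBar N)
    (hy : ∀ cl, y cl ∈ Subfield.closure ({uF N q hq} : Set (modularFunctionFieldBar N)))
    (σ : Qb ≃ₐ[ℚ] Qb) (P : Place Qb (modularFunctionFieldBar N)) :
    poleDiv h (uF N q hq + algebraMap Qb (modularFunctionFieldBar N) ((q : Qb) ^ e) / uF N q hq +
        ∑ cl, y cl) (arithmeticGalois (modularFunctionFieldFull N) σ • P) =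
      poleDiv h (uF N q hq + algebraMap Qb (modularFunctionFieldBar N) ((q : Qb) ^ e) / uF N q hq +
        ∑ cl, y cl) P :=
  seedInv_poleDiv h q hq (seedInv_seedFun_mem q hq e y hy) σ P

/-! ### the seed of SEED v3 (`YDefs.lean`) -/

/-- `ymodY u b n` is fixed by `σ` if `u` and `b` are. -/
theorem ymodY_mem_seedInvFixed {u : modularFunctionFieldBar N} (hu : u ∈ seedInvFixed N σ)
    {b : Qb} (hb : σ b = b) (n : ℕ) : ymodY u b n ∈ seedInvFixed N σ := by
  rw [ymodY_def]
  exact div_mem (mul_mem (const_mem_seedInvFixed hb) (pow_mem hu n))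
    (pow_mem (sub_mem (pow_mem hu n) (const_mem_seedInvFixed hb)) 2)

/-- `ymodG1 u b n` is fixed by `σ` if `u` and `b` are. -/
theorem ymodG1_mem_seedInvFixed {u : modularFunctionFieldBar N} (hu : u ∈ seedInvFixed N σ)
    {b : Qb} (hb : σ b = b) (n : ℕ) : ymodG1 u b n ∈ seedInvFixed N σ := by
  rw [ymodG1_def]
  exact pow_mem (sub_mem (one_mem _) (div_mem (const_mem_seedInvFixed hb) (pow_mem hu n))) 2

/-- `ymodG2 u b n` is fixed by `σ` if `u` and `b` are. -/
theorem ymodG2_mem_seedInvFixed {u : modularFunctionFieldBar N} (hu : u ∈ seedInvFixed N σ)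
    {b : Qb} (hb : σ b = b) (n : ℕ) : ymodG2 u b n ∈ seedInvFixed N σ := by
  rw [ymodG2_def]
  exact pow_mem (sub_mem (one_mem _) (div_mem (pow_mem hu n) (const_mem_seedInvFixed hb))) 2

/-- the seed function `u + ϖ / u + ∑ y cl` is fixed by `σ` if `u`, `ϖ` and the `y cl` are. -/
theorem seedInv_seedFun_fixed {u : modularFunctionFieldBar N} (hu : u ∈ seedInvFixed N σ)
    {ϖ : Qb} (hϖ : σ ϖ = ϖ) {Cl : Type*} [Fintype Cl] (y : Cl → modularFunctionFieldBar N)
    (hy : ∀ cl, y cl ∈ seedInvFixed N σ) :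
    arithmeticGalois (modularFunctionFieldFull N) σ •
        (u + algebraMap Qb (modularFunctionFieldBar N) ϖ / u + ∑ cl, y cl) =
      u + algebraMap Qb (modularFunctionFieldBar N) ϖ / u + ∑ cl, y cl :=
  mem_seedInvFixed.mp
    (add_mem (add_mem hu (div_mem (const_mem_seedInvFixed hϖ) hu)) (sum_mem fun cl _ => hy cl))

/-- **the v3 seed function is fixed by `G_ℚ`**:
`x = u₁ + q^e / u₁ + ∑ _ : Cl, ymodY u₁ (q^e) n`. -/
theorem seedInv_ymod_fixed (q : ℕ) [NeZero q] (hq : q ∣ N) (e n : ℕ) (Cl : Type*) [Fintype Cl]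
    (σ : Qb ≃ₐ[ℚ] Qb) :
    arithmeticGalois (modularFunctionFieldFull N) σ •
        (uF N q hq + algebraMap Qb (modularFunctionFieldBar N) ((q : Qb) ^ e) / uF N q hq +
          ∑ _cl : Cl, ymodY (uF N q hq) ((q : Qb) ^ e) n) =
      uF N q hq + algebraMap Qb (modularFunctionFieldBar N) ((q : Qb) ^ e) / uF N q hq +
        ∑ _cl : Cl, ymodY (uF N q hq) ((q : Qb) ^ e) n := by
  have hb : σ ((q : Qb) ^ e) = (q : Qb) ^ e := by rw [map_pow, map_natCast]
  exact seedInv_seedFun_fixed (uF_mem_seedInvFixed q hq) hb _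
    (fun _ => ymodY_mem_seedInvFixed (uF_mem_seedInvFixed q hq) hb n)

/-- **SEED-INV for the v3 seed**: `D₀ = (x)_∞` is stable under `G_ℚ`, in the form
`GraphSeed.IsPermAut.D₀_smul`. -/
theorem seedInv_ymod_D₀_smul (h : IsRRField Qb (modularFunctionFieldBar N)) (q : ℕ) [NeZero q]
    (hq : q ∣ N) (e n : ℕ) (Cl : Type*) [Fintype Cl] (σ : Qb ≃ₐ[ℚ] Qb)
    (P : Place Qb (modularFunctionFieldBar N)) :
    poleDiv h (uF N q hq + algebraMap Qb (modularFunctionFieldBar N) ((q : Qb) ^ e) / uF N q hq +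
        ∑ _cl : Cl, ymodY (uF N q hq) ((q : Qb) ^ e) n)
        (arithmeticGalois (modularFunctionFieldFull N) σ • P) =
      poleDiv h (uF N q hq + algebraMap Qb (modularFunctionFieldBar N) ((q : Qb) ^ e) / uF N q hq +
        ∑ _cl : Cl, ymodY (uF N q hq) ((q : Qb) ^ e) n) P :=
  cs_poleDiv_smul h _ (seedInv_ymod_fixed q hq e n Cl σ) P

/-- the pole divisor of any `σ`-fixed function is `σ`-stable (`σ ∈ G_ℚ`). -/
theorem seedInv_poleDiv_of_fixed (h : IsRRField Qb (modularFunctionFieldBar N))
    {x : modularFunctionFieldBar N} (hx : x ∈ seedInvFixed N σ)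
    (P : Place Qb (modularFunctionFieldBar N)) :
    poleDiv h x (arithmeticGalois (modularFunctionFieldFull N) σ • P) = poleDiv h x P :=
  cs_poleDiv_smul h _ (mem_seedInvFixed.mp hx) P

end Fermat.Agent.S36G
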