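/-
Cluster G (S36, bad reduction at `q² ∥ M`), seat SEED-DEG (helper19; sub-architect helper92):
**the degrees of the parameters `u₁ = Δ(z) / Δ(qz)`, `u₂ = Δ(qz) / Δ(q²z)`** on `X₀(q² M₀)` and of
their reductions at `v_∞`, `v_0` (the inputs `deg₁`, `deg₂` of the multi-extension node theorem).

`N = q² M₀`, `q ∤ M₀`, `n := (q - 1) · (q · ψ(M₀))`  (`= 12 s q` when there are no elliptic points):

* `seedDeg_psi`          : `ψ(q² M₀) = (q + 1) · (q · ψ(M₀))`;
* `finrank_uF_sq`        : `[F_N : ℚ̄(u₁)] = n`;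
* `finrank_uF2_sq`       : `[F_N : ℚ̄(u₂)] = n`                       (`u₂ = q ^ 12 / w (u₁)`);
* `finrank_adjoin_ss_pow`: `[F_k(M₀) : k(h ^ q)] = q · ((q - 1) ψ(M₀))` for `h = ssFun` (`= red_∞ u₁`);
* `finrank_red_uF`, `finrank_red_uF2` : the same for `red_∞ u₁`, `red_∞ u₂` in a Gauss setup;
* `finrank_red_zero_uF`, `finrank_red_zero_uF2` : for `red_0 (q ^ 12 / u₁)`, `red_0 (q ^ 12 / u₂)`.
-/
import Mathlib
import Fermat.Agent.S36.Seed.U2
import Fermat.Agent.Lib.BadRed.Mod.SSDeg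
import Fermat.Agent.Lib.BadRed.Mod.UCuspDegFinal

set_option autoImplicit false
set_option linter.style.haveILetI false
set_option linter.unusedSectionVars false
set_option synthInstance.maxHeartbeats 400000

noncomputable section

namespace Fermat.Agent.S36G

open IntermediateField ModularCurve AlgebraicCurve Fermat.Agent.GaussInt Fermat.Agent.AtkinLehner
  Fermat.Agent.Deuring Fermat.Agent.S28 Fermat.Agent.F3 Fermat.Agent.F3G Fermat.Agent.BadRed
  Fermat.Agent.RR

local notation "Qb" => AlgebraicClosure ℚ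

attribute [local instance 10000] SubalgebraClass.toAlgebra HahnSeries.powerSeriesAlgebra

/-! ### arithmetic -/

/-- `ψ(q² M₀) = (q + 1) · (q · ψ(M₀))`. -/
theorem seedDeg_psi {q M₀ : ℕ} (hq : q.Prime) (hqM : ¬ q ∣ M₀) :
    dedekindPsi (q * q * M₀) = (q + 1) * (q * dedekindPsi M₀) := by
  have hcop : (q * q).Coprime M₀ :=
    Nat.Coprime.mul_left ((Nat.Prime.coprime_iff_not_dvd hq).mpr hqM)
      ((Nat.Prime.coprime_iff_not_dvd hq).mpr hqM)
  rw [Fermat.Agent.S20.dedekindPsi_mul hcop]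
  have h := Fermat.Agent.S20.dedekindPsi_prime_pow (p := q) (k := 1) hq
  have e : q ^ (1 + 1) = q * q := by ring
  rw [e, pow_one] at h
  rw [h]
  ring

/-! ### field theory: transport of `[F : K(x)]` -/

section Transport

variable {K F : Type*} [Field K] [Field F] [Algebra K F]

/-- `[F : K(σ x)] = [F : K(x)]` for a `K`-automorphism `σ` of `F`. -/
theorem seedDeg_finrank_algEquiv (σ : F ≃ₐ[K] F) (x : F) :
    Module.finrank K⟮σ x⟯ F = Module.finrank K⟮x⟯ F := by
  have hmap : K⟮σ x⟯ = K⟮x⟯.map (σ : F →ₐ[K] F) := by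
    rw [IntermediateField.adjoin_map, Set.image_singleton]
    rfl
  let e₁ : K⟮x⟯ ≃+* K⟮σ x⟯ :=
    ((IntermediateField.equivMap K⟮x⟯ (σ : F →ₐ[K] F)).trans
      (IntermediateField.equivOfEq hmap.symm)).toRingEquiv
  have hc : (algebraMap K⟮σ x⟯ F).comp e₁.toRingHom =
      ((σ : F ≃+* F)).toRingHom.comp (algebraMap K⟮x⟯ F) := by
    refine RingHom.ext fun y => ?_
    rfl
  exact (Algebra.finrank_eq_of_equiv_equiv e₁ (σ : F ≃+* F) hc).symm

/-- `K(c / y) = K(y)` for a constant `c ≠ 0`. -/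
theorem seedDeg_adjoin_const_div {c : K} (hc : c ≠ 0) (y : F) :
    K⟮algebraMap K F c / y⟯ = K⟮y⟯ := by
  have hcF : algebraMap K F c ≠ 0 := (_root_.map_ne_zero _).mpr hc
  apply le_antisymm
  · rw [IntermediateField.adjoin_simple_le_iff]
    exact div_mem (IntermediateField.algebraMap_mem _ c)
      (IntermediateField.mem_adjoin_simple_self K y)
  · rw [IntermediateField.adjoin_simple_le_iff]
    have h2 : algebraMap K F c / (algebraMap K F c / y) ∈ K⟮algebraMap K F c / y⟯ :=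
      div_mem (IntermediateField.algebraMap_mem _ c)
        (IntermediateField.mem_adjoin_simple_self K _)
    rwa [div_div_cancel₀ hcF] at h2

theorem seedDeg_finrank_const_div {c : K} (hc : c ≠ 0) (y : F) :
    Module.finrank K⟮algebraMap K F c / y⟯ F = Module.finrank K⟮y⟯ F := by
  rw [seedDeg_adjoin_const_div hc y]

end Transport

/-! ### the generic fibre -/

section Generic

variable {N M₀ q : ℕ} [NeZero N] [NeZero q]

/-- **`[F_N : ℚ̄(u₁)] = (q - 1) · (q · ψ(M₀))`** for `N = q² M₀`, `q ∤ M₀`. -/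
theorem finrank_uF_sq (hq : q.Prime) (hN : N = q * q * M₀) (hqM : ¬ q ∣ M₀) (hdvd : q ∣ N) :
    Module.finrank Qb⟮uF N q hdvd⟯ ↥(modularFunctionFieldBar N) =
      (q - 1) * (q * dedekindPsi M₀) := by
  have := Fermat.Agent.S24.finiteDimensional_adjoin_jBar N
  refine (uCuspEq_uF_prime hq hdvd).finrank_eq_of_finrank (Fermat.Agent.RRMod.isRRField_bar N)
    (Fermat.Agent.S24.transcendental_jBar N) ?_
  rw [Fermat.Agent.GenusEq.finrank_jBar_eq_psi N, hN]
  exact seedDeg_psi hq hqM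

end Generic

section GenericAL

variable (D : ALData) [NeZero (D.Q * D.R)] (q : ℕ) [NeZero q] (hQ : q * q = D.Q)

/-- `u₂ = q ^ 12 / w (u₁)`. -/
theorem uF2_eq_const_div :
    uF2 (D.Q * D.R) q (seedU_dvd_level D q hQ) =
      algebraMap Qb (modularFunctionFieldBar (D.Q * D.R)) ((q : Qb) ^ 12) /
        atkinLehner D (uF (D.Q * D.R) q (seedU_dvd (seedU_dvd_level D q hQ))) := by
  rw [atkinLehner_uF_sq D q hQ, div_div_cancel₀ (seedU_const_ne D q)]

/-- **`[F_N : ℚ̄(u₂)] = [F_N : ℚ̄(u₁)]`.** -/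
theorem finrank_uF2_eq :
    Module.finrank Qb⟮uF2 (D.Q * D.R) q (seedU_dvd_level D q hQ)⟯
        ↥(modularFunctionFieldBar (D.Q * D.R)) =
      Module.finrank Qb⟮uF (D.Q * D.R) q (seedU_dvd (seedU_dvd_level D q hQ))⟯
        ↥(modularFunctionFieldBar (D.Q * D.R)) := by
  rw [uF2_eq_const_div D q hQ, seedDeg_finrank_const_div (natCast_pow_ne_zero q 12),
    seedDeg_finrank_algEquiv]

/-- **`[F_N : ℚ̄(u₂)] = (q - 1) · (q · ψ(M₀))`**, `N = q² M₀`, `q ∤ M₀`. -/
theorem finrank_uF2_sq (hq : q.Prime) (hqR : ¬ q ∣ D.R) :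
    Module.finrank Qb⟮uF2 (D.Q * D.R) q (seedU_dvd_level D q hQ)⟯
        ↥(modularFunctionFieldBar (D.Q * D.R)) = (q - 1) * (q * dedekindPsi D.R) := by
  rw [finrank_uF2_eq D q hQ]
  exact finrank_uF_sq hq (by rw [hQ]) hqR _

end GenericAL

/-! ### the special fibre -/

section Special

variable (N₀ : ℕ) [NeZero N₀] {q : ℕ} {A : ValuationSubring Qb}

/-- `h ^ q` is transcendental, `h = ssFun`. -/
theorem transcendental_ss_pow (hq : q.Prime) (hA : A.LiesOverPrime q)
    (h : modularFunctionFieldFullC (IsLocalRing.ResidueField A) N₀)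
    (hh : (h : LaurentSeries (IsLocalRing.ResidueField A)) =
      ssFun (IsLocalRing.ResidueField A) q) :
    Transcendental (IsLocalRing.ResidueField A) (h ^ q) :=
  (transcendental_ss N₀ hq hA h hh).pow hq.pos

/-- `F_k(N₀)` is finite over `k(h ^ q)`. -/
theorem finiteDimensional_adjoin_ss_pow (hq : q.Prime) (hA : A.LiesOverPrime q)
    (h : modularFunctionFieldFullC (IsLocalRing.ResidueField A) N₀)
    (hh : (h : LaurentSeries (IsLocalRing.ResidueField A)) =
      ssFun (IsLocalRing.ResidueField A) q) :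
    FiniteDimensional (IsLocalRing.ResidueField A)⟮h ^ q⟯
      (modularFunctionFieldFullC (IsLocalRing.ResidueField A) N₀) := by
  haveI := finiteDimensional_adjoin_ss N₀ hq hA h hh
  exact Fermat.Agent.S24Res.finiteDimensional_adjoin_simple
    ⟨transcendental_ss N₀ hq hA h hh, inferInstance⟩ (transcendental_ss_pow N₀ hq hA h hh)

/-- **`[F_k(N₀) : k(h ^ q)] = q · ((q - 1) ψ(N₀))`**, `h = ssFun`. -/
theorem finrank_adjoin_ss_pow (hq : q.Prime) (hqN : ¬ q ∣ N₀) (hA : A.LiesOverPrime q)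
    (h : modularFunctionFieldFullC (IsLocalRing.ResidueField A) N₀)
    (hh : (h : LaurentSeries (IsLocalRing.ResidueField A)) =
      ssFun (IsLocalRing.ResidueField A) q) :
    Module.finrank (IsLocalRing.ResidueField A)⟮h ^ q⟯
      (modularFunctionFieldFullC (IsLocalRing.ResidueField A) N₀) =
        q * ((q - 1) * dedekindPsi N₀) := by
  haveI : IsAlgClosed (IsLocalRing.ResidueField A) := Fermat.Agent.GaussInt.isAlgClosed_residue A
  haveI := finiteDimensional_adjoin_ss N₀ hq hA h hh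
  have htr := transcendental_ss N₀ hq hA h hh
  have hP : (Polynomial.X ^ q : Polynomial (IsLocalRing.ResidueField A)).natDegree ≠ 0 := by
    rw [Polynomial.natDegree_X_pow]
    exact hq.ne_zero
  have h1 := finrank_adjoin_aeval
    (Fermat.Agent.RRMod.isRRField_fullC' (IsLocalRing.ResidueField A) N₀) htr hP
  rw [map_pow, Polynomial.aeval_X, Polynomial.natDegree_X_pow,
    finrank_adjoin_ss N₀ hq hqN hA h hh] at h1
  exact h1

end Special

/-! ### in a Gauss setup -/

section Gauss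

variable {N N₀ : ℕ} [NeZero N] [NeZero N₀] {A : ValuationSubring Qb}
  {S : ValSetup Qb (FBar N) (IsLocalRing.ResidueField A)
    (modularFunctionFieldFullC (IsLocalRing.ResidueField A) N₀)}
  (hS : IsGaussSetup N N₀ A S) (q : ℕ) [NeZero q]

include hS in
/-- `[F_k(N₀) : k(red_∞ u₁)] = (q - 1) ψ(N₀)`. -/
theorem finrank_red_uF (hq : q.Prime) (hqN : ¬ q ∣ N₀) (hA : A.LiesOverPrime q) (h1 : q ∣ N) :
    Module.finrank (IsLocalRing.ResidueField A)⟮S.red (uF N q h1)⟯
      (modularFunctionFieldFullC (IsLocalRing.ResidueField A) N₀) = (q - 1) * dedekindPsi N₀ :=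
  finrank_adjoin_ss N₀ hq hqN hA _ (coe_red_uF hS q h1 hq hA)

include hS in
/-- `[F_k(N₀) : k(red_∞ u₂)] = q · ((q - 1) ψ(N₀))`. -/
theorem finrank_red_uF2 (hq : q.Prime) (hqN : ¬ q ∣ N₀) (hA : A.LiesOverPrime q)
    (h2 : q * q ∣ N) :
    Module.finrank (IsLocalRing.ResidueField A)⟮S.red (uF2 N q h2)⟯
      (modularFunctionFieldFullC (IsLocalRing.ResidueField A) N₀) =
        q * ((q - 1) * dedekindPsi N₀) := by
  rw [red_uF2 hS q h2 hq hA]
  exact finrank_adjoin_ss_pow N₀ hq hqN hA _ (coe_red_uF hS q _ hq hA)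

include hS in
theorem finiteDimensional_red_uF2 (hq : q.Prime) (hA : A.LiesOverPrime q) (h2 : q * q ∣ N) :
    FiniteDimensional (IsLocalRing.ResidueField A)⟮S.red (uF2 N q h2)⟯
      (modularFunctionFieldFullC (IsLocalRing.ResidueField A) N₀) := by
  rw [red_uF2 hS q h2 hq hA]
  exact finiteDimensional_adjoin_ss_pow N₀ hq hA _ (coe_red_uF hS q _ hq hA)

end Gauss

/-! ### at `v_0` -/

section Zero

variable (D : ALData) [NeZero (D.Q * D.R)] [NeZero D.R] (q : ℕ) [NeZero q] (hQ : q * q = D.Q)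
  {A : ValuationSubring Qb}
  {S : ValSetup Qb (FBar (D.Q * D.R)) (IsLocalRing.ResidueField A)
    (modularFunctionFieldFullC (IsLocalRing.ResidueField A) D.R)}
  (hS : IsGaussSetup (D.Q * D.R) D.R A S)

include hS in
/-- **`[F_k(M₀) : k(red_0 (q ^ 12 / u₁))] = q · ((q - 1) ψ(M₀))`.** -/
theorem finrank_red_zero_uF (hq : q.Prime) (hqR : ¬ q ∣ D.R) (hA : A.LiesOverPrime q) :
    Module.finrank (IsLocalRing.ResidueField A)⟮(valSetupZero D S).red
        (algebraMap Qb (FBar (D.Q * D.R)) ((q : Qb) ^ 12) /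
          uF (D.Q * D.R) q (seedU_dvd (seedU_dvd_level D q hQ)))⟯
      (modularFunctionFieldFullC (IsLocalRing.ResidueField A) D.R) =
        q * ((q - 1) * dedekindPsi D.R) := by
  rw [red_const_div_uF_zero D q hQ]
  exact finrank_red_uF2 hS q hq hqR hA _

include hS in
/-- **`[F_k(M₀) : k(red_0 (q ^ 12 / u₂))] = (q - 1) ψ(M₀)`.** -/
theorem finrank_red_zero_uF2 (hq : q.Prime) (hqR : ¬ q ∣ D.R) (hA : A.LiesOverPrime q) :
    Module.finrank (IsLocalRing.ResidueField A)⟮(valSetupZero D S).red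
        (algebraMap Qb (FBar (D.Q * D.R)) ((q : Qb) ^ 12) /
          uF2 (D.Q * D.R) q (seedU_dvd_level D q hQ))⟯
      (modularFunctionFieldFullC (IsLocalRing.ResidueField A) D.R) =
        (q - 1) * dedekindPsi D.R := by
  rw [red_const_div_uF2_zero D q hQ]
  exact finrank_red_uF hS q hq hqR hA _

end Zero

end Fermat.Agent.S36G
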