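/-
Cluster G (S36, bad reduction at `q² ∥ M`), seat SEED-MN (A) (helper91; sub-architect helper92):
**the multi-node data of the node family (A)** of the SEED blueprint v1.1: the parameter
`u = u₂ = Δ(qz) / Δ(q²z)`, radii `0 | 12 q / (q + 1)`:

* `V₁ = {∞}`      : the ONLY extension of the Gauss valuation of `K(u₂)`;
* `V₂ = {hor P}`  (`mn1V₂` of helper18's `MN1.lean`): ALL the extensions of the Gauss valuation of
                    `K(ϖ / u₂)`, `v(ϖ) = 12 q / (q + 1)`.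

Abstract part (arbitrary family `S c`, `c : Vtx Mid SS`; inputs as hypotheses, as in `MN1.lean`):
* `mnA_data`      : `MNData S {∞} (mn1V₂ Mid SS) u ϖ`;
* `mnA_multiNode` : the conclusion of the multi-extension node theorem;
* `mnA_node`      : the same, written out on the vertices `∞`, `hor P`.

Modular part (`N = q² M₀ = D.Q * D.R`, `A | q`, `S ∞` a Gauss setup):
* `mnA_data_mod`  : `MNData S {∞} (mn1V₂ Mid SS) u₂ ϖ` where the inputs at `∞` (**U2**, **UDEG**: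
  helper19's `U2.lean`, `UDeg.lean`) are discharged; what is left are the exports of **W-P**:
  `ϖ / u₂` is integral with transcendental reduction on every `w_P`, and
  `(q - 1) (q ψ(M₀)) ≤ ∑_P [k(H_P) : k(red_P (ϖ / u₂))]`;
* `mnA_hdeg_of_const` : the last inequality from `d ≤ [k(H_P) : k(..)]` for all `P` and
  `(q - 1) (q ψ(M₀)) ≤ #SS · d`   (`d = 12 q`, GENUS: `(q - 1) ψ(M₀) ≤ 12 #SS`).
-/
import Mathlib
import Fermat.Agent.S36.Seed.UDeg
import Fermat.Agent.S36.Seed.MN1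

set_option autoImplicit false
set_option linter.style.haveILetI false
set_option linter.unusedSectionVars false
set_option synthInstance.maxHeartbeats 400000

noncomputable section

namespace Fermat.Agent.S36G

open IntermediateField ModularCurve AlgebraicCurve Fermat.Agent.GaussInt Fermat.Agent.AtkinLehner
  Fermat.Agent.Deuring Fermat.Agent.S28 Fermat.Agent.F3 Fermat.Agent.F3G Fermat.Agent.BadRed
  Fermat.Agent.RR Fermat.Agent.BadRedG

local notation "Qb" => AlgebraicClosure ℚ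

-- build-time recipe (helper70): the instance terms are unchanged, only the search order
attribute [local instance 10000] SubalgebraClass.toAlgebra HahnSeries.powerSeriesAlgebra

/-! ### the abstract part -/

section Abs

variable {Mid SS : Type} {K F k : Type*} [Field K] [Field F] [Algebra K F] [Field k]
  [Fintype SS]
  {Fk : Vtx Mid SS → Type*} [∀ c, Field (Fk c)] [∀ c, Algebra k (Fk c)]
  (S : ∀ c : Vtx Mid SS, ValSetup K F k (Fk c))

/-- the horizontal degree from the local degrees: `d ≤ [k(H_P) : k(x̄_P)]` for all `P` and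
`n ≤ #SS · d` give `n ≤ ∑_P [k(H_P) : k(x̄_P)]`. -/
theorem mnA_hdeg_of_const {x : F} {n d : ℕ}
    (hd : ∀ P : SS, d ≤ Module.finrank k⟮(S (Vtx.hor P)).red x⟯ (Fk (Vtx.hor P)))
    (hn : n ≤ Fintype.card SS * d) :
    n ≤ ∑ P : SS, Module.finrank k⟮(S (Vtx.hor P)).red x⟯ (Fk (Vtx.hor P)) := by
  refine hn.trans ?_
  calc Fintype.card SS * d = ∑ _P : SS, d := by
        rw [Finset.sum_const, Finset.card_univ, smul_eq_mul]
    _ ≤ _ := Finset.sum_le_sum fun P _ => hd P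

/-- **SEED-MN-A**: the multi-node data of the node family (A): `u = u₂`, `V₁ = {∞}`,
`V₂ = {hor P}`. -/
theorem mnA_data [Nonempty SS]
    (hA : ∀ c c' : Vtx Mid SS, (S c).A = (S c').A)
    (hres : ∀ (c c' : Vtx Mid SS) (x : K) (h : x ∈ (S c).A) (h' : x ∈ (S c').A),
      (S c).res ⟨x, h⟩ = (S c').res ⟨x, h'⟩)
    (hindep : ∀ c c' : Vtx Mid SS, c ≠ c' → ¬ (S c).Ov ≤ (S c').Ov)
    {u : F} {ϖ : K} (hϖ0 : ϖ ≠ 0) (hϖ : ϖ ∈ (S (Vtx.vert Vrt.oo)).A)
    (hϖres : (S (Vtx.vert Vrt.oo)).res ⟨ϖ, hϖ⟩ = 0)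
    -- U2
    (hu_oo : u ∈ (S (Vtx.vert Vrt.oo)).Ov)
    (htr_oo : Transcendental k ((S (Vtx.vert Vrt.oo)).red u))
    -- W-P
    (hu_hor : ∀ P, algebraMap K F ϖ / u ∈ (S (Vtx.hor P)).Ov)
    (htr_hor : ∀ P, Transcendental k ((S (Vtx.hor P)).red (algebraMap K F ϖ / u)))
    -- UDEG
    (hdeg₁ : Module.finrank K⟮u⟯ F ≤
      Module.finrank k⟮(S (Vtx.vert Vrt.oo)).red u⟯ (Fk (Vtx.vert Vrt.oo)))
    (hdeg₂ : Module.finrank K⟮u⟯ F ≤
      ∑ P, Module.finrank k⟮(S (Vtx.hor P)).red (algebraMap K F ϖ / u)⟯ (Fk (Vtx.hor P))) :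
    MNData S {Vtx.vert Vrt.oo} (mn1V₂ Mid SS) u ϖ where
  A_eq := hA
  res_eq := hres
  indep := hindep
  ne₁ := Finset.singleton_nonempty _
  ne₂ := by
    obtain ⟨P⟩ := ‹Nonempty SS›
    exact ⟨_, hor_mem_mn1V₂ P⟩
  ϖ_ne := hϖ0
  ϖ_mem := fun c => hA (Vtx.vert Vrt.oo) c ▸ hϖ
  ϖ_res := fun c h => by rw [hres c (Vtx.vert Vrt.oo) ϖ h hϖ, hϖres]
  u_mem := by
    intro c hc
    rw [Finset.mem_singleton] at hc
    subst hc
    exact hu_oo
  u_tr := by
    intro c hc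
    rw [Finset.mem_singleton] at hc
    subst hc
    exact htr_oo
  u'_mem := by
    intro c hc
    obtain ⟨P, rfl⟩ := mem_mn1V₂.mp hc
    exact hu_hor P
  u'_tr := by
    intro c hc
    obtain ⟨P, rfl⟩ := mem_mn1V₂.mp hc
    exact htr_hor P
  deg₁ := by
    rw [Finset.sum_singleton]
    exact hdeg₁
  deg₂ := by
    rw [sum_mn1V₂ (fun c => Module.finrank k⟮(S c).red (algebraMap K F ϖ / u)⟯ (Fk c))]
    exact hdeg₂

variable {S}

/-- the multi-extension node theorem for the family (A), in the form of `MultiNodeStatement`. -/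
theorem mnA_multiNode [Infinite k] {u : F} {ϖ : K}
    (D : MNData S {Vtx.vert Vrt.oo} (mn1V₂ Mid SS) u ϖ) (f : F)
    (hf₁ : ∀ c ∈ ({Vtx.vert Vrt.oo} : Finset (Vtx Mid SS)), f ∈ (S c).Ov)
    (hf₂ : ∀ c ∈ mn1V₂ Mid SS, f ∈ (S c).Ov)
    (hf : ∀ P : Place K F, P.ord f < 0 → P.ord u ≠ 0) :
    (∀ c ∈ ({Vtx.vert Vrt.oo} : Finset (Vtx Mid SS)), ∀ Q : Place k (Fk c),
      0 ≤ Q.ord ((S c).red u) → 0 ≤ Q.ord ((S c).red f)) ∧
    (∀ c ∈ mn1V₂ Mid SS, ∀ Q : Place k (Fk c),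
      0 ≤ Q.ord ((S c).red (algebraMap K F ϖ / u)) → 0 ≤ Q.ord ((S c).red f)) ∧
    ∀ a : k, ∑ c ∈ ({Vtx.vert Vrt.oo} : Finset (Vtx Mid SS)),
        mnCount (S c).hFk ((S c).red u) ((S c).red f) a =
      ∑ c ∈ mn1V₂ Mid SS,
        mnCount (S c).hFk ((S c).red (algebraMap K F ϖ / u)) ((S c).red f) a :=
  multiNode_of_rootCount S _ _ u ϖ (fun _ => rootCount) D f hf₁ hf₂ hf

/-- **the node theorem of the family (A)**, written out on the vertices: for `f` integral at `∞`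
and at all the `hor P`, whose poles are zeros or poles of `u`, the reductions are regular off the
poles of `ū` resp. `ū'`, and for every `a : k` the weighted number of the zeros of `ū` on `Z_∞`
at which `f` takes the value `a` is the weighted number of the zeros of `ū'` on `⋃ H_P` at which
`f` takes the value `a`. -/
theorem mnA_node [Infinite k] {u : F} {ϖ : K}
    (D : MNData S {Vtx.vert Vrt.oo} (mn1V₂ Mid SS) u ϖ) (f : F)
    (hf_oo : f ∈ (S (Vtx.vert Vrt.oo)).Ov) (hf_hor : ∀ P, f ∈ (S (Vtx.hor P)).Ov)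
    (hf : ∀ P : Place K F, P.ord f < 0 → P.ord u ≠ 0) :
    (∀ Q : Place k (Fk (Vtx.vert Vrt.oo)), 0 ≤ Q.ord ((S (Vtx.vert Vrt.oo)).red u) →
      0 ≤ Q.ord ((S (Vtx.vert Vrt.oo)).red f)) ∧
    (∀ (P : SS) (Q : Place k (Fk (Vtx.hor P))),
      0 ≤ Q.ord ((S (Vtx.hor P)).red (algebraMap K F ϖ / u)) →
        0 ≤ Q.ord ((S (Vtx.hor P)).red f)) ∧
    ∀ a : k,
      mnCount (S (Vtx.vert Vrt.oo)).hFk ((S (Vtx.vert Vrt.oo)).red u)
          ((S (Vtx.vert Vrt.oo)).red f) a =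
      ∑ P, mnCount (S (Vtx.hor P)).hFk ((S (Vtx.hor P)).red (algebraMap K F ϖ / u))
        ((S (Vtx.hor P)).red f) a := by
  have hf₁ : ∀ c ∈ ({Vtx.vert Vrt.oo} : Finset (Vtx Mid SS)), f ∈ (S c).Ov := by
    intro c hc
    rw [Finset.mem_singleton] at hc
    subst hc
    exact hf_oo
  have hf₂ : ∀ c ∈ mn1V₂ Mid SS, f ∈ (S c).Ov := by
    intro c hc
    obtain ⟨P, rfl⟩ := mem_mn1V₂.mp hc
    exact hf_hor P
  obtain ⟨h1, h2, h3⟩ := mnA_multiNode D f hf₁ hf₂ hf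
  refine ⟨h1 _ (Finset.mem_singleton_self _), fun P => h2 _ (hor_mem_mn1V₂ P), fun a => ?_⟩
  have := h3 a
  rwa [Finset.sum_singleton,
    sum_mn1V₂ (fun c => mnCount (S c).hFk ((S c).red (algebraMap K F ϖ / u)) ((S c).red f) a)]
    at this

end Abs

/-! ### the modular part -/

section Mod

variable (D : ALData) [NeZero (D.Q * D.R)] [NeZero D.R] (q : ℕ) [NeZero q] (hQ : q * q = D.Q)
  {A : ValuationSubring Qb}
  {Mid SS : Type} [Fintype SS]
  {FkM : Mid → Type} [∀ m, Field (FkM m)] [∀ m, Algebra (IsLocalRing.ResidueField A) (FkM m)]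
  {FkP : SS → Type} [∀ P, Field (FkP P)] [∀ P, Algebra (IsLocalRing.ResidueField A) (FkP P)]
  (S : ∀ c : Vtx Mid SS, ValSetup Qb (FBar (D.Q * D.R)) (IsLocalRing.ResidueField A)
    (FkOf (modularFunctionFieldFullC (IsLocalRing.ResidueField A) D.R) FkM FkP c))

set_option maxHeartbeats 3200000 in
/-- **the multi-node data of the node family (A) on `X₀(q² M₀)`**: `u = u₂`, `V₁ = {∞}`,
`V₂ = {hor P}`.  The inputs at `∞` are discharged (`S ∞` a Gauss setup); the inputs at the `hor P`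
are the exports of W-P. -/
theorem mnA_data_mod [Nonempty SS] (hq : q.Prime) (hqR : ¬ q ∣ D.R) (hA : A.LiesOverPrime q)
    (hAeq : ∀ c c' : Vtx Mid SS, (S c).A = (S c').A)
    (hres : ∀ (c c' : Vtx Mid SS) (x : Qb) (h : x ∈ (S c).A) (h' : x ∈ (S c').A),
      (S c).res ⟨x, h⟩ = (S c').res ⟨x, h'⟩)
    (hindep : ∀ c c' : Vtx Mid SS, c ≠ c' → ¬ (S c).Ov ≤ (S c').Ov)
    (hoo : IsGaussSetup (D.Q * D.R) D.R A (S (Vtx.vert Vrt.oo)))
    {ϖ : Qb} (hϖ0 : ϖ ≠ 0) (hϖm : ϖ ∈ A) (hϖr : IsLocalRing.residue A ⟨ϖ, hϖm⟩ = 0)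
    -- W-P
    (hu_hor : ∀ P, algebraMap Qb (FBar (D.Q * D.R)) ϖ /
      uF2 (D.Q * D.R) q (seedU_dvd_level D q hQ) ∈ (S (Vtx.hor P)).Ov)
    (htr_hor : ∀ P, Transcendental (IsLocalRing.ResidueField A)
      ((S (Vtx.hor P)).red (algebraMap Qb (FBar (D.Q * D.R)) ϖ /
        uF2 (D.Q * D.R) q (seedU_dvd_level D q hQ))))
    (hdeg_hor : (q - 1) * (q * dedekindPsi D.R) ≤
      ∑ P, Module.finrank (IsLocalRing.ResidueField A)⟮(S (Vtx.hor P)).red
        (algebraMap Qb (FBar (D.Q * D.R)) ϖ / uF2 (D.Q * D.R) q (seedU_dvd_level D q hQ))⟯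
        (FkOf (modularFunctionFieldFullC (IsLocalRing.ResidueField A) D.R) FkM FkP
          (Vtx.hor P))) :
    MNData S {Vtx.vert Vrt.oo} (mn1V₂ Mid SS)
      (uF2 (D.Q * D.R) q (seedU_dvd_level D q hQ)) ϖ := by
  have hAoo : (S (Vtx.vert Vrt.oo)).A = A := hoo.A_eq
  have hm0 : ϖ ∈ (S (Vtx.vert Vrt.oo)).A := by
    rw [hAoo]
    exact hϖm
  have hr0 : (S (Vtx.vert Vrt.oo)).res ⟨ϖ, hm0⟩ = 0 := by
    rw [hoo.res_eq ϖ hm0 hϖm, hϖr]
  refine mnA_data S hAeq hres hindep hϖ0 hm0 hr0 (uF2_mem_Ov hoo q _)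
    (transcendental_red_uF2 hoo q _ hq hA) hu_hor htr_hor ?_ ?_
  · rw [finrank_uF2_sq D q hQ hq hqR]
    have h := finrank_red_uF2 hoo q hq hqR hA (seedU_dvd_level D q hQ)
    rw [Nat.mul_left_comm] at h
    exact le_of_eq h.symm
  · rw [finrank_uF2_sq D q hQ hq hqR]
    exact hdeg_hor

end Mod

end Fermat.Agent.S36G
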