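/-
Cluster G (S36, bad reduction at `q² ∥ M`), seat SEED-MN (2) (helper91; sub-architect helper92):
**the multi-node data of the node family (2)** of the SEED blueprint v1.1: the parameter
`u = u₁ / ϖ₁`, `u₁ = Δ(z) / Δ(qz)`, `ϖ = q ^ 12 / ϖ₁`, radii `12 / (q + 1) | 12`:

* `V₁ = {hor P}`  (`mn1V₂` of helper18's `MN1.lean`): ALL the extensions of the Gauss valuation of
                    `K(u₁ / ϖ₁)`, `v(ϖ₁) = 12 / (q + 1)`;
* `V₂ = {0}`      : the ONLY extension of the Gauss valuation of `K(q ^ 12 / u₁)`.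

Abstract part (arbitrary family `S c`, `c : Vtx Mid SS`; inputs as hypotheses, as in `MN1.lean`):
* `mn2_data`      : `MNData S (mn1V₂ Mid SS) {0} u ϖ`;
* `mn2_multiNode` : the conclusion of the multi-extension node theorem;
* `mn2_node`      : the same, written out on the vertices `hor P`, `0`.

Modular part (`N = q² M₀ = D.Q * D.R`, `A | q`, `S ∞` a Gauss setup, `S 0 = v_∞ ∘ w_{q²}`):
* `seed_adjoin_div_const`, `seed_finrank_div_const` : `K(y / c) = K(y)`;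
* `seed_const_div_div` : `(c / c₁) / (y / c₁) = c / y`;
* `mn2_data_mod`  : `MNData S (mn1V₂ Mid SS) {0} (u₁ / ϖ₁) (q ^ 12 / ϖ₁)` where the inputs at `0`
  (**U1**, **UDEG**: helper19's `U2.lean`, `UDeg.lean`) are discharged; what is left are the
  exports of **W-P**: `u₁ / ϖ₁` is integral with transcendental reduction on every `w_P`, and
  `(q - 1) (q ψ(M₀)) ≤ ∑_P [k(H_P) : k(red_P (u₁ / ϖ₁))]`.
-/
import Mathlib
import Fermat.Agent.S36.Seed.MNA

set_option autoImplicit false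
set_option linter.style.haveILetI false
set_option linter.unusedSectionVars false
set_option synthInstance.maxHeartbeats 400000

noncomputable section

namespace Fermat.Agent.S36G

open IntermediateField ModularCurve AlgebraicCurve Fermat.Agent.GaussInt Fermat.Agent.AtkinLehner
  Fermat.Agent.Deuring Fermat.Agent.S28 Fermat.Agent.F3 Fermat.Agent.F3G Fermat.Agent.BadRed
  Fermat.Agent.RR Fermat.Agent.BadRedG

local notation "Qb" => AlgebraicClosure ℚ

-- build-time recipe (helper70): the instance terms are unchanged, only the search order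
attribute [local instance 10000] SubalgebraClass.toAlgebra HahnSeries.powerSeriesAlgebra

/-! ### field theory -/

section Field

variable {K F : Type*} [Field K] [Field F] [Algebra K F]

/-- `K(y / c) = K(y)` for a constant `c ≠ 0`. -/
theorem seed_adjoin_div_const {c : K} (hc : c ≠ 0) (y : F) :
    K⟮y / algebraMap K F c⟯ = K⟮y⟯ := by
  have hcF : algebraMap K F c ≠ 0 := (_root_.map_ne_zero _).mpr hc
  apply le_antisymm
  · rw [IntermediateField.adjoin_simple_le_iff]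
    exact div_mem (IntermediateField.mem_adjoin_simple_self K y)
      (IntermediateField.algebraMap_mem _ c)
  · rw [IntermediateField.adjoin_simple_le_iff]
    have h2 : y / algebraMap K F c * algebraMap K F c ∈ K⟮y / algebraMap K F c⟯ :=
      mul_mem (IntermediateField.mem_adjoin_simple_self K _)
        (IntermediateField.algebraMap_mem _ c)
    rwa [div_mul_cancel₀ _ hcF] at h2

/-- `[F : K(y / c)] = [F : K(y)]`. -/
theorem seed_finrank_div_const {c : K} (hc : c ≠ 0) (y : F) :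
    Module.finrank K⟮y / algebraMap K F c⟯ F = Module.finrank K⟮y⟯ F := by
  rw [seed_adjoin_div_const hc y]

/-- `(c / c₁) / (y / c₁) = c / y`. -/
theorem seed_const_div_div (c : K) {c₁ : K} (hc₁ : c₁ ≠ 0) (y : F) :
    algebraMap K F (c / c₁) / (y / algebraMap K F c₁) = algebraMap K F c / y := by
  have hcF : algebraMap K F c₁ ≠ 0 := (_root_.map_ne_zero _).mpr hc₁
  rw [map_div₀, div_div_div_cancel_right₀ hcF]

end Field

/-! ### the abstract part -/

section Abs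

variable {Mid SS : Type} {K F k : Type*} [Field K] [Field F] [Algebra K F] [Field k]
  [Fintype SS]
  {Fk : Vtx Mid SS → Type*} [∀ c, Field (Fk c)] [∀ c, Algebra k (Fk c)]
  (S : ∀ c : Vtx Mid SS, ValSetup K F k (Fk c))

/-- **SEED-MN-2**: the multi-node data of the node family (2): `u = u₁ / ϖ₁`, `V₁ = {hor P}`,
`V₂ = {0}`. -/
theorem mn2_data [Nonempty SS]
    (hA : ∀ c c' : Vtx Mid SS, (S c).A = (S c').A)
    (hres : ∀ (c c' : Vtx Mid SS) (x : K) (h : x ∈ (S c).A) (h' : x ∈ (S c').A),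
      (S c).res ⟨x, h⟩ = (S c').res ⟨x, h'⟩)
    (hindep : ∀ c c' : Vtx Mid SS, c ≠ c' → ¬ (S c).Ov ≤ (S c').Ov)
    {u : F} {ϖ : K} (hϖ0 : ϖ ≠ 0) (hϖ : ϖ ∈ (S (Vtx.vert Vrt.zero)).A)
    (hϖres : (S (Vtx.vert Vrt.zero)).res ⟨ϖ, hϖ⟩ = 0)
    -- W-P
    (hu_hor : ∀ P, u ∈ (S (Vtx.hor P)).Ov)
    (htr_hor : ∀ P, Transcendental k ((S (Vtx.hor P)).red u))
    -- U1 at `0`
    (hu_zero : algebraMap K F ϖ / u ∈ (S (Vtx.vert Vrt.zero)).Ov)
    (htr_zero : Transcendental k ((S (Vtx.vert Vrt.zero)).red (algebraMap K F ϖ / u)))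
    -- UDEG
    (hdeg₁ : Module.finrank K⟮u⟯ F ≤
      ∑ P, Module.finrank k⟮(S (Vtx.hor P)).red u⟯ (Fk (Vtx.hor P)))
    (hdeg₂ : Module.finrank K⟮u⟯ F ≤
      Module.finrank k⟮(S (Vtx.vert Vrt.zero)).red (algebraMap K F ϖ / u)⟯
        (Fk (Vtx.vert Vrt.zero))) :
    MNData S (mn1V₂ Mid SS) {Vtx.vert Vrt.zero} u ϖ where
  A_eq := hA
  res_eq := hres
  indep := hindep
  ne₁ := by
    obtain ⟨P⟩ := ‹Nonempty SS›
    exact ⟨_, hor_mem_mn1V₂ P⟩
  ne₂ := Finset.singleton_nonempty _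
  ϖ_ne := hϖ0
  ϖ_mem := fun c => hA (Vtx.vert Vrt.zero) c ▸ hϖ
  ϖ_res := fun c h => by rw [hres c (Vtx.vert Vrt.zero) ϖ h hϖ, hϖres]
  u_mem := by
    intro c hc
    obtain ⟨P, rfl⟩ := mem_mn1V₂.mp hc
    exact hu_hor P
  u_tr := by
    intro c hc
    obtain ⟨P, rfl⟩ := mem_mn1V₂.mp hc
    exact htr_hor P
  u'_mem := by
    intro c hc
    rw [Finset.mem_singleton] at hc
    subst hc
    exact hu_zero
  u'_tr := by
    intro c hc
    rw [Finset.mem_singleton] at hc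
    subst hc
    exact htr_zero
  deg₁ := by
    rw [sum_mn1V₂ (fun c => Module.finrank k⟮(S c).red u⟯ (Fk c))]
    exact hdeg₁
  deg₂ := by
    rw [Finset.sum_singleton]
    exact hdeg₂

variable {S}

/-- the multi-extension node theorem for the family (2), in the form of `MultiNodeStatement`. -/
theorem mn2_multiNode [Infinite k] {u : F} {ϖ : K}
    (D : MNData S (mn1V₂ Mid SS) {Vtx.vert Vrt.zero} u ϖ) (f : F)
    (hf₁ : ∀ c ∈ mn1V₂ Mid SS, f ∈ (S c).Ov)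
    (hf₂ : ∀ c ∈ ({Vtx.vert Vrt.zero} : Finset (Vtx Mid SS)), f ∈ (S c).Ov)
    (hf : ∀ P : Place K F, P.ord f < 0 → P.ord u ≠ 0) :
    (∀ c ∈ mn1V₂ Mid SS, ∀ Q : Place k (Fk c),
      0 ≤ Q.ord ((S c).red u) → 0 ≤ Q.ord ((S c).red f)) ∧
    (∀ c ∈ ({Vtx.vert Vrt.zero} : Finset (Vtx Mid SS)), ∀ Q : Place k (Fk c),
      0 ≤ Q.ord ((S c).red (algebraMap K F ϖ / u)) → 0 ≤ Q.ord ((S c).red f)) ∧
    ∀ a : k, ∑ c ∈ mn1V₂ Mid SS, mnCount (S c).hFk ((S c).red u) ((S c).red f) a =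
      ∑ c ∈ ({Vtx.vert Vrt.zero} : Finset (Vtx Mid SS)),
        mnCount (S c).hFk ((S c).red (algebraMap K F ϖ / u)) ((S c).red f) a :=
  multiNode_of_rootCount S _ _ u ϖ (fun _ => rootCount) D f hf₁ hf₂ hf

/-- **the node theorem of the family (2)**, written out on the vertices: for `f` integral at all
the `hor P` and at `0`, whose poles are zeros or poles of `u`, the reductions are regular off the
poles of `ū` resp. `ū'`, and for every `a : k` the weighted number of the zeros of `ū` on `⋃ H_P`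
at which `f` takes the value `a` is the weighted number of the zeros of `ū'` on `Z_0` at which
`f` takes the value `a`. -/
theorem mn2_node [Infinite k] {u : F} {ϖ : K}
    (D : MNData S (mn1V₂ Mid SS) {Vtx.vert Vrt.zero} u ϖ) (f : F)
    (hf_hor : ∀ P, f ∈ (S (Vtx.hor P)).Ov) (hf_zero : f ∈ (S (Vtx.vert Vrt.zero)).Ov)
    (hf : ∀ P : Place K F, P.ord f < 0 → P.ord u ≠ 0) :
    (∀ (P : SS) (Q : Place k (Fk (Vtx.hor P))), 0 ≤ Q.ord ((S (Vtx.hor P)).red u) →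
      0 ≤ Q.ord ((S (Vtx.hor P)).red f)) ∧
    (∀ Q : Place k (Fk (Vtx.vert Vrt.zero)),
      0 ≤ Q.ord ((S (Vtx.vert Vrt.zero)).red (algebraMap K F ϖ / u)) →
        0 ≤ Q.ord ((S (Vtx.vert Vrt.zero)).red f)) ∧
    ∀ a : k,
      ∑ P, mnCount (S (Vtx.hor P)).hFk ((S (Vtx.hor P)).red u) ((S (Vtx.hor P)).red f) a =
      mnCount (S (Vtx.vert Vrt.zero)).hFk
        ((S (Vtx.vert Vrt.zero)).red (algebraMap K F ϖ / u))
        ((S (Vtx.vert Vrt.zero)).red f) a := by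
  have hf₁ : ∀ c ∈ mn1V₂ Mid SS, f ∈ (S c).Ov := by
    intro c hc
    obtain ⟨P, rfl⟩ := mem_mn1V₂.mp hc
    exact hf_hor P
  have hf₂ : ∀ c ∈ ({Vtx.vert Vrt.zero} : Finset (Vtx Mid SS)), f ∈ (S c).Ov := by
    intro c hc
    rw [Finset.mem_singleton] at hc
    subst hc
    exact hf_zero
  obtain ⟨h1, h2, h3⟩ := mn2_multiNode D f hf₁ hf₂ hf
  refine ⟨fun P => h1 _ (hor_mem_mn1V₂ P), h2 _ (Finset.mem_singleton_self _), fun a => ?_⟩
  have := h3 a
  rwa [Finset.sum_singleton,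
    sum_mn1V₂ (fun c => mnCount (S c).hFk ((S c).red u) ((S c).red f) a)] at this

end Abs

/-! ### the modular part -/

section Mod

variable (D : ALData) [NeZero (D.Q * D.R)] [NeZero D.R] (q : ℕ) [NeZero q] (hQ : q * q = D.Q)
  {A : ValuationSubring Qb}
  {Mid SS : Type} [Fintype SS]
  {FkM : Mid → Type} [∀ m, Field (FkM m)] [∀ m, Algebra (IsLocalRing.ResidueField A) (FkM m)]
  {FkP : SS → Type} [∀ P, Field (FkP P)] [∀ P, Algebra (IsLocalRing.ResidueField A) (FkP P)]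
  (S : ∀ c : Vtx Mid SS, ValSetup Qb (FBar (D.Q * D.R)) (IsLocalRing.ResidueField A)
    (FkOf (modularFunctionFieldFullC (IsLocalRing.ResidueField A) D.R) FkM FkP c))

set_option maxHeartbeats 3200000 in
/-- **the multi-node data of the node family (2) on `X₀(q² M₀)`**: `u = u₁ / ϖ₁`,
`ϖ = q ^ 12 / ϖ₁`, `V₁ = {hor P}`, `V₂ = {0}`.  The inputs at `0` are discharged (`S ∞` a Gauss
setup, `S 0 = v_∞ ∘ w_{q²}`); the inputs at the `hor P` are the exports of W-P. -/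
theorem mn2_data_mod [Nonempty SS] (hq : q.Prime) (hqR : ¬ q ∣ D.R) (hA : A.LiesOverPrime q)
    (hAeq : ∀ c c' : Vtx Mid SS, (S c).A = (S c').A)
    (hres : ∀ (c c' : Vtx Mid SS) (x : Qb) (h : x ∈ (S c).A) (h' : x ∈ (S c').A),
      (S c).res ⟨x, h⟩ = (S c').res ⟨x, h'⟩)
    (hindep : ∀ c c' : Vtx Mid SS, c ≠ c' → ¬ (S c).Ov ≤ (S c').Ov)
    (hoo : IsGaussSetup (D.Q * D.R) D.R A (S (Vtx.vert Vrt.oo)))
    (hzero : S (Vtx.vert Vrt.zero) = valSetupZero D (S (Vtx.vert Vrt.oo)))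
    {ϖ₁ : Qb} (hϖ0 : ϖ₁ ≠ 0) (hϖm : (q : Qb) ^ 12 / ϖ₁ ∈ A)
    (hϖr : IsLocalRing.residue A ⟨(q : Qb) ^ 12 / ϖ₁, hϖm⟩ = 0)
    -- W-P
    (hu_hor : ∀ P, uF (D.Q * D.R) q (seedU_dvd (seedU_dvd_level D q hQ)) /
      algebraMap Qb (FBar (D.Q * D.R)) ϖ₁ ∈ (S (Vtx.hor P)).Ov)
    (htr_hor : ∀ P, Transcendental (IsLocalRing.ResidueField A)
      ((S (Vtx.hor P)).red (uF (D.Q * D.R) q (seedU_dvd (seedU_dvd_level D q hQ)) /
        algebraMap Qb (FBar (D.Q * D.R)) ϖ₁)))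
    (hdeg_hor : (q - 1) * (q * dedekindPsi D.R) ≤
      ∑ P, Module.finrank (IsLocalRing.ResidueField A)⟮(S (Vtx.hor P)).red
        (uF (D.Q * D.R) q (seedU_dvd (seedU_dvd_level D q hQ)) /
          algebraMap Qb (FBar (D.Q * D.R)) ϖ₁)⟯
        (FkOf (modularFunctionFieldFullC (IsLocalRing.ResidueField A) D.R) FkM FkP
          (Vtx.hor P))) :
    MNData S (mn1V₂ Mid SS) {Vtx.vert Vrt.zero}
      (uF (D.Q * D.R) q (seedU_dvd (seedU_dvd_level D q hQ)) /
        algebraMap Qb (FBar (D.Q * D.R)) ϖ₁) ((q : Qb) ^ 12 / ϖ₁) := by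
  have hAoo : (S (Vtx.vert Vrt.oo)).A = A := hoo.A_eq
  have hm0 : (q : Qb) ^ 12 / ϖ₁ ∈ (S (Vtx.vert Vrt.oo)).A := by
    rw [hAoo]
    exact hϖm
  have hr0 : (S (Vtx.vert Vrt.oo)).res ⟨(q : Qb) ^ 12 / ϖ₁, hm0⟩ = 0 := by
    rw [hoo.res_eq _ hm0 hϖm, hϖr]
  have hmz : (q : Qb) ^ 12 / ϖ₁ ∈ (S (Vtx.vert Vrt.zero)).A := by
    rw [hAeq (Vtx.vert Vrt.zero) (Vtx.vert Vrt.oo)]
    exact hm0
  have hrz : (S (Vtx.vert Vrt.zero)).res ⟨(q : Qb) ^ 12 / ϖ₁, hmz⟩ = 0 := by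
    rw [hres _ (Vtx.vert Vrt.oo) _ hmz hm0, hr0]
  have hn : Module.finrank Qb⟮uF (D.Q * D.R) q (seedU_dvd (seedU_dvd_level D q hQ)) /
      algebraMap Qb (FBar (D.Q * D.R)) ϖ₁⟯ (FBar (D.Q * D.R)) =
        (q - 1) * (q * dedekindPsi D.R) := by
    rw [seed_finrank_div_const hϖ0]
    exact finrank_uF_sq hq (by rw [hQ]) hqR _
  refine mn2_data S hAeq hres hindep (div_ne_zero (natCast_pow_ne_zero q 12) hϖ0) hmz hrz
    hu_hor htr_hor ?_ ?_ ?_ ?_
  · rw [seed_const_div_div _ hϖ0, hzero]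
    exact const_div_uF_mem_zero D q hQ hoo
  · rw [seed_const_div_div _ hϖ0, hzero]
    have h := red_const_div_uF_zero_pow D q hQ hoo hq hA
    have htr := (transcendental_red_uF hoo q (seedU_dvd (seedU_dvd_level D q hQ))
      hq.two_le).pow hq.pos
    rw [← h] at htr
    exact htr
  · rw [hn]
    exact hdeg_hor
  · rw [hn, seed_const_div_div _ hϖ0, hzero]
    have h := finrank_red_zero_uF D q hQ hoo hq hqR hA
    rw [Nat.mul_left_comm] at h
    exact le_of_eq h.symm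

end Mod

end Fermat.Agent.S36G
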