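import Mathlib
import Fermat.Agent.Lib.BadRed.Graph.NodeCount
import Fermat.Agent.Lib.GoodRed.Small.GenusZero
import Fermat.Agent.S36.Seed.YDefs
import Fermat.Agent.S36.G.Types

set_option autoImplicit false
set_option linter.unusedSectionVars false

/-!
# Cluster G (S36), SEED v3, seat CLEARING (helper37): the clearing functions of the `u`-only seed

SEED v3 (helper96 / helper74): the seed function is

    x = u + b / u + y,     y = b u ^ n / (u ^ n - b) ^ 2,     b = ϖ ^ n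

(modular: `u = u₁`, `n = q + 1`, `ϖ = ϖ₁`, `b = q ^ 12`).  Its non-cuspidal poles are the zeros of
`u ^ n - b`, of order twice the order of the zero.  The clearing functions are

    G₁ = cluG (ϖ / u) n = (1 - (ϖ / u) ^ n) ^ 2,      G₂ = cluG (u / ϖ) n = (1 - (u / ϖ) ^ n) ^ 2.

ABSTRACT file: a family `S c` of constant reductions, two consecutive Gauss radii of `K(u)` with
the families `V₁`, `V₂` (`MNData S V₁ V₂ u ϖ`, `Lib/BadRed/Graph/MultiNodeDefs.lean`).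

## Main statements (= the clearing fields of `ModEndsInput`, `S36/G/SeedInput.lean`)

* `cluG w n`, `clu_red_G`, `clu_unit_of_red_zero`, `clu_unit_of_transcendental` : the reduction of
  `G` and the two kinds of units;
* `clu_mn_left`, `clu_mn_right` : on `V₁` the function `ϖ / u` reduces to `0`, on `V₂` the function
  `u` reduces to `0`;
* `clu_G_mem_ncAdm`, `clu_clear_ncAdm` : the generic membership and clearing statements;
* `clu_poleDiv_le`, `clu_ord_G1`, `clu_ord_G2` : the pole order of the seed against the order of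
  the clearing functions at the places where `u` is a unit;
* node (1) (`u = u₁`, `G₁ = cluG (ϖ / u) n`): `clu1_mem`, `clu1_unit_left`, `clu1_unit_right`,
  `clu1_clear` (with the extra `ncAdm` of node (A), hypothesis `hcusp`);
* node (2) (`u₂ = u₁ / ϖ`, `G₂ = cluG u₂ n`): `clu2_mem`, `clu2_unit_left`, `clu2_unit_right`,
  `clu2_clear`;
* FINAL FORM, with helper74's `ymodY`, `ymodG1`, `ymodG2` (`S36/Seed/YDefs.lean`), `b = ϖ ^ n`,
  `x = u + b / u + ymodY u b n`, `D₀ = (x)_∞`: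
  `cluY1_mem`, `cluY1_unit_left`, `cluY1_unit_right`, `cluY1_clear` (node (1) + node (A)),
  `cluY2_mem`, `cluY2_unit_left`, `cluY2_unit_right`, `cluY2_clear` (node (2), function
  `u / ϖ` as in `mn2_data_mod`);
* `clu_fields` : ALL the clearing fields of `ModEndsInput` at once (on `Vtx Mid SS`), from the
  `MNData` of the nodes (1), (2), SEED-CUSP (`hcusp`) and `D₀ = (x)_∞`.
-/

noncomputable section

open AlgebraicCurve Polynomial

namespace Fermat.Agent.S36G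

open Fermat.Agent.RR Fermat.Agent.Deuring Fermat.Agent.BadRed Fermat.Agent.BadRedG

/-- the clearing function `(1 - w ^ n) ^ 2`. -/
def cluG {F : Type*} [Field F] (w : F) (n : ℕ) : F := (1 - w ^ n) ^ 2

theorem cluG_def {F : Type*} [Field F] (w : F) (n : ℕ) : cluG w n = (1 - w ^ n) ^ 2 := rfl

/-! ### Orders at a place -/

section Ord

variable {K F : Type*} [Field K] [Field F] [Algebra K F] (P : Place K F)

theorem clu_ord_add_nonneg {f g : F} (hf : 0 ≤ P.ord f) (hg : 0 ≤ P.ord g) :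
    0 ≤ P.ord (f + g) := by
  by_contra h
  rcases nc_ord_add_neg P (not_le.mp h) with h1 | h1
  · omega
  · omega

theorem clu_ord_mul_nonneg {f g : F} (hf : 0 ≤ P.ord f) (hg : 0 ≤ P.ord g) :
    0 ≤ P.ord (f * g) := by
  rcases eq_or_ne f 0 with rfl | hf0
  · rw [zero_mul, Place.ord_zero]
  rcases eq_or_ne g 0 with rfl | hg0
  · rw [mul_zero, Place.ord_zero]
  rw [P.ord_mul hf0 hg0]
  omega

theorem clu_ord_neg (f : F) : P.ord (-f) = P.ord f :=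
  Fermat.Agent.GoodRedSmall.ord_neg' P f

theorem clu_ord_pow (f : F) (n : ℕ) : P.ord (f ^ n) = n * P.ord f :=
  Fermat.Agent.GoodRedSmall.ord_pow' P f n

theorem clu_ord_pow_nonneg {f : F} (hf : 0 ≤ P.ord f) (n : ℕ) : 0 ≤ P.ord (f ^ n) := by
  rw [clu_ord_pow]
  exact mul_nonneg (Int.natCast_nonneg n) hf

theorem clu_ord_sub_nonneg {f g : F} (hf : 0 ≤ P.ord f) (hg : 0 ≤ P.ord g) :
    0 ≤ P.ord (f - g) := by
  rw [sub_eq_add_neg]
  exact clu_ord_add_nonneg P hf (by rw [clu_ord_neg]; exact hg)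

/-- `G` is regular where `w` is. -/
theorem clu_ord_G_nonneg {w : F} (hw : 0 ≤ P.ord w) (n : ℕ) : 0 ≤ P.ord (cluG w n) := by
  unfold cluG
  exact clu_ord_pow_nonneg P
    (clu_ord_sub_nonneg P (by rw [Place.ord_one]) (clu_ord_pow_nonneg P hw n)) 2

/-- the poles of `G` are poles of `w`. -/
theorem clu_ord_w_neg {w : F} {n : ℕ} (h : P.ord (cluG w n) < 0) : P.ord w < 0 := by
  by_contra hcon
  exact absurd (clu_ord_G_nonneg P (not_lt.mp hcon) n) (not_le.mpr h)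

/-- at a zero of `W` the function `1 - W ^ n` is a unit. -/
theorem clu_ord_one_sub_pow {W : F} (hW : 0 < P.ord W) (n : ℕ) : P.ord (1 - W ^ n) = 0 := by
  rcases Nat.eq_zero_or_pos n with rfl | hn
  · rw [pow_zero, sub_self, Place.ord_zero]
  have hW0 : W ≠ 0 := by
    rintro rfl
    rw [Place.ord_zero] at hW
    exact lt_irrefl _ hW
  have h1 : P.ord (-(W ^ n)) = n * P.ord W := by rw [clu_ord_neg, clu_ord_pow]
  have h2 : P.ord (1 : F) < P.ord (-(W ^ n)) := by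
    rw [Place.ord_one, h1]
    exact mul_pos (by exact_mod_cast hn) hW
  rw [sub_eq_add_neg, Fermat.Agent.GoodRedSmall.ord_add_eq_of_lt P one_ne_zero
    (neg_ne_zero.mpr (pow_ne_zero n hW0)) h2, Place.ord_one]

/-- at a zero of `W` the function `G(W)` is a unit. -/
theorem clu_ord_G_eq_zero {W : F} (hW : 0 < P.ord W) (n : ℕ) : P.ord (cluG W n) = 0 := by
  unfold cluG
  rw [clu_ord_pow, clu_ord_one_sub_pow P hW n, mul_zero]

end Ord

/-! ### Reductions -/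

section Red

variable {K F k Fk : Type*} [Field K] [Field F] [Algebra K F] [Field k] [Field Fk] [Algebra k Fk]
  (S : ValSetup K F k Fk)

theorem clu_G_mem_Ov {w : F} (hw : w ∈ S.Ov) (n : ℕ) : cluG w n ∈ S.Ov :=
  pow_mem (sub_mem S.Ov.one_mem (pow_mem hw n)) 2

theorem clu_red_G {w : F} (hw : w ∈ S.Ov) (n : ℕ) :
    S.red (cluG w n) = cluG (S.red w) n := by
  unfold cluG
  rw [S.red_pow (sub_mem S.Ov.one_mem (pow_mem hw n)), S.red_sub S.Ov.one_mem (pow_mem hw n),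
    S.red_one, S.red_pow hw]

theorem clu_red_G_of_red_zero {w : F} (hw : w ∈ S.Ov) (h0 : S.red w = 0) {n : ℕ} (hn : n ≠ 0) :
    S.red (cluG w n) = 1 := by
  rw [clu_red_G S hw, h0, cluG_def, zero_pow hn, sub_zero, one_pow]

/-- **unit, first kind**: where `w` reduces to `0` the function `G` reduces to `1`. -/
theorem clu_unit_of_red_zero {w : F} (hw : w ∈ S.Ov) (h0 : S.red w = 0) {n : ℕ} (hn : n ≠ 0)
    (Q : Place k Fk) : S.red (cluG w n) ≠ 0 ∧ Q.ord (S.red (cluG w n)) = 0 := by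
  rw [clu_red_G_of_red_zero S hw h0 hn]
  exact ⟨one_ne_zero, Q.ord_one⟩

theorem clu_pow_ne_one_of_transcendental {W : Fk} (hW : Transcendental k W) {n : ℕ}
    (hn : n ≠ 0) : W ^ n ≠ 1 := by
  intro h
  apply hW
  refine ⟨X ^ n - C 1, X_pow_sub_C_ne_zero (Nat.pos_of_ne_zero hn) 1, ?_⟩
  rw [map_sub, map_pow, aeval_X, aeval_C, map_one, h, sub_self]

theorem clu_ne_zero_of_transcendental {W : Fk} (hW : Transcendental k W) : W ≠ 0 := by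
  rintro rfl
  exact hW isAlgebraic_zero

/-- **unit, second kind**: where `w` has a transcendental reduction `W`, the function `G`
reduces to `(1 - W ^ n) ^ 2 ≠ 0`, a unit at every zero of `W`. -/
theorem clu_unit_of_transcendental {w : F} (hw : w ∈ S.Ov) (htr : Transcendental k (S.red w))
    {n : ℕ} (hn : n ≠ 0) (Q : Place k Fk) (hQ : 0 < Q.ord (S.red w)) :
    S.red (cluG w n) ≠ 0 ∧ Q.ord (S.red (cluG w n)) = 0 := by
  rw [clu_red_G S hw]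
  refine ⟨?_, clu_ord_G_eq_zero Q hQ n⟩
  rw [cluG_def]
  exact pow_ne_zero 2 (sub_ne_zero.mpr (clu_pow_ne_one_of_transcendental htr hn).symm)

end Red

/-! ### The two sides of a node -/

section MN

variable {K F k : Type*} [Field K] [Field F] [Algebra K F] [Field k]
  {κ : Type*} {Fk : κ → Type*} [∀ c, Field (Fk c)] [∀ c, Algebra k (Fk c)]
  {S : ∀ c : κ, ValSetup K F k (Fk c)} {V₁ V₂ : Finset κ} {u : F} {ϖ : K}

theorem clu_mn_algebraMap_ne (D : MNData S V₁ V₂ u ϖ) : algebraMap K F ϖ ≠ 0 :=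
  (map_ne_zero (algebraMap K F)).mpr D.ϖ_ne

theorem clu_mn_ord_algebraMap (P : Place K F) (a : K) : P.ord (algebraMap K F a) = 0 :=
  Fermat.Agent.S24Res.ord_algebraMap P a

theorem clu_mn_red_algebraMap (D : MNData S V₁ V₂ u ϖ) (c : κ) :
    algebraMap K F ϖ ∈ (S c).Ov ∧ (S c).red (algebraMap K F ϖ) = 0 := by
  refine ⟨(S c).algebraMap_mem (D.ϖ_mem c), ?_⟩
  rw [(S c).red_algebraMap (D.ϖ_mem c), D.ϖ_res c, map_zero]

theorem clu_mn_u_ne (D : MNData S V₁ V₂ u ϖ) : u ≠ 0 := by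
  obtain ⟨c, hc⟩ := D.ne₁
  rintro rfl
  exact clu_ne_zero_of_transcendental (D.u_tr c hc) (S c).red_zero

/-- on `V₁` the function `ϖ / u` is integral and reduces to `0`. -/
theorem clu_mn_left (D : MNData S V₁ V₂ u ϖ) {c : κ} (hc : c ∈ V₁) :
    algebraMap K F ϖ / u ∈ (S c).Ov ∧ (S c).red (algebraMap K F ϖ / u) = 0 := by
  have hne : (S c).red u ≠ 0 := clu_ne_zero_of_transcendental (D.u_tr c hc)
  have hinv : u⁻¹ ∈ (S c).Ov := (S c).inv_mem_of_red_ne_zero hne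
  obtain ⟨hϖ, hϖ0⟩ := clu_mn_red_algebraMap D c
  rw [div_eq_mul_inv]
  refine ⟨mul_mem hϖ hinv, ?_⟩
  rw [(S c).red_mul hϖ hinv, hϖ0, zero_mul]

/-- on `V₂` the function `u` is integral and reduces to `0`. -/
theorem clu_mn_right (D : MNData S V₁ V₂ u ϖ) {c : κ} (hc : c ∈ V₂) :
    u ∈ (S c).Ov ∧ (S c).red u = 0 := by
  have hne : (S c).red (algebraMap K F ϖ / u) ≠ 0 :=
    clu_ne_zero_of_transcendental (D.u'_tr c hc)
  have hinv : (algebraMap K F ϖ / u)⁻¹ ∈ (S c).Ov := (S c).inv_mem_of_red_ne_zero hne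
  obtain ⟨hϖ, hϖ0⟩ := clu_mn_red_algebraMap D c
  have key : algebraMap K F ϖ * (algebraMap K F ϖ / u)⁻¹ = u := by
    have h0 := clu_mn_algebraMap_ne D
    have hu := clu_mn_u_ne D
    field_simp
  have h1 : algebraMap K F ϖ * (algebraMap K F ϖ / u)⁻¹ ∈ (S c).Ov := mul_mem hϖ hinv
  have h2 : (S c).red (algebraMap K F ϖ * (algebraMap K F ϖ / u)⁻¹) = 0 := by
    rw [(S c).red_mul hϖ hinv, hϖ0, zero_mul]
  rw [key] at h1 h2
  exact ⟨h1, h2⟩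

/-- the poles of `ϖ / u` are zeros of `u`. -/
theorem clu_mn_pole_left (P : Place K F) (h : P.ord (algebraMap K F ϖ / u) < 0) :
    P.ord u ≠ 0 := by
  intro hu
  rcases eq_or_ne u 0 with rfl | hu0
  · rw [div_zero, Place.ord_zero] at h
    exact lt_irrefl _ h
  rcases eq_or_ne (algebraMap K F ϖ) 0 with h0 | h0
  · rw [h0, zero_div, Place.ord_zero] at h
    exact lt_irrefl _ h
  rw [div_eq_mul_inv, P.ord_mul h0 (inv_ne_zero hu0), Place.ord_inv, hu,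
    clu_mn_ord_algebraMap] at h
  omega

/-! ### Generic membership and clearing -/

/-- **membership**: `G(w)` is admissible as soon as `w` is integral on `V₁ ∪ V₂` with poles among
the zeros and poles of `u`. -/
theorem clu_G_mem_ncAdm (S : ∀ c : κ, ValSetup K F k (Fk c)) (V₁ V₂ : Finset κ) (u w : F)
    (n : ℕ) (h₁ : ∀ c ∈ V₁, w ∈ (S c).Ov) (h₂ : ∀ c ∈ V₂, w ∈ (S c).Ov)
    (hpole : ∀ P : Place K F, P.ord w < 0 → P.ord u ≠ 0) :
    cluG w n ∈ ncAdm S V₁ V₂ u :=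
  ⟨fun c hc => clu_G_mem_Ov (S c) (h₁ c hc) n, fun c hc => clu_G_mem_Ov (S c) (h₂ c hc) n,
    fun P hP => hpole P (clu_ord_w_neg P hP)⟩

/-- **clearing**: if `D₀ ≤ div G` at the places where `u` is a unit, then `f G ^ m` is admissible
for every integral `f ∈ L(m D₀)`. -/
theorem clu_clear_ncAdm (S : ∀ c : κ, ValSetup K F k (Fk c)) (V₁ V₂ : Finset κ) (u G : F)
    (D₀ : Divisor K F) (hG₁ : ∀ c ∈ V₁, G ∈ (S c).Ov) (hG₂ : ∀ c ∈ V₂, G ∈ (S c).Ov)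
    (hbound : ∀ P : Place K F, P.ord u = 0 → D₀ P ≤ P.ord G)
    (m : ℕ) (f : F) (hf : f ∈ riemannRochSpace (m • D₀)) (hfint : ∀ c, f ∈ (S c).Ov) :
    f * G ^ m ∈ ncAdm S V₁ V₂ u := by
  refine ⟨fun c hc => mul_mem (hfint c) (pow_mem (hG₁ c hc) m),
    fun c hc => mul_mem (hfint c) (pow_mem (hG₂ c hc) m), ?_⟩
  intro P hP hu
  have hf0 : f ≠ 0 := by
    rintro rfl
    rw [zero_mul, Place.ord_zero] at hP
    exact lt_irrefl _ hP
  have hG0 : G ^ m ≠ 0 := by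
    intro h
    rw [h, mul_zero, Place.ord_zero] at hP
    exact lt_irrefl _ hP
  rw [P.ord_mul hf0 hG0, clu_ord_pow] at hP
  have h1 := (mem_riemannRochSpace_iff.mp hf P).resolve_left hf0
  rw [Finsupp.smul_apply, nsmul_eq_mul] at h1
  have h3 : (m : ℤ) * D₀ P ≤ (m : ℤ) * P.ord G :=
    mul_le_mul_of_nonneg_left (hbound P hu) (Int.natCast_nonneg m)
  linarith

end MN

/-! ### The pole order of the seed -/

section Bound

variable {K F : Type*} [Field K] [Field F] [Algebra K F]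

theorem clu_ord_t_nonneg (P : Place K F) {u B : F} (hu : P.ord u = 0) (hB : P.ord B = 0)
    (n : ℕ) : 0 ≤ P.ord (u ^ n - B) :=
  clu_ord_sub_nonneg P (clu_ord_pow_nonneg P hu.ge n) hB.ge

/-- **the pole order of the seed** `x = u + B / u + y`, `y (u ^ n - B) ^ 2 = B u ^ n`, at a place
where `u` is a unit: at most twice the order of `u ^ n - B`. -/
theorem clu_poleDiv_le (hF : IsRRField K F) (P : Place K F) {u B y : F} {n : ℕ}
    (hu : P.ord u = 0) (hB : P.ord B = 0) (ht : u ^ n - B ≠ 0)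
    (hy : y * (u ^ n - B) ^ 2 = B * u ^ n) :
    poleDiv hF (u + B / u + y) P ≤ 2 * P.ord (u ^ n - B) := by
  have ht0 := clu_ord_t_nonneg P hu hB n
  rw [poleDiv_apply]
  refine max_le ?_ (by omega)
  rcases eq_or_ne (u + B / u + y) 0 with h0 | h0
  · rw [h0, Place.ord_zero]
    omega
  have hxt : (u + B / u + y) * (u ^ n - B) ^ 2 = (u + B / u) * (u ^ n - B) ^ 2 + B * u ^ n := by
    rw [add_mul, hy]
  have hBu : 0 ≤ P.ord (B / u) := by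
    rw [div_eq_mul_inv]
    refine clu_ord_mul_nonneg P hB.ge ?_
    rw [Place.ord_inv, hu, neg_zero]
  have h1 : 0 ≤ P.ord ((u + B / u + y) * (u ^ n - B) ^ 2) := by
    rw [hxt]
    exact clu_ord_add_nonneg P
      (clu_ord_mul_nonneg P (clu_ord_add_nonneg P hu.ge hBu) (clu_ord_pow_nonneg P ht0 2))
      (clu_ord_mul_nonneg P hB.ge (clu_ord_pow_nonneg P hu.ge n))
  rw [P.ord_mul h0 (pow_ne_zero 2 ht), clu_ord_pow] at h1
  push_cast at h1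
  omega

/-- the order of `G₁ = (1 - (ϖ / u) ^ n) ^ 2` at a place where `u` is a unit. -/
theorem clu_ord_G1 (P : Place K F) {u ϖ' : F} {n : ℕ} (hu0 : u ≠ 0) (hu : P.ord u = 0)
    (ht : u ^ n - ϖ' ^ n ≠ 0) :
    P.ord (cluG (ϖ' / u) n) = 2 * P.ord (u ^ n - ϖ' ^ n) := by
  have h : cluG (ϖ' / u) n = ((u ^ n - ϖ' ^ n) * (u ^ n)⁻¹) ^ 2 := by
    unfold cluG
    rw [div_pow]
    have := pow_ne_zero n hu0
    field_simp
  rw [h, clu_ord_pow, P.ord_mul ht (inv_ne_zero (pow_ne_zero n hu0)), Place.ord_inv,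
    clu_ord_pow, hu]
  push_cast
  ring

/-- the order of `G₂ = (1 - (u / ϖ) ^ n) ^ 2` at every place. -/
theorem clu_ord_G2 (P : Place K F) {u ϖ' : F} {n : ℕ} (hϖ0 : ϖ' ≠ 0) (hϖ : P.ord ϖ' = 0)
    (ht : u ^ n - ϖ' ^ n ≠ 0) :
    P.ord (cluG (u / ϖ') n) = 2 * P.ord (u ^ n - ϖ' ^ n) := by
  have h : cluG (u / ϖ') n = ((u ^ n - ϖ' ^ n) * (ϖ' ^ n)⁻¹) ^ 2 := by
    unfold cluG
    rw [div_pow]
    have := pow_ne_zero n hϖ0
    field_simp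
    ring
  rw [h, clu_ord_pow, P.ord_mul ht (inv_ne_zero (pow_ne_zero n hϖ0)), Place.ord_inv,
    clu_ord_pow, hϖ]
  push_cast
  ring

end Bound

/-! ### Node (1): `G₁ = cluG (ϖ / u) n` -/

section Node1

variable {K F k : Type*} [Field K] [Field F] [Algebra K F] [Field k]
  {κ : Type*} {Fk : κ → Type*} [∀ c, Field (Fk c)] [∀ c, Algebra k (Fk c)]
  {S : ∀ c : κ, ValSetup K F k (Fk c)} {V₁ V₂ : Finset κ} {u : F} {ϖ : K}

/-- `u ^ n ≠ ϖ ^ n`. -/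
theorem clu1_t_ne (D : MNData S V₁ V₂ u ϖ) {n : ℕ} (hn : n ≠ 0) :
    u ^ n - algebraMap K F ϖ ^ n ≠ 0 := by
  obtain ⟨c, hc⟩ := D.ne₂
  intro h
  have hu := clu_mn_u_ne D
  have h1 : (algebraMap K F ϖ / u) ^ n = 1 := by
    rw [div_pow, ← sub_eq_zero.mp h]
    exact div_self (pow_ne_zero n hu)
  have h2 := congrArg (S c).red h1
  rw [(S c).red_pow (D.u'_mem c hc), (S c).red_one] at h2
  exact clu_pow_ne_one_of_transcendental (D.u'_tr c hc) hn h2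

/-- `G₁ ∈ ncAdm (1)`. -/
theorem clu1_mem (D : MNData S V₁ V₂ u ϖ) (n : ℕ) :
    cluG (algebraMap K F ϖ / u) n ∈ ncAdm S V₁ V₂ u :=
  clu_G_mem_ncAdm S V₁ V₂ u _ n (fun _ hc => (clu_mn_left D hc).1) (fun c hc => D.u'_mem c hc)
    (fun P hP => clu_mn_pole_left P hP)

/-- `G₁ ∈ ncAdm (A)`: the node (A) has `VA₁ ⊆ V₁`, `VA₂ ⊆ V₂` and the zeros and poles of `u` are
zeros or poles of `uA` (SEED-CUSP). -/
theorem clu1_mem_A (D : MNData S V₁ V₂ u ϖ) (n : ℕ) {VA₁ VA₂ : Finset κ} (hA₁ : VA₁ ⊆ V₁)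
    (hA₂ : VA₂ ⊆ V₂) {uA : F} (hcusp : ∀ P : Place K F, P.ord u ≠ 0 → P.ord uA ≠ 0) :
    cluG (algebraMap K F ϖ / u) n ∈ ncAdm S VA₁ VA₂ uA :=
  clu_G_mem_ncAdm S VA₁ VA₂ uA _ n (fun _ hc => (clu_mn_left D (hA₁ hc)).1)
    (fun c hc => D.u'_mem c (hA₂ hc)) (fun P hP => hcusp P (clu_mn_pole_left P hP))

/-- `G₁` is a unit at EVERY point of the components of `V₁` (it reduces to `1`). -/
theorem clu1_unit_left (D : MNData S V₁ V₂ u ϖ) {n : ℕ} (hn : n ≠ 0) {c : κ} (hc : c ∈ V₁)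
    (Q : Place k (Fk c)) :
    (S c).red (cluG (algebraMap K F ϖ / u) n) ≠ 0 ∧
      Q.ord ((S c).red (cluG (algebraMap K F ϖ / u) n)) = 0 :=
  clu_unit_of_red_zero (S c) (clu_mn_left D hc).1 (clu_mn_left D hc).2 hn Q

/-- `G₁` is a unit at the zeros of `red (ϖ / u)` on the components of `V₂`. -/
theorem clu1_unit_right (D : MNData S V₁ V₂ u ϖ) {n : ℕ} (hn : n ≠ 0) {c : κ} (hc : c ∈ V₂)
    (Q : Place k (Fk c)) (hQ : 0 < Q.ord ((S c).red (algebraMap K F ϖ / u))) :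
    (S c).red (cluG (algebraMap K F ϖ / u) n) ≠ 0 ∧
      Q.ord ((S c).red (cluG (algebraMap K F ϖ / u) n)) = 0 :=
  clu_unit_of_transcendental (S c) (D.u'_mem c hc) (D.u'_tr c hc) hn Q hQ

/-- the pole divisor of the seed is bounded by the divisor of `G₁` where `u` is a unit. -/
theorem clu1_bound (D : MNData S V₁ V₂ u ϖ) {n : ℕ} (hn : n ≠ 0) (hF : IsRRField K F) {y : F}
    (hy : y * (u ^ n - algebraMap K F (ϖ ^ n)) ^ 2 = algebraMap K F (ϖ ^ n) * u ^ n)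
    (P : Place K F) (hu : P.ord u = 0) :
    poleDiv hF (u + algebraMap K F (ϖ ^ n) / u + y) P ≤
      P.ord (cluG (algebraMap K F ϖ / u) n) := by
  have ht := clu1_t_ne D hn
  rw [clu_ord_G1 P (clu_mn_u_ne D) hu ht, ← map_pow]
  rw [← map_pow] at ht
  exact clu_poleDiv_le hF P hu (clu_mn_ord_algebraMap P _) ht hy

/-- **clear1, node (1)**. -/
theorem clu1_clear (D : MNData S V₁ V₂ u ϖ) {n : ℕ} (hn : n ≠ 0) (hF : IsRRField K F) {y : F}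
    (hy : y * (u ^ n - algebraMap K F (ϖ ^ n)) ^ 2 = algebraMap K F (ϖ ^ n) * u ^ n)
    {D₀ : Divisor K F} (hD₀ : D₀ = poleDiv hF (u + algebraMap K F (ϖ ^ n) / u + y))
    (m : ℕ) (f : F) (hf : f ∈ riemannRochSpace (m • D₀)) (hfint : ∀ c, f ∈ (S c).Ov) :
    f * cluG (algebraMap K F ϖ / u) n ^ m ∈ ncAdm S V₁ V₂ u :=
  clu_clear_ncAdm S V₁ V₂ u _ D₀ (clu1_mem D n).1 (clu1_mem D n).2.1
    (fun P hu => by rw [hD₀]; exact clu1_bound D hn hF hy P hu) m f hf hfint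

/-- **clear1, node (A)**. -/
theorem clu1_clear_A (D : MNData S V₁ V₂ u ϖ) {n : ℕ} (hn : n ≠ 0) (hF : IsRRField K F) {y : F}
    (hy : y * (u ^ n - algebraMap K F (ϖ ^ n)) ^ 2 = algebraMap K F (ϖ ^ n) * u ^ n)
    {D₀ : Divisor K F} (hD₀ : D₀ = poleDiv hF (u + algebraMap K F (ϖ ^ n) / u + y))
    {VA₁ VA₂ : Finset κ} (hA₁ : VA₁ ⊆ V₁) (hA₂ : VA₂ ⊆ V₂) {uA : F}
    (hcusp : ∀ P : Place K F, P.ord u ≠ 0 → P.ord uA ≠ 0)
    (m : ℕ) (f : F) (hf : f ∈ riemannRochSpace (m • D₀)) (hfint : ∀ c, f ∈ (S c).Ov) :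
    f * cluG (algebraMap K F ϖ / u) n ^ m ∈ ncAdm S VA₁ VA₂ uA := by
  obtain ⟨h1, h2, h3⟩ := clu1_clear D hn hF hy hD₀ m f hf hfint
  exact ⟨fun c hc => h1 c (hA₁ hc), fun c hc => h2 c (hA₂ hc), fun P hP => hcusp P (h3 P hP)⟩

end Node1

/-! ### Node (2): `u₂ = u / ϖ`, `G₂ = cluG u₂ n` -/

section Node2

variable {K F k : Type*} [Field K] [Field F] [Algebra K F] [Field k]
  {κ : Type*} {Fk : κ → Type*} [∀ c, Field (Fk c)] [∀ c, Algebra k (Fk c)]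
  {S : ∀ c : κ, ValSetup K F k (Fk c)} {V₁ V₂ : Finset κ} {u₂ : F} {ϖ₂ : K}

/-- `G₂ ∈ ncAdm (2)`. -/
theorem clu2_mem (D : MNData S V₁ V₂ u₂ ϖ₂) (n : ℕ) : cluG u₂ n ∈ ncAdm S V₁ V₂ u₂ :=
  clu_G_mem_ncAdm S V₁ V₂ u₂ _ n (fun c hc => D.u_mem c hc) (fun _ hc => (clu_mn_right D hc).1)
    (fun _ hP => ne_of_lt hP)

/-- `G₂` is a unit at the zeros of `red u₂` on the components of `V₁`. -/
theorem clu2_unit_left (D : MNData S V₁ V₂ u₂ ϖ₂) {n : ℕ} (hn : n ≠ 0) {c : κ} (hc : c ∈ V₁)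
    (Q : Place k (Fk c)) (hQ : 0 < Q.ord ((S c).red u₂)) :
    (S c).red (cluG u₂ n) ≠ 0 ∧ Q.ord ((S c).red (cluG u₂ n)) = 0 :=
  clu_unit_of_transcendental (S c) (D.u_mem c hc) (D.u_tr c hc) hn Q hQ

/-- `G₂` is a unit at EVERY point of the components of `V₂` (it reduces to `1`). -/
theorem clu2_unit_right (D : MNData S V₁ V₂ u₂ ϖ₂) {n : ℕ} (hn : n ≠ 0) {c : κ} (hc : c ∈ V₂)
    (Q : Place k (Fk c)) :
    (S c).red (cluG u₂ n) ≠ 0 ∧ Q.ord ((S c).red (cluG u₂ n)) = 0 :=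
  clu_unit_of_red_zero (S c) (clu_mn_right D hc).1 (clu_mn_right D hc).2 hn Q

/-- `u ^ n ≠ ϖ ^ n` for `u = ϖ u₂`. -/
theorem clu2_t_ne (D : MNData S V₁ V₂ u₂ ϖ₂) {n : ℕ} (hn : n ≠ 0) {u ϖ' : F} (hϖ' : ϖ' ≠ 0)
    (hu : u₂ * ϖ' = u) : u ^ n - ϖ' ^ n ≠ 0 := by
  obtain ⟨c, hc⟩ := D.ne₁
  intro h
  have h1 : u₂ ^ n = 1 := by
    have h2 : u₂ ^ n * ϖ' ^ n = 1 * ϖ' ^ n := by
      rw [← mul_pow, hu, one_mul]
      exact sub_eq_zero.mp h
    exact mul_right_cancel₀ (pow_ne_zero n hϖ') h2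
  have h2 := congrArg (S c).red h1
  rw [(S c).red_pow (D.u_mem c hc), (S c).red_one] at h2
  exact clu_pow_ne_one_of_transcendental (D.u_tr c hc) hn h2

/-- the pole divisor of the seed is bounded by the divisor of `G₂` where `u₂` is a unit. -/
theorem clu2_bound (D : MNData S V₁ V₂ u₂ ϖ₂) {n : ℕ} (hn : n ≠ 0) (hF : IsRRField K F)
    {u : F} {ϖ : K} (hϖ : ϖ ≠ 0) (hu : u₂ * algebraMap K F ϖ = u) {y : F}
    (hy : y * (u ^ n - algebraMap K F (ϖ ^ n)) ^ 2 = algebraMap K F (ϖ ^ n) * u ^ n)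
    (P : Place K F) (hP : P.ord u₂ = 0) :
    poleDiv hF (u + algebraMap K F (ϖ ^ n) / u + y) P ≤ P.ord (cluG u₂ n) := by
  have hϖ' : algebraMap K F ϖ ≠ 0 := (map_ne_zero (algebraMap K F)).mpr hϖ
  have ht := clu2_t_ne D hn hϖ' hu
  have hu₂ : u₂ = u / algebraMap K F ϖ := by
    rw [← hu]
    field_simp
  have hu₂0 : u₂ ≠ 0 := clu_mn_u_ne D
  have hPu : P.ord u = 0 := by
    rw [← hu, P.ord_mul hu₂0 hϖ', hP, clu_mn_ord_algebraMap, add_zero]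
  rw [hu₂, clu_ord_G2 P hϖ' (clu_mn_ord_algebraMap P ϖ) ht, ← map_pow]
  rw [← map_pow] at ht
  exact clu_poleDiv_le hF P hPu (clu_mn_ord_algebraMap P _) ht hy

/-- **clear2, node (2)**. -/
theorem clu2_clear (D : MNData S V₁ V₂ u₂ ϖ₂) {n : ℕ} (hn : n ≠ 0) (hF : IsRRField K F)
    {u : F} {ϖ : K} (hϖ : ϖ ≠ 0) (hu : u₂ * algebraMap K F ϖ = u) {y : F}
    (hy : y * (u ^ n - algebraMap K F (ϖ ^ n)) ^ 2 = algebraMap K F (ϖ ^ n) * u ^ n)
    {D₀ : Divisor K F} (hD₀ : D₀ = poleDiv hF (u + algebraMap K F (ϖ ^ n) / u + y))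
    (m : ℕ) (f : F) (hf : f ∈ riemannRochSpace (m • D₀)) (hfint : ∀ c, f ∈ (S c).Ov) :
    f * cluG u₂ n ^ m ∈ ncAdm S V₁ V₂ u₂ :=
  clu_clear_ncAdm S V₁ V₂ u₂ _ D₀ (clu2_mem D n).1 (clu2_mem D n).2.1
    (fun P hP => by rw [hD₀]; exact clu2_bound D hn hF hϖ hu hy P hP) m f hf hfint

end Node2

/-! ### Final form: the clearing fields of `ModEndsInput` for `ymodG1`, `ymodG2` -/

section Final

variable {K F k : Type*} [Field K] [Field F] [Algebra K F] [Field k]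
  {κ : Type*} {Fk : κ → Type*} [∀ c, Field (Fk c)] [∀ c, Algebra k (Fk c)]
  {S : ∀ c : κ, ValSetup K F k (Fk c)} {V₁ V₂ : Finset κ} {u : F} {ϖ : K}

theorem clu_ymodG1_eq (u : F) (ϖ : K) (n : ℕ) :
    ymodG1 u (ϖ ^ n) n = cluG (algebraMap K F ϖ / u) n := by
  unfold ymodG1 cluG
  rw [div_pow, map_pow]

theorem clu_ymodG2_eq (u : F) (ϖ : K) (n : ℕ) :
    ymodG2 u (ϖ ^ n) n = cluG (u / algebraMap K F ϖ) n := by
  unfold ymodG2 cluG
  rw [div_pow, map_pow]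

theorem clu_ymodY_mul_sq (u : F) (b : K) (n : ℕ) (ht : u ^ n - algebraMap K F b ≠ 0) :
    ymodY u b n * (u ^ n - algebraMap K F b) ^ 2 = algebraMap K F b * u ^ n := by
  unfold ymodY
  exact div_mul_cancel₀ _ (pow_ne_zero 2 ht)

/-- the sum over the one class. -/
theorem clu_sum_unit (y : F) : ∑ _cl : Unit, y = y := by
  rw [Finset.sum_const, Finset.card_univ, Fintype.card_unit, one_smul]

/-- **`G1_mem`**. -/
theorem cluY1_mem (D : MNData S V₁ V₂ u ϖ) (n : ℕ) {b : K} (hb : ϖ ^ n = b)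
    {VA₁ VA₂ : Finset κ} (hA₁ : VA₁ ⊆ V₁) (hA₂ : VA₂ ⊆ V₂) {uA : F}
    (hcusp : ∀ P : Place K F, P.ord u ≠ 0 → P.ord uA ≠ 0) :
    ymodG1 u b n ∈ ncAdm S V₁ V₂ u ∩ ncAdm S VA₁ VA₂ uA := by
  subst hb
  rw [clu_ymodG1_eq]
  exact ⟨clu1_mem D n, clu1_mem_A D n hA₁ hA₂ hcusp⟩

/-- **`G1_unit_oo`, `G1_unit_mid`**: `G₁` reduces to `1` on the components of `V₁`. -/
theorem cluY1_unit_left (D : MNData S V₁ V₂ u ϖ) {n : ℕ} (hn : n ≠ 0) {b : K} (hb : ϖ ^ n = b)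
    {c : κ} (hc : c ∈ V₁) (Q : Place k (Fk c)) :
    (S c).red (ymodG1 u b n) ≠ 0 ∧ Q.ord ((S c).red (ymodG1 u b n)) = 0 := by
  subst hb
  rw [clu_ymodG1_eq]
  exact clu1_unit_left D hn hc Q

/-- **`G1_unit_hor`**. -/
theorem cluY1_unit_right (D : MNData S V₁ V₂ u ϖ) {n : ℕ} (hn : n ≠ 0) {b : K}
    (hb : ϖ ^ n = b) {c : κ} (hc : c ∈ V₂) (Q : Place k (Fk c))
    (hQ : 0 < Q.ord ((S c).red (algebraMap K F ϖ / u))) :
    (S c).red (ymodG1 u b n) ≠ 0 ∧ Q.ord ((S c).red (ymodG1 u b n)) = 0 := by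
  subst hb
  rw [clu_ymodG1_eq]
  exact clu1_unit_right D hn hc Q hQ

/-- **`clear1`**. -/
theorem cluY1_clear (D : MNData S V₁ V₂ u ϖ) {n : ℕ} (hn : n ≠ 0) {b : K} (hb : ϖ ^ n = b)
    (hF : IsRRField K F) {x : F} (hx : x = u + algebraMap K F b / u + ymodY u b n)
    {D₀ : Divisor K F} (hD₀ : D₀ = poleDiv hF x)
    {VA₁ VA₂ : Finset κ} (hA₁ : VA₁ ⊆ V₁) (hA₂ : VA₂ ⊆ V₂) {uA : F}
    (hcusp : ∀ P : Place K F, P.ord u ≠ 0 → P.ord uA ≠ 0)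
    (m : ℕ) (f : F) (hf : f ∈ riemannRochSpace (m • D₀)) (hfint : ∀ c, f ∈ (S c).Ov) :
    f * ymodG1 u b n ^ m ∈ ncAdm S V₁ V₂ u ∩ ncAdm S VA₁ VA₂ uA := by
  subst hb
  subst hx
  have ht : u ^ n - algebraMap K F (ϖ ^ n) ≠ 0 := by
    rw [map_pow]
    exact clu1_t_ne D hn
  have hy := clu_ymodY_mul_sq u (ϖ ^ n) n ht
  rw [clu_ymodG1_eq]
  exact ⟨clu1_clear D hn hF hy hD₀ m f hf hfint,
    clu1_clear_A D hn hF hy hD₀ hA₁ hA₂ hcusp m f hf hfint⟩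

variable {ϖ₂ : K}

/-- **`G2_mem`**. -/
theorem cluY2_mem (D : MNData S V₁ V₂ (u / algebraMap K F ϖ) ϖ₂) (n : ℕ) {b : K}
    (hb : ϖ ^ n = b) : ymodG2 u b n ∈ ncAdm S V₁ V₂ (u / algebraMap K F ϖ) := by
  subst hb
  rw [clu_ymodG2_eq]
  exact clu2_mem D n

/-- **`G2_unit_hor`**. -/
theorem cluY2_unit_left (D : MNData S V₁ V₂ (u / algebraMap K F ϖ) ϖ₂) {n : ℕ} (hn : n ≠ 0)
    {b : K} (hb : ϖ ^ n = b) {c : κ} (hc : c ∈ V₁) (Q : Place k (Fk c))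
    (hQ : 0 < Q.ord ((S c).red (u / algebraMap K F ϖ))) :
    (S c).red (ymodG2 u b n) ≠ 0 ∧ Q.ord ((S c).red (ymodG2 u b n)) = 0 := by
  subst hb
  rw [clu_ymodG2_eq]
  exact clu2_unit_left D hn hc Q hQ

/-- **`G2_unit_zero`**: `G₂` reduces to `1` on the components of `V₂`. -/
theorem cluY2_unit_right (D : MNData S V₁ V₂ (u / algebraMap K F ϖ) ϖ₂) {n : ℕ} (hn : n ≠ 0)
    {b : K} (hb : ϖ ^ n = b) {c : κ} (hc : c ∈ V₂) (Q : Place k (Fk c)) :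
    (S c).red (ymodG2 u b n) ≠ 0 ∧ Q.ord ((S c).red (ymodG2 u b n)) = 0 := by
  subst hb
  rw [clu_ymodG2_eq]
  exact clu2_unit_right D hn hc Q

/-- **`clear2`**. -/
theorem cluY2_clear (D : MNData S V₁ V₂ (u / algebraMap K F ϖ) ϖ₂) {n : ℕ} (hn : n ≠ 0)
    (hϖ : ϖ ≠ 0) {b : K} (hb : ϖ ^ n = b)
    (hF : IsRRField K F) {x : F} (hx : x = u + algebraMap K F b / u + ymodY u b n)
    {D₀ : Divisor K F} (hD₀ : D₀ = poleDiv hF x)
    (m : ℕ) (f : F) (hf : f ∈ riemannRochSpace (m • D₀)) (hfint : ∀ c, f ∈ (S c).Ov) :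
    f * ymodG2 u b n ^ m ∈ ncAdm S V₁ V₂ (u / algebraMap K F ϖ) := by
  subst hb
  subst hx
  have hϖ' : algebraMap K F ϖ ≠ 0 := (map_ne_zero (algebraMap K F)).mpr hϖ
  have hu : u / algebraMap K F ϖ * algebraMap K F ϖ = u := div_mul_cancel₀ u hϖ'
  have ht : u ^ n - algebraMap K F (ϖ ^ n) ≠ 0 := by
    rw [map_pow]
    exact clu2_t_ne D hn hϖ' hu
  have hy := clu_ymodY_mul_sq u (ϖ ^ n) n ht
  rw [clu_ymodG2_eq]
  exact clu2_clear D hn hF hϖ hu hy hD₀ m f hf hfint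

end Final

/-! ### All the clearing fields of `ModEndsInput` -/

section Fields

variable {K F k : Type} [Field K] [Field F] [Algebra K F] [Field k]
  {Mid SS : Type} [Fintype Mid] [Fintype SS]
  {Fk0 : Type} [Field Fk0] [Algebra k Fk0]
  {FkM : Mid → Type} [∀ m, Field (FkM m)] [∀ m, Algebra k (FkM m)]
  {FkP : SS → Type} [∀ P, Field (FkP P)] [∀ P, Algebra k (FkP P)]

/-- **the clearing fields of `ModEndsInput`** (`G1_mem`, `G2_mem`, `G1_unit_oo`, `G1_unit_mid`,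
`G1_unit_hor`, `G2_unit_zero`, `G2_unit_hor`, `clear1`, `clear2`, in this order) for
`G1 = ymodG1 u1 b n`, `G2 = ymodG2 u1 b n`, `u2 = u1 / ϖ1`, `b = ϖ1 ^ n`,
`D₀ = (u1 + b / u1 + ∑ cl : Unit, ymodY u1 b n)_∞`. -/
theorem clu_fields (S : ∀ c : Vtx Mid SS, ValSetup K F k (FkOf Fk0 FkM FkP c))
    (pv : ∀ (_ : SS) (v : Vrt Mid), Place k (FkOf Fk0 FkM FkP (Vtx.vert v)))
    (VA₁ VA₂ V1₁ V1₂ V2₁ V2₂ : Finset (Vtx Mid SS))
    (mem_VA₁ : ∀ c, c ∈ VA₁ ↔ c = Vtx.vert Vrt.oo)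
    (mem_VA₂ : ∀ c, c ∈ VA₂ ↔ ∃ P, c = Vtx.hor P)
    (mem_V1₁ : ∀ c, c ∈ V1₁ ↔ c = Vtx.vert Vrt.oo ∨ ∃ m, c = Vtx.vert (Vrt.mid m))
    (mem_V1₂ : ∀ c, c ∈ V1₂ ↔ ∃ P, c = Vtx.hor P)
    (mem_V2₁ : ∀ c, c ∈ V2₁ ↔ ∃ P, c = Vtx.hor P)
    (mem_V2₂ : ∀ c, c ∈ V2₂ ↔ c = Vtx.vert Vrt.zero)
    (uA u1 : F) (ϖ1 ϖ2 b : K) (n : ℕ) (hn : n ≠ 0) (hb : ϖ1 ^ n = b) (hϖ1 : ϖ1 ≠ 0)
    (D1 : MNData S V1₁ V1₂ u1 ϖ1)
    (D2 : MNData S V2₁ V2₂ (u1 / algebraMap K F ϖ1) ϖ2)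
    (hcusp : ∀ P : Place K F, P.ord u1 ≠ 0 → P.ord uA ≠ 0)
    (hF : IsRRField K F) (D₀ : Divisor K F)
    (hD₀ : D₀ = poleDiv hF (u1 + algebraMap K F b / u1 + ∑ _cl : Unit, ymodY u1 b n)) :
    (ymodG1 u1 b n ∈ ncAdm S V1₁ V1₂ u1 ∩ ncAdm S VA₁ VA₂ uA) ∧
    (ymodG2 u1 b n ∈ ncAdm S V2₁ V2₂ (u1 / algebraMap K F ϖ1)) ∧
    (∀ P, (S (Vtx.vert Vrt.oo)).red (ymodG1 u1 b n) ≠ 0 ∧
      (pv P Vrt.oo).ord ((S (Vtx.vert Vrt.oo)).red (ymodG1 u1 b n)) = 0) ∧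
    (∀ P m, (S (Vtx.vert (Vrt.mid m))).red (ymodG1 u1 b n) ≠ 0 ∧
      (pv P (Vrt.mid m)).ord ((S (Vtx.vert (Vrt.mid m))).red (ymodG1 u1 b n)) = 0) ∧
    (∀ (P : SS) (Q : Place k (FkOf Fk0 FkM FkP (Vtx.hor P))),
      0 < Q.ord ((S (Vtx.hor P)).red (algebraMap K F ϖ1 / u1)) →
        (S (Vtx.hor P)).red (ymodG1 u1 b n) ≠ 0 ∧
          Q.ord ((S (Vtx.hor P)).red (ymodG1 u1 b n)) = 0) ∧
    (∀ P, (S (Vtx.vert Vrt.zero)).red (ymodG2 u1 b n) ≠ 0 ∧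
      (pv P Vrt.zero).ord ((S (Vtx.vert Vrt.zero)).red (ymodG2 u1 b n)) = 0) ∧
    (∀ (P : SS) (Q : Place k (FkOf Fk0 FkM FkP (Vtx.hor P))),
      0 < Q.ord ((S (Vtx.hor P)).red (u1 / algebraMap K F ϖ1)) →
        (S (Vtx.hor P)).red (ymodG2 u1 b n) ≠ 0 ∧
          Q.ord ((S (Vtx.hor P)).red (ymodG2 u1 b n)) = 0) ∧
    (∀ (m : ℕ) (f : F), f ∈ riemannRochSpace (m • D₀) → (∀ c, f ∈ (S c).Ov) →
      f * ymodG1 u1 b n ^ m ∈ ncAdm S V1₁ V1₂ u1 ∩ ncAdm S VA₁ VA₂ uA) ∧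
    (∀ (m : ℕ) (f : F), f ∈ riemannRochSpace (m • D₀) → (∀ c, f ∈ (S c).Ov) →
      f * ymodG2 u1 b n ^ m ∈ ncAdm S V2₁ V2₂ (u1 / algebraMap K F ϖ1)) := by
  have hA₁ : VA₁ ⊆ V1₁ := fun c hc => (mem_V1₁ c).mpr (Or.inl ((mem_VA₁ c).mp hc))
  have hA₂ : VA₂ ⊆ V1₂ := fun c hc => (mem_V1₂ c).mpr ((mem_VA₂ c).mp hc)
  have hx : u1 + algebraMap K F b / u1 + ∑ _cl : Unit, ymodY u1 b n =
      u1 + algebraMap K F b / u1 + ymodY u1 b n := by rw [clu_sum_unit]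
  exact ⟨cluY1_mem D1 n hb hA₁ hA₂ hcusp, cluY2_mem D2 n hb,
    fun P => cluY1_unit_left D1 hn hb ((mem_V1₁ _).mpr (Or.inl rfl)) _,
    fun P m => cluY1_unit_left D1 hn hb ((mem_V1₁ _).mpr (Or.inr ⟨m, rfl⟩)) _,
    fun P Q hQ => cluY1_unit_right D1 hn hb ((mem_V1₂ _).mpr ⟨P, rfl⟩) Q hQ,
    fun P => cluY2_unit_right D2 hn hb ((mem_V2₂ _).mpr rfl) _,
    fun P Q hQ => cluY2_unit_left D2 hn hb ((mem_V2₁ _).mpr ⟨P, rfl⟩) Q hQ,
    fun m f hf hfint => cluY1_clear D1 hn hb hF hx hD₀ hA₁ hA₂ hcusp m f hf hfint,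
    fun m f hf hfint => cluY2_clear D2 hn hϖ1 hb hF hx hD₀ m f hf hfint⟩

end Fields

end Fermat.Agent.S36G
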