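/-
Cluster G (S36), seat SEED-OLD, part 2 (helper9): SEPARATION of the supersingular points by
integral old functions.

`q` prime, `q ∤ M₀`, `A` a place of `ℚ̄` over `q`, `k = A / 𝔪`, `Z = X₀(M₀)` mod `q`,
`Fk = modularFunctionFieldFullC k M₀ = k(Z)`.  For supersingular places `P` of `Z`
(`IsSSPlace k M₀ q P`, `S36/Igusa/Defs`):

* `seedOld_ord_jC_nonneg`   : supersingular places are not cusps;
* `seedOld_finite_ss`       : there are finitely many of them;
* `seedOld_exists_interp`   : integral `g₀ ∈ F_{M₀}` with cuspidal poles and prescribed values at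
                              finitely many supersingular places;
* `seedOld_exists_all`      : prescribed values at ALL supersingular places;
* `seedOld_exists_sep`      : `P ≠ P'` ⟹ `ḡ₀(P) = 1`, `ḡ₀(P') = 0`;
* `seedOld_exists_delta`    : `ḡ₀(P) = 1` and `ḡ₀(P') = 0` for ALL supersingular `P' ≠ P`.

(Port of T's `Mod/OldSep` + `Mod/HSepWire.ord_jC_nonneg_of_ss_pos` to the shapes of `S36/Igusa`.)
-/
import Mathlib
import Fermat.Agent.S36.Igusa.Defs
import Fermat.Agent.Lib.BadRed.Mod.AuxUnified
import Fermat.Agent.Lib.BadRed.Mod.SSDeg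

set_option autoImplicit false
set_option linter.style.haveILetI false
set_option linter.unusedSectionVars false
set_option synthInstance.maxHeartbeats 400000

noncomputable section
attribute [local instance 10000] SubalgebraClass.toAlgebra HahnSeries.powerSeriesAlgebra

namespace Fermat.Agent.S36G

open ModularCurve AlgebraicCurve Fermat.Agent.GaussInt Fermat.Agent.Deuring
  Fermat.Agent.BadRed

local notation "Qb" => AlgebraicClosure ℚ

variable {A : ValuationSubring Qb} (M₀ : ℕ) [NeZero M₀] {q : ℕ}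

/-- supersingular places are not cusps of the special fibre. -/
theorem seedOld_ord_jC_nonneg (hq : q.Prime) (hA : A.LiesOverPrime q)
    {P : Place (IsLocalRing.ResidueField A)
      ↥(modularFunctionFieldFullC (IsLocalRing.ResidueField A) M₀)}
    (hP : IsSSPlace (IsLocalRing.ResidueField A) M₀ q P) :
    0 ≤ P.ord (Fermat.Agent.RRMod.jC (IsLocalRing.ResidueField A) M₀) := by
  obtain ⟨h, hh, hpos⟩ := hP
  obtain ⟨p, hdeg, rfl⟩ := ss_eq_aeval M₀ hq hA h hh
  by_contra hneg
  rw [not_le] at hneg
  have hp0 : p ≠ 0 := by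
    rintro rfl
    rw [Polynomial.natDegree_zero] at hdeg
    have := hq.two_le
    omega
  have h1 := Fermat.Agent.RRHur.ord_aeval_of_pole (transcendental_jC' M₀ _) P hneg hp0
  rw [h1] at hpos
  have h2 : (0 : ℤ) ≤ (p.natDegree : ℤ) := Int.natCast_nonneg _
  nlinarith

/-- there are finitely many supersingular places. -/
theorem seedOld_finite_ss (hq : q.Prime) (hA : A.LiesOverPrime q) :
    Set.Finite {P : Place (IsLocalRing.ResidueField A)
      ↥(modularFunctionFieldFullC (IsLocalRing.ResidueField A) M₀) |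
        IsSSPlace (IsLocalRing.ResidueField A) M₀ q P} := by
  haveI : IsAlgClosed (IsLocalRing.ResidueField A) := isAlgClosed_residue A
  set h : ↥(modularFunctionFieldFullC (IsLocalRing.ResidueField A) M₀) :=
    ⟨ssFun (IsLocalRing.ResidueField A) q, ssFun_mem_fullC_of_prime M₀ hq hA⟩ with hh
  refine (Fermat.Agent.RR.finite_zeros
    (Fermat.Agent.RRMod.isRRField_fullC' (IsLocalRing.ResidueField A) M₀) h).subset ?_
  rintro P ⟨u, hu, hpos⟩
  have : u = h := Subtype.ext hu
  rw [this] at hpos
  exact hpos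

/-- **SEED-OLD (interpolation)**: integral old functions with cuspidal poles and prescribed values
at finitely many supersingular places. -/
theorem seedOld_exists_interp (hq : q.Prime) (hqM : ¬ q ∣ M₀) (haux : AuxLevelOK q M₀)
    (hA : A.LiesOverPrime q) {ι : Type*} [Fintype ι]
    (s : ι → Place (IsLocalRing.ResidueField A)
      ↥(modularFunctionFieldFullC (IsLocalRing.ResidueField A) M₀))
    (hs : Function.Injective s)
    (hss : ∀ i, IsSSPlace (IsLocalRing.ResidueField A) M₀ q (s i))
    (c : ι → IsLocalRing.ResidueField A) :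
    ∃ g₀ : ↥(modularFunctionFieldBar M₀),
      g₀ ∈ (modularValSetup A q M₀ hq hA hqM).Ov ∧
      (∀ v : Place Qb ↥(modularFunctionFieldBar M₀),
        0 ≤ v.ord (Fermat.Agent.S24.jBar M₀) → 0 ≤ v.ord g₀) ∧
      (∀ Q : Place (IsLocalRing.ResidueField A)
          ↥(modularFunctionFieldFullC (IsLocalRing.ResidueField A) M₀),
        0 ≤ Q.ord (Fermat.Agent.RRMod.jC (IsLocalRing.ResidueField A) M₀) →
          0 ≤ Q.ord ((modularValSetup A q M₀ hq hA hqM).red g₀)) ∧
      ∀ i, ValAt (s i) ((modularValSetup A q M₀ hq hA hqM).red g₀) (c i) :=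
  exists_oldSep_of_aux M₀ hq hqM haux hA s hs
    (fun i => seedOld_ord_jC_nonneg M₀ hq hA (hss i)) c

/-- **SEED-OLD (all supersingular places)**: prescribed values at ALL supersingular places. -/
theorem seedOld_exists_all (hq : q.Prime) (hqM : ¬ q ∣ M₀) (haux : AuxLevelOK q M₀)
    (hA : A.LiesOverPrime q)
    (c : Place (IsLocalRing.ResidueField A)
      ↥(modularFunctionFieldFullC (IsLocalRing.ResidueField A) M₀) → IsLocalRing.ResidueField A) :
    ∃ g₀ : ↥(modularFunctionFieldBar M₀),
      g₀ ∈ (modularValSetup A q M₀ hq hA hqM).Ov ∧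
      (∀ v : Place Qb ↥(modularFunctionFieldBar M₀),
        0 ≤ v.ord (Fermat.Agent.S24.jBar M₀) → 0 ≤ v.ord g₀) ∧
      (∀ Q : Place (IsLocalRing.ResidueField A)
          ↥(modularFunctionFieldFullC (IsLocalRing.ResidueField A) M₀),
        0 ≤ Q.ord (Fermat.Agent.RRMod.jC (IsLocalRing.ResidueField A) M₀) →
          0 ≤ Q.ord ((modularValSetup A q M₀ hq hA hqM).red g₀)) ∧
      ∀ P, IsSSPlace (IsLocalRing.ResidueField A) M₀ q P →
        ValAt P ((modularValSetup A q M₀ hq hA hqM).red g₀) (c P) := by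
  haveI : Fintype {P : Place (IsLocalRing.ResidueField A)
      ↥(modularFunctionFieldFullC (IsLocalRing.ResidueField A) M₀) //
        IsSSPlace (IsLocalRing.ResidueField A) M₀ q P} :=
    (seedOld_finite_ss M₀ hq hA).fintype
  obtain ⟨g₀, h1, h2, h3, h4⟩ := seedOld_exists_interp M₀ hq hqM haux hA
    (fun i : {P : Place (IsLocalRing.ResidueField A)
      ↥(modularFunctionFieldFullC (IsLocalRing.ResidueField A) M₀) //
        IsSSPlace (IsLocalRing.ResidueField A) M₀ q P} => i.val)
    Subtype.val_injective (fun i => i.2) (fun i => c i.val)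
  exact ⟨g₀, h1, h2, h3, fun P hP => h4 ⟨P, hP⟩⟩

/-- **SEED-OLD (delta function)**: an integral old function with cuspidal poles whose reduction
is `1` at the supersingular place `P` and `0` at all the others. -/
theorem seedOld_exists_delta (hq : q.Prime) (hqM : ¬ q ∣ M₀) (haux : AuxLevelOK q M₀)
    (hA : A.LiesOverPrime q)
    (P : Place (IsLocalRing.ResidueField A)
      ↥(modularFunctionFieldFullC (IsLocalRing.ResidueField A) M₀))
    (hP : IsSSPlace (IsLocalRing.ResidueField A) M₀ q P) :
    ∃ g₀ : ↥(modularFunctionFieldBar M₀),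
      g₀ ∈ (modularValSetup A q M₀ hq hA hqM).Ov ∧
      (∀ v : Place Qb ↥(modularFunctionFieldBar M₀),
        0 ≤ v.ord (Fermat.Agent.S24.jBar M₀) → 0 ≤ v.ord g₀) ∧
      (∀ Q : Place (IsLocalRing.ResidueField A)
          ↥(modularFunctionFieldFullC (IsLocalRing.ResidueField A) M₀),
        0 ≤ Q.ord (Fermat.Agent.RRMod.jC (IsLocalRing.ResidueField A) M₀) →
          0 ≤ Q.ord ((modularValSetup A q M₀ hq hA hqM).red g₀)) ∧
      ValAt P ((modularValSetup A q M₀ hq hA hqM).red g₀) 1 ∧
      ∀ P', IsSSPlace (IsLocalRing.ResidueField A) M₀ q P' → P' ≠ P →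
        ValAt P' ((modularValSetup A q M₀ hq hA hqM).red g₀) 0 := by
  classical
  obtain ⟨g₀, h1, h2, h3, h4⟩ := seedOld_exists_all M₀ hq hqM haux hA
    (fun P' => if P' = P then 1 else 0)
  refine ⟨g₀, h1, h2, h3, ?_, fun P' hP' hne => ?_⟩
  · have := h4 P hP
    rwa [if_pos rfl] at this
  · have := h4 P' hP'
    rwa [if_neg hne] at this

/-- **SEED-OLD part 2 (separation)**: two distinct supersingular places are separated by an
integral old function with cuspidal poles. -/
theorem seedOld_exists_sep (hq : q.Prime) (hqM : ¬ q ∣ M₀) (haux : AuxLevelOK q M₀)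
    (hA : A.LiesOverPrime q)
    {P P' : Place (IsLocalRing.ResidueField A)
      ↥(modularFunctionFieldFullC (IsLocalRing.ResidueField A) M₀)}
    (hP : IsSSPlace (IsLocalRing.ResidueField A) M₀ q P)
    (hP' : IsSSPlace (IsLocalRing.ResidueField A) M₀ q P') (hne : P ≠ P') :
    ∃ g₀ : ↥(modularFunctionFieldBar M₀),
      g₀ ∈ (modularValSetup A q M₀ hq hA hqM).Ov ∧
      (∀ v : Place Qb ↥(modularFunctionFieldBar M₀),
        0 ≤ v.ord (Fermat.Agent.S24.jBar M₀) → 0 ≤ v.ord g₀) ∧
      (∀ Q : Place (IsLocalRing.ResidueField A)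
          ↥(modularFunctionFieldFullC (IsLocalRing.ResidueField A) M₀),
        0 ≤ Q.ord (Fermat.Agent.RRMod.jC (IsLocalRing.ResidueField A) M₀) →
          0 ≤ Q.ord ((modularValSetup A q M₀ hq hA hqM).red g₀)) ∧
      ValAt P ((modularValSetup A q M₀ hq hA hqM).red g₀) 1 ∧
      ValAt P' ((modularValSetup A q M₀ hq hA hqM).red g₀) 0 := by
  obtain ⟨g₀, h1, h2, h3, h4, h5⟩ := seedOld_exists_delta M₀ hq hqM haux hA P hP
  exact ⟨g₀, h1, h2, h3, h4, h5 P' hP' (Ne.symm hne)⟩

end Fermat.Agent.S36G
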