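/-
S36 (G wave), SEED at the MIDDLE vertices, analytic part (helper88).

`u(τ) = Δ(τ) / Δ(q τ)`, `g = [[1, 0], [M₀ q t, 1]]`, `q w + M₀ t b = 1`, `z = e(b/q)`:

  `u(q · g τ) · u(τ + b/q) = q ^ 12`,

and `τ ↦ u(τ + b/q)` has the expansion `u(z Q)`, `Q = e(τ)`.
-/
import Mathlib
import Fermat.Agent.S36.Ig.EpsGen
import Fermat.Agent.Lib.BadRed.Mod.UParamFun
import Fermat.Agent.Lib.BadRed.Mod.UParamAL

set_option autoImplicit false
set_option linter.style.haveILetI false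

noncomputable section

namespace Fermat.Agent.S36G

open ModularCurve UpperHalfPlane Fermat.Agent.S24 Fermat.Agent.S24.GensExp
  Fermat.Agent.Kronecker Fermat.Agent.S48WKron Fermat.Agent.S36Ig Fermat.Agent.BadRed
  Fermat.Agent.AtkinLehner
open scoped MatrixGroups

/-- `[[1, b], [0, 1]]`. -/
def umidT (b : ℤ) : SL(2, ℤ) :=
  ⟨!![1, b; 0, 1], by rw [Matrix.det_fin_two_of]; ring⟩

/-- `[[q, -b], [c, w]]`, `q w + c b = 1`. -/
def umidAux (q : ℕ) (c b w : ℤ) (h : (q : ℤ) * w + c * b = 1) : SL(2, ℤ) :=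
  ⟨!![(q : ℤ), -b; c, w], by
    rw [Matrix.det_fin_two_of]
    linear_combination h⟩

variable (q : ℕ) [NeZero q]

/-- `q · g(τ) = g'(q τ)`, `g = [[1,0],[q c,1]]`, `g' = [[1,0],[c,1]]`. -/
theorem umid_scale_low (c : ℤ) (τ : ℍ) :
    scale q (epsLow ((q : ℤ) * c) • τ) = epsLow c • scale q τ := by
  apply UpperHalfPlane.ext
  have h1 := sl2_denom_ne_zero (epsLow ((q : ℤ) * c)) τ
  have h2 := sl2_denom_ne_zero (epsLow c) (scale q τ)
  rw [coe_scale, coe_sl2_smul, coe_sl2_smul, coe_scale]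
  rw [coe_scale] at h2
  simp only [epsLow_00, epsLow_01, epsLow_10, epsLow_11] at h1 h2 ⊢
  push_cast at h1 h2 ⊢
  field_simp
  ring

/-- `q (τ + b/q) = q τ + b`. -/
theorem umid_scale_aff (b : ℤ) (τ : ℍ) :
    scale q (aff q q b (Nat.pos_of_ne_zero (NeZero.ne q)) (Nat.pos_of_ne_zero (NeZero.ne q)) τ) =
      umidT b • scale q τ := by
  apply UpperHalfPlane.ext
  have hq : (q : ℂ) ≠ 0 := by exact_mod_cast NeZero.ne q
  rw [coe_scale, coe_sl2_smul, coe_aff, coe_scale]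
  have e00 : (umidT b) 0 0 = 1 := rfl
  have e01 : (umidT b) 0 1 = b := rfl
  have e10 : (umidT b) 1 0 = 0 := rfl
  have e11 : (umidT b) 1 1 = 1 := rfl
  rw [e00, e01, e10, e11]
  push_cast
  field_simp
  ring

/-- `q² · g(τ) = γ''(τ + b/q)`. -/
theorem umid_scale2_low (c b w : ℤ) (h : (q : ℤ) * w + c * b = 1) (τ : ℍ) :
    scale q (scale q (epsLow ((q : ℤ) * c) • τ)) =
      umidAux q c b w h •
        aff q q b (Nat.pos_of_ne_zero (NeZero.ne q)) (Nat.pos_of_ne_zero (NeZero.ne q)) τ := by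
  apply UpperHalfPlane.ext
  have h1 := sl2_denom_ne_zero (epsLow ((q : ℤ) * c)) τ
  have h2 := sl2_denom_ne_zero (umidAux q c b w h)
    (aff q q b (Nat.pos_of_ne_zero (NeZero.ne q)) (Nat.pos_of_ne_zero (NeZero.ne q)) τ)
  have hq : (q : ℂ) ≠ 0 := by exact_mod_cast NeZero.ne q
  have hC : ((q : ℂ) * (w : ℂ) + (c : ℂ) * (b : ℂ)) = 1 := by
    exact_mod_cast congrArg (Int.cast : ℤ → ℂ) h
  rw [coe_scale, coe_scale, coe_sl2_smul, coe_sl2_smul, coe_aff]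
  rw [coe_aff] at h2
  have e00 : (umidAux q c b w h) 0 0 = (q : ℤ) := rfl
  have e01 : (umidAux q c b w h) 0 1 = -b := rfl
  have e10 : (umidAux q c b w h) 1 0 = c := rfl
  have e11 : (umidAux q c b w h) 1 1 = w := rfl
  rw [e10, e11] at h2
  rw [e00, e01, e10, e11]
  simp only [epsLow_00, epsLow_01, epsLow_10, epsLow_11] at h1 ⊢
  push_cast at h1 h2 ⊢
  have hden : (c : ℂ) * (((q : ℂ) * (τ : ℂ) + (b : ℂ)) / (q : ℂ)) + (w : ℂ) =
      ((q : ℂ) * (c : ℂ) * (τ : ℂ) + 1) / (q : ℂ) := by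
    field_simp
    linear_combination hC
  rw [hden] at h2 ⊢
  have h3 : (q : ℂ) * (c : ℂ) * (τ : ℂ) + 1 ≠ 0 := h1
  field_simp
  ring

/-- **`u(q · g τ) · u(τ + b/q) = q ^ 12`.** -/
theorem umid_u2_mul (c b w : ℤ) (h : (q : ℤ) * w + c * b = 1) (τ : ℍ) :
    uFn q (scale q (epsLow ((q : ℤ) * c) • τ)) *
      uFn q (aff q q b (Nat.pos_of_ne_zero (NeZero.ne q)) (Nat.pos_of_ne_zero (NeZero.ne q)) τ) =
      (q : ℂ) ^ 12 := by
  have hq : (q : ℂ) ≠ 0 := by exact_mod_cast NeZero.ne q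
  have hC : ((q : ℂ) * (w : ℂ) + (c : ℂ) * (b : ℂ)) = 1 := by
    exact_mod_cast congrArg (Int.cast : ℤ → ℂ) h
  rw [uFn_apply, uFn_apply, umid_scale2_low q c b w h, umid_scale_low, umid_scale_aff,
    discriminant_sl2_smul, discriminant_sl2_smul, discriminant_sl2_smul]
  have h1 := sl2_denom_ne_zero (epsLow c) (scale q τ)
  have h2 := sl2_denom_ne_zero (umidAux q c b w h)
    (aff q q b (Nat.pos_of_ne_zero (NeZero.ne q)) (Nat.pos_of_ne_zero (NeZero.ne q)) τ)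
  have e00 : (umidAux q c b w h) 0 0 = (q : ℤ) := rfl
  have e01 : (umidAux q c b w h) 0 1 = -b := rfl
  have e10 : (umidAux q c b w h) 1 0 = c := rfl
  have e11 : (umidAux q c b w h) 1 1 = w := rfl
  have t10 : (umidT b) 1 0 = 0 := rfl
  have t11 : (umidT b) 1 1 = 1 := rfl
  rw [e10, e11] at h2 ⊢
  rw [t10, t11]
  simp only [epsLow_10, epsLow_11] at h1 ⊢
  rw [coe_aff] at h2 ⊢
  rw [coe_scale] at h1 ⊢
  have hden : (c : ℂ) * (((q : ℂ) * (τ : ℂ) + (b : ℂ)) / (q : ℂ)) + (w : ℂ) =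
      ((c : ℂ) * ((q : ℂ) * (τ : ℂ)) + 1) / (q : ℂ) := by
    field_simp
    linear_combination hC
  push_cast at h1 h2 ⊢
  rw [hden] at h2 ⊢
  have hΔ1 := ModularForm.discriminant_ne_zero (scale q τ)
  have hΔ2 := ModularForm.discriminant_ne_zero
    (aff q q b (Nat.pos_of_ne_zero (NeZero.ne q)) (Nat.pos_of_ne_zero (NeZero.ne q)) τ)
  simp only [zero_mul, zero_add, one_pow, mul_one]
  rw [div_pow]
  have h1' : (c : ℂ) * (q : ℂ) * (τ : ℂ) + 1 ≠ 0 := by rwa [mul_assoc]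
  field_simp

/-- the expansion of `τ ↦ u(τ + b/q)` in `e(τ/(M₀ q²))`: `u(z Q)`, `Q = e(τ)`, `z = e(b/q)`. -/
theorem umid_hasExp_aff (M₀ : ℕ) [NeZero M₀] [NeZero (M₀ * q * q)] (b : ℤ) (z : Kbarˣ)
    (hzq : z ^ q = 1)
    (hz : iota (z : Kbar) = Complex.exp (2 * Real.pi * Complex.I * (b : ℂ) / (q : ℂ))) :
    HasExp (M₀ * q * q)
      (fun τ => uFn q (aff q q b (Nat.pos_of_ne_zero (NeZero.ne q))
        (Nat.pos_of_ne_zero (NeZero.ne q)) τ))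
      (qExpand Kbar (M₀ * q * q) (scaleL z (uSer Kbar q))) := by
  haveI : NeZero (q * (M₀ * q)) :=
    ⟨mul_ne_zero (NeZero.ne q) (mul_ne_zero (NeZero.ne M₀) (NeZero.ne q))⟩
  have hφ : ∀ τ : ℍ, uParam 1 (aff q q b (Nat.pos_of_ne_zero (NeZero.ne q))
      (Nat.pos_of_ne_zero (NeZero.ne q)) τ)
      = iota (z : Kbar) * uParam (M₀ * q * q) τ ^ (q * (M₀ * q)) := by
    intro τ
    rw [uParam_one_aff (M₀ * q * q) q q (M₀ * q) b _ _
      (by ring) (Nat.mul_pos (Nat.pos_of_ne_zero (NeZero.ne M₀))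
        (Nat.pos_of_ne_zero (NeZero.ne q))), hz]
  have h1 := epsTw_hasExp_comp (hasExp_uFn q) _ z
    (eps_norm_iota_of_pow (NeZero.ne q) hzq) (q * (M₀ * q)) hφ
  rw [qExpand_congr (show q * (M₀ * q) = M₀ * q * q by ring)] at h1
  exact h1

/-- **the middle cusp**: `(u₂ ∘ g) · u(τ + b/q) = q ^ 12`, `u₂(τ) = u(q τ)`,
`g = [[1, 0], [M₀ q t, 1]]`, `q w + M₀ t b = 1`. -/
theorem umid_u2_low_mul (M₀ : ℕ) (t b w : ℤ) (h : (q : ℤ) * w + (M₀ : ℤ) * t * b = 1) (τ : ℍ) :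
    uFn q (scale q (epsLow ((M₀ : ℤ) * q * t) • τ)) *
      uFn q (aff q q b (Nat.pos_of_ne_zero (NeZero.ne q)) (Nat.pos_of_ne_zero (NeZero.ne q)) τ) =
      (q : ℂ) ^ 12 := by
  have hc : (M₀ : ℤ) * q * t = (q : ℤ) * ((M₀ : ℤ) * t) := by ring
  rw [hc]
  exact umid_u2_mul q ((M₀ : ℤ) * t) b w h τ

end Fermat.Agent.S36G
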