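/-
Cluster G (S36, Carayol at `q² ∥ M`), seat SEED-OLD part 1 (helper96; sub-architect helper92,
architect helper80): **OLD FUNCTIONS at the vertical vertices `v_∞` and `v_m`** of the modular graph
of `X₀(q² M₀)`.

An OLD function is a `g ∈ F_N` whose `q`-expansion is the `q`-expansion of a function
`g₀ ∈ F_{M₀}` of the good level `M₀` (`IsOldOf g g₀`; e.g. `g = α (α g₀)`, `oldFun2`, or
`alphaQ D g₀`, or any level cast of these).  If `g₀` is Gauss-integral at `A` (a place of `ℚ̄`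
over `q ∤ M₀`) with reduction `ḡ₀ ∈ F_k(M₀)`:

* `v_∞` (any Gauss setup `IsGaussSetup N N₀ A S`):
    `isOldOf_mem_gauss`, `coe_red_isOldOf_gauss`, `red_isOldOf_gauss` : `g ∈ O_∞`, `red_∞ g = ḡ₀`;
* `v_m` (any middle expansion `IsMidExp M₀ q z ε`, any `IsMidSetup M₀ q A ε S`):
    `isOldOf_mem_expOv`, `expRes_isOldOf`, `isOldOf_mem_mid`, `red_isOldOf_mid` :
    `g ∈ O_m`, `red_m g = ḡ₀` seen in `Fk_m = k(Z)(θ j̄) ⊇ k(Z)`;
* VALUES: `valAt_inclusion_of_over` : a place `Q` of `Fk_m` over the place `P` of `k(Z)`: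
    `ValAt P ḡ₀ c → ValAt Q ḡ₀ c`;  `valAt_red_isOldOf_mid`, `valAt_red_isOldOf_gauss`.

(`v_0`: helper68's `S36/Val/Zero2.lean`; the horizontal vertices `w_P`: `S36/Seed/Old.lean`;
separation: `S36/Seed/OldSep.lean`.)
-/
import Mathlib
import Fermat.Agent.S36.Igusa.Lies
import Fermat.Agent.Lib.BadRed.Mod.ValInf
import Fermat.Agent.Lib.BadRed.Nodal.Setup
import Fermat.Agent.Lib.BadRed.Nodal.RRNodal
import Fermat.Agent.Lib.GaussInt.ModularInst
import Fermat.Agent.Lib.BadRed.Mod.OldRed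

set_option autoImplicit false
set_option linter.style.haveILetI false
set_option linter.unusedSectionVars false
set_option synthInstance.maxHeartbeats 400000

noncomputable section
attribute [local instance 10000] SubalgebraClass.toAlgebra HahnSeries.powerSeriesAlgebra

namespace Fermat.Agent.S36G

open ModularCurve AlgebraicCurve Fermat.Agent.GaussInt Fermat.Agent.Deuring
  Fermat.Agent.BadRed Fermat.Agent.F3G Fermat.Agent.S24 Fermat.Agent.AtkinLehner

local notation "Qb" => AlgebraicClosure ℚ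

/-! ### old functions -/

section Old

/-- `g ∈ F_N` is the OLD function attached to `g₀ ∈ F_{M₀}`: the same `q`-expansion. -/
def IsOldOf {N M₀ : ℕ} (g : ↥(modularFunctionFieldBar N)) (g₀ : ↥(modularFunctionFieldBar M₀)) :
    Prop :=
  (g : LaurentSeries Qb) = (g₀ : LaurentSeries Qb)

theorem IsOldOf.coe_eq {N M₀ : ℕ} {g : ↥(modularFunctionFieldBar N)}
    {g₀ : ↥(modularFunctionFieldBar M₀)} (h : IsOldOf g g₀) :
    (g : LaurentSeries Qb) = (g₀ : LaurentSeries Qb) := h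

theorem IsOldOf.unique {N M₀ : ℕ} {g g' : ↥(modularFunctionFieldBar N)}
    {g₀ : ↥(modularFunctionFieldBar M₀)} (h : IsOldOf g g₀) (h' : IsOldOf g' g₀) : g = g' :=
  Subtype.ext (h.trans h'.symm)

theorem isOldOf_self {N : ℕ} (g : ↥(modularFunctionFieldBar N)) : IsOldOf g g := rfl

theorem IsOldOf.trans {N M M₀ : ℕ} {g : ↥(modularFunctionFieldBar N)}
    {g₁ : ↥(modularFunctionFieldBar M)} {g₀ : ↥(modularFunctionFieldBar M₀)}
    (h : IsOldOf g g₁) (h' : IsOldOf g₁ g₀) : IsOldOf g g₀ :=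
  Eq.trans h h'

theorem isOldOf_heckeAlphaBar (M ℓ : ℕ) [NeZero M] [NeZero ℓ]
    (g₀ : ↥(modularFunctionFieldBar M)) : IsOldOf (heckeAlphaBar Qb M ℓ g₀) g₀ :=
  coe_heckeAlphaBar M ℓ g₀

variable (M₀ q : ℕ) [NeZero M₀] [NeZero q]

/-- the old function `α (α g₀) ∈ F_{M₀ q²}` of `g₀ ∈ F_{M₀}`. -/
def oldFun2 (g₀ : ↥(modularFunctionFieldBar M₀)) : ↥(modularFunctionFieldBar (M₀ * q * q)) :=
  heckeAlphaBar Qb (M₀ * q) q (heckeAlphaBar Qb M₀ q g₀)

theorem coe_oldFun2 (g₀ : ↥(modularFunctionFieldBar M₀)) :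
    ((oldFun2 M₀ q g₀ : ↥(modularFunctionFieldBar (M₀ * q * q))) : LaurentSeries Qb) =
      (g₀ : LaurentSeries Qb) := by
  unfold oldFun2
  rw [coe_heckeAlphaBar, coe_heckeAlphaBar]

theorem isOldOf_oldFun2 (g₀ : ↥(modularFunctionFieldBar M₀)) : IsOldOf (oldFun2 M₀ q g₀) g₀ :=
  coe_oldFun2 M₀ q g₀

theorem IsOldOf.eq_oldFun2 {g : ↥(modularFunctionFieldBar (M₀ * q * q))}
    {g₀ : ↥(modularFunctionFieldBar M₀)} (h : IsOldOf g g₀) : g = oldFun2 M₀ q g₀ :=
  h.unique (isOldOf_oldFun2 M₀ q g₀)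

/-- `oldFun2` as a `ℚ̄`-algebra map. -/
def oldFun2Hom : ↥(modularFunctionFieldBar M₀) →ₐ[Qb] ↥(modularFunctionFieldBar (M₀ * q * q)) :=
  (heckeAlphaBar Qb (M₀ * q) q).comp (heckeAlphaBar Qb M₀ q)

theorem oldFun2Hom_apply (g₀ : ↥(modularFunctionFieldBar M₀)) :
    oldFun2Hom M₀ q g₀ = oldFun2 M₀ q g₀ := rfl

/-- a middle expansion is the inclusion on the old functions. -/
theorem IsMidExp.apply_isOldOf {z : Qbˣ}
    {ε : ↥(modularFunctionFieldBar (M₀ * q * q)) →ₐ[Qb] LaurentSeries Qb}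
    (hε : IsMidExp M₀ q z ε) {g : ↥(modularFunctionFieldBar (M₀ * q * q))}
    {g₀ : ↥(modularFunctionFieldBar M₀)} (h : IsOldOf g g₀) :
    ε g = (g₀ : LaurentSeries Qb) := by
  rw [h.eq_oldFun2 M₀ q, oldFun2, hε.alpha, coe_heckeAlphaBar]

end Old

/-! ### `v_∞`: an arbitrary Gauss setup -/

section Gauss

variable {N N₀ M₀ : ℕ} [NeZero N] [NeZero N₀] [NeZero M₀] {A : ValuationSubring Qb}
  {S : ValSetup Qb (FBar N) (IsLocalRing.ResidueField A)
    (modularFunctionFieldFullC (IsLocalRing.ResidueField A) N₀)}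

/-- an old Gauss-integral function is integral for `v_∞`. -/
theorem isOldOf_mem_gauss (hS : IsGaussSetup N N₀ A S)
    (hle : modularFunctionFieldBar M₀ ≤ modularFunctionFieldBar N)
    {g : FBar N} {g₀ : ↥(modularFunctionFieldBar M₀)} (h : IsOldOf g g₀)
    (hg₀ : (g₀ : LaurentSeries Qb) ∈ gaussSub A (modularFunctionFieldBar M₀)) : g ∈ S.Ov := by
  rw [hS.mem_iff, h.coe_eq]
  exact gaussSub_mono_field hle hg₀

/-- its `v_∞`-reduction is the Gauss residue of `g₀` (as a series). -/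
theorem coe_red_isOldOf_gauss (hS : IsGaussSetup N N₀ A S)
    (hle : modularFunctionFieldBar M₀ ≤ modularFunctionFieldBar N)
    {g : FBar N} {g₀ : ↥(modularFunctionFieldBar M₀)} (h : IsOldOf g g₀)
    (hg₀ : (g₀ : LaurentSeries Qb) ∈ gaussSub A (modularFunctionFieldBar M₀)) :
    ((S.red g : modularFunctionFieldFullC (IsLocalRing.ResidueField A) N₀) :
        LaurentSeries (IsLocalRing.ResidueField A)) =
      gaussResFun A (modularFunctionFieldBar M₀) (g₀ : LaurentSeries Qb) := by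
  rw [hS.coe_red _ (isOldOf_mem_gauss hS hle h hg₀), h.coe_eq, gaussResFun_eq_of_le hle hg₀]

/-- `red_∞ g = red g₀` when the residue field of `v_∞` is `F_k(M₀)`. -/
theorem red_isOldOf_gauss {q : ℕ} (hq : q.Prime) (hA : A.LiesOverPrime q) (hqM : ¬ q ∣ M₀)
    {S : ValSetup Qb (FBar N) (IsLocalRing.ResidueField A)
      (modularFunctionFieldFullC (IsLocalRing.ResidueField A) M₀)}
    (hS : IsGaussSetup N M₀ A S)
    (hle : modularFunctionFieldBar M₀ ≤ modularFunctionFieldBar N)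
    {g : FBar N} {g₀ : ↥(modularFunctionFieldBar M₀)} (h : IsOldOf g g₀)
    (hg₀ : g₀ ∈ (modularValSetup A q M₀ hq hA hqM).Ov) :
    S.red g = (modularValSetup A q M₀ hq hA hqM).red g₀ := by
  have hg₀' := (mem_modularValSetup_Ov_iff A q M₀ hq hA hqM g₀).mp hg₀
  apply Subtype.ext
  rw [coe_red_isOldOf_gauss hS hle h hg₀', coe_modularValSetup_red A q M₀ hq hA hqM hg₀']

end Gauss

/-! ### `v_m`: the middle vertices -/

section Mid

variable (M₀ q : ℕ) [NeZero M₀] [NeZero q] {A : ValuationSubring Qb} {z : Qbˣ}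
  {ε : ↥(modularFunctionFieldBar (M₀ * q * q)) →ₐ[Qb] LaurentSeries Qb}

/-- an old Gauss-integral function is integral for the middle expansion. -/
theorem isOldOf_mem_expOv (hε : IsMidExp M₀ q z ε)
    {g : ↥(modularFunctionFieldBar (M₀ * q * q))} {g₀ : ↥(modularFunctionFieldBar M₀)}
    (h : IsOldOf g g₀)
    (hg₀ : (g₀ : LaurentSeries Qb) ∈ gaussSub A (modularFunctionFieldBar M₀)) :
    g ∈ expOv ε A := by
  rw [mem_expOv_iff, hε.apply_isOldOf M₀ q h]
  exact gaussSub_mono_field le_top hg₀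

/-- its residue function is the Gauss residue of `g₀`. -/
theorem expRes_isOldOf (hε : IsMidExp M₀ q z ε)
    {g : ↥(modularFunctionFieldBar (M₀ * q * q))} {g₀ : ↥(modularFunctionFieldBar M₀)}
    (h : IsOldOf g g₀)
    (hg₀ : (g₀ : LaurentSeries Qb) ∈ gaussSub A (modularFunctionFieldBar M₀)) :
    expRes ε A g = gaussResFun A (modularFunctionFieldBar M₀) (g₀ : LaurentSeries Qb) := by
  unfold expRes
  rw [hε.apply_isOldOf M₀ q h]
  exact gaussResFun_eq_of_le le_top hg₀

variable {S : ValSetup Qb ↥(modularFunctionFieldBar (M₀ * q * q)) (IsLocalRing.ResidueField A)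
    ↥(igField (IsLocalRing.ResidueField A) M₀)}

/-- **(OLD-m, a)** an old Gauss-integral function is integral for `v_m`. -/
theorem isOldOf_mem_mid (hε : IsMidExp M₀ q z ε) (hS : IsMidSetup M₀ q A ε S)
    {g : ↥(modularFunctionFieldBar (M₀ * q * q))} {g₀ : ↥(modularFunctionFieldBar M₀)}
    (h : IsOldOf g g₀)
    (hg₀ : (g₀ : LaurentSeries Qb) ∈ gaussSub A (modularFunctionFieldBar M₀)) :
    g ∈ S.Ov :=
  (hS.mem_iff g).mpr (isOldOf_mem_expOv M₀ q hε h hg₀)

/-- **(OLD-m, b)** its `v_m`-reduction, as a series, is the Gauss residue of `g₀`. -/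
theorem coe_red_isOldOf_mid (hε : IsMidExp M₀ q z ε) (hS : IsMidSetup M₀ q A ε S)
    {g : ↥(modularFunctionFieldBar (M₀ * q * q))} {g₀ : ↥(modularFunctionFieldBar M₀)}
    (h : IsOldOf g g₀)
    (hg₀ : (g₀ : LaurentSeries Qb) ∈ gaussSub A (modularFunctionFieldBar M₀)) :
    ((S.red g : ↥(igField (IsLocalRing.ResidueField A) M₀)) :
        LaurentSeries (IsLocalRing.ResidueField A)) =
      gaussResFun A (modularFunctionFieldBar M₀) (g₀ : LaurentSeries Qb) := by
  rw [hS.coe_red g (isOldOf_mem_mid M₀ q hε hS h hg₀), expRes_isOldOf M₀ q hε h hg₀]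

/-- **(OLD-m, c)** `red_m g = ḡ₀`, seen in `Fk_m = k(Z)(θ j̄)`. -/
theorem red_isOldOf_mid (hq : q.Prime) (hA : A.LiesOverPrime q) (hqM : ¬ q ∣ M₀)
    (hε : IsMidExp M₀ q z ε) (hS : IsMidSetup M₀ q A ε S)
    {g : ↥(modularFunctionFieldBar (M₀ * q * q))} {g₀ : ↥(modularFunctionFieldBar M₀)}
    (h : IsOldOf g g₀) (hg₀ : g₀ ∈ (modularValSetup A q M₀ hq hA hqM).Ov) :
    S.red g = IntermediateField.inclusion (fullC_le_igField (IsLocalRing.ResidueField A) M₀)
      ((modularValSetup A q M₀ hq hA hqM).red g₀) := by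
  have hg₀' := (mem_modularValSetup_Ov_iff A q M₀ hq hA hqM g₀).mp hg₀
  apply Subtype.ext
  rw [coe_red_isOldOf_mid M₀ q hε hS h hg₀', IntermediateField.coe_inclusion,
    coe_modularValSetup_red A q M₀ hq hA hqM hg₀']

end Mid

/-! ### values -/

section Values

variable {k : Type*} [Field k] {Fk₁ Fk₂ : Type*} [Field Fk₁] [Algebra k Fk₁] [Field Fk₂]
  [Algebra k Fk₂]

/-- `Q` lies over `P` along `φ` (on the maximal ideals). -/
def PlaceOver (φ : Fk₁ →ₐ[k] Fk₂) (P : Place k Fk₁) (Q : Place k Fk₂) : Prop :=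
  ∀ x : Fk₁, 0 < P.ord x → 0 < Q.ord (φ x)

/-- **VALUE TRANSPORT**: a value at `P` is a value at every place over `P`. -/
theorem valAt_map_of_placeOver (φ : Fk₁ →ₐ[k] Fk₂) {P : Place k Fk₁} {Q : Place k Fk₂}
    (hQP : PlaceOver φ P Q) {f : Fk₁} {c : k} (h : ValAt P f c) : ValAt Q (φ f) c := by
  rcases h with h | h
  · left
    rw [h, AlgHom.commutes]
  · right
    have := hQP _ h
    rwa [map_sub, AlgHom.commutes] at this

/-- the converse, for a function which has a value at `P`. -/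
theorem valAt_of_valAt_map (φ : Fk₁ →ₐ[k] Fk₂) {P : Place k Fk₁} {Q : Place k Fk₂}
    (hQP : PlaceOver φ P Q) {f : Fk₁} {c : k} (hex : ∃ c' : k, ValAt P f c')
    (h : ValAt Q (φ f) c) : ValAt P f c := by
  obtain ⟨c', hc'⟩ := hex
  have h' := valAt_map_of_placeOver φ hQP hc'
  rwa [ValAt.unique h h']

end Values

/-! ### values of the reductions of old functions -/

section OldValues

variable (M₀ q : ℕ) [NeZero M₀] [NeZero q] {A : ValuationSubring Qb} {z : Qbˣ}
  {ε : ↥(modularFunctionFieldBar (M₀ * q * q)) →ₐ[Qb] LaurentSeries Qb}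
  {S : ValSetup Qb ↥(modularFunctionFieldBar (M₀ * q * q)) (IsLocalRing.ResidueField A)
    ↥(igField (IsLocalRing.ResidueField A) M₀)}

/-- **(OLD-m, d)** the value of `red_m g` at a place `Q` of `Fk_m` over the place `P` of `k(Z)` is
the value of `ḡ₀` at `P`. -/
theorem valAt_red_isOldOf_mid (hq : q.Prime) (hA : A.LiesOverPrime q) (hqM : ¬ q ∣ M₀)
    (hε : IsMidExp M₀ q z ε) (hS : IsMidSetup M₀ q A ε S)
    {g : ↥(modularFunctionFieldBar (M₀ * q * q))} {g₀ : ↥(modularFunctionFieldBar M₀)}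
    (h : IsOldOf g g₀) (hg₀ : g₀ ∈ (modularValSetup A q M₀ hq hA hqM).Ov)
    {P : Place (IsLocalRing.ResidueField A)
      ↥(modularFunctionFieldFullC (IsLocalRing.ResidueField A) M₀)}
    {Q : Place (IsLocalRing.ResidueField A) ↥(igField (IsLocalRing.ResidueField A) M₀)}
    (hQP : PlaceOver
      (IntermediateField.inclusion (fullC_le_igField (IsLocalRing.ResidueField A) M₀)) P Q)
    {c : IsLocalRing.ResidueField A}
    (hc : ValAt P ((modularValSetup A q M₀ hq hA hqM).red g₀) c) :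
    ValAt Q (S.red g) c := by
  rw [red_isOldOf_mid M₀ q hq hA hqM hε hS h hg₀]
  exact valAt_map_of_placeOver _ hQP hc

/-- the converse, when `ḡ₀` has a value at `P`. -/
theorem valAt_of_valAt_red_isOldOf_mid (hq : q.Prime) (hA : A.LiesOverPrime q) (hqM : ¬ q ∣ M₀)
    (hε : IsMidExp M₀ q z ε) (hS : IsMidSetup M₀ q A ε S)
    {g : ↥(modularFunctionFieldBar (M₀ * q * q))} {g₀ : ↥(modularFunctionFieldBar M₀)}
    (h : IsOldOf g g₀) (hg₀ : g₀ ∈ (modularValSetup A q M₀ hq hA hqM).Ov)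
    {P : Place (IsLocalRing.ResidueField A)
      ↥(modularFunctionFieldFullC (IsLocalRing.ResidueField A) M₀)}
    {Q : Place (IsLocalRing.ResidueField A) ↥(igField (IsLocalRing.ResidueField A) M₀)}
    (hQP : PlaceOver
      (IntermediateField.inclusion (fullC_le_igField (IsLocalRing.ResidueField A) M₀)) P Q)
    {c : IsLocalRing.ResidueField A}
    (hex : ∃ c' : IsLocalRing.ResidueField A,
      ValAt P ((modularValSetup A q M₀ hq hA hqM).red g₀) c')
    (hc : ValAt Q (S.red g) c) :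
    ValAt P ((modularValSetup A q M₀ hq hA hqM).red g₀) c := by
  rw [red_isOldOf_mid M₀ q hq hA hqM hε hS h hg₀] at hc
  exact valAt_of_valAt_map _ hQP hex hc

end OldValues

/-! ### poles of old functions -/

section Poles

variable {N M₀ : ℕ} [NeZero N] [NeZero M₀]

/-- **POLES**: a `ℚ̄`-algebra map `φ : F_{M₀} → F_N` with `φ j = j` maps functions with poles only
at the cusps (poles of `j`) to functions with poles only at the cusps. -/
theorem ord_map_nonneg_of_cuspidal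
    (φ : ↥(modularFunctionFieldBar M₀) →ₐ[Qb] ↥(modularFunctionFieldBar N))
    (hj : φ (jBar M₀) = jBar N) (g₀ : ↥(modularFunctionFieldBar M₀))
    (h : ∀ v₀ : Place Qb ↥(modularFunctionFieldBar M₀),
      0 ≤ v₀.ord (jBar M₀) → 0 ≤ v₀.ord g₀) :
    ∀ v : Place Qb ↥(modularFunctionFieldBar N), 0 ≤ v.ord (jBar N) → 0 ≤ v.ord (φ g₀) := by
  intro v hv
  haveI := finiteDimensional_adjoin_jBar M₀
  obtain ⟨Φ, hmonic, hΦ⟩ := SeedNode.exists_charpoly_poly (Fermat.Agent.RRMod.isRRField_bar M₀)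
    (transcendental_jBar M₀) g₀ h
  have h2 := SeedNode.aeval_charpoly_mulLeft (L := IntermediateField.adjoin Qb {jBar M₀}) g₀
  rw [← hΦ, Polynomial.aeval_def, Polynomial.eval₂_map] at h2
  apply Fermat.Agent.S24Res.ord_nonneg_of_mem
  letI : Algebra (Polynomial Qb) ↥(modularFunctionFieldBar N) :=
    (Polynomial.aeval (R := Qb) (jBar N)).toRingHom.toAlgebra
  have halg : ∀ p : Polynomial Qb, algebraMap (Polynomial Qb)
      ↥(modularFunctionFieldBar N) p = Polynomial.aeval (jBar N) p :=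
    fun p => rfl
  refine Fermat.Agent.S24Bridge.mem_of_isIntegral (R := Polynomial Qb) v (fun p => ?_) ?_
  · rw [halg]
    have := Fermat.Agent.RRHur.adicValuation_aeval_le_one v
      ((Fermat.Agent.RRHur.adicValuation_le_one_iff' v).mpr hv) p
    exact Fermat.Agent.S24Res.mem_of_ord_nonneg v
      ((Fermat.Agent.RRHur.adicValuation_le_one_iff' v).mp this)
  · refine ⟨Φ, hmonic, ?_⟩
    have h3 := congrArg φ.toRingHom h2
    rw [map_zero, Polynomial.hom_eval₂] at h3
    have hcomp : (φ.toRingHom.comp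
        ((algebraMap (IntermediateField.adjoin Qb {jBar M₀}) ↥(modularFunctionFieldBar M₀)).comp
          (SeedNode.toAdj (jBar M₀)))) =
        algebraMap (Polynomial Qb) ↥(modularFunctionFieldBar N) := by
      apply Polynomial.ringHom_ext
      · intro a
        simp [halg, SeedNode.toAdj_apply]
      · simp [halg, SeedNode.toAdj_apply, hj]
    rw [← hcomp]
    exact h3

/-- **(OLD, poles)** an old function of a function with poles only at the cusps of `X₀(M₀)` has
poles only at the cusps of `X₀(N)`. -/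
theorem ord_isOldOf_nonneg (hle : modularFunctionFieldBar M₀ ≤ modularFunctionFieldBar N)
    {g : ↥(modularFunctionFieldBar N)} {g₀ : ↥(modularFunctionFieldBar M₀)} (hg : IsOldOf g g₀)
    (h : ∀ v₀ : Place Qb ↥(modularFunctionFieldBar M₀),
      0 ≤ v₀.ord (jBar M₀) → 0 ≤ v₀.ord g₀) :
    ∀ v : Place Qb ↥(modularFunctionFieldBar N), 0 ≤ v.ord (jBar N) → 0 ≤ v.ord g := by
  have hg' : g = IntermediateField.inclusion hle g₀ :=
    Subtype.ext (by rw [IntermediateField.coe_inclusion]; exact hg)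
  rw [hg']
  refine ord_map_nonneg_of_cuspidal (IntermediateField.inclusion hle) ?_ g₀ h
  apply Subtype.ext
  rw [IntermediateField.coe_inclusion, coe_jBar, coe_jBar]

/-- the same for `oldFun2`. -/
theorem ord_oldFun2_nonneg (q : ℕ) [NeZero q] (g₀ : ↥(modularFunctionFieldBar M₀))
    (h : ∀ v₀ : Place Qb ↥(modularFunctionFieldBar M₀),
      0 ≤ v₀.ord (jBar M₀) → 0 ≤ v₀.ord g₀) :
    ∀ v : Place Qb ↥(modularFunctionFieldBar (M₀ * q * q)),
      0 ≤ v.ord (jBar (M₀ * q * q)) → 0 ≤ v.ord (oldFun2 M₀ q g₀) := by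
  refine ord_map_nonneg_of_cuspidal (oldFun2Hom M₀ q) ?_ g₀ h
  apply Subtype.ext
  rw [oldFun2Hom_apply, coe_oldFun2, coe_jBar, coe_jBar]

end Poles

end Fermat.Agent.S36G
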