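/-
Cluster G (S36, Carayol at `q² ∥ M`), seat SEED-OLD part 1b (helper96; sub-architect helper92,
architect helper80): **OLD FUNCTIONS at the vertex `v_0`, CAST-FREE**.

`v_0 = v_∞ ∘ W` for an automorphism `W` of `F_N` (`comapEquiv S W`; for the modular graph
`W = wAt D hM`, `D.Q = q ^ e`, or `atkinLehner D`).  `IsOldTwist W Q g g₀` : the expansion of `W g`
is `g₀(t^Q)` (`g₀ ∈ F_{M₀}`).  This holds for every old function `g` of `g₀`
(`isOldTwist_wAt`, `isOldTwist_atkinLehner`).  If `g₀` is Gauss-integral at `A` over `q ∤ M₀`: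

* `isOldTwist_mem_zero`, `coe_red_zero_isOldTwist` : `g ∈ O_0`, `red_0 g = ḡ₀(t^Q)`;
* `red_zero_isOldTwist_eq_pow` : `red_0 g = (Frob⁻ᵉ ḡ₀) ^ (q^e)` for `Q = q ^ e`;
* `valAt_red_zero_isOldTwist`  : `ValAt P (red_0 g) c ↔ ValAt (Frobᵉ • P) ḡ₀ c`.

(Port of helper68's `S36/Val/Zero2.lean`, section `Old`, to arbitrary levels and `IsOldOf`.)
-/
import Mathlib
import Fermat.Agent.S36.Seed.OldMid
import Fermat.Agent.S36.Val.Zero2
import Fermat.Agent.Lib.BadRed.Bridge.LevelCast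

set_option autoImplicit false
set_option linter.style.haveILetI false
set_option linter.unusedSectionVars false
set_option synthInstance.maxHeartbeats 400000

noncomputable section
attribute [local instance 10000] SubalgebraClass.toAlgebra HahnSeries.powerSeriesAlgebra

namespace Fermat.Agent.S36G

open ModularCurve AlgebraicCurve Fermat.Agent.GaussInt Fermat.Agent.Deuring
  Fermat.Agent.BadRed Fermat.Agent.F3G Fermat.Agent.S24 Fermat.Agent.AtkinLehner
  Fermat.Agent.F3 Fermat.Agent.Kronecker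

local notation "Qb" => AlgebraicClosure ℚ

section Twist

variable {N M₀ : ℕ} [NeZero N] [NeZero M₀]

/-- `W` maps `g` to the function with the expansion `g₀(t^Q)`. -/
def IsOldTwist (W : FBar N ≃ₐ[Qb] FBar N) (Q : ℕ) [NeZero Q] (g : FBar N)
    (g₀ : ↥(modularFunctionFieldBar M₀)) : Prop :=
  ((W g : FBar N) : LaurentSeries Qb) = qExpand Qb Q (g₀ : LaurentSeries Qb)

/-- an old function at the level `D.Q * D.R` is twisted by the Atkin–Lehner involution. -/
theorem isOldTwist_atkinLehner (D : ALData) [NeZero D.Q] [NeZero D.R] [NeZero (D.Q * D.R)]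
    {g : FBar (D.Q * D.R)} {g₀ : ↥(modularFunctionFieldBar D.R)} (h : IsOldOf g g₀) :
    IsOldTwist (atkinLehner D) D.Q g g₀ := by
  have hg : g = alphaQ D g₀ := Subtype.ext (by rw [coe_alphaQ]; exact h)
  unfold IsOldTwist
  rw [hg, atkinLehner_alphaQ, coe_betaQ]

/-- an old function at a level `M = D.Q * D.R` is twisted by `wAt D hM`. -/
theorem isOldTwist_wAt (D : ALData) [NeZero D.Q] [NeZero D.R] [NeZero (D.Q * D.R)]
    {M : ℕ} [NeZero M] (hM : M = D.Q * D.R) (hR : M₀ = D.R)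
    {g : FBar M} {g₀ : ↥(modularFunctionFieldBar M₀)} (h : IsOldOf g g₀) :
    IsOldTwist (wAt D hM) D.Q g g₀ := by
  subst hR
  unfold IsOldTwist
  rw [coe_wAt]
  have h' : IsOldOf (castF hM g) g₀ := by
    unfold IsOldOf
    rw [coe_castF]
    exact h
  exact isOldTwist_atkinLehner D h'

/-- `x ↦ x(t^Q)` maps `F_{M₀}` into `F_M` for `M = Q M₀`. -/
theorem qExpand_mem_of_level_eq (D : ALData) [NeZero D.Q] [NeZero D.R]
    {M : ℕ} (hM : M = D.Q * D.R) (hR : M₀ = D.R) :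
    ∀ x ∈ modularFunctionFieldBar M₀, qExpand Qb D.Q x ∈ modularFunctionFieldBar M := by
  subst hR
  subst hM
  intro x hx
  exact qExpand_mem_level_mul D ⟨x, hx⟩

end Twist

section Zero

variable {N N₀ M₀ : ℕ} [NeZero N] [NeZero N₀] [NeZero M₀] {A : ValuationSubring Qb}
  {S : ValSetup Qb (FBar N) (IsLocalRing.ResidueField A)
    (modularFunctionFieldFullC (IsLocalRing.ResidueField A) N₀)}

/-- **(OLD-0, a)** an old Gauss-integral function is integral for `v_0 = v_∞ ∘ W`. -/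
theorem isOldTwist_mem_zero (hS : IsGaussSetup N N₀ A S) (W : FBar N ≃ₐ[Qb] FBar N)
    (Q : ℕ) [NeZero Q]
    (hQ : ∀ x ∈ modularFunctionFieldBar M₀, qExpand Qb Q x ∈ modularFunctionFieldBar N)
    {g : FBar N} {g₀ : ↥(modularFunctionFieldBar M₀)} (hW : IsOldTwist W Q g g₀)
    (hg₀ : (g₀ : LaurentSeries Qb) ∈ gaussSub A (modularFunctionFieldBar M₀)) :
    g ∈ (comapEquiv S W).Ov := by
  rw [mem_comapEquiv_Ov, hS.mem_iff, hW]
  exact qExpand_mem_gaussSub Q hQ hg₀

/-- **(OLD-0, b)** its `v_0`-reduction is `ḡ₀(t^Q)`. -/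
theorem coe_red_zero_isOldTwist (hS : IsGaussSetup N N₀ A S) (W : FBar N ≃ₐ[Qb] FBar N)
    (Q : ℕ) [NeZero Q]
    (hQ : ∀ x ∈ modularFunctionFieldBar M₀, qExpand Qb Q x ∈ modularFunctionFieldBar N)
    {g : FBar N} {g₀ : ↥(modularFunctionFieldBar M₀)} (hW : IsOldTwist W Q g g₀)
    (hg₀ : (g₀ : LaurentSeries Qb) ∈ gaussSub A (modularFunctionFieldBar M₀)) :
    (((comapEquiv S W).red g :
        modularFunctionFieldFullC (IsLocalRing.ResidueField A) N₀) :
        LaurentSeries (IsLocalRing.ResidueField A)) =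
      qExpand (IsLocalRing.ResidueField A) Q
        (gaussResFun A (modularFunctionFieldBar M₀) (g₀ : LaurentSeries Qb)) := by
  have hmem := isOldTwist_mem_zero hS W Q hQ hW hg₀
  rw [mem_comapEquiv_Ov] at hmem
  rw [comapEquiv_red, hS.coe_red _ hmem, hW, gaussResFun_qExpand Q hQ hg₀]

end Zero

section ZeroPow

variable {N M₀ : ℕ} [NeZero N] [NeZero M₀] {A : ValuationSubring Qb}
  {S : ValSetup Qb (FBar N) (IsLocalRing.ResidueField A)
    (modularFunctionFieldFullC (IsLocalRing.ResidueField A) M₀)}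
  {q : ℕ} (hq : q.Prime) (hA : A.LiesOverPrime q) (hqM : ¬ q ∣ M₀)

/-- **(OLD-0, c)** `red_0 g = (Frob⁻ᵉ ḡ₀) ^ (q^e)` for `Q = q ^ e`. -/
theorem red_zero_isOldTwist_eq_pow [Fact q.Prime] [CharP (IsLocalRing.ResidueField A) q]
    [PerfectRing (IsLocalRing.ResidueField A) q]
    (hS : IsGaussSetup N M₀ A S) (W : FBar N ≃ₐ[Qb] FBar N) (Q : ℕ) [NeZero Q] {e : ℕ}
    (hQe : Q = q ^ e)
    (hQ : ∀ x ∈ modularFunctionFieldBar M₀, qExpand Qb Q x ∈ modularFunctionFieldBar N)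
    {g : FBar N} {g₀ : ↥(modularFunctionFieldBar M₀)} (hW : IsOldTwist W Q g g₀)
    (hg₀ : g₀ ∈ (modularValSetup A q M₀ hq hA hqM).Ov) :
    (comapEquiv S W).red g =
      (((frobAut (IsLocalRing.ResidueField A) M₀ q)⁻¹ ^ e) •
        (modularValSetup A q M₀ hq hA hqM).red g₀) ^ (q ^ e) := by
  haveI : NeZero (q ^ e) := ⟨by rw [← hQe]; exact NeZero.ne _⟩
  have hg₀' := (mem_modularValSetup_Ov_iff A q M₀ hq hA hqM g₀).mp hg₀
  apply Subtype.ext
  rw [coe_red_zero_isOldTwist hS W Q hQ hW hg₀',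
    coe_frobAut_inv_pow_smul_pow (IsLocalRing.ResidueField A) M₀ q _ e,
    coe_modularValSetup_red A q M₀ hq hA hqM hg₀']
  exact qExpand_congr hQe _

/-- **(OLD-0, d)** VALUE TRANSPORT by the `e`-fold coefficientwise Frobenius. -/
theorem valAt_red_zero_isOldTwist [Fact q.Prime] [CharP (IsLocalRing.ResidueField A) q]
    [PerfectRing (IsLocalRing.ResidueField A) q]
    (hS : IsGaussSetup N M₀ A S) (W : FBar N ≃ₐ[Qb] FBar N) (Q : ℕ) [NeZero Q] {e : ℕ}
    (hQe : Q = q ^ e)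
    (hQ : ∀ x ∈ modularFunctionFieldBar M₀, qExpand Qb Q x ∈ modularFunctionFieldBar N)
    {g : FBar N} {g₀ : ↥(modularFunctionFieldBar M₀)} (hW : IsOldTwist W Q g g₀)
    (hg₀ : g₀ ∈ (modularValSetup A q M₀ hq hA hqM).Ov)
    (P : Place (IsLocalRing.ResidueField A)
      (modularFunctionFieldFullC (IsLocalRing.ResidueField A) M₀))
    (c : IsLocalRing.ResidueField A) :
    ValAt P ((comapEquiv S W).red g) c ↔
      ValAt ((frobAut (IsLocalRing.ResidueField A) M₀ q ^ e) • P)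
        ((modularValSetup A q M₀ hq hA hqM).red g₀) c := by
  rw [red_zero_isOldTwist_eq_pow hq hA hqM hS W Q hQe hQ hW hg₀]
  exact valAt_inv_pow_smul_pow (IsLocalRing.ResidueField A) q
    (frobAut (IsLocalRing.ResidueField A) M₀ q)
    (baseAut_frobAut_apply (IsLocalRing.ResidueField A) M₀ q) e P _ c

end ZeroPow

end Fermat.Agent.S36G
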