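/-
Cluster G (S36, Carayol at `q² ∥ M`), block W-P / SEED, seat WP-OLD = SEED-OLD, `w_P` part
(helper30; sub-architects helper59 (W-P), helper92 (SEED); architect helper80).

**Old functions are constant on the horizontal components**, abstract core.

`F₀ = FBar M₀`, `F = FBar (M₀ q²)`, `ι₀, ι₁, ι₂ : F₀ → F` the three degeneracy maps
(`g(z)`, `g(qz)`, `g(q² z)`).  The horizontal valuation ring `Ow` is built over the copy `ι₁ F₀`
(centre `P'`), so the hypothesis `HPVal.RestrOld ι₁ Ow ρ B ev'` ("the `ι₁`-old functions of `B`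
reduce to the constants `ev' b`") is part of its construction.  For the two other copies:

* `ι₀ g` (and `ι₂ g`) is a root of the MONIC polynomial `ι₁ (C_g)`, `C_g ∈ B[X]` the (general)
  Kronecker polynomial of `g`, so it lies in `Ow` (a valuation ring is integrally closed), and its
  residue is a root of the reduced polynomial `(X - b₁) (X ^ q - b₃ ^ q)`: it is `b₁` or `b₃`;
* `b₁ = ḡ(τ P')`, `b₃ = ḡ(τ⁻¹ P')`, which coincide because the supersingular places are
  `𝔽_{q²}`-rational.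

No Taylor expansion, no rationality of `g`, no circularity (nothing about `w(t₀)` is used).

* `wpo_mem_of_root`, `wpo_eval_map_res`, `wpo_root_cases` : the three elementary steps;
* `wpo_old_of_root`  : one function, residue `b₁` or `b₃`;
* `wpo_restrOld`     : **WP-OLD, abstract**: `RestrOld ι₁ Ow ρ B ev' → RestrOld ι₀ Ow ρ B₀ ev₀`
  from the Kronecker data of every `g ∈ B₀`.
-/
import Mathlib
import Fermat.Agent.Lib.BadRed.HPVal.RestrAbs
import Fermat.Agent.Lib.FF.Value
import Fermat.Agent.Lib.BadRed.HPVal.DiscTaylor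
import Fermat.Agent.Lib.BadRed.Nodal.Setup

set_option autoImplicit false

noncomputable section
attribute [local instance 10000] SubalgebraClass.toAlgebra HahnSeries.powerSeriesAlgebra

namespace Fermat.Agent.S36G

open Polynomial Fermat.Agent.HPVal AlgebraicCurve Fermat.Agent.RR Fermat.Agent.FF

section Abs

variable {F : Type*} [Field F] {k : Type*} [Field k] {Fk : Type*} [Field Fk] [Algebra k Fk]

/-- a root of a monic polynomial over a valuation ring lies in the valuation ring. -/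
theorem wpo_mem_of_root (Ow : ValuationSubring F) (P : Polynomial Ow) (hP : P.Monic) (x : F)
    (hx : Polynomial.eval₂ (algebraMap Ow F) x P = 0) : x ∈ Ow := by
  have hint : IsIntegral Ow x := ⟨P, hP, hx⟩
  obtain ⟨y, hy⟩ := (IsIntegrallyClosed.isIntegral_iff (R := Ow) (K := F)).mp hint
  rw [← hy]
  exact y.2

/-- the residue of a root is a root of the reduced polynomial. -/
theorem wpo_eval_map_res (Ow : ValuationSubring F) (ρ : Ow →+* Fk) (P : Polynomial Ow) (x : Ow)
    (hx : Polynomial.eval₂ (algebraMap Ow F) (x : F) P = 0) : (P.map ρ).eval (ρ x) = 0 := by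
  have h1 : algebraMap Ow F (P.eval x) = 0 := by
    rw [← hx, Polynomial.eval, Polynomial.hom_eval₂, RingHom.comp_id]
    rfl
  have h2 : P.eval x = 0 :=
    FaithfulSMul.algebraMap_injective Ow F (by rw [h1, map_zero])
  have h3 : ρ (P.eval x) = Polynomial.eval₂ ρ (ρ x) P := by
    rw [Polynomial.eval, Polynomial.hom_eval₂, RingHom.comp_id]
  rw [Polynomial.eval_map, ← h3, h2, map_zero]

/-- the roots of `(X - b₁) (X ^ q - b₃ ^ q)` in characteristic `q`. -/
theorem wpo_root_cases (q : ℕ) [Fact q.Prime] [CharP Fk q] (b₁ b₃ : k) (y : Fk)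
    (hy : (((X - C b₁) * (X ^ q - C (b₃ ^ q)) : Polynomial k).map (algebraMap k Fk)).eval y = 0) :
    y = algebraMap k Fk b₁ ∨ y = algebraMap k Fk b₃ := by
  rw [Polynomial.map_mul, Polynomial.eval_mul, Polynomial.map_sub, Polynomial.map_sub,
    Polynomial.map_X, Polynomial.map_C, Polynomial.map_pow, Polynomial.map_X, Polynomial.map_C,
    Polynomial.eval_sub, Polynomial.eval_sub, Polynomial.eval_X, Polynomial.eval_C,
    Polynomial.eval_pow, Polynomial.eval_X, Polynomial.eval_C, map_pow] at hy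
  rcases mul_eq_zero.mp hy with h | h
  · exact Or.inl (sub_eq_zero.mp h)
  · right
    rw [← sub_pow_char] at h
    exact sub_eq_zero.mp (pow_eq_zero_iff (Fact.out : q.Prime).ne_zero |>.mp h)

variable {F₀ : Type*} [Field F₀]

/-- **one old function**: if the `ι₁`-old functions of `B` reduce to the constants `ev'` and
`ι₀ g` is a root of `ι₁ (C)`, `C ∈ B[X]` monic with `ev' C = (X - b₁) (X ^ q - b₃ ^ q)`, then
`ι₀ g ∈ Ow` and its residue is the constant `b₁` or the constant `b₃`. -/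
theorem wpo_old_of_root (q : ℕ) [Fact q.Prime] [CharP Fk q] (ι₁ ι₀ : F₀ →+* F)
    (Ow : ValuationSubring F) (ρ : Ow →+* Fk) (B : Subring F₀) (ev' : B →+* k)
    (h1 : RestrOld ι₁ Ow ρ B ev') (Cg : Polynomial B) (hC : Cg.Monic) (b₁ b₃ : k)
    (hCev : Cg.map ev' = (X - C b₁) * (X ^ q - C (b₃ ^ q))) (g : F₀)
    (hroot : Polynomial.eval₂ (ι₁.comp B.subtype) (ι₀ g) Cg = 0) :
    ∃ h : ι₀ g ∈ Ow, ρ ⟨ι₀ g, h⟩ = algebraMap k Fk b₁ ∨ ρ ⟨ι₀ g, h⟩ = algebraMap k Fk b₃ := by
  set P : Polynomial Ow := Cg.map h1.hom with hP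
  have hPm : P.Monic := hC.map _
  have hcomp : (algebraMap Ow F).comp h1.hom = ι₁.comp B.subtype := by
    ext b
    rfl
  have hPx : Polynomial.eval₂ (algebraMap Ow F) (ι₀ g) P = 0 := by
    rw [hP, Polynomial.eval₂_map, hcomp]
    exact hroot
  have hmem : ι₀ g ∈ Ow := wpo_mem_of_root Ow P hPm _ hPx
  refine ⟨hmem, ?_⟩
  have h2 := wpo_eval_map_res Ow ρ P ⟨ι₀ g, hmem⟩ hPx
  have hρ : ρ.comp h1.hom = (algebraMap k Fk).comp ev' := by
    ext b
    exact h1.ρ_hom b
  rw [hP, Polynomial.map_map, hρ, ← Polynomial.map_map, hCev] at h2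
  exact wpo_root_cases q b₁ b₃ _ h2

/-- **WP-OLD, abstract form**: the `ι₀`-old functions of `B₀` reduce on `Ow` to the constants
`ev₀`, as soon as every `g ∈ B₀` has a monic Kronecker polynomial `C_g ∈ B[X]` with
`ι₁ (C_g) (ι₀ g) = 0` whose reduction at the centre is `(X - ev₀ g) (X ^ q - (ev₀ g) ^ q)`. -/
theorem wpo_restrOld (q : ℕ) [Fact q.Prime] [CharP Fk q] (ι₁ ι₀ : F₀ →+* F)
    (Ow : ValuationSubring F) (ρ : Ow →+* Fk) (B : Subring F₀) (ev' : B →+* k)
    (h1 : RestrOld ι₁ Ow ρ B ev') (B₀ : Subring F₀) (ev₀ : B₀ →+* k)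
    (hKC : ∀ g : B₀, ∃ Cg : Polynomial B, Cg.Monic ∧
      Cg.map ev' = (X - C (ev₀ g)) * (X ^ q - C (ev₀ g ^ q)) ∧
      Polynomial.eval₂ (ι₁.comp B.subtype) (ι₀ (g : F₀)) Cg = 0) :
    RestrOld ι₀ Ow ρ B₀ ev₀ := by
  intro g
  obtain ⟨Cg, hC, hCev, hroot⟩ := hKC g
  obtain ⟨h, hres⟩ := wpo_old_of_root q ι₁ ι₀ Ow ρ B ev' h1 Cg hC _ _ hCev (g : F₀) hroot
  exact ⟨h, hres.elim id id⟩

end Abs

/-! ### Evaluation of the Kronecker polynomial at the centre -/

section Eval

variable {k : Type*} [Field k] {Fk : Type*} [Field Fk] [Algebra k Fk] (hFk : IsRRField k Fk)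

/-- values of powers. -/
theorem wpo_valueAt_pow (P : Place k Fk) {f : Fk} (hf : f ∈ P.toValuationSubring) (n : ℕ) :
    valueAt hFk P (f ^ n) = valueAt hFk P f ^ n := by
  induction n with
  | zero => rw [pow_zero, pow_zero, valueAt_one]
  | succ n ih => rw [pow_succ, pow_succ, valueAt_mul hFk P (pow_mem hf n) hf, ih]

variable (q : ℕ) (τ : SemilinearAut k Fk) (hτ : ∀ c : k, SemilinearAut.baseAut τ c = c ^ q)

include hτ in
/-- the value of the Frobenius twist `τ y` at `P'` is the `q`-th power of the value of `y` at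
`τ⁻¹ P'`. -/
theorem wpo_valueAt_smul (P' : Place k Fk) (y : Fk) :
    valueAt hFk P' (τ • y) = valueAt hFk (τ⁻¹ • P') y ^ q := by
  have h := valueAt_smul hFk τ (τ⁻¹ • P') y
  rw [smul_inv_smul, hτ] at h
  exact h

include hτ in
/-- the value of `(τ⁻¹ y) ^ q` (`= y(t^q)`) at `P'` is the value of `y` at `τ P'`. -/
theorem wpo_valueAt_inv_smul_pow (P' : Place k Fk) (y : Fk)
    (hy : y ∈ (τ • P').toValuationSubring) :
    valueAt hFk P' ((τ⁻¹ • y) ^ q) = valueAt hFk (τ • P') y := by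
  have h := valueAt_smul hFk τ⁻¹ (τ • P') y
  rw [inv_smul_smul] at h
  have hmem : τ⁻¹ • y ∈ P'.toValuationSubring := by
    have h1 : τ⁻¹ • y ∈ (τ⁻¹ • (τ • P')).toValuationSubring := by
      rw [SemilinearAut.smul_toValuationSubring]
      exact ValuationSubring.smul_mem_pointwise_smul τ⁻¹ y _ hy
    rwa [inv_smul_smul] at h1
  rw [wpo_valueAt_pow hFk P' hmem, h, ← hτ, SemilinearAut.baseAut_inv,
    RingEquiv.apply_symm_apply]

/-- **the reduced Kronecker polynomial at the centre**: if `d₁, d₂` are regular at `P'` with the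
values `b₁, b₂`, the coefficients of `(X - d₁) (X ^ q - d₂)` are regular at `P'` and their values
are the coefficients of `(X - b₁) (X ^ q - b₂)`. -/
theorem wpo_valueAt_coeff (P' : Place k Fk) {d₁ d₂ : Fk} (h₁ : d₁ ∈ P'.toValuationSubring)
    (h₂ : d₂ ∈ P'.toValuationSubring) (i : ℕ) :
    ((X - C d₁) * (X ^ q - C d₂) : Polynomial Fk).coeff i ∈ P'.toValuationSubring ∧
      valueAt hFk P' (((X - C d₁) * (X ^ q - C d₂) : Polynomial Fk).coeff i) =
        ((X - C (valueAt hFk P' d₁)) * (X ^ q - C (valueAt hFk P' d₂)) : Polynomial k).coeff i := by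
  set O := P'.toValuationSubring with hO
  set D' : Polynomial O := (X - C ⟨d₁, h₁⟩) * (X ^ q - C ⟨d₂, h₂⟩) with hD'
  have hmap : D'.map O.subtype = (X - C d₁) * (X ^ q - C d₂) := by
    rw [hD', Polynomial.map_mul, Polynomial.map_sub, Polynomial.map_sub, Polynomial.map_X,
      Polynomial.map_pow, Polynomial.map_X, Polynomial.map_C, Polynomial.map_C]
    rfl
  have hcoe : ((X - C d₁) * (X ^ q - C d₂) : Polynomial Fk).coeff i =
      ((D'.coeff i : O) : Fk) := by
    rw [← hmap, Polynomial.coeff_map]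
    rfl
  refine ⟨by rw [hcoe]; exact (D'.coeff i).2, ?_⟩
  have hval : (D'.map (valueHom hFk P')) =
      (X - C (valueAt hFk P' d₁)) * (X ^ q - C (valueAt hFk P' d₂)) := by
    rw [hD', Polynomial.map_mul, Polynomial.map_sub, Polynomial.map_sub, Polynomial.map_X,
      Polynomial.map_pow, Polynomial.map_X, Polynomial.map_C, Polynomial.map_C,
      valueAt_of_mem hFk P' h₁, valueAt_of_mem hFk P' h₂]
  rw [← hval, Polynomial.coeff_map, hcoe, valueAt_of_mem hFk P' (D'.coeff i).2]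

end Eval

/-! ### The old functions with a Kronecker datum -/

section Datum

open Fermat.Agent.S18Key Fermat.Agent.Deuring Fermat.Agent.BadRed

variable {K F₀ F k Fk0 FkP : Type*} [Field K] [Field F₀] [Algebra K F₀] [Field F] [Algebra K F]
  [Field k] [Field Fk0] [Algebra k Fk0] [Field FkP] [Algebra k FkP]

/-- the hypothesis **(OLD)** for the `ι`-copy on the ring `R_Q = discRing S0 Q`, in the form of
`HPVal.RestrOld`. -/
theorem wpo_restrOld_of_old (S0 : RedSetup K F₀ k Fk0) (hFk0 : IsRRField k Fk0)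
    (Q : Place k Fk0) (ι : F₀ →ₐ[K] F) (S : ValSetup K F k FkP)
    (hold : ∀ g ∈ discRing S0 Q, ∀ c : k, ValAt Q (S0.red g) c →
      ι g ∈ S.Ov ∧ S.red (ι g) = algebraMap k FkP c) :
    RestrOld (ι : F₀ →+* F) S.Ov S.ρ (discRing S0 Q) (discEv S0 Q hFk0) := by
  intro b
  have hreg : S0.red (b : F₀) ∈ Q.toValuationSubring :=
    Fermat.Agent.S24Res.mem_of_ord_nonneg Q (ord_red_nonneg_of_mem b.2)
  have hval : ValAt Q (S0.red (b : F₀)) (discEv S0 Q hFk0 b) := by
    rw [discEv_apply]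
    exact valueAt_spec hFk0 Q hreg
  obtain ⟨hmem, hred⟩ := hold b b.2 _ hval
  refine ⟨hmem, ?_⟩
  rw [← hred, ValSetup.red_of_mem S hmem]
  rfl

/-- **The Kronecker datum** of a function `g` for the reduction `S0` and the Frobenius `τ` of the
special fibre: a monic polynomial `C_g` over `F₀` whose coefficients lie in the ring `B'` and
reduce to the coefficients of `(X - (τ⁻¹ ḡ) ^ q) (X ^ q - τ ḡ)`. -/
structure KCDatum (S0 : RedSetup K F₀ k Fk0) (q : ℕ) (τ : SemilinearAut k Fk0)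
    (B' : Subring F₀) (g : F₀) (Cg : Polynomial F₀) : Prop where
  monic : Cg.Monic
  coeff_mem : ∀ i, Cg.coeff i ∈ B'
  coeff_red : ∀ i, S0.red (Cg.coeff i) =
    ((X - C ((τ⁻¹ • S0.red g) ^ q)) * (X ^ q - C (τ • S0.red g)) : Polynomial Fk0).coeff i

variable (S0 : RedSetup K F₀ k Fk0) (hFk0 : IsRRField k Fk0) (q : ℕ) [Fact q.Prime] [CharP k q]
  (τ : SemilinearAut k Fk0) (hτ : ∀ c : k, SemilinearAut.baseAut τ c = c ^ q)
  (S : ValSetup K F k FkP) (ι₁ ι : F₀ →ₐ[K] F) (P P' : Place k Fk0)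

include hτ in
/-- **WP-OLD for one function**: `w_P` is built over the copy `ι₁` with centre `P'` (`hold1`),
`τ P' = τ⁻¹ P' = P` (the supersingular places are `𝔽_{q²}`-rational), `g` has a Kronecker datum
with coefficients in `R_{P'}`, `ḡ` is regular at `P`, and `ι g` is a root of `ι₁ (C_g)`.
Then `ι g` is integral for `w_P` and reduces to the CONSTANT `ḡ (P)`. -/
theorem wpo_old_of_datum (hP : τ • P' = P) (hP' : τ⁻¹ • P' = P)
    (hold1 : ∀ g ∈ discRing S0 P', ∀ c : k, ValAt P' (S0.red g) c →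
      ι₁ g ∈ S.Ov ∧ S.red (ι₁ g) = algebraMap k FkP c)
    {g : F₀} {Cg : Polynomial F₀} (hKC : KCDatum S0 q τ (discRing S0 P') g Cg)
    (hreg : S0.red g ∈ P.toValuationSubring)
    (hroot : Cg.eval₂ (ι₁ : F₀ →+* F) (ι g) = 0) :
    ι g ∈ S.Ov ∧ S.red (ι g) = algebraMap k FkP (valueAt hFk0 P (S0.red g)) := by
  have : CharP FkP q := charP_of_injective_algebraMap (algebraMap k FkP).injective q
  have h1 := wpo_restrOld_of_old S0 hFk0 P' ι₁ S hold1
  -- the polynomial over `R_{P'}`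
  set B := discRing S0 P' with hB
  have hcoeffs : (↑Cg.coeffs : Set F₀) ⊆ B := by
    intro x hx
    obtain ⟨i, -, rfl⟩ := Polynomial.mem_coeffs_iff.mp (Finset.mem_coe.mp hx)
    exact hKC.coeff_mem i
  set Cg' : Polynomial B := Cg.toSubring B hcoeffs with hCg'
  have hmap : Cg'.map B.subtype = Cg := Polynomial.map_toSubring Cg B hcoeffs
  have hmonic : Cg'.Monic := (Polynomial.monic_toSubring Cg B hcoeffs).mpr hKC.monic
  have hcoe : ∀ i, ((Cg'.coeff i : B) : F₀) = Cg.coeff i := fun i =>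
    Polynomial.coeff_toSubring Cg B hcoeffs
  -- regularity of the two roots of the reduced polynomial
  have hd₂ : τ • S0.red g ∈ P'.toValuationSubring := by
    have h2 : τ • S0.red g ∈ (τ • P).toValuationSubring := by
      rw [SemilinearAut.smul_toValuationSubring]
      exact ValuationSubring.smul_mem_pointwise_smul τ _ _ hreg
    rwa [← hP', smul_inv_smul] at h2
  have hd₁' : τ⁻¹ • S0.red g ∈ P'.toValuationSubring := by
    have h2 : τ⁻¹ • S0.red g ∈ (τ⁻¹ • P).toValuationSubring := by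
      rw [SemilinearAut.smul_toValuationSubring]
      exact ValuationSubring.smul_mem_pointwise_smul τ⁻¹ _ _ hreg
    rwa [← hP, inv_smul_smul] at h2
  have hd₁ : (τ⁻¹ • S0.red g) ^ q ∈ P'.toValuationSubring := pow_mem hd₁' q
  have hb₁ : valueAt hFk0 P' ((τ⁻¹ • S0.red g) ^ q) = valueAt hFk0 P (S0.red g) := by
    rw [wpo_valueAt_inv_smul_pow hFk0 q τ hτ P' _ (by rw [hP]; exact hreg), hP]
  have hb₂ : valueAt hFk0 P' (τ • S0.red g) = valueAt hFk0 P (S0.red g) ^ q := by
    rw [wpo_valueAt_smul hFk0 q τ hτ, hP']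
  -- the reduced polynomial at the centre
  have hCev : Cg'.map (discEv S0 P' hFk0) =
      (X - C (valueAt hFk0 P (S0.red g))) * (X ^ q - C (valueAt hFk0 P (S0.red g) ^ q)) := by
    ext i
    rw [Polynomial.coeff_map, discEv_apply, hcoe, hKC.coeff_red i,
      (wpo_valueAt_coeff hFk0 q P' hd₁ hd₂ i).2, hb₁, hb₂]
  have hroot' : Polynomial.eval₂ ((ι₁ : F₀ →+* F).comp B.subtype) ((ι : F₀ →+* F) g) Cg' = 0 := by
    rw [← Polynomial.eval₂_map, hmap]
    exact hroot
  obtain ⟨hmem, hres⟩ := wpo_old_of_root q (ι₁ : F₀ →+* F) (ι : F₀ →+* F) S.Ov S.ρ B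
    (discEv S0 P' hFk0) h1 Cg' hmonic _ _ hCev g hroot'
  refine ⟨hmem, ?_⟩
  have hred : S.red (ι g) = S.ρ ⟨(ι : F₀ →+* F) g, hmem⟩ := ValSetup.red_of_mem S hmem
  rw [hred]
  exact hres.elim id id

end Datum

end Fermat.Agent.S36G
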