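/-
Cluster G (S36, Carayol at `q² ∥ M`), block W-P / SEED, seat OLD-FIBRE, abstract core
(helper62; sub-architect helper59, owner of OLD helper30).

`S0` a reduction package of `F₀` (`S18Key.RedSetup`), `α β : F₀ → F` two embeddings, `w` a place
of `F` whose restriction `w ∘ α` reduces to `P'`.  If `C ∈ R_{P'}[X]` (`R_{P'} = discRing S0 P'`)
is monic, `α (C) (β g) = 0`, and `C` reduces at `P'` to `(X - b₁) (X ^ q - b₃ ^ q)`, then `β g` is
regular at `w`, its value at `w` lies in `A`, and the residue of the value is `b₁` or `b₃`.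

* `olf_ord_restrict_nonneg`, `olf_ord_restrict_pos` : orders along a restriction of places;
* `olf_valueAt_restrict` : `(φ f)(w) = f (w ∘ φ)`;
* `olf_value_disc`       : the value at a place of the residue disc of `P'` of a function of
                           `R_{P'}` lies in `A`, with residue `ev_{P'}`;
* `olf_value`            : the statement above.
-/
import Mathlib
import Fermat.Agent.S36.Seed.Old
import Fermat.Agent.Lib.BadRed.HPVal.DiscTaylor
import Fermat.Agent.Lib.FF.Value
import Fermat.Agent.Lib.RedTr.Basic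

set_option autoImplicit false
set_option linter.style.haveILetI false
set_option linter.unusedSectionVars false
set_option linter.unusedVariables false

noncomputable section
attribute [local instance 10000] SubalgebraClass.toAlgebra HahnSeries.powerSeriesAlgebra

namespace Fermat.Agent.S36G

open Polynomial AlgebraicCurve Fermat.Agent.HPVal Fermat.Agent.S18Key Fermat.Agent.RR
  Fermat.Agent.FF

section Restrict

variable {K E F : Type*} [Field K] [Field E] [Field F] [Algebra K E] [Algebra K F]

/-- non-negativity of the order is read off on the upper field. -/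
theorem olf_ord_restrict_nonneg (φ : E →ₐ[K] F) (hφ : φ.toRingHom.IsIntegral) (w : Place K F)
    (x : E) : 0 ≤ (w.restrictAlong φ hφ).ord x ↔ 0 ≤ w.ord (φ x) := by
  have e := Place.ord_restrictAlong φ hφ w x
  have hpos : (0 : ℤ) < (Place.ramificationIndexAlong φ w : ℤ) :=
    Int.natCast_pos.mpr (Fermat.Agent.RedTr.ramificationIndexAlong_pos φ hφ w)
  rw [e]
  constructor
  · intro h
    exact mul_nonneg hpos.le h
  · intro h
    by_contra hcon
    rw [not_le] at hcon
    have := mul_neg_of_pos_of_neg hpos hcon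
    omega

/-- positivity of the order is read off on the upper field. -/
theorem olf_ord_restrict_pos (φ : E →ₐ[K] F) (hφ : φ.toRingHom.IsIntegral) (w : Place K F)
    (x : E) : 0 < (w.restrictAlong φ hφ).ord x ↔ 0 < w.ord (φ x) := by
  have e := Place.ord_restrictAlong φ hφ w x
  have hpos : (0 : ℤ) < (Place.ramificationIndexAlong φ w : ℤ) :=
    Int.natCast_pos.mpr (Fermat.Agent.RedTr.ramificationIndexAlong_pos φ hφ w)
  rw [e]
  constructor
  · intro h
    exact mul_pos hpos h
  · intro h
    by_contra hcon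
    rw [not_lt] at hcon
    have := mul_nonpos_of_nonneg_of_nonpos hpos.le hcon
    omega

/-- **the value of `φ f` at `w` is the value of `f` at `w ∘ φ`.** -/
theorem olf_valueAt_restrict (hE : IsRRField K E) (hF : IsRRField K F) (φ : E →ₐ[K] F)
    (hφ : φ.toRingHom.IsIntegral) (w : Place K F) {f : E}
    (hf : 0 ≤ (w.restrictAlong φ hφ).ord f) :
    valueAt hF w (φ f) = valueAt hE (w.restrictAlong φ hφ) f := by
  have hfv : f ∈ (w.restrictAlong φ hφ).toValuationSubring := mem_of_ord_nonneg' _ hf
  have hfw : φ f ∈ w.toValuationSubring :=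
    mem_of_ord_nonneg' w ((olf_ord_restrict_nonneg φ hφ w f).mp hf)
  rw [valueAt_eq_iff hF w hfw]
  rcases valueAt_spec hE (w.restrictAlong φ hφ) hfv with h | h
  · left
    conv_lhs => rw [h]
    exact φ.commutes _
  · right
    have h2 := (olf_ord_restrict_pos φ hφ w _).mp h
    rwa [map_sub, φ.commutes] at h2

end Restrict

section Core

variable {K F₀ F k Fk0 : Type*} [Field K] [Field F₀] [Algebra K F₀] [Field F] [Algebra K F]
  [Field k] [Field Fk0] [Algebra k Fk0]

/-- the value at a place of the residue disc of `P'` of a function of `R_{P'}` lies in `A`, and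
its residue is the value of the reduction at `P'`. -/
theorem olf_value_disc (S0 : RedSetup K F₀ k Fk0) (hFk0 : IsRRField k Fk0) {P' : Place k Fk0}
    {v : Place K F₀} (hv : S0.r v = P') (c : discRing S0 P') :
    ∃ hA : valueAt S0.hF v (c : F₀) ∈ S0.A,
      S0.res ⟨valueAt S0.hF v (c : F₀), hA⟩ = discEv S0 P' hFk0 c := by
  have hreg : ∀ P'', S0.r P'' = S0.r v → 0 ≤ P''.ord (c : F₀) := fun P'' hP'' =>
    c.2.2 P'' (hP''.trans hv)
  have hcv : (c : F₀) ∈ v.toValuationSubring := mem_of_ord_nonneg' v (c.2.2 v hv)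
  have hspec := valueAt_spec S0.hF v hcv
  have hA : valueAt S0.hF v (c : F₀) ∈ S0.A := value_mem_A c.2.1 v hreg _ hspec
  refine ⟨hA, ?_⟩
  have h1 := value_red c.2.1 v hreg _ hA hspec
  rw [hv, red_const hA] at h1
  rw [discEv_apply]
  have hmem : S0.red (c : F₀) ∈ P'.toValuationSubring :=
    mem_of_ord_nonneg' P' (ord_red_nonneg_of_mem c.2)
  exact ((valueAt_eq_iff hFk0 P' hmem _).mpr h1).symm

/-- **OLD-FIBRE, abstract core**: the Kronecker congruence at a place `w` whose restriction
along `α` reduces to `P'`. -/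
theorem olf_value (S0 : RedSetup K F₀ k Fk0) (hFk0 : IsRRField k Fk0) (hF : IsRRField K F)
    (q : ℕ) [Fact q.Prime] [CharP k q] (α β : F₀ →ₐ[K] F) (hα : α.toRingHom.IsIntegral)
    (w : Place K F) (P' : Place k Fk0) (hv : S0.r (w.restrictAlong α hα) = P')
    (Cg : Polynomial (discRing S0 P')) (hC : Cg.Monic) (b₁ b₃ : k)
    (hCev : Cg.map (discEv S0 P' hFk0) = (X - C b₁) * (X ^ q - C (b₃ ^ q))) (g : F₀)
    (hroot : Polynomial.eval₂ ((α : F₀ →+* F).comp (discRing S0 P').subtype) (β g) Cg = 0) :
    β g ∈ w.toValuationSubring ∧ ∃ hA : valueAt hF w (β g) ∈ S0.A,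
      S0.res ⟨valueAt hF w (β g), hA⟩ = b₁ ∨ S0.res ⟨valueAt hF w (β g), hA⟩ = b₃ := by
  -- the coefficients are regular at `w`
  have hmemw : ∀ c : discRing S0 P', α (c : F₀) ∈ w.toValuationSubring := fun c =>
    mem_of_ord_nonneg' w ((olf_ord_restrict_nonneg α hα w _).mp (c.2.2 _ hv))
  let h1 : discRing S0 P' →+* w.toValuationSubring :=
    ((α : F₀ →+* F).comp (discRing S0 P').subtype).codRestrict w.toValuationSubring.toSubring
      (fun c => hmemw c)
  have hcomp1 : (algebraMap w.toValuationSubring F).comp h1 =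
      (α : F₀ →+* F).comp (discRing S0 P').subtype := by
    ext c
    rfl
  -- step 1: `β g` is regular at `w`
  have hP₁m : (Cg.map h1).Monic := hC.map h1
  have hP₁x : Polynomial.eval₂ (algebraMap w.toValuationSubring F) (β g) (Cg.map h1) = 0 := by
    rw [Polynomial.eval₂_map, hcomp1]
    exact hroot
  have hβw : β g ∈ w.toValuationSubring :=
    wpo_mem_of_root w.toValuationSubring (Cg.map h1) hP₁m _ hP₁x
  refine ⟨hβw, ?_⟩
  -- step 2: the values of the coefficients
  have hval : ∀ c : discRing S0 P',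
      valueHom hF w (h1 c) = valueAt S0.hF (w.restrictAlong α hα) (c : F₀) := by
    intro c
    have e1 : valueHom hF w (h1 c) = valueAt hF w (α (c : F₀)) :=
      (valueAt_of_mem hF w (hmemw c)).symm
    rw [e1]
    exact olf_valueAt_restrict S0.hF hF α hα w (c.2.2 _ hv)
  have hvalA : ∀ c : discRing S0 P', valueHom hF w (h1 c) ∈ S0.A := by
    intro c
    rw [hval c]
    exact (olf_value_disc S0 hFk0 hv c).1
  let φ : discRing S0 P' →+* S0.A :=
    ((valueHom hF w).comp h1).codRestrict S0.A.toSubring (fun c => hvalA c)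
  have hcomp2 : (algebraMap S0.A K).comp φ = (valueHom hF w).comp h1 := by
    ext c
    rfl
  have hres : S0.res.comp φ = discEv S0 P' hFk0 := by
    ext c
    obtain ⟨hA, hr⟩ := olf_value_disc S0 hFk0 hv c
    rw [← hr]
    show S0.res (φ c) = _
    congr 1
    apply Subtype.ext
    exact hval c
  -- step 3: the value of `β g`
  have hx1 := wpo_eval_map_res w.toValuationSubring (valueHom hF w) (Cg.map h1) ⟨β g, hβw⟩ hP₁x
  have hxv : valueHom hF w ⟨β g, hβw⟩ = valueAt hF w (β g) := (valueAt_of_mem hF w hβw).symm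
  rw [hxv, Polynomial.map_map, ← hcomp2, ← Polynomial.map_map, Polynomial.eval_map] at hx1
  have hP₂m : (Cg.map φ).Monic := hC.map φ
  have hxA : valueAt hF w (β g) ∈ S0.A := wpo_mem_of_root S0.A (Cg.map φ) hP₂m _ hx1
  refine ⟨hxA, ?_⟩
  have hx2 := wpo_eval_map_res (Fk := k) S0.A S0.res (Cg.map φ) ⟨valueAt hF w (β g), hxA⟩ hx1
  rw [Polynomial.map_map, hres, hCev] at hx2
  have hx3 := wpo_root_cases (k := k) (Fk := k) q b₁ b₃
    (S0.res ⟨valueAt hF w (β g), hxA⟩) (by
      rw [Algebra.algebraMap_self, Polynomial.map_id]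
      exact hx2)
  simpa using hx3

end Core

end Fermat.Agent.S36G
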