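/-
Cluster G (S36, Carayol at `q² ∥ M`), block W-P / SEED, seat OLD-FIBRE (O3), piece (B)
(helper24; owner of OLD-FIBRE: helper62, owner of OLD: helper30, sub-architect helper59).

**NON-CUSP from an integral `j`-value.**

* `olf_push_ord_sub_pos` (abstract, any reduction package `S` with `push`): if `x ∈ S.Ov`,
  `c ∈ S.A`, `x - c` is a unit of `S.Ov` and `deg (x)_∞ ≤ deg (x̄)_∞` (no cancellation of poles),
  then a zero `v` of `x - c` reduces to a zero of `x̄ - c̄`;
* `olf_push_ord_red_nonneg` : in the same situation `x̄` is regular at `r v`;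
* `olf_ord_jC_nonneg` (modular, any Gauss reduction package `S0` of `F_M`): a non-cuspidal place
  `v` of `F_M` with `j(v) ∈ A` reduces to a non-cuspidal place of the special fibre.
-/
import Mathlib
import Fermat.Agent.S36.HPVal.DiscModG

set_option autoImplicit false
set_option linter.style.haveILetI false
set_option linter.unusedSectionVars false
set_option synthInstance.maxHeartbeats 400000
set_option maxHeartbeats 1000000

noncomputable section
attribute [local instance 10000] SubalgebraClass.toAlgebra HahnSeries.powerSeriesAlgebra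

namespace Fermat.Agent.S36G

open ModularCurve AlgebraicCurve Fermat.Agent.Deuring Fermat.Agent.GaussInt Fermat.Agent.FF
  Fermat.Agent.HPVal Fermat.Agent.S18Key Fermat.Agent.RR Fermat.Agent.BadRed

local notation "Qb" => AlgebraicClosure ℚ

/-! ### abstract: zeros of `x - c` reduce to zeros of `x̄ - c̄` -/

section Abstract

variable {K F k Fk : Type*} [Field K] [Field F] [Algebra K F] [Field k] [Field Fk] [Algebra k Fk]

/-- `deg (u⁻¹)_∞ = deg (u)_∞`. -/
theorem olfc_degree_poleDiv_inv (h : IsRRField K F) (u : F) :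
    Divisor.degree (poleDiv h u⁻¹) = Divisor.degree (poleDiv h u) := by
  have h1 : poleDiv h u⁻¹ = poleDiv h u + divOf h u := by
    ext v
    rw [Finsupp.add_apply, poleDiv_apply, poleDiv_apply, divOf_apply, v.ord_inv, neg_neg]
    rcases max_cases (v.ord u) 0 with ⟨h1, _⟩ | ⟨h1, _⟩ <;>
      rcases max_cases (-(v.ord u)) 0 with ⟨h2, _⟩ | ⟨h2, _⟩ <;> omega
  rw [h1, map_add, degree_divOf, add_zero]

/-- the reduction of `x - c`. -/
theorem olfc_red_sub_const (S : RedSetup K F k Fk) {x : F} (hx : x ∈ S.Ov) {c : K}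
    (hc : c ∈ S.A) :
    S.red (x - algebraMap K F c) = S.red x - algebraMap k Fk (S.res ⟨c, hc⟩) := by
  rw [red_sub hx ((const_mem_iff c).mpr hc), red_const hc]

/-- **zeros reduce to zeros** (no cancellation): if `deg (x)_∞ ≤ deg (x̄)_∞` and `x - c` is a
unit of `S.Ov`, a zero `v` of `x - c` reduces to a zero of `x̄ - c̄`. -/
theorem olf_push_ord_sub_pos (S : RedSetup K F k Fk) (hFk : IsRRField k Fk) {x : F}
    (hx : x ∈ S.Ov) {c : K} (hc : c ∈ S.A) (hU : S.IsU (x - algebraMap K F c))
    (hdeg : Divisor.degree (poleDiv S.hF x) ≤ Divisor.degree (poleDiv hFk (S.red x)))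
    {v : Place K F} (hv : 0 < v.ord (x - algebraMap K F c)) :
    0 < (S.r v).ord (S.red x - algebraMap k Fk (S.res ⟨c, hc⟩)) := by
  have hUi : S.IsU (x - algebraMap K F c)⁻¹ := hU.inv
  have hred : S.red (x - algebraMap K F c)⁻¹ =
      (S.red x - algebraMap k Fk (S.res ⟨c, hc⟩))⁻¹ := by
    rw [hU.red_inv, olfc_red_sub_const S hx hc]
  have hdeg' : Divisor.degree (poleDiv S.hF (x - algebraMap K F c)⁻¹) ≤
      Divisor.degree (poleDiv hFk (S.red (x - algebraMap K F c)⁻¹)) := by
    rw [hred, olfc_degree_poleDiv_inv S.hF, olfc_degree_poleDiv_inv hFk,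
      Fermat.Agent.RRHur.fibreDeg_poleDiv_sub_const, Fermat.Agent.RRHur.fibreDeg_poleDiv_sub_const]
    exact hdeg
  have hneg : v.ord (x - algebraMap K F c)⁻¹ < 0 := by
    rw [v.ord_inv]
    omega
  have h1 := wpd_push_ord_neg S hFk hUi hdeg' hneg
  rw [hred, Place.ord_inv] at h1
  omega

/-- in the same situation, `x̄` is regular at `r v`. -/
theorem olf_push_ord_red_nonneg (S : RedSetup K F k Fk) (hFk : IsRRField k Fk) {x : F}
    (hx : x ∈ S.Ov) {c : K} (hc : c ∈ S.A) (hU : S.IsU (x - algebraMap K F c))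
    (hdeg : Divisor.degree (poleDiv S.hF x) ≤ Divisor.degree (poleDiv hFk (S.red x)))
    {v : Place K F} (hv : 0 < v.ord (x - algebraMap K F c)) :
    0 ≤ (S.r v).ord (S.red x) := by
  have h1 := olf_push_ord_sub_pos S hFk hx hc hU hdeg hv
  have h2 : S.red x = (S.red x - algebraMap k Fk (S.res ⟨c, hc⟩)) +
      algebraMap k Fk (S.res ⟨c, hc⟩) := by ring
  rw [h2]
  exact ord_nonneg_add (S.r v) h1.le (ord_const_nonneg _ _)

end Abstract

/-! ### modular: an integral `j`-value is not a cusp of the special fibre -/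

section Mod

variable {A : ValuationSubring Qb} {q M : ℕ} [NeZero M]
  {S0 : RedSetup Qb (modularFunctionFieldBar M) (IsLocalRing.ResidueField A)
    ↥(modularFunctionFieldFullC (IsLocalRing.ResidueField A) M)}

/-- **(B) of OLD-FIBRE**: a non-cuspidal place `v` of `F_M` whose `j`-value is integral at `A`
reduces to a non-cuspidal place of the special fibre. -/
theorem olf_ord_jC_nonneg (hS : IsGaussRed M A S0) (hq : q.Prime) (hA : A.LiesOverPrime q)
    (hqM : ¬ q ∣ M) {v : Place Qb (modularFunctionFieldBar M)}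
    (hv : 0 ≤ v.ord (Fermat.Agent.S24.jBar M))
    (hval : valueAt S0.hF v (Fermat.Agent.S24.jBar M) ∈ A) :
    0 ≤ (S0.r v).ord (Fermat.Agent.RRMod.jC (IsLocalRing.ResidueField A) M) := by
  haveI := isAlgClosed_residue A
  set c : Qb := valueAt S0.hF v (Fermat.Agent.S24.jBar M) with hc
  have hcA : c ∈ S0.A := (hS.mem_A_iff c).mpr hval
  have hjO : Fermat.Agent.S24.jBar M ∈ S0.Ov := hS.jBar_mem hq hA hqM
  have hred := hS.red_jBar hq hA hqM
  -- `j - c` is a unit of the Gauss ring: its reduction `j̄ - c̄` is not zero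
  have hne : S0.red (Fermat.Agent.S24.jBar M -
      algebraMap Qb ↥(modularFunctionFieldBar M) c) ≠ 0 := by
    rw [olfc_red_sub_const S0 hjO hcA, hred]
    intro h0
    have htr := Fermat.Agent.RRMod.transcendental_jC (IsLocalRing.ResidueField A) M
    have hj : Fermat.Agent.RRMod.jC (IsLocalRing.ResidueField A) M =
        algebraMap (IsLocalRing.ResidueField A)
          ↥(modularFunctionFieldFullC (IsLocalRing.ResidueField A) M) (S0.res ⟨c, hcA⟩) :=
      sub_eq_zero.mp h0
    exact htr (by rw [hj]; exact isAlgebraic_algebraMap _)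
  have hU : S0.IsU (Fermat.Agent.S24.jBar M - algebraMap Qb ↥(modularFunctionFieldBar M) c) :=
    isU_of_red_ne_zero (sub_mem hjO ((const_mem_iff c).mpr hcA)) hne
  have hdeg : Divisor.degree (poleDiv S0.hF (Fermat.Agent.S24.jBar M)) ≤
      Divisor.degree (poleDiv (wpd_hFk A M) (S0.red (Fermat.Agent.S24.jBar M))) := by
    rw [hred]
    exact ((oldSep_degree_poleDiv_jBar M).trans
      (oldSep_degree_poleDiv_jC A q M hq hA hqM).symm).le
  -- `v` is a zero of `j - c`
  have hmem : Fermat.Agent.S24.jBar M ∈ v.toValuationSubring := mem_of_ord_nonneg' v hv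
  have hpos : 0 < v.ord (Fermat.Agent.S24.jBar M -
      algebraMap Qb ↥(modularFunctionFieldBar M) c) := by
    rcases valueAt_spec S0.hF v hmem with h | h
    · exact absurd (sub_eq_zero.mpr h) hU.ne_zero
    · exact h
  have h1 := olf_push_ord_red_nonneg S0 (wpd_hFk A M) hjO hcA hU hdeg hpos
  rw [hred] at h1
  exact h1

end Mod

end Fermat.Agent.S36G
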