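/-
S36, G wave, block W-P, seat WP-OLD / OLD-LIFT (helper30).

**The characteristic polynomial `C_g` of `β g` over `F_{M₀}` (along `α`) has coefficients in the
disc ring `R_{P'}`**, for `g ∈ R_P`, as soon as the fibre condition (O3) holds:

    every place `w` of `F_{M₀ q}` with `r (w ∘ α) = P'` has `r (w ∘ β) = P`.

* `wpl_coeff_ord_nonneg`  : (O2) in the shape used here: the coefficients of `C_g` are regular at a
  place `v` of `F_{M₀}` if `g` is regular at `w ∘ β` for all `w` over `v` (along `α`);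
* `wpl_coeff_mem_Ov`      : (O1) the coefficients of `C_g` are Gauss-integral for Gauss-integral `g`;
* `OldFibreAt`            : the fibre condition (O3), as a predicate;
* `wpl_coeff_mem_discRing`: coefficients of `C_g` in `R_{P'}` for `g ∈ R_P`;
* `wpl_lift`              : the lift `Cg ∈ R_{P'}[X]`, monic, with `Cg.map subtype = C_g`.
-/
import Mathlib
import Fermat.Agent.Lib.BadRed.KroneckerCharpolyGen
import Fermat.Agent.Lib.BadRed.HPVal.CharPole
import Fermat.Agent.Lib.HeckeInputs.Modular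
import Fermat.Agent.S36.HPVal.Defs

set_option autoImplicit false
set_option linter.style.haveILetI false
set_option linter.unusedSectionVars false
set_option linter.unusedVariables false
set_option synthInstance.maxHeartbeats 400000

noncomputable section

namespace Fermat.Agent.S36G

open ModularCurve AlgebraicCurve Polynomial Fermat.Agent.BadRed Fermat.Agent.HPVal
  Fermat.Agent.GaussInt Fermat.Agent.F3G Fermat.Agent.Kronecker

local notation "Qb" => AlgebraicClosure ℚ

/- speed: the two instances which the `Algebra` queries of this file resolve to anyway -/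
attribute [local instance 10000] SubalgebraClass.toAlgebra HahnSeries.powerSeriesAlgebra

section Lift

variable {M₀ q : ℕ} [NeZero M₀] [NeZero q]

/-- the maps between the modular function fields are integral. -/
theorem wpl_isIntegral {a b : ℕ} [NeZero a] [NeZero b]
    (φ : ↥(modularFunctionFieldBar a) →ₐ[Qb] ↥(modularFunctionFieldBar b)) :
    φ.toRingHom.IsIntegral :=
  Fermat.Agent.HeckeInputs.hi_isIntegral_of_finiteAlong φ
    (Fermat.Agent.HeckeInputs.hi_finiteAlong φ
      (Fermat.Agent.S24.isFunctionFieldOver_jBar a).transcendental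
      (Fermat.Agent.S24.isFunctionFieldOver_jBar b))

/-- `α` is finite. -/
theorem wpl_finiteAlong {a b : ℕ} [NeZero a] [NeZero b]
    (φ : ↥(modularFunctionFieldBar a) →ₐ[Qb] ↥(modularFunctionFieldBar b)) :
    FiniteAlong Qb φ :=
  Fermat.Agent.HeckeInputs.hi_finiteAlong φ
    (Fermat.Agent.S24.isFunctionFieldOver_jBar a).transcendental
    (Fermat.Agent.S24.isFunctionFieldOver_jBar b)

/-- **(O2)** in the shape used here: the coefficients of `C_g = charpoly_α (β g)` are regular at
the place `v` of `F_{M₀}` if `g` is regular at `w ∘ β` for every place `w` of `F_{M₀ q}` over `v`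
(along `α`). -/
theorem wpl_coeff_ord_nonneg (hfin : FiniteAlong Qb (heckeAlphaBar Qb M₀ q))
    (g : ↥(modularFunctionFieldBar M₀)) (v : Place Qb ↥(modularFunctionFieldBar M₀))
    (hx : ∀ w : Place Qb ↥(modularFunctionFieldBar (M₀ * q)),
      w.restrictAlong (heckeAlphaBar Qb M₀ q) (wpl_isIntegral _) = v →
        0 ≤ (w.restrictAlong (heckeBetaBar Qb M₀ q) (wpl_isIntegral _)).ord g) (i : ℕ) :
    0 ≤ v.ord ((charpolyAlong (heckeAlphaBar Qb M₀ q) hfin (heckeBetaBar Qb M₀ q g)).coeff i) := by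
  haveI : HasPrincipalDivisors Qb ↥(modularFunctionFieldBar (M₀ * q)) :=
    Fermat.Agent.S24Diff.hasPrincipalDivisors (Fermat.Agent.S24.isFunctionFieldOver_jBar (M₀ * q))
  have H : NormFormulaAlong Qb (heckeAlphaBar Qb M₀ q) hfin :=
    Fermat.Agent.HeckeInputs.hi_normFormulaAlong (heckeAlphaBar Qb M₀ q) hfin
      (Fermat.Agent.S24.isFunctionFieldOver_jBar M₀)
      (Fermat.Agent.S24.isFunctionFieldOver_jBar (M₀ * q))
  refine cpole_charpoly_coeff (heckeAlphaBar Qb M₀ q) (wpl_isIntegral _) hfin H v _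
    (fun w hw => ?_) i
  rw [← cpole_ord_restrictAlong_nonneg_iff (heckeBetaBar Qb M₀ q) (wpl_isIntegral _)]
  exact hx w hw

variable {A : ValuationSubring Qb}
  {S0 : Fermat.Agent.S18Key.RedSetup Qb (FBar M₀) (IsLocalRing.ResidueField A)
    ↥(modularFunctionFieldFullC (IsLocalRing.ResidueField A) M₀)}

/-- **(O1)** the coefficients of `C_g` are Gauss-integral for Gauss-integral `g`. -/
theorem wpl_coeff_mem_Ov (hq : q.Prime) (hqM : ¬ q ∣ M₀) (hA : A.LiesOverPrime q)
    (hS0 : IsGaussRed M₀ A S0) (hfin : FiniteAlong Qb (heckeAlphaBar Qb M₀ q))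
    (g : FBar M₀) (hg : g ∈ S0.Ov) (i : ℕ) :
    (charpolyAlong (heckeAlphaBar Qb M₀ q) hfin (heckeBetaBar Qb M₀ q g)).coeff i ∈ S0.Ov := by
  haveI : Fact q.Prime := ⟨hq⟩
  haveI : CharP (IsLocalRing.ResidueField A) q :=
    charP_residueField_of_liesOverPrime A q hq hA
  have hgO : g ∈ gaussOvS M₀ hq A hA := (hS0.mem_iff g).mp hg
  obtain ⟨P, -, -, hP, -⟩ := kroneckerCharpolyGen M₀ hqM hq A hA hfin ⟨g, hgO⟩
  rw [← hP, Polynomial.coeff_map]
  exact (hS0.mem_iff _).mpr (P.coeff i).2

/-- **(O3)** the fibre condition: every place `w` of `F_{M₀ q}` whose image under `α` reduces to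
`P'` has its image under `β` reducing to `P`. -/
def OldFibreAt (S0 : Fermat.Agent.S18Key.RedSetup Qb (FBar M₀) (IsLocalRing.ResidueField A)
      ↥(modularFunctionFieldFullC (IsLocalRing.ResidueField A) M₀)) (q : ℕ) [NeZero q]
    (P P' : Place (IsLocalRing.ResidueField A)
      ↥(modularFunctionFieldFullC (IsLocalRing.ResidueField A) M₀)) : Prop :=
  ∀ w : Place Qb ↥(modularFunctionFieldBar (M₀ * q)),
    S0.r (w.restrictAlong (heckeAlphaBar Qb M₀ q) (wpl_isIntegral _)) = P' →
      S0.r (w.restrictAlong (heckeBetaBar Qb M₀ q) (wpl_isIntegral _)) = P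

/-- the coefficients of `C_g` lie in `R_{P'}` for `g ∈ R_P`. -/
theorem wpl_coeff_mem_discRing (hq : q.Prime) (hqM : ¬ q ∣ M₀) (hA : A.LiesOverPrime q)
    (hS0 : IsGaussRed M₀ A S0) (hfin : FiniteAlong Qb (heckeAlphaBar Qb M₀ q))
    {P P' : Place (IsLocalRing.ResidueField A)
      ↥(modularFunctionFieldFullC (IsLocalRing.ResidueField A) M₀)}
    (hfib : OldFibreAt S0 q P P') (g : FBar M₀) (hg : g ∈ discRing S0 P) (i : ℕ) :
    (charpolyAlong (heckeAlphaBar Qb M₀ q) hfin (heckeBetaBar Qb M₀ q g)).coeff i ∈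
      discRing S0 P' := by
  refine ⟨wpl_coeff_mem_Ov hq hqM hA hS0 hfin g hg.1 i, fun v hv => ?_⟩
  refine wpl_coeff_ord_nonneg hfin g v (fun w hw => ?_) i
  refine hg.2 _ (hfib w ?_)
  rw [hw, hv]

/-- **OLD-LIFT**: for `g ∈ R_P` the characteristic polynomial `C_g` of `β g` along `α` lifts to a
monic polynomial with coefficients in `R_{P'}`. -/
theorem wpl_lift (hq : q.Prime) (hqM : ¬ q ∣ M₀) (hA : A.LiesOverPrime q)
    (hS0 : IsGaussRed M₀ A S0) (hfin : FiniteAlong Qb (heckeAlphaBar Qb M₀ q))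
    {P P' : Place (IsLocalRing.ResidueField A)
      ↥(modularFunctionFieldFullC (IsLocalRing.ResidueField A) M₀)}
    (hfib : OldFibreAt S0 q P P') (g : FBar M₀) (hg : g ∈ discRing S0 P) :
    ∃ Cg : Polynomial (discRing S0 P'), Cg.Monic ∧
      Cg.map (discRing S0 P').subtype =
        charpolyAlong (heckeAlphaBar Qb M₀ q) hfin (heckeBetaBar Qb M₀ q g) := by
  set C := charpolyAlong (heckeAlphaBar Qb M₀ q) hfin (heckeBetaBar Qb M₀ q g) with hC
  have hmem : ∀ i, C.coeff i ∈ discRing S0 P' := fun i =>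
    wpl_coeff_mem_discRing hq hqM hA hS0 hfin hfib g hg i
  have hlift : C ∈ Polynomial.lifts (discRing S0 P').subtype := by
    rw [Polynomial.lifts_iff_coeff_lifts]
    intro n
    exact ⟨⟨C.coeff n, hmem n⟩, rfl⟩
  obtain ⟨Cg, hCg, -, hmon⟩ :=
    Polynomial.lifts_and_natDegree_eq_and_monic hlift (charpolyAlong_monic _ hfin _)
  exact ⟨Cg, hmon, hCg⟩

end Lift

end Fermat.Agent.S36G
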