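/-
Cluster G (S36, Carayol at `q² ∥ M`), wave W-P, seat AL-ROOT (helper1; consumer: helper30's
`S36/Seed/Old.lean`, plan WP-OLD step (R)).

`F₀ = F_{M₀}`, `F₁ = F_{M₀ q}`, `F = F_{M₀ q²}` (function fields over `ℚ̄`), `q` coprime to `M₀`;
`a₀ = heckeAlphaBar Qb M₀ q`, `b₀ = heckeBetaBar Qb M₀ q : F₀ → F₁` and
`a = heckeAlphaBar Qb (M₀ * q) q`, `b = heckeBetaBar Qb (M₀ * q) q : F₁ → F`;

  `ι₀ = a ∘ a₀` (`g(z)`),   `ι₁ = a ∘ b₀ = b ∘ a₀` (`g(qz)`),   `ι₂ = b ∘ b₀` (`g(q² z)`).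

**(R)**  For every `g ∈ F₀` and every polynomial `C ∈ F₀[X]` with `a₀(C)(b₀ g) = 0` in `F₁`
(e.g. `C = C_g = charpolyAlong a₀ hfin (b₀ g)`, the characteristic polynomial of `b₀ g` over
`a₀ F₀`):

  `ι₁(C)(ι₂ g) = 0`   (apply `b`),
  `ι₁(C)(ι₀ g) = 0`   (apply the Atkin–Lehner involution `w_q` of `F₁`, `w a₀ = b₀`,
                       `w b₀ = a₀`, then `a`).

Main statements:
* `olr_exists_w`          : the involution `W` of `F_{M₀ q}` with `W ∘ a₀ = b₀`, `W ∘ b₀ = a₀`;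
* `olr_alpha_beta_comm`   : `a ∘ b₀ = b ∘ a₀`;
* `olr_root_i2`, `olr_root_i0` : (R) for an arbitrary `C` (`eval₂` form);
* `olr_root_i2_map`, `olr_root_i0_map` : the same in the form `(C.map ι₁).eval (ι_k g) = 0`;
* `olr_charpoly_root_i2`, `olr_charpoly_root_i0`, `oldRoot : OldRootStatement M₀ q` :
  (R) for `C_g = charpolyAlong a₀ hfin (b₀ g)`, unconditionally.
-/
import Mathlib
import Fermat.Agent.Lib.BadRed.CharpolyAbs
import Fermat.Agent.Lib.BadRed.Mod.ALDegeneracy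

set_option autoImplicit false
set_option linter.style.haveILetI false
set_option linter.unusedSectionVars false
set_option linter.unusedVariables false

noncomputable section

namespace Fermat.Agent.S36G

open Polynomial ModularCurve AlgebraicCurve Fermat.Agent.AtkinLehner Fermat.Agent.BadRed

local notation "Qb" => AlgebraicClosure ℚ

attribute [local instance 10000] SubalgebraClass.toAlgebra HahnSeries.powerSeriesAlgebra

/-! ### abstract: transport of a root relation -/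

section Abstract

variable {R S T : Type*} [CommRing R] [CommRing S] [CommRing T]

/-- `φ(C)(y) = 0 ⟹ (ψ ∘ φ)(C)(ψ y) = 0`. -/
theorem olr_eval₂_comp (C : R[X]) (φ : R →+* S) (ψ : S →+* T) (y : S)
    (h : C.eval₂ φ y = 0) : C.eval₂ (ψ.comp φ) (ψ y) = 0 := by
  rw [← Polynomial.hom_eval₂, h, map_zero]

/-- `eval₂` against a map is `eval` of the mapped polynomial. -/
theorem olr_eval_map_of_eval₂ (C : R[X]) (φ : R →+* S) (y : S)
    (h : C.eval₂ φ y = 0) : (C.map φ).eval y = 0 := by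
  rw [Polynomial.eval_map]
  exact h

end Abstract

/-! ### level casts and the involution `w_q` of `F_{M₀ q}` -/

section Cast

/-- the identity between the function fields of equal levels (local copy, to keep the import
closure small). -/
def olrCast {M M' : ℕ} (h : M = M') :
    ↥(modularFunctionFieldBar M) ≃ₐ[Qb] ↥(modularFunctionFieldBar M') :=
  IntermediateField.equivOfEq (congrArg modularFunctionFieldBar h)

theorem olrCast_rfl {M : ℕ} (x : ↥(modularFunctionFieldBar M)) :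
    olrCast (rfl : M = M) x = x := by
  unfold olrCast
  rw [IntermediateField.equivOfEq_rfl]
  rfl

theorem coe_olrCast {M M' : ℕ} (h : M = M') (x : ↥(modularFunctionFieldBar M)) :
    ((olrCast h x : ↥(modularFunctionFieldBar M')) : LaurentSeries Qb) =
      (x : LaurentSeries Qb) := by
  subst h
  rw [olrCast_rfl]

end Cast

section WD

variable (D : ALData) [NeZero D.Q] [NeZero D.R]

/-- the Atkin–Lehner involution `w_Q` moved to the level `R * Q` (the level of the Prelude's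
degeneracy maps `heckeAlphaBar Qb R Q`, `heckeBetaBar Qb R Q`). -/
def olrW : ↥(modularFunctionFieldBar (D.R * D.Q)) ≃ₐ[Qb] ↥(modularFunctionFieldBar (D.R * D.Q)) :=
  ((olrCast (mul_comm D.R D.Q)).trans (atkinLehner D)).trans (olrCast (mul_comm D.Q D.R))

theorem olrW_apply (y : ↥(modularFunctionFieldBar (D.R * D.Q))) :
    olrW D y = olrCast (mul_comm D.Q D.R) (atkinLehner D (olrCast (mul_comm D.R D.Q) y)) := by
  unfold olrW
  rw [AlgEquiv.trans_apply, AlgEquiv.trans_apply]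

theorem olrCast_heckeAlphaBar (x : ↥(modularFunctionFieldBar D.R)) :
    olrCast (mul_comm D.R D.Q) (heckeAlphaBar Qb D.R D.Q x) = alphaQ D x := by
  apply Subtype.ext
  rw [coe_olrCast, coe_heckeAlphaBar, coe_alphaQ]

theorem olrCast_heckeBetaBar (x : ↥(modularFunctionFieldBar D.R)) :
    olrCast (mul_comm D.R D.Q) (heckeBetaBar Qb D.R D.Q x) = betaQ D x := by
  apply Subtype.ext
  rw [coe_olrCast, coe_heckeBetaBar, coe_betaQ]

theorem olrCast_alphaQ (x : ↥(modularFunctionFieldBar D.R)) :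
    olrCast (mul_comm D.Q D.R) (alphaQ D x) = heckeAlphaBar Qb D.R D.Q x := by
  apply Subtype.ext
  rw [coe_olrCast, coe_heckeAlphaBar, coe_alphaQ]

theorem olrCast_betaQ (x : ↥(modularFunctionFieldBar D.R)) :
    olrCast (mul_comm D.Q D.R) (betaQ D x) = heckeBetaBar Qb D.R D.Q x := by
  apply Subtype.ext
  rw [coe_olrCast, coe_heckeBetaBar, coe_betaQ]

/-- `W ∘ α = β`. -/
theorem olrW_alpha (x : ↥(modularFunctionFieldBar D.R)) :
    olrW D (heckeAlphaBar Qb D.R D.Q x) = heckeBetaBar Qb D.R D.Q x := by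
  rw [olrW_apply, olrCast_heckeAlphaBar, atkinLehner_alphaQ, olrCast_betaQ]

/-- `W ∘ β = α`. -/
theorem olrW_beta (x : ↥(modularFunctionFieldBar D.R)) :
    olrW D (heckeBetaBar Qb D.R D.Q x) = heckeAlphaBar Qb D.R D.Q x := by
  rw [olrW_apply, olrCast_heckeBetaBar, atkinLehner_betaQ, olrCast_alphaQ]

/-- `W² = 1`. -/
theorem olrW_olrW (y : ↥(modularFunctionFieldBar (D.R * D.Q))) : olrW D (olrW D y) = y := by
  rw [olrW_apply, olrW_apply]
  have h1 : olrCast (mul_comm D.R D.Q)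
      (olrCast (mul_comm D.Q D.R) (atkinLehner D (olrCast (mul_comm D.R D.Q) y))) =
        atkinLehner D (olrCast (mul_comm D.R D.Q) y) := by
    apply Subtype.ext
    rw [coe_olrCast, coe_olrCast]
  rw [h1, atkinLehner_atkinLehner]
  apply Subtype.ext
  rw [coe_olrCast, coe_olrCast]

end WD

section W

/-- the transport of `olrW` to levels given by equations. -/
theorem olr_exists_w_aux (D : ALData) (M₀ q : ℕ) [NeZero M₀] [NeZero q]
    (hR : D.R = M₀) (hQ : D.Q = q) :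
    ∃ W : ↥(modularFunctionFieldBar (M₀ * q)) ≃ₐ[Qb] ↥(modularFunctionFieldBar (M₀ * q)),
      (∀ x : ↥(modularFunctionFieldBar M₀),
        W (heckeAlphaBar Qb M₀ q x) = heckeBetaBar Qb M₀ q x) ∧
      (∀ x : ↥(modularFunctionFieldBar M₀),
        W (heckeBetaBar Qb M₀ q x) = heckeAlphaBar Qb M₀ q x) ∧
      (∀ y, W (W y) = y) := by
  subst hR
  subst hQ
  exact ⟨olrW D, olrW_alpha D, olrW_beta D, olrW_olrW D⟩

variable (M₀ q : ℕ) [NeZero M₀] [NeZero q]

/-- **Atkin–Lehner at level `M₀ q`**: there is an automorphism `W` of `F_{M₀ q}` exchanging the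
two degeneracy maps `a₀, b₀ : F_{M₀} → F_{M₀ q}`. -/
theorem olr_exists_w (hcop : Nat.Coprime q M₀) :
    ∃ W : ↥(modularFunctionFieldBar (M₀ * q)) ≃ₐ[Qb] ↥(modularFunctionFieldBar (M₀ * q)),
      (∀ x : ↥(modularFunctionFieldBar M₀),
        W (heckeAlphaBar Qb M₀ q x) = heckeBetaBar Qb M₀ q x) ∧
      (∀ x : ↥(modularFunctionFieldBar M₀),
        W (heckeBetaBar Qb M₀ q x) = heckeAlphaBar Qb M₀ q x) ∧
      (∀ y, W (W y) = y) := by
  have hq : 0 < q := Nat.pos_of_ne_zero (NeZero.ne q)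
  have hM : 0 < M₀ := Nat.pos_of_ne_zero (NeZero.ne M₀)
  obtain ⟨D, hQ, hR⟩ := ALData.exists_of_coprime hq hM hcop
  exact olr_exists_w_aux D M₀ q hR hQ

/-- `a ∘ b₀ = b ∘ a₀` (`= ι₁`, `g ↦ g(qz)`). -/
theorem olr_alpha_beta_comm :
    (heckeAlphaBar Qb (M₀ * q) q).comp (heckeBetaBar Qb M₀ q) =
      (heckeBetaBar Qb (M₀ * q) q).comp (heckeAlphaBar Qb M₀ q) := by
  refine AlgHom.ext fun x => Subtype.ext ?_
  rw [AlgHom.comp_apply, AlgHom.comp_apply, coe_heckeAlphaBar, coe_heckeBetaBar,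
    coe_heckeBetaBar, coe_heckeAlphaBar]

end W

/-! ### (R): the old functions `ι₀ g`, `ι₂ g` are roots of `ι₁(C)` -/

section Root

variable (M₀ q : ℕ) [NeZero M₀] [NeZero q]

/-- **(R), `ι₂`**: `a₀(C)(b₀ g) = 0 ⟹ ι₁(C)(ι₂ g) = 0` (apply `b`; no coprimality needed). -/
theorem olr_root_i2 (C : (↥(modularFunctionFieldBar M₀))[X]) (g : ↥(modularFunctionFieldBar M₀))
    (h : C.eval₂ (heckeAlphaBar Qb M₀ q).toRingHom (heckeBetaBar Qb M₀ q g) = 0) :
    C.eval₂ ((heckeAlphaBar Qb (M₀ * q) q).comp (heckeBetaBar Qb M₀ q)).toRingHom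
      ((heckeBetaBar Qb (M₀ * q) q).comp (heckeBetaBar Qb M₀ q) g) = 0 := by
  rw [olr_alpha_beta_comm]
  exact olr_eval₂_comp C (heckeAlphaBar Qb M₀ q).toRingHom
    (heckeBetaBar Qb (M₀ * q) q).toRingHom _ h

/-- **(R), `ι₀`**: `a₀(C)(b₀ g) = 0 ⟹ ι₁(C)(ι₀ g) = 0` (apply `w_q`, then `a`). -/
theorem olr_root_i0 (hcop : Nat.Coprime q M₀)
    (C : (↥(modularFunctionFieldBar M₀))[X]) (g : ↥(modularFunctionFieldBar M₀))
    (h : C.eval₂ (heckeAlphaBar Qb M₀ q).toRingHom (heckeBetaBar Qb M₀ q g) = 0) :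
    C.eval₂ ((heckeAlphaBar Qb (M₀ * q) q).comp (heckeBetaBar Qb M₀ q)).toRingHom
      ((heckeAlphaBar Qb (M₀ * q) q).comp (heckeAlphaBar Qb M₀ q) g) = 0 := by
  obtain ⟨W, hWα, hWβ, -⟩ := olr_exists_w M₀ q hcop
  -- apply `W`
  have h1 := olr_eval₂_comp C (heckeAlphaBar Qb M₀ q).toRingHom
    (W : ↥(modularFunctionFieldBar (M₀ * q)) →+* ↥(modularFunctionFieldBar (M₀ * q))) _ h
  have e1 : (W : ↥(modularFunctionFieldBar (M₀ * q)) →+* ↥(modularFunctionFieldBar (M₀ * q))).comp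
      (heckeAlphaBar Qb M₀ q).toRingHom = (heckeBetaBar Qb M₀ q).toRingHom :=
    RingHom.ext fun x => hWα x
  have e2 : (W : ↥(modularFunctionFieldBar (M₀ * q)) →+* ↥(modularFunctionFieldBar (M₀ * q)))
      (heckeBetaBar Qb M₀ q g) = heckeAlphaBar Qb M₀ q g := hWβ g
  rw [e1, e2] at h1
  -- apply `a`
  exact olr_eval₂_comp C (heckeBetaBar Qb M₀ q).toRingHom
    (heckeAlphaBar Qb (M₀ * q) q).toRingHom _ h1

/-- (R), `ι₂`, in the form `(C.map ι₁).eval (ι₂ g) = 0`. -/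
theorem olr_root_i2_map (C : (↥(modularFunctionFieldBar M₀))[X])
    (g : ↥(modularFunctionFieldBar M₀))
    (h : C.eval₂ (heckeAlphaBar Qb M₀ q).toRingHom (heckeBetaBar Qb M₀ q g) = 0) :
    (C.map ((heckeAlphaBar Qb (M₀ * q) q).comp (heckeBetaBar Qb M₀ q)).toRingHom).eval
      (heckeBetaBar Qb (M₀ * q) q (heckeBetaBar Qb M₀ q g)) = 0 :=
  olr_eval_map_of_eval₂ C _ _ (olr_root_i2 M₀ q C g h)

/-- (R), `ι₀`, in the form `(C.map ι₁).eval (ι₀ g) = 0`. -/
theorem olr_root_i0_map (hcop : Nat.Coprime q M₀) (C : (↥(modularFunctionFieldBar M₀))[X])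
    (g : ↥(modularFunctionFieldBar M₀))
    (h : C.eval₂ (heckeAlphaBar Qb M₀ q).toRingHom (heckeBetaBar Qb M₀ q g) = 0) :
    (C.map ((heckeAlphaBar Qb (M₀ * q) q).comp (heckeBetaBar Qb M₀ q)).toRingHom).eval
      (heckeAlphaBar Qb (M₀ * q) q (heckeAlphaBar Qb M₀ q g)) = 0 :=
  olr_eval_map_of_eval₂ C _ _ (olr_root_i0 M₀ q hcop C g h)

/-- (R) for the characteristic polynomial `C_g` of `b₀ g` along `a₀`: `ι₁(C_g)(ι₂ g) = 0`. -/
theorem olr_charpoly_root_i2 (hfin : FiniteAlong Qb (heckeAlphaBar Qb M₀ q))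
    (g : ↥(modularFunctionFieldBar M₀)) :
    ((charpolyAlong (heckeAlphaBar Qb M₀ q) hfin (heckeBetaBar Qb M₀ q g)).map
        ((heckeAlphaBar Qb (M₀ * q) q).comp (heckeBetaBar Qb M₀ q)).toRingHom).eval
      (heckeBetaBar Qb (M₀ * q) q (heckeBetaBar Qb M₀ q g)) = 0 :=
  olr_root_i2_map M₀ q _ g (aeval_charpolyAlong _ hfin _)

/-- (R) for the characteristic polynomial `C_g` of `b₀ g` along `a₀`: `ι₁(C_g)(ι₀ g) = 0`. -/
theorem olr_charpoly_root_i0 (hcop : Nat.Coprime q M₀)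
    (hfin : FiniteAlong Qb (heckeAlphaBar Qb M₀ q)) (g : ↥(modularFunctionFieldBar M₀)) :
    ((charpolyAlong (heckeAlphaBar Qb M₀ q) hfin (heckeBetaBar Qb M₀ q g)).map
        ((heckeAlphaBar Qb (M₀ * q) q).comp (heckeBetaBar Qb M₀ q)).toRingHom).eval
      (heckeAlphaBar Qb (M₀ * q) q (heckeAlphaBar Qb M₀ q g)) = 0 :=
  olr_root_i0_map M₀ q hcop _ g (aeval_charpolyAlong _ hfin _)

/-- **The statement (R) of the plan WP-OLD**, for the level `M₀` and the prime `q`. -/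
def OldRootStatement : Prop :=
  ∀ (hfin : FiniteAlong Qb (heckeAlphaBar Qb M₀ q)) (g : ↥(modularFunctionFieldBar M₀)),
    ((charpolyAlong (heckeAlphaBar Qb M₀ q) hfin (heckeBetaBar Qb M₀ q g)).map
        ((heckeAlphaBar Qb (M₀ * q) q).comp (heckeBetaBar Qb M₀ q)).toRingHom).eval
      (heckeAlphaBar Qb (M₀ * q) q (heckeAlphaBar Qb M₀ q g)) = 0 ∧
    ((charpolyAlong (heckeAlphaBar Qb M₀ q) hfin (heckeBetaBar Qb M₀ q g)).map
        ((heckeAlphaBar Qb (M₀ * q) q).comp (heckeBetaBar Qb M₀ q)).toRingHom).eval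
      (heckeBetaBar Qb (M₀ * q) q (heckeBetaBar Qb M₀ q g)) = 0

/-- **(R) holds** for every `q` coprime to `M₀`. -/
theorem oldRoot (hcop : Nat.Coprime q M₀) : OldRootStatement M₀ q := fun hfin g =>
  ⟨olr_charpoly_root_i0 M₀ q hcop hfin g, olr_charpoly_root_i2 M₀ q hfin g⟩

end Root

end Fermat.Agent.S36G
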