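/-
Cluster G (S36, Carayol at `q² ∥ M`), block W-P / SEED, seat OLD-MOD (helper57; owner of OLD:
helper30, sub-architect helper59).

**FINAL WIRING of (OLD)**: the fields `old0`, `old2` of `WPOut` from the field `old1`.

`F₀ = F_{M₀}`, `F = F_{M₀ q²}`, `ι₀ g = g(z)`, `ι₁ g = g(qz)`, `ι₂ g = g(q² z)`, `S0` the good
reduction of `F₀`, `P` a supersingular place, `P'` its Frobenius twist (the centre of `ι₁`),
`R_P = discRing S0 P`, `R_{P'} = discRing S0 P'`, `S` the constant reduction `w_P` of `F`.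

For `g ∈ R_P` put `C_g := charpolyAlong α₀ (β₀ g) ∈ F₀[X]` (`α₀, β₀ : F₀ → F_{M₀ q}`).  Inputs:

* (O1) KC-GEN (`kroneckerCharpolyGen`, helper23): the coefficients of `C_g` are Gauss-integral;
* (O2) + (O3) `OldCoeffRegular` : the coefficients of `C_g` have no pole on the residue disc of
  `P'` (CharPole, helper28 + OLD-FIBRE, helper62);
* (O4) `OldEvAt` : the values at `P'` of the coefficients of `C_g` are those of
  `(X - ḡ(P)) (X ^ q - ḡ(P) ^ q)` (OLD-EV, helper1);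
* (R) `olr_charpoly_root_i0 / _i2` (helper1): `ι₁(C_g)(ι₀ g) = 0 = ι₁(C_g)(ι₂ g)`;
* the abstract core `wpo_restrOld` (helper30).

Main statements:

* `oldMod_restrOld_of_wpOld`, `oldMod_wpOld_of_restrOld` : `WPOld` is `RestrOld` for
  `B = discRing S0 P`, `ev = discEv S0 P`;
* `oldMod_wpOld_of_kc`  : abstract wiring (any `ι₁`, `ι`);
* `oldMod_coeffMem`     : (O1) + `OldCoeffRegular` ⟹ `OldCoeffMem`;
* `oldMod_old0`, `oldMod_old2`, `oldMod_old02` : **the fields `old0`, `old2`** from `old1`,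
  `OldCoeffMem`, `OldEvAt`;
* `oldMod_old02_of_regular` : the same from `old1`, `OldCoeffRegular`, `OldEvAt` and the Gauss
  property of `S0`;
* `OldLiftAt`, `oldMod_old02_of_lift`, `oldMod_old02_iff_ready` : the same from the lift form
  (OLD-LIFT, helper30) of (O1) + (O2) + (O3).
-/
import Mathlib
import Fermat.Agent.S36.Seed.Old
import Fermat.Agent.S36.Seed.OldRoot
import Fermat.Agent.S36.HPVal.Defs
import Fermat.Agent.Lib.BadRed.KroneckerCharpolyGen

set_option autoImplicit false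
set_option linter.style.haveILetI false
set_option linter.unusedSectionVars false
set_option linter.unusedVariables false
set_option synthInstance.maxHeartbeats 400000

noncomputable section
attribute [local instance 10000] SubalgebraClass.toAlgebra HahnSeries.powerSeriesAlgebra

namespace Fermat.Agent.S36G

open Polynomial ModularCurve AlgebraicCurve Fermat.Agent.F3 Fermat.Agent.F3G
  Fermat.Agent.GaussInt Fermat.Agent.Deuring Fermat.Agent.BadRed Fermat.Agent.HPVal
  Fermat.Agent.S18Key Fermat.Agent.RR Fermat.Agent.Kronecker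

local notation "Qb" => AlgebraicClosure ℚ

/-! ### abstract part -/

section Abs

variable {K F₀ F k Fk0 FkP : Type*} [Field K] [Field F₀] [Algebra K F₀] [Field F] [Algebra K F]
  [Field k] [Field Fk0] [Algebra k Fk0] [Field FkP] [Algebra k FkP]

/-- the reduction of `g ∈ R_P` takes the value `discEv g` at `P`. -/
theorem oldMod_valAt_discEv (S0 : RedSetup K F₀ k Fk0) (P : Place k Fk0) (hFk : IsRRField k Fk0)
    (g : discRing S0 P) : ValAt P (S0.red (g : F₀)) (discEv S0 P hFk g) := by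
  rw [discEv_apply]
  exact Fermat.Agent.FF.valueAt_spec hFk P
    (Fermat.Agent.S24Res.mem_of_ord_nonneg P (ord_red_nonneg_of_mem g.2))

/-- a value of the reduction of `g ∈ R_P` at `P` is `discEv g`. -/
theorem oldMod_discEv_eq_of_valAt (S0 : RedSetup K F₀ k Fk0) (P : Place k Fk0)
    (hFk : IsRRField k Fk0) (g : discRing S0 P) {c : k} (h : ValAt P (S0.red (g : F₀)) c) :
    discEv S0 P hFk g = c := by
  rw [discEv_apply]
  exact (Fermat.Agent.FF.valueAt_eq_iff hFk P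
    (Fermat.Agent.S24Res.mem_of_ord_nonneg P (ord_red_nonneg_of_mem g.2)) c).mpr h

/-- `ValSetup.red` on an element of `Ov`. -/
theorem oldMod_red_of_mem (S : ValSetup K F k FkP) {x : F} (h : x ∈ S.Ov) :
    S.red x = S.ρ ⟨x, h⟩ := by
  unfold ValSetup.red
  rw [dif_pos h]

/-- `WPOld` gives `RestrOld` for `B = R_P`, `ev = discEv`. -/
theorem oldMod_restrOld_of_wpOld (S0 : RedSetup K F₀ k Fk0) (P : Place k Fk0)
    (hFk : IsRRField k Fk0) (ι : F₀ →ₐ[K] F) (S : ValSetup K F k FkP) (h : WPOld S0 P ι S) :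
    RestrOld ι.toRingHom S.Ov S.ρ (discRing S0 P) (discEv S0 P hFk) := by
  intro b
  obtain ⟨hm, hr⟩ := h (b : F₀) b.2 _ (oldMod_valAt_discEv S0 P hFk b)
  refine ⟨hm, ?_⟩
  rw [← hr]
  exact (oldMod_red_of_mem S hm).symm

/-- `RestrOld` for `B = R_P`, `ev = discEv` gives `WPOld`. -/
theorem oldMod_wpOld_of_restrOld (S0 : RedSetup K F₀ k Fk0) (P : Place k Fk0)
    (hFk : IsRRField k Fk0) (ι : F₀ →ₐ[K] F) (S : ValSetup K F k FkP)
    (h : RestrOld ι.toRingHom S.Ov S.ρ (discRing S0 P) (discEv S0 P hFk)) :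
    WPOld S0 P ι S := by
  intro g hg c hc
  obtain ⟨hm, hr⟩ := h ⟨g, hg⟩
  have hm' : ι g ∈ S.Ov := hm
  refine ⟨hm', ?_⟩
  rw [oldMod_red_of_mem S hm', ← oldMod_discEv_eq_of_valAt S0 P hFk ⟨g, hg⟩ hc]
  exact hr

/-- **abstract wiring**: if the `ι₁`-old functions of `R_{P'}` reduce to constants and every
`g ∈ R_P` has a monic Kronecker polynomial `C_g ∈ R_{P'}[X]` with `ι₁(C_g)(ι g) = 0` and
`ev' (C_g) = (X - ḡ(P)) (X ^ q - ḡ(P) ^ q)`, then the `ι`-old functions of `R_P` reduce to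
constants. -/
theorem oldMod_wpOld_of_kc (q : ℕ) [Fact q.Prime] [CharP FkP q]
    (S0 : RedSetup K F₀ k Fk0) (hFk : IsRRField k Fk0) (P P' : Place k Fk0)
    (ι₁ ι : F₀ →ₐ[K] F) (S : ValSetup K F k FkP) (hold1 : WPOld S0 P' ι₁ S)
    (hKC : ∀ g : discRing S0 P, ∃ Cg : Polynomial (discRing S0 P'), Cg.Monic ∧
      Cg.map (discEv S0 P' hFk) =
        (X - C (discEv S0 P hFk g)) * (X ^ q - C (discEv S0 P hFk g ^ q)) ∧
      ((Cg.map (discRing S0 P').subtype).map ι₁.toRingHom).eval (ι (g : F₀)) = 0) :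
    WPOld S0 P ι S := by
  refine oldMod_wpOld_of_restrOld S0 P hFk ι S ?_
  refine wpo_restrOld q ι₁.toRingHom ι.toRingHom S.Ov S.ρ (discRing S0 P')
    (discEv S0 P' hFk) (oldMod_restrOld_of_wpOld S0 P' hFk ι₁ S hold1) (discRing S0 P)
    (discEv S0 P hFk) ?_
  intro g
  obtain ⟨Cg, hm, hev, hroot⟩ := hKC g
  refine ⟨Cg, hm, hev, ?_⟩
  rw [Polynomial.map_map, Polynomial.eval_map] at hroot
  exact hroot

/-- the lift of a polynomial with coefficients in a subring. -/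
theorem oldMod_exists_lift {R : Type*} [CommRing R] (B : Subring R) (C₀ : Polynomial R)
    (hC : ∀ n, C₀.coeff n ∈ B) : ∃ Cg : Polynomial B, Cg.map B.subtype = C₀ := by
  have h : (↑C₀.coeffs : Set R) ⊆ (B : Set R) := by
    intro x hx
    obtain ⟨n, -, rfl⟩ := Polynomial.mem_coeffs_iff.mp (Finset.mem_coe.mp hx)
    exact hC n
  exact ⟨C₀.toSubring B h, Polynomial.map_toSubring C₀ B h⟩

/-- a lift of a monic polynomial is monic. -/
theorem oldMod_monic_of_map {R : Type*} [CommRing R] (B : Subring R) (Cg : Polynomial B)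
    (h : (Cg.map B.subtype).Monic) : Cg.Monic :=
  Polynomial.monic_of_injective Subtype.val_injective h

end Abs

/-! ### modular part -/

section Mod

variable (M₀ q : ℕ) [NeZero M₀] [NeZero q] {A : ValuationSubring Qb}
  (S0 : RedSetup Qb (FBar M₀) (IsLocalRing.ResidueField A)
    ↥(modularFunctionFieldFullC (IsLocalRing.ResidueField A) M₀))
  (hFk : IsRRField (IsLocalRing.ResidueField A)
    ↥(modularFunctionFieldFullC (IsLocalRing.ResidueField A) M₀))
  (P P' : Place (IsLocalRing.ResidueField A)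
    ↥(modularFunctionFieldFullC (IsLocalRing.ResidueField A) M₀))

/-- **(O2) + (O3)**: for `g ∈ R_P` the coefficients of `C_g = charpolyAlong α₀ (β₀ g)` have no
pole at the places of `F₀` which reduce to `P'`. -/
def OldCoeffRegular : Prop :=
  ∀ (hfin : FiniteAlong Qb (heckeAlphaBar Qb M₀ q)) (g : discRing S0 P) (n : ℕ)
    (x : Place Qb (FBar M₀)), S0.r x = P' →
    0 ≤ x.ord ((charpolyAlong (heckeAlphaBar Qb M₀ q) hfin
      (heckeBetaBar Qb M₀ q (g : FBar M₀))).coeff n)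

/-- for `g ∈ R_P` the coefficients of `C_g = charpolyAlong α₀ (β₀ g)` lie in `R_{P'}`. -/
def OldCoeffMem : Prop :=
  ∀ (hfin : FiniteAlong Qb (heckeAlphaBar Qb M₀ q)) (g : discRing S0 P) (n : ℕ),
    (charpolyAlong (heckeAlphaBar Qb M₀ q) hfin
      (heckeBetaBar Qb M₀ q (g : FBar M₀))).coeff n ∈ discRing S0 P'

/-- **(O4)**: the values at `P'` of the coefficients of `C_g` are the coefficients of
`(X - ḡ(P)) (X ^ q - ḡ(P) ^ q)`. -/
def OldEvAt : Prop :=
  ∀ (hfin : FiniteAlong Qb (heckeAlphaBar Qb M₀ q)) (g : discRing S0 P)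
    (Cg : Polynomial (discRing S0 P')),
    Cg.map (discRing S0 P').subtype =
      charpolyAlong (heckeAlphaBar Qb M₀ q) hfin (heckeBetaBar Qb M₀ q (g : FBar M₀)) →
    Cg.map (discEv S0 P' hFk) =
      (X - C (discEv S0 P hFk g)) * (X ^ q - C (discEv S0 P hFk g ^ q))

variable {M₀ q S0 P P'}

/-- **(O1)** in the language of `S0`: the coefficients of `C_g` are integral for `S0`. -/
theorem oldMod_coeff_mem_Ov (hq : q.Prime) (hqM : ¬ q ∣ M₀) (hA : A.LiesOverPrime q)
    (hG : IsGaussRed M₀ A S0) (hfin : FiniteAlong Qb (heckeAlphaBar Qb M₀ q))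
    (g : FBar M₀) (hg : g ∈ S0.Ov) (n : ℕ) :
    (charpolyAlong (heckeAlphaBar Qb M₀ q) hfin (heckeBetaBar Qb M₀ q g)).coeff n ∈ S0.Ov := by
  haveI : Fact q.Prime := ⟨hq⟩
  haveI : CharP (IsLocalRing.ResidueField A) q := charP_residueField_of_liesOverPrime A q hq hA
  have hg' : g ∈ gaussOvS M₀ hq A hA := (hG.mem_iff g).mp hg
  obtain ⟨Pg, -, -, hmap, -⟩ := kroneckerCharpolyGen M₀ hqM hq A hA hfin ⟨g, hg'⟩
  rw [← hmap, Polynomial.coeff_map]
  exact (hG.mem_iff _).mpr (Pg.coeff n).2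

/-- (O1) + (O2) + (O3) ⟹ the coefficients of `C_g` lie in `R_{P'}`. -/
theorem oldMod_coeffMem (hq : q.Prime) (hqM : ¬ q ∣ M₀) (hA : A.LiesOverPrime q)
    (hG : IsGaussRed M₀ A S0) (hreg : OldCoeffRegular M₀ q S0 P P') :
    OldCoeffMem M₀ q S0 P P' := fun hfin g n =>
  ⟨oldMod_coeff_mem_Ov hq hqM hA hG hfin (g : FBar M₀) g.2.1 n, fun x hx => hreg hfin g n x hx⟩

/-- the Kronecker data of `g ∈ R_P` for the abstract wiring. -/
theorem oldMod_kc (hmem : OldCoeffMem M₀ q S0 P P') (hev : OldEvAt M₀ q S0 hFk P P')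
    (hfin : FiniteAlong Qb (heckeAlphaBar Qb M₀ q)) (g : discRing S0 P) :
    ∃ Cg : Polynomial (discRing S0 P'), Cg.Monic ∧
      Cg.map (discEv S0 P' hFk) =
        (X - C (discEv S0 P hFk g)) * (X ^ q - C (discEv S0 P hFk g ^ q)) ∧
      Cg.map (discRing S0 P').subtype =
        charpolyAlong (heckeAlphaBar Qb M₀ q) hfin (heckeBetaBar Qb M₀ q (g : FBar M₀)) := by
  obtain ⟨Cg, hCg⟩ := oldMod_exists_lift (discRing S0 P') _ (hmem hfin g)
  refine ⟨Cg, oldMod_monic_of_map _ Cg ?_, hev hfin g Cg hCg, hCg⟩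
  rw [hCg]
  exact charpolyAlong_monic _ _ _

variable {FkP : Type} [Field FkP] [Algebra (IsLocalRing.ResidueField A) FkP]

/-- **`old0` from `old1`**. -/
theorem oldMod_old0 (hq : q.Prime) (hqM : ¬ q ∣ M₀) (hA : A.LiesOverPrime q)
    (S : ValSetup Qb (FBar (M₀ * q * q)) (IsLocalRing.ResidueField A) FkP)
    (hfin : FiniteAlong Qb (heckeAlphaBar Qb M₀ q))
    (hold1 : WPOld S0 P' (wpdIota1 M₀ q) S)
    (hmem : OldCoeffMem M₀ q S0 P P') (hev : OldEvAt M₀ q S0 hFk P P') :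
    WPOld S0 P (wpIota0 M₀ q) S := by
  haveI : Fact q.Prime := ⟨hq⟩
  haveI : CharP (IsLocalRing.ResidueField A) q := charP_residueField_of_liesOverPrime A q hq hA
  haveI : CharP FkP q :=
    charP_of_injective_algebraMap (algebraMap (IsLocalRing.ResidueField A) FkP).injective q
  have hcop : Nat.Coprime q M₀ := (Nat.Prime.coprime_iff_not_dvd hq).mpr hqM
  refine oldMod_wpOld_of_kc q S0 hFk P P' (wpdIota1 M₀ q) (wpIota0 M₀ q) S hold1 fun g => ?_
  obtain ⟨Cg, hm, hCev, hCg⟩ := oldMod_kc hFk hmem hev hfin g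
  refine ⟨Cg, hm, hCev, ?_⟩
  rw [hCg]
  exact olr_charpoly_root_i0 M₀ q hcop hfin (g : FBar M₀)

/-- **`old2` from `old1`**. -/
theorem oldMod_old2 (hq : q.Prime) (hA : A.LiesOverPrime q)
    (S : ValSetup Qb (FBar (M₀ * q * q)) (IsLocalRing.ResidueField A) FkP)
    (hfin : FiniteAlong Qb (heckeAlphaBar Qb M₀ q))
    (hold1 : WPOld S0 P' (wpdIota1 M₀ q) S)
    (hmem : OldCoeffMem M₀ q S0 P P') (hev : OldEvAt M₀ q S0 hFk P P') :
    WPOld S0 P (wpIota2 M₀ q) S := by
  haveI : Fact q.Prime := ⟨hq⟩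
  haveI : CharP (IsLocalRing.ResidueField A) q := charP_residueField_of_liesOverPrime A q hq hA
  haveI : CharP FkP q :=
    charP_of_injective_algebraMap (algebraMap (IsLocalRing.ResidueField A) FkP).injective q
  refine oldMod_wpOld_of_kc q S0 hFk P P' (wpdIota1 M₀ q) (wpIota2 M₀ q) S hold1 fun g => ?_
  obtain ⟨Cg, hm, hCev, hCg⟩ := oldMod_kc hFk hmem hev hfin g
  refine ⟨Cg, hm, hCev, ?_⟩
  rw [hCg]
  exact olr_charpoly_root_i2 M₀ q hfin (g : FBar M₀)

/-- **OLD, final wiring**: the fields `old0` and `old2` of `WPOut` from `old1`, the membership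
of the coefficients of the Kronecker polynomials and their values at the centre. -/
theorem oldMod_old02 (hq : q.Prime) (hqM : ¬ q ∣ M₀) (hA : A.LiesOverPrime q)
    (S : ValSetup Qb (FBar (M₀ * q * q)) (IsLocalRing.ResidueField A) FkP)
    (hfin : FiniteAlong Qb (heckeAlphaBar Qb M₀ q))
    (hold1 : WPOld S0 P' (wpdIota1 M₀ q) S)
    (hmem : OldCoeffMem M₀ q S0 P P') (hev : OldEvAt M₀ q S0 hFk P P') :
    WPOld S0 P (wpIota0 M₀ q) S ∧ WPOld S0 P (wpIota2 M₀ q) S :=
  ⟨oldMod_old0 hFk hq hqM hA S hfin hold1 hmem hev, oldMod_old2 hFk hq hA S hfin hold1 hmem hev⟩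

/-- **OLD, final wiring**, from (O2) + (O3) (`OldCoeffRegular`), (O4) (`OldEvAt`) and the Gauss
property of `S0` ((O1) is `kroneckerCharpolyGen`). -/
theorem oldMod_old02_of_regular (hq : q.Prime) (hqM : ¬ q ∣ M₀) (hA : A.LiesOverPrime q)
    (hG : IsGaussRed M₀ A S0)
    (S : ValSetup Qb (FBar (M₀ * q * q)) (IsLocalRing.ResidueField A) FkP)
    (hfin : FiniteAlong Qb (heckeAlphaBar Qb M₀ q))
    (hold1 : WPOld S0 P' (wpdIota1 M₀ q) S)
    (hreg : OldCoeffRegular M₀ q S0 P P') (hev : OldEvAt M₀ q S0 hFk P P') :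
    WPOld S0 P (wpIota0 M₀ q) S ∧ WPOld S0 P (wpIota2 M₀ q) S :=
  oldMod_old02 hFk hq hqM hA S hfin hold1 (oldMod_coeffMem hq hqM hA hG hreg) hev

/-! ### the same wiring from the lift statement (OLD-LIFT) -/

variable (M₀ q S0 P P') in
/-- **(O1) + (O2) + (O3), lift form (OLD-LIFT)**: for `g ∈ R_P` the polynomial
`C_g = charpolyAlong α₀ (β₀ g)` has a monic lift to `R_{P'}[X]`. -/
def OldLiftAt : Prop :=
  ∀ (hfin : FiniteAlong Qb (heckeAlphaBar Qb M₀ q)) (g : FBar M₀), g ∈ discRing S0 P →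
    ∃ Cg : Polynomial (discRing S0 P'), Cg.Monic ∧
      Cg.map (discRing S0 P').subtype =
        charpolyAlong (heckeAlphaBar Qb M₀ q) hfin (heckeBetaBar Qb M₀ q g)

/-- the lift form follows from the membership of the coefficients. -/
theorem oldMod_liftAt_of_coeffMem (hmem : OldCoeffMem M₀ q S0 P P') :
    OldLiftAt M₀ q S0 P P' := fun hfin g hg => by
  obtain ⟨Cg, hCg⟩ := oldMod_exists_lift (discRing S0 P') _ (hmem hfin ⟨g, hg⟩)
  refine ⟨Cg, oldMod_monic_of_map _ Cg ?_, hCg⟩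
  rw [hCg]
  exact charpolyAlong_monic _ _ _

/-- the membership of the coefficients follows from the lift form. -/
theorem oldMod_coeffMem_of_liftAt (hlift : OldLiftAt M₀ q S0 P P') :
    OldCoeffMem M₀ q S0 P P' := fun hfin g n => by
  obtain ⟨Cg, -, hCg⟩ := hlift hfin (g : FBar M₀) g.2
  rw [← hCg, Polynomial.coeff_map]
  exact (Cg.coeff n).2

/-- **OLD, final wiring, lift form**: the fields `old0` and `old2` of `WPOut` from `old1`,
OLD-LIFT (`OldLiftAt`) and OLD-EV (`OldEvAt`). -/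
theorem oldMod_old02_of_lift (hq : q.Prime) (hqM : ¬ q ∣ M₀) (hA : A.LiesOverPrime q)
    (S : ValSetup Qb (FBar (M₀ * q * q)) (IsLocalRing.ResidueField A) FkP)
    (hfin : FiniteAlong Qb (heckeAlphaBar Qb M₀ q))
    (hold1 : WPOld S0 P' (wpdIota1 M₀ q) S)
    (hlift : OldLiftAt M₀ q S0 P P') (hev : OldEvAt M₀ q S0 hFk P P') :
    WPOld S0 P (wpIota0 M₀ q) S ∧ WPOld S0 P (wpIota2 M₀ q) S :=
  oldMod_old02 hFk hq hqM hA S hfin hold1 (oldMod_coeffMem_of_liftAt hlift) hev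

/-- **OLD for a `WPOut`-shaped datum**: if `old1` holds at the centre `P'`, then `old0` and
`old2` hold at `P` (this is what the assembly `Val.lean` consumes: `S`, `P'` ARBITRARY). -/
theorem oldMod_old02_iff_ready (hq : q.Prime) (hqM : ¬ q ∣ M₀) (hA : A.LiesOverPrime q)
    (hfin : FiniteAlong Qb (heckeAlphaBar Qb M₀ q))
    (hlift : OldLiftAt M₀ q S0 P P') (hev : OldEvAt M₀ q S0 hFk P P') :
    ∀ (FkP : Type) [Field FkP] [Algebra (IsLocalRing.ResidueField A) FkP]
      (S : ValSetup Qb (FBar (M₀ * q * q)) (IsLocalRing.ResidueField A) FkP),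
      WPOld S0 P' (wpdIota1 M₀ q) S →
        WPOld S0 P (wpIota0 M₀ q) S ∧ WPOld S0 P (wpIota2 M₀ q) S :=
  fun _ _ _ S hold1 => oldMod_old02_of_lift hFk hq hqM hA S hfin hold1 hlift hev

end Mod

end Fermat.Agent.S36G
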