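/-
Cluster G (S36, Carayol at `q² ∥ M`), block W-P / SEED, seat OLD-FIBRE (O3)
(helper62; sub-architect helper59, owner of OLD helper30).

**THE FIBRE CONDITION (O3).**  `q ∤ M₀`, `A` a valuation ring of `ℚ̄` over `q`, `S0` a Gauss
reduction package of `F_{M₀}`, `α, β : F_{M₀} → F_{M₀ q}` the two degeneracy maps, `P, P'` two
non-cuspidal places of the special fibre for which the Kronecker congruence (O4) `OldEvAt` holds
(`P` supersingular, `P'` its Frobenius twist).  Then every place `w` of `F_{M₀ q}` with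
`r (w ∘ α) = P'` has `r (w ∘ β) = P`.

Proof.  For a Gauss-integral `g` with cuspidal poles the coefficients of
`C_g = charpoly_α (β g)` are Gauss-integral (KC-GEN) with cuspidal poles (K'), so they lie in
`R_{P'}`; by (O4) `C_g` reduces at `P'` to `(X - ḡ(P)) (X ^ q - ḡ(P) ^ q)`, hence (abstract core
`olf_value`) `(β g)(w) = g(w ∘ β)` is integral with residue `ḡ(P)`.  For `g = j` this shows that
`w ∘ β` is not a cusp and `j (w ∘ β)` is integral, so `Q = r (w ∘ β)` is not a cusp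
(`olf_ord_jC_nonneg`, helper24).  If `Q ≠ P`, an integral function `g₀` with cuspidal poles,
`ḡ₀(Q) = 0`, `ḡ₀(P) = 1` (`exists_oldSep_two`) gives `0 = 1`.

* `olf_value_cusp`   : the Kronecker congruence at `w` for functions with cuspidal poles;
* `olf_fibre_of_cusp`: (O3) from the cusp statement as a hypothesis;
* `olf_coeffRegular_of_cusp`, `olf_liftAt_of_cusp` : the consumer forms `OldCoeffRegular`,
  `OldLiftAt` (OldMod.lean);
* `olf_fibre`, `olf_coeffRegular`, `olf_liftAt` : **the same, unconditionally** (the cusp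
  statement is `olf_ord_jC_nonneg`, OldFibreCusp.lean, helper24).
-/
import Mathlib
import Fermat.Agent.S36.Seed.OldFibreAbs
import Fermat.Agent.S36.Seed.OldFibreCusp
import Fermat.Agent.S36.Seed.OldMod
import Fermat.Agent.S36.Seed.OldLift
import Fermat.Agent.S36.HPVal.DiscModG
import Fermat.Agent.S36.HPVal.KCtPole
import Fermat.Agent.Lib.BadRed.Mod.OldSep

set_option autoImplicit false
set_option linter.style.haveILetI false
set_option linter.unusedSectionVars false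
set_option linter.unusedVariables false
set_option synthInstance.maxHeartbeats 400000
set_option maxHeartbeats 3200000

noncomputable section
attribute [local instance 10000] SubalgebraClass.toAlgebra HahnSeries.powerSeriesAlgebra

namespace Fermat.Agent.S36G

open Polynomial ModularCurve AlgebraicCurve Fermat.Agent.F3 Fermat.Agent.F3G
  Fermat.Agent.GaussInt Fermat.Agent.Deuring Fermat.Agent.BadRed Fermat.Agent.HPVal
  Fermat.Agent.S18Key Fermat.Agent.RR Fermat.Agent.Kronecker Fermat.Agent.FF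

local notation "Qb" => AlgebraicClosure ℚ

section Fibre

variable {M₀ q : ℕ} [NeZero M₀] [NeZero q] {A : ValuationSubring Qb}
  {S0 : RedSetup Qb (FBar M₀) (IsLocalRing.ResidueField A)
    ↥(modularFunctionFieldFullC (IsLocalRing.ResidueField A) M₀)}
  {hFk : IsRRField (IsLocalRing.ResidueField A)
    ↥(modularFunctionFieldFullC (IsLocalRing.ResidueField A) M₀)}
  {P P' : Place (IsLocalRing.ResidueField A)
    ↥(modularFunctionFieldFullC (IsLocalRing.ResidueField A) M₀)}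

/-- **the Kronecker congruence at `w`** for a Gauss-integral function with cuspidal poles: if
`w ∘ α` reduces to `P'`, then `β g` is regular at `w`, its value is integral, with residue
`ḡ(P)`. -/
theorem olf_value_cusp (hq : q.Prime) (hqM : ¬ q ∣ M₀) (hA : A.LiesOverPrime q)
    (hG : IsGaussRed M₀ A S0)
    (hP : 0 ≤ P.ord (Fermat.Agent.RRMod.jC (IsLocalRing.ResidueField A) M₀))
    (hP' : 0 ≤ P'.ord (Fermat.Agent.RRMod.jC (IsLocalRing.ResidueField A) M₀))
    (hev : OldEvAt M₀ q S0 hFk P P')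
    (w : Place Qb (FBar (M₀ * q)))
    (hv : S0.r (w.restrictAlong (heckeAlphaBar Qb M₀ q) (wpl_isIntegral _)) = P')
    (g : FBar M₀) (hgO : g ∈ S0.Ov)
    (hpoles : ∀ v : Place Qb (FBar M₀), 0 ≤ v.ord (Fermat.Agent.S24.jBar M₀) → 0 ≤ v.ord g) :
    ∃ hgP : g ∈ discRing S0 P, heckeBetaBar Qb M₀ q g ∈ w.toValuationSubring ∧
      ∃ hA' : valueAt (Fermat.Agent.RRMod.isRRField_bar (M₀ * q)) w (heckeBetaBar Qb M₀ q g) ∈
          S0.A,
        S0.res ⟨valueAt (Fermat.Agent.RRMod.isRRField_bar (M₀ * q)) w (heckeBetaBar Qb M₀ q g),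
          hA'⟩ = discEv S0 P hFk ⟨g, hgP⟩ := by
  haveI : Fact q.Prime := ⟨hq⟩
  haveI : CharP (IsLocalRing.ResidueField A) q := charP_residueField_of_liesOverPrime A q hq hA
  have hgP : g ∈ discRing S0 P :=
    hG.mem_discRing hq hA hqM ((hG.mem_Ov_iff' hq hA hqM g).mp hgO) hpoles hP
  refine ⟨hgP, ?_⟩
  have hfin : FiniteAlong Qb (heckeAlphaBar Qb M₀ q) := wpl_finiteAlong _
  have hmem : ∀ n, (charpolyAlong (heckeAlphaBar Qb M₀ q) hfin
      (heckeBetaBar Qb M₀ q g)).coeff n ∈ discRing S0 P' := by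
    intro n
    refine hG.mem_discRing hq hA hqM ((hG.mem_Ov_iff' hq hA hqM _).mp
      (oldMod_coeff_mem_Ov hq hqM hA hG hfin g hgO n)) (fun v hv => ?_) hP'
    exact Fermat.Agent.S36.kcp_charpoly_coeff M₀ q hq hqM hfin g hpoles v hv n
  obtain ⟨Cg, hCg⟩ := oldMod_exists_lift (discRing S0 P') _ hmem
  have hmon : Cg.Monic := oldMod_monic_of_map _ Cg (by
    rw [hCg]
    exact charpolyAlong_monic _ _ _)
  have hCev := hev hfin ⟨g, hgP⟩ Cg hCg
  have hroot : Polynomial.eval₂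
      (((heckeAlphaBar Qb M₀ q : FBar M₀ →ₐ[Qb] FBar (M₀ * q)) : FBar M₀ →+* FBar (M₀ * q)).comp
        (discRing S0 P').subtype) (heckeBetaBar Qb M₀ q g) Cg = 0 := by
    rw [← Polynomial.eval₂_map, hCg]
    exact aeval_charpolyAlong _ hfin _
  obtain ⟨h1, hA', h2⟩ := olf_value S0 hFk (Fermat.Agent.RRMod.isRRField_bar (M₀ * q)) q
    (heckeAlphaBar Qb M₀ q) (heckeBetaBar Qb M₀ q) (wpl_isIntegral _) w P' hv Cg hmon _ _ hCev g
    hroot
  exact ⟨h1, hA', h2.elim id id⟩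

/-- **OLD-FIBRE (O3)**, with the cusp statement (`olf_ord_jC_nonneg`) as a hypothesis. -/
theorem olf_fibre_of_cusp (hq : q.Prime) (hqM : ¬ q ∣ M₀) (hA : A.LiesOverPrime q)
    (hG : IsGaussRed M₀ A S0)
    (hgen : genusFF Qb (modularFunctionFieldBar M₀) =
      genusFF (IsLocalRing.ResidueField A)
        (modularFunctionFieldFullC (IsLocalRing.ResidueField A) M₀))
    (hP : 0 ≤ P.ord (Fermat.Agent.RRMod.jC (IsLocalRing.ResidueField A) M₀))
    (hP' : 0 ≤ P'.ord (Fermat.Agent.RRMod.jC (IsLocalRing.ResidueField A) M₀))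
    (hev : OldEvAt M₀ q S0 hFk P P')
    (hcusp : ∀ v : Place Qb (FBar M₀), 0 ≤ v.ord (Fermat.Agent.S24.jBar M₀) →
      valueAt S0.hF v (Fermat.Agent.S24.jBar M₀) ∈ S0.A →
      0 ≤ (S0.r v).ord (Fermat.Agent.RRMod.jC (IsLocalRing.ResidueField A) M₀)) :
    OldFibreAt S0 q P P' := by
  intro w hv
  have hβ : (heckeBetaBar Qb M₀ q).toRingHom.IsIntegral := wpl_isIntegral _
  -- step 2: `w ∘ β` is not a cusp, and neither is its reduction
  obtain ⟨-, hjw, hjA, -⟩ := olf_value_cusp hq hqM hA hG hP hP' hev w hv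
    (Fermat.Agent.S24.jBar M₀) (hG.jBar_mem hq hA hqM) (fun v hv => hv)
  have hjv' : 0 ≤ (w.restrictAlong (heckeBetaBar Qb M₀ q) hβ).ord (Fermat.Agent.S24.jBar M₀) :=
    (olf_ord_restrict_nonneg _ hβ w _).mpr (Fermat.Agent.S24Res.ord_nonneg_of_mem w hjw)
  have hval := olf_valueAt_restrict S0.hF (Fermat.Agent.RRMod.isRRField_bar (M₀ * q))
    (heckeBetaBar Qb M₀ q) hβ w hjv'
  have hQ : 0 ≤ (S0.r (w.restrictAlong (heckeBetaBar Qb M₀ q) hβ)).ord
      (Fermat.Agent.RRMod.jC (IsLocalRing.ResidueField A) M₀) := by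
    refine hcusp _ hjv' ?_
    rw [← hval]
    exact hjA
  -- step 3: separation
  by_contra hne
  obtain ⟨g₀, hg₀O, hg₀p, -, hg₀Q, hg₀P⟩ :=
    exists_oldSep_two A q M₀ hq hA hqM hgen hne hQ hP
  have hg₀O' : g₀ ∈ S0.Ov := (hG.mem_Ov_iff' hq hA hqM g₀).mpr hg₀O
  obtain ⟨hgP, hgw, hgA, hgres⟩ := olf_value_cusp hq hqM hA hG hP hP' hev w hv g₀ hg₀O' hg₀p
  have h1 : discEv S0 P hFk ⟨g₀, hgP⟩ = 1 :=
    oldMod_discEv_eq_of_valAt S0 P hFk ⟨g₀, hgP⟩ (by
      rw [hG.red_eq hq hA hqM]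
      exact hg₀P)
  have hgQ : g₀ ∈ discRing S0 (S0.r (w.restrictAlong (heckeBetaBar Qb M₀ q) hβ)) :=
    hG.mem_discRing hq hA hqM hg₀O hg₀p hQ
  obtain ⟨hA2, hr2⟩ := olf_value_disc S0 hFk
    (rfl : S0.r (w.restrictAlong (heckeBetaBar Qb M₀ q) hβ) = _) ⟨g₀, hgQ⟩
  have h0 : discEv S0 (S0.r (w.restrictAlong (heckeBetaBar Qb M₀ q) hβ)) hFk ⟨g₀, hgQ⟩ = 0 :=
    oldMod_discEv_eq_of_valAt S0 _ hFk ⟨g₀, hgQ⟩ (by
      rw [hG.red_eq hq hA hqM]
      exact hg₀Q)
  have hval2 := olf_valueAt_restrict S0.hF (Fermat.Agent.RRMod.isRRField_bar (M₀ * q))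
    (heckeBetaBar Qb M₀ q) hβ w (hg₀p _ hjv')
  have hcontra : (1 : IsLocalRing.ResidueField A) = 0 := by
    rw [← h1, ← hgres, ← h0, ← hr2]
    congr 1
    exact Subtype.ext hval2
  exact one_ne_zero hcontra

/-- `OldCoeffRegular` (the input (O2) + (O3) of `oldMod_old02_of_regular`). -/
theorem olf_coeffRegular_of_cusp (hq : q.Prime) (hqM : ¬ q ∣ M₀) (hA : A.LiesOverPrime q)
    (hG : IsGaussRed M₀ A S0)
    (hgen : genusFF Qb (modularFunctionFieldBar M₀) =
      genusFF (IsLocalRing.ResidueField A)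
        (modularFunctionFieldFullC (IsLocalRing.ResidueField A) M₀))
    (hP : 0 ≤ P.ord (Fermat.Agent.RRMod.jC (IsLocalRing.ResidueField A) M₀))
    (hP' : 0 ≤ P'.ord (Fermat.Agent.RRMod.jC (IsLocalRing.ResidueField A) M₀))
    (hev : OldEvAt M₀ q S0 hFk P P')
    (hcusp : ∀ v : Place Qb (FBar M₀), 0 ≤ v.ord (Fermat.Agent.S24.jBar M₀) →
      valueAt S0.hF v (Fermat.Agent.S24.jBar M₀) ∈ S0.A →
      0 ≤ (S0.r v).ord (Fermat.Agent.RRMod.jC (IsLocalRing.ResidueField A) M₀)) :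
    OldCoeffRegular M₀ q S0 P P' := fun hfin g n x hx =>
  (wpl_coeff_mem_discRing hq hqM hA hG hfin
    (olf_fibre_of_cusp hq hqM hA hG hgen hP hP' hev hcusp) (g : FBar M₀) g.2 n).2 x hx

/-- `OldLiftAt` (the input OLD-LIFT of `oldMod_old02_of_lift`). -/
theorem olf_liftAt_of_cusp (hq : q.Prime) (hqM : ¬ q ∣ M₀) (hA : A.LiesOverPrime q)
    (hG : IsGaussRed M₀ A S0)
    (hgen : genusFF Qb (modularFunctionFieldBar M₀) =
      genusFF (IsLocalRing.ResidueField A)
        (modularFunctionFieldFullC (IsLocalRing.ResidueField A) M₀))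
    (hP : 0 ≤ P.ord (Fermat.Agent.RRMod.jC (IsLocalRing.ResidueField A) M₀))
    (hP' : 0 ≤ P'.ord (Fermat.Agent.RRMod.jC (IsLocalRing.ResidueField A) M₀))
    (hev : OldEvAt M₀ q S0 hFk P P')
    (hcusp : ∀ v : Place Qb (FBar M₀), 0 ≤ v.ord (Fermat.Agent.S24.jBar M₀) →
      valueAt S0.hF v (Fermat.Agent.S24.jBar M₀) ∈ S0.A →
      0 ≤ (S0.r v).ord (Fermat.Agent.RRMod.jC (IsLocalRing.ResidueField A) M₀)) :
    OldLiftAt M₀ q S0 P P' := fun hfin g hg =>
  wpl_lift hq hqM hA hG hfin (olf_fibre_of_cusp hq hqM hA hG hgen hP hP' hev hcusp) g hg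

/-- **OLD-FIBRE (O3)**: every place `w` of `F_{M₀ q}` whose image under `α` reduces to `P'` has
its image under `β` reducing to `P`. -/
theorem olf_fibre (hq : q.Prime) (hqM : ¬ q ∣ M₀) (hA : A.LiesOverPrime q)
    (hG : IsGaussRed M₀ A S0)
    (hgen : genusFF Qb (modularFunctionFieldBar M₀) =
      genusFF (IsLocalRing.ResidueField A)
        (modularFunctionFieldFullC (IsLocalRing.ResidueField A) M₀))
    (hP : 0 ≤ P.ord (Fermat.Agent.RRMod.jC (IsLocalRing.ResidueField A) M₀))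
    (hP' : 0 ≤ P'.ord (Fermat.Agent.RRMod.jC (IsLocalRing.ResidueField A) M₀))
    (hev : OldEvAt M₀ q S0 hFk P P') : OldFibreAt S0 q P P' :=
  olf_fibre_of_cusp hq hqM hA hG hgen hP hP' hev fun v hv hval =>
    olf_ord_jC_nonneg hG hq hA hqM hv ((hG.mem_A_iff _).mp hval)

/-- **`OldCoeffRegular`** ((O2) + (O3), the input of `oldMod_old02_of_regular`). -/
theorem olf_coeffRegular (hq : q.Prime) (hqM : ¬ q ∣ M₀) (hA : A.LiesOverPrime q)
    (hG : IsGaussRed M₀ A S0)
    (hgen : genusFF Qb (modularFunctionFieldBar M₀) =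
      genusFF (IsLocalRing.ResidueField A)
        (modularFunctionFieldFullC (IsLocalRing.ResidueField A) M₀))
    (hP : 0 ≤ P.ord (Fermat.Agent.RRMod.jC (IsLocalRing.ResidueField A) M₀))
    (hP' : 0 ≤ P'.ord (Fermat.Agent.RRMod.jC (IsLocalRing.ResidueField A) M₀))
    (hev : OldEvAt M₀ q S0 hFk P P') : OldCoeffRegular M₀ q S0 P P' := fun hfin g n x hx =>
  (wpl_coeff_mem_discRing hq hqM hA hG hfin
    (olf_fibre hq hqM hA hG hgen hP hP' hev) (g : FBar M₀) g.2 n).2 x hx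

/-- **`OldLiftAt`** (OLD-LIFT, the input of `oldMod_old02_of_lift`). -/
theorem olf_liftAt (hq : q.Prime) (hqM : ¬ q ∣ M₀) (hA : A.LiesOverPrime q)
    (hG : IsGaussRed M₀ A S0)
    (hgen : genusFF Qb (modularFunctionFieldBar M₀) =
      genusFF (IsLocalRing.ResidueField A)
        (modularFunctionFieldFullC (IsLocalRing.ResidueField A) M₀))
    (hP : 0 ≤ P.ord (Fermat.Agent.RRMod.jC (IsLocalRing.ResidueField A) M₀))
    (hP' : 0 ≤ P'.ord (Fermat.Agent.RRMod.jC (IsLocalRing.ResidueField A) M₀))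
    (hev : OldEvAt M₀ q S0 hFk P P') : OldLiftAt M₀ q S0 P P' := fun hfin g hg =>
  wpl_lift hq hqM hA hG hfin (olf_fibre hq hqM hA hG hgen hP hP' hev) g hg

/-- **OLD, fields `old0` and `old2` from `old1`** at a pair `(P, P')` of non-cuspidal places
with the Kronecker congruence (O4). -/
theorem olf_old02 {FkP : Type} [Field FkP] [Algebra (IsLocalRing.ResidueField A) FkP]
    (hq : q.Prime) (hqM : ¬ q ∣ M₀) (hA : A.LiesOverPrime q)
    (hG : IsGaussRed M₀ A S0)
    (hgen : genusFF Qb (modularFunctionFieldBar M₀) =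
      genusFF (IsLocalRing.ResidueField A)
        (modularFunctionFieldFullC (IsLocalRing.ResidueField A) M₀))
    (hP : 0 ≤ P.ord (Fermat.Agent.RRMod.jC (IsLocalRing.ResidueField A) M₀))
    (hP' : 0 ≤ P'.ord (Fermat.Agent.RRMod.jC (IsLocalRing.ResidueField A) M₀))
    (hev : OldEvAt M₀ q S0 hFk P P')
    (S : ValSetup Qb (FBar (M₀ * q * q)) (IsLocalRing.ResidueField A) FkP)
    (hold1 : WPOld S0 P' (wpdIota1 M₀ q) S) :
    WPOld S0 P (wpIota0 M₀ q) S ∧ WPOld S0 P (wpIota2 M₀ q) S :=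
  oldMod_old02_of_lift hFk hq hqM hA S (wpl_finiteAlong _) hold1
    (olf_liftAt hq hqM hA hG hgen hP hP' hev) hev

end Fibre

end Fermat.Agent.S36G
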