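/-
Cluster G (S36, Carayol at `q² ∥ M`), wave W-P, block WP-OLD, leaf (O4) (helper1; owner of OLD:
helper30, sub-architect helper59).

**Evaluation at the centre `P'` of the Kronecker polynomial of an old function.**

`q ∤ M₀` prime, `A` a valuation ring of `ℚ̄` over `q`, `k = A / m_A`, `Fk₀ = F_k(M₀)`,
`S0` the Gauss reduction of `F₀ = F_{M₀}` at `A`, `Φ = frobAut k M₀ q` the coefficientwise
Frobenius, `P`, `P'` places of `Fk₀` with `Φ • P = P'` and `Φ • P' = P` (for a supersingular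
`P`: (Fq2), `S36/Seed/SSFrob.lean`).

For `g ∈ R_P = discRing S0 P` let `C_g = charpolyAlong α (β g) ∈ F₀[X]` (`α, β : F₀ → F_{M₀ q}` the
degeneracy maps).  If `Cg ∈ R_{P'}[X]` is a lift of `C_g` (coefficients regular on the disc of `P'`:
leaves (O2) + (O3)), then

    `Cg.map ev_{P'} = (X - C (ev_P g)) * (X ^ q - C (ev_P g ^ q))`,

`ev_P = discEv S0 P : R_P → k` the evaluation `g ↦ ḡ (P)`.  This is the hypothesis `hCev` of
`wpo_restrOld` (`S36/Seed/Old.lean`).

Proof: the general Kronecker congruence (K) (`kroneckerCharpolyGen`, helper23):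
`C_g ≡ (X - ḡ(t^q)) (X^q - Φ ḡ)`, `ḡ(t^q) = (Φ⁻¹ ḡ)^q`; the values at `P' = Φ • P = Φ⁻¹ • P`:
`(Φ ḡ)(Φ • P) = ḡ(P)^q` and `(Φ⁻¹ ḡ)(Φ⁻¹ • P)^q = ḡ(P)`.

* `oev_valueAt_of_valAt`, `oev_valueAt_smul`, `oev_valueAt_frob`, `oev_valueAt_frob_inv_pow` :
  values and semilinear automorphisms;
* `oev_red_poly`  : the reduction of `Cg` in `Fk₀[X]` is `(X - C β̄) (X ^ q - C φ̄)`;
* `oev_coeff_mem_Ov`, `oev_coeff_red` : the same for the coefficients of `C_g` itself;
* `oev_kcDatum`   : helper30's `KCDatum S0 q Φ B' g C_g` (`S36/Seed/Old.lean`) from the membership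
  of the coefficients in `B'`;
* (the polynomial form `oev_map_discEv` of (O4) is in `S36/Seed/OldEvPoly.lean`; the consumer
  `wpo_old_of_datum` needs only `oev_kcDatum`).
-/
import Mathlib
import Fermat.Agent.Lib.BadRed.KroneckerCharpolyGen
import Fermat.Agent.Lib.BadRed.Mod.FrobAut
import Fermat.Agent.Lib.BadRed.Mod.FrobFix
import Fermat.Agent.S36.HPVal.Defs
import Fermat.Agent.S36.Seed.Old

set_option autoImplicit false
set_option linter.style.haveILetI false
set_option linter.unusedSectionVars false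
set_option linter.unusedVariables false
set_option synthInstance.maxHeartbeats 400000
set_option maxHeartbeats 2000000

noncomputable section

namespace Fermat.Agent.S36G

open Polynomial ModularCurve AlgebraicCurve Fermat.Agent.GaussInt Fermat.Agent.BadRed
  Fermat.Agent.HPVal Fermat.Agent.RR Fermat.Agent.F3G

local notation "Qb" => AlgebraicClosure ℚ

attribute [local instance 10000] SubalgebraClass.toAlgebra HahnSeries.powerSeriesAlgebra

/-! ### values and semilinear automorphisms -/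

section Val

variable {k Fk : Type*} [Field k] [Field Fk] [Algebra k Fk]

/-- `ValAt P f c` gives the value `c`. -/
theorem oev_valueAt_of_valAt (hFk : IsRRField k Fk) {P : Place k Fk} {f : Fk} {c : k}
    (h : ValAt P f c) : Fermat.Agent.FF.valueAt hFk P f = c := by
  rcases h with h | h
  · rw [h, Fermat.Agent.FF.valueAt_algebraMap]
  · exact Fermat.Agent.FF.valueAt_eq_of_ord_pos hFk P h

/-- a function with a value at `P` is regular at `P`. -/
theorem oev_mem_of_valAt {P : Place k Fk} {f : Fk} {c : k} (h : ValAt P f c) :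
    f ∈ P.toValuationSubring := by
  rcases h with h | h
  · rw [h]
    exact P.algebraMap_mem' c
  · have hm : f - algebraMap k Fk c ∈ P.toValuationSubring :=
      Fermat.Agent.FF.mem_of_ord_nonneg' P h.le
    have := add_mem hm (P.algebraMap_mem' c)
    rwa [sub_add_cancel] at this

/-- a regular function has its value. -/
theorem oev_valAt_of_mem (hFk : IsRRField k Fk) {P : Place k Fk} {f : Fk}
    (hf : f ∈ P.toValuationSubring) : ValAt P f (Fermat.Agent.FF.valueAt hFk P f) :=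
  Fermat.Agent.FF.valueAt_spec hFk P hf

/-- transport of the value by a semilinear automorphism. -/
theorem oev_valueAt_smul (hFk : IsRRField k Fk) (τ : SemilinearAut k Fk) {P : Place k Fk} {f : Fk}
    (hf : f ∈ P.toValuationSubring) :
    τ • f ∈ (τ • P).toValuationSubring ∧
      Fermat.Agent.FF.valueAt hFk (τ • P) (τ • f) =
        SemilinearAut.baseAut τ (Fermat.Agent.FF.valueAt hFk P f) := by
  have h1 := (valAt_semilinear_smul_iff τ P f _).mpr (oev_valAt_of_mem hFk hf)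
  exact ⟨oev_mem_of_valAt h1, oev_valueAt_of_valAt hFk h1⟩

/-- the value of a power. -/
theorem oev_valueAt_pow (hFk : IsRRField k Fk) {P : Place k Fk} {f : Fk}
    (hf : f ∈ P.toValuationSubring) (n : ℕ) :
    Fermat.Agent.FF.valueAt hFk P (f ^ n) = Fermat.Agent.FF.valueAt hFk P f ^ n := by
  rw [Fermat.Agent.FF.valueAt_of_mem hFk P hf, Fermat.Agent.FF.valueAt_of_mem hFk P (pow_mem hf n),
    ← map_pow]
  rfl

end Val

section Frob

variable (k : Type*) [Field k] (M₀ q : ℕ) [Fact q.Prime] [CharP k q] [PerfectRing k q]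

/-- `(Φ f)(Φ • P) = f(P)^q`. -/
theorem oev_valueAt_frob (hFk : IsRRField k ↥(modularFunctionFieldFullC k M₀))
    {P : Place k ↥(modularFunctionFieldFullC k M₀)} {f : ↥(modularFunctionFieldFullC k M₀)}
    (hf : f ∈ P.toValuationSubring) :
    frobAut k M₀ q • f ∈ (frobAut k M₀ q • P).toValuationSubring ∧
      Fermat.Agent.FF.valueAt hFk (frobAut k M₀ q • P) (frobAut k M₀ q • f) =
        Fermat.Agent.FF.valueAt hFk P f ^ q := by
  obtain ⟨h1, h2⟩ := oev_valueAt_smul hFk (frobAut k M₀ q) hf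
  refine ⟨h1, ?_⟩
  rw [h2]
  exact baseAut_frobAut_apply k M₀ q _

/-- `((Φ⁻¹ f)^q)(Φ⁻¹ • P) = f(P)`. -/
theorem oev_valueAt_frob_inv_pow (hFk : IsRRField k ↥(modularFunctionFieldFullC k M₀))
    {P : Place k ↥(modularFunctionFieldFullC k M₀)} {f : ↥(modularFunctionFieldFullC k M₀)}
    (hf : f ∈ P.toValuationSubring) :
    ((frobAut k M₀ q)⁻¹ • f) ^ q ∈ ((frobAut k M₀ q)⁻¹ • P).toValuationSubring ∧
      Fermat.Agent.FF.valueAt hFk ((frobAut k M₀ q)⁻¹ • P) (((frobAut k M₀ q)⁻¹ • f) ^ q) =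
        Fermat.Agent.FF.valueAt hFk P f := by
  obtain ⟨h1, h2⟩ := oev_valueAt_smul hFk (frobAut k M₀ q)⁻¹ hf
  refine ⟨pow_mem h1 q, ?_⟩
  rw [oev_valueAt_pow hFk h1, h2, SemilinearAut.baseAut_inv]
  have h3 : ∀ c : k, ((SemilinearAut.baseAut (frobAut k M₀ q)).symm c) ^ q = c := by
    intro c
    have h4 := (SemilinearAut.baseAut (frobAut k M₀ q)).apply_symm_apply c
    rw [baseAut_frobAut_apply] at h4
    exact h4
  exact h3 _

end Frob

/-! ### the reduction of the Kronecker polynomial -/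

section Main

variable {M₀ q : ℕ} [NeZero M₀] [NeZero q] [Fact q.Prime]
  {A : ValuationSubring Qb} [CharP (IsLocalRing.ResidueField A) q]
  [PerfectRing (IsLocalRing.ResidueField A) q]
  {S0 : Fermat.Agent.S18Key.RedSetup Qb (FBar M₀) (IsLocalRing.ResidueField A)
    ↥(modularFunctionFieldFullC (IsLocalRing.ResidueField A) M₀)}

/-- **the reduction of a lift of `C_g` to the Gauss ring**, in `Fk₀[X]`: for `g ∈ S0.Ov` and
`Cg ∈ B[X]`, `B ≤ S0.Ov` any subring, with `Cg.map B.subtype = charpolyAlong α (β g)`: the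
coefficientwise reduction of `Cg` is `(X - C ((Φ⁻¹ ḡ)^q)) (X^q - C (Φ ḡ))`. -/
theorem oev_red_poly (hq : q.Prime) (hqM : ¬ q ∣ M₀) (hA : A.LiesOverPrime q)
    (hS0 : IsGaussRed M₀ A S0)
    (hfin : FiniteAlong Qb (heckeAlphaBar Qb M₀ q))
    (g : FBar M₀) (hg : g ∈ S0.Ov)
    (B : Subring (FBar M₀)) (hB : ∀ b ∈ B, b ∈ S0.Ov) (Cg : Polynomial B)
    (hCg : Cg.map B.subtype =
      charpolyAlong (heckeAlphaBar Qb M₀ q) hfin (heckeBetaBar Qb M₀ q g)) (n : ℕ) :
    S0.red ((Cg.coeff n : B) : FBar M₀) =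
      ((X - C (((frobAut (IsLocalRing.ResidueField A) M₀ q)⁻¹ • S0.red g) ^ q)) *
        (X ^ q - C (frobAut (IsLocalRing.ResidueField A) M₀ q • S0.red g)) :
          Polynomial ↥(modularFunctionFieldFullC (IsLocalRing.ResidueField A) M₀)).coeff n := by
  have hgO : g ∈ gaussOvS M₀ hq A hA := (hS0.mem_iff g).mp hg
  obtain ⟨P₁, -, -, hP₁, hred⟩ := kroneckerCharpolyGen M₀ hqM hq A hA hfin ⟨g, hgO⟩
  -- the coefficients of `Cg` and of `P₁` agree in `F₀`
  have hcoef : ((Cg.coeff n : B) : FBar M₀) = ((P₁.coeff n : ↥(gaussOvS M₀ hq A hA)) : FBar M₀) := by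
    have h1 := congrArg (fun p : Polynomial (FBar M₀) => p.coeff n) (hCg.trans hP₁.symm)
    simp only [Polynomial.coeff_map] at h1
    exact h1
  -- the inclusion `Fk₀ → k((t))`
  let ι : ↥(modularFunctionFieldFullC (IsLocalRing.ResidueField A) M₀) →+*
      LaurentSeries (IsLocalRing.ResidueField A) :=
    (modularFunctionFieldFullC (IsLocalRing.ResidueField A) M₀).val.toRingHom
  have hι : Function.Injective ι := Subtype.val_injective
  apply hι
  -- left side
  have hL : ι (S0.red ((Cg.coeff n : B) : FBar M₀)) = (P₁.map (gaussOvRes M₀ hq A hA)).coeff n := by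
    show ((S0.red ((Cg.coeff n : B) : FBar M₀) : ↥(modularFunctionFieldFullC (IsLocalRing.ResidueField A) M₀)) :
      LaurentSeries (IsLocalRing.ResidueField A)) = _
    rw [hS0.coe_red _ (hB _ (Cg.coeff n).2), hcoef, Polynomial.coeff_map, gaussOvRes_apply]
  -- right side
  have hβ : ι (((frobAut (IsLocalRing.ResidueField A) M₀ q)⁻¹ • S0.red g) ^ q) = kcgBeta M₀ hq A hA ⟨g, hgO⟩ := by
    show ((((frobAut (IsLocalRing.ResidueField A) M₀ q)⁻¹ • S0.red g) ^ q : ↥(modularFunctionFieldFullC (IsLocalRing.ResidueField A) M₀)) :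
      LaurentSeries (IsLocalRing.ResidueField A)) = _
    rw [coe_frobAut_inv_smul_pow, hS0.coe_red g hg, kcgBeta, gaussOvRes_apply]
  have hφ : ι (frobAut (IsLocalRing.ResidueField A) M₀ q • S0.red g) = kcgFrob M₀ hq A hA ⟨g, hgO⟩ := by
    show ((frobAut (IsLocalRing.ResidueField A) M₀ q • S0.red g : ↥(modularFunctionFieldFullC (IsLocalRing.ResidueField A) M₀)) :
      LaurentSeries (IsLocalRing.ResidueField A)) = _
    rw [coe_frobAut_smul, hS0.coe_red g hg, kcgFrob, gaussOvRes_apply]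
  have hR : ι (((X - C (((frobAut (IsLocalRing.ResidueField A) M₀ q)⁻¹ • S0.red g) ^ q)) *
        (X ^ q - C (frobAut (IsLocalRing.ResidueField A) M₀ q • S0.red g)) :
          Polynomial ↥(modularFunctionFieldFullC (IsLocalRing.ResidueField A) M₀)).coeff n) =
      (kcgPoly M₀ hq A hA ⟨g, hgO⟩).coeff n := by
    rw [← Polynomial.coeff_map, Polynomial.map_mul, Polynomial.map_sub, Polynomial.map_sub,
      Polynomial.map_X, Polynomial.map_C, Polynomial.map_pow, Polynomial.map_X, Polynomial.map_C,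
      hβ, hφ, kcgPoly]
  rw [hL, hR, hred]

/-- the coefficients of `C_g = charpolyAlong α (β g)` are Gauss-integral, for `g ∈ S0.Ov`. -/
theorem oev_coeff_mem_Ov (hq : q.Prime) (hqM : ¬ q ∣ M₀) (hA : A.LiesOverPrime q)
    (hS0 : IsGaussRed M₀ A S0)
    (hfin : FiniteAlong Qb (heckeAlphaBar Qb M₀ q))
    (g : FBar M₀) (hg : g ∈ S0.Ov) (n : ℕ) :
    (charpolyAlong (heckeAlphaBar Qb M₀ q) hfin (heckeBetaBar Qb M₀ q g)).coeff n ∈ S0.Ov := by
  have hgO : g ∈ gaussOvS M₀ hq A hA := (hS0.mem_iff g).mp hg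
  obtain ⟨P₁, -, -, hP₁, -⟩ := kroneckerCharpolyGen M₀ hqM hq A hA hfin ⟨g, hgO⟩
  rw [← hP₁, Polynomial.coeff_map]
  exact (hS0.mem_iff _).mpr (P₁.coeff n).2

/-- **the reduction of the coefficients of `C_g`** (`= KCDatum.coeff_red`): for `g ∈ S0.Ov`,
`red (C_g.coeff n) = ((X - C ((Φ⁻¹ ḡ)^q)) (X^q - C (Φ ḡ))).coeff n`. -/
theorem oev_coeff_red (hq : q.Prime) (hqM : ¬ q ∣ M₀) (hA : A.LiesOverPrime q)
    (hS0 : IsGaussRed M₀ A S0)
    (hfin : FiniteAlong Qb (heckeAlphaBar Qb M₀ q))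
    (g : FBar M₀) (hg : g ∈ S0.Ov) (n : ℕ) :
    S0.red ((charpolyAlong (heckeAlphaBar Qb M₀ q) hfin (heckeBetaBar Qb M₀ q g)).coeff n) =
      ((X - C (((frobAut (IsLocalRing.ResidueField A) M₀ q)⁻¹ • S0.red g) ^ q)) *
        (X ^ q - C (frobAut (IsLocalRing.ResidueField A) M₀ q • S0.red g)) :
          Polynomial ↥(modularFunctionFieldFullC (IsLocalRing.ResidueField A) M₀)).coeff n := by
  have hcoeffs : (↑(charpolyAlong (heckeAlphaBar Qb M₀ q) hfin
      (heckeBetaBar Qb M₀ q g)).coeffs : Set (FBar M₀)) ⊆ S0.Ov.toSubring := by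
    intro x hx
    obtain ⟨i, -, rfl⟩ := Polynomial.mem_coeffs_iff.mp (Finset.mem_coe.mp hx)
    exact oev_coeff_mem_Ov hq hqM hA hS0 hfin g hg i
  have h := oev_red_poly hq hqM hA hS0 hfin g hg S0.Ov.toSubring (fun b hb => hb)
    ((charpolyAlong (heckeAlphaBar Qb M₀ q) hfin (heckeBetaBar Qb M₀ q g)).toSubring
      S0.Ov.toSubring hcoeffs) (Polynomial.map_toSubring _ _ hcoeffs) n
  rw [Polynomial.coeff_toSubring] at h
  exact h

/-- **the Kronecker datum of `g`** (helper30's `KCDatum`): `C_g = charpolyAlong α (β g)` is a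
Kronecker datum for every Gauss-integral `g` as soon as its coefficients lie in `B'`
(leaves (O2) + (O3) for `B' = discRing S0 P'`). -/
theorem oev_kcDatum (hq : q.Prime) (hqM : ¬ q ∣ M₀) (hA : A.LiesOverPrime q)
    (hS0 : IsGaussRed M₀ A S0)
    (hfin : FiniteAlong Qb (heckeAlphaBar Qb M₀ q))
    (g : FBar M₀) (hg : g ∈ S0.Ov) (B' : Subring (FBar M₀))
    (hmem : ∀ i,
      (charpolyAlong (heckeAlphaBar Qb M₀ q) hfin (heckeBetaBar Qb M₀ q g)).coeff i ∈ B') :
    KCDatum S0 q (frobAut (IsLocalRing.ResidueField A) M₀ q) B' g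
      (charpolyAlong (heckeAlphaBar Qb M₀ q) hfin (heckeBetaBar Qb M₀ q g)) where
  monic := charpolyAlong_monic _ _ _
  coeff_mem := hmem
  coeff_red := fun i => oev_coeff_red hq hqM hA hS0 hfin g hg i

end Main

end Fermat.Agent.S36G
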