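/-
Cluster G (S36, Carayol at `q² ∥ M`), wave W-P, block WP-OLD, leaf (O4), polynomial form
(helper1; owner of OLD: helper30; consumers: helper57 `OldEvAt`, helper69 `OldFinal`).

`oev_map_discEv` : for `g ∈ R_P = discRing S0 P` and a lift `Cg ∈ R_{P'}[X]` of
`C_g = charpolyAlong α (β g)`, `Φ • P = P'`, `Φ • P' = P`:

    `Cg.map (discEv S0 P') = (X - C (ev_P g)) * (X ^ q - C (ev_P g ^ q))`.

`oev_oldEvAt` : the same in the shape of `OldEvAt` (`S36/Seed/OldMod.lean`), stated here without
importing it.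
-/
import Mathlib
import Fermat.Agent.S36.Seed.OldEv

set_option autoImplicit false
set_option linter.style.haveILetI false
set_option linter.unusedSectionVars false
set_option linter.unusedVariables false
set_option synthInstance.maxHeartbeats 400000
set_option maxHeartbeats 2000000

noncomputable section

namespace Fermat.Agent.S36G

open Polynomial ModularCurve AlgebraicCurve Fermat.Agent.GaussInt Fermat.Agent.BadRed
  Fermat.Agent.HPVal Fermat.Agent.RR Fermat.Agent.F3G

local notation "Qb" => AlgebraicClosure ℚ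

attribute [local instance 10000] SubalgebraClass.toAlgebra HahnSeries.powerSeriesAlgebra

section Main

variable {M₀ q : ℕ} [NeZero M₀] [NeZero q] [Fact q.Prime]
  {A : ValuationSubring Qb} [CharP (IsLocalRing.ResidueField A) q]
  [PerfectRing (IsLocalRing.ResidueField A) q]
  {S0 : Fermat.Agent.S18Key.RedSetup Qb (FBar M₀) (IsLocalRing.ResidueField A)
    ↥(modularFunctionFieldFullC (IsLocalRing.ResidueField A) M₀)}

/-- **(O4)**: the evaluation at `P'` of the Kronecker polynomial of `g ∈ R_P`. -/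
theorem oev_map_discEv (hq : q.Prime) (hqM : ¬ q ∣ M₀) (hA : A.LiesOverPrime q)
    (hS0 : IsGaussRed M₀ A S0)
    (hFk : IsRRField (IsLocalRing.ResidueField A)
      ↥(modularFunctionFieldFullC (IsLocalRing.ResidueField A) M₀))
    (P P' : Place (IsLocalRing.ResidueField A)
      ↥(modularFunctionFieldFullC (IsLocalRing.ResidueField A) M₀))
    (hP' : frobAut (IsLocalRing.ResidueField A) M₀ q • P = P')
    (hP : frobAut (IsLocalRing.ResidueField A) M₀ q • P' = P)
    (hfin : FiniteAlong Qb (heckeAlphaBar Qb M₀ q))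
    (g : FBar M₀) (hg : g ∈ discRing S0 P)
    (Cg : Polynomial (discRing S0 P'))
    (hCg : Cg.map (discRing S0 P').subtype =
      charpolyAlong (heckeAlphaBar Qb M₀ q) hfin (heckeBetaBar Qb M₀ q g)) :
    Cg.map (discEv S0 P' hFk) =
      (X - C (discEv S0 P hFk ⟨g, hg⟩)) * (X ^ q - C (discEv S0 P hFk ⟨g, hg⟩ ^ q)) := by
  have hcval : discEv S0 P hFk ⟨g, hg⟩ = Fermat.Agent.FF.valueAt hFk P (S0.red g) :=
    discEv_apply hFk ⟨g, hg⟩
  have hgbP : S0.red g ∈ P.toValuationSubring :=
    Fermat.Agent.S24Res.mem_of_ord_nonneg P (ord_red_nonneg_of_mem hg)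
  -- the values of `β̄ = (Φ⁻¹ ḡ)^q` and `φ̄ = Φ ḡ` at `P'`
  have hPinv : (frobAut (IsLocalRing.ResidueField A) M₀ q)⁻¹ • P = P' := by
    rw [← hP, inv_smul_smul]
  obtain ⟨hφmem, hφval⟩ := oev_valueAt_frob (IsLocalRing.ResidueField A) M₀ q hFk hgbP
  obtain ⟨hβmem, hβval⟩ := oev_valueAt_frob_inv_pow (IsLocalRing.ResidueField A) M₀ q hFk hgbP
  rw [hP'] at hφmem hφval
  rw [hPinv] at hβmem hβval
  rw [← hcval] at hφval hβval
  refine Polynomial.ext fun n => ?_
  have h1 : (Cg.map (discEv S0 P' hFk)).coeff n =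
      Fermat.Agent.FF.valueAt hFk P' (S0.red ((Cg.coeff n : discRing S0 P') : FBar M₀)) := by
    rw [Polynomial.coeff_map]
    exact discEv_apply hFk (Cg.coeff n)
  have h2 := oev_red_poly hq hqM hA hS0 hfin g hg.1 (discRing S0 P') (fun b hb => hb.1) Cg hCg n
  obtain ⟨-, h3⟩ := wpo_valueAt_coeff hFk q P' hβmem hφmem n
  rw [h1, h2, h3, hβval, hφval]

end Main

end Fermat.Agent.S36G
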