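/-
Cluster G (S36, Carayol at `q² ∥ M`), block W-P / SEED, seat OLD-FINAL (helper69; owner of OLD:
helper30, final wiring helper57, sub-architect helper59).

**The fields `old0`, `old2` of `WPOut` / `WPVal` from the field `old1`**, at a supersingular
place `P` with centre `P' = Φ • P` (`Φ = frobAut k M₀ q`), from the two modular inputs

* (O3) `OldFibreSS` : a place `w` of `F_{M₀ q}` whose restriction along `α` reduces to a
  supersingular place `P'` has its restriction along `β` reducing to `Φ • P'` (OLD-FIBRE);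
* (O4) `OldEvSS`    : the values at `P'` of the coefficients of `C_g` are those of
  `(X - ḡ(P)) (X ^ q - ḡ(P) ^ q)` for `P' = Φ • P`, `P = Φ • P'` (OLD-EV).

Everything else is on main: OLD-LIFT (`wpl_lift`), OLD-MOD (`oldMod_old02_of_lift`), (Fq2)
(`ssFrob_sq_smul`).

* `oldFin_old02_at`   : `OldFibreAt`, `OldEvAt` at `(P, P')` and `old1` ⟹ `old0 ∧ old2`;
* `oldFin_frob_frob`  : `Φ • Φ • P = P` at a supersingular `P`;
* `oldFin_fibreAt`    : `OldFibreSS` ⟹ `OldFibreAt S0 q P (Φ • P)`;
* `oldFin_old02`      : **`old1` at `Φ • P` ⟹ `old0 ∧ old2` at `P`**, `P` supersingular;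
* `oldFin_old02_ready`: the same for every `FkP`, `S` (what the assembly `Val.lean` consumes).
-/
import Mathlib
import Fermat.Agent.S36.Seed.OldMod
import Fermat.Agent.S36.Seed.OldLift
import Fermat.Agent.S36.Seed.SSFrob

set_option autoImplicit false
set_option linter.style.haveILetI false
set_option linter.unusedSectionVars false
set_option linter.unusedVariables false
set_option synthInstance.maxHeartbeats 400000

noncomputable section
attribute [local instance 10000] SubalgebraClass.toAlgebra HahnSeries.powerSeriesAlgebra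

namespace Fermat.Agent.S36G

open Polynomial ModularCurve AlgebraicCurve Fermat.Agent.F3 Fermat.Agent.F3G
  Fermat.Agent.GaussInt Fermat.Agent.Deuring Fermat.Agent.BadRed Fermat.Agent.HPVal
  Fermat.Agent.S18Key Fermat.Agent.RR Fermat.Agent.Kronecker

local notation "Qb" => AlgebraicClosure ℚ

section Final

variable {M₀ q : ℕ} [NeZero M₀] [NeZero q] {A : ValuationSubring Qb}
  {S0 : RedSetup Qb (FBar M₀) (IsLocalRing.ResidueField A)
    ↥(modularFunctionFieldFullC (IsLocalRing.ResidueField A) M₀)}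

/-- **OLD at a pair `(P, P')`**: the fields `old0`, `old2` at `P` from `old1` at `P'`, the fibre
condition (O3) and the values (O4) at `(P, P')`. -/
theorem oldFin_old02_at (hq : q.Prime) (hqM : ¬ q ∣ M₀) (hA : A.LiesOverPrime q)
    (hS0 : IsGaussRed M₀ A S0)
    (hFk : IsRRField (IsLocalRing.ResidueField A)
      ↥(modularFunctionFieldFullC (IsLocalRing.ResidueField A) M₀))
    {P P' : Place (IsLocalRing.ResidueField A)
      ↥(modularFunctionFieldFullC (IsLocalRing.ResidueField A) M₀)}
    (hfib : OldFibreAt S0 q P P') (hev : OldEvAt M₀ q S0 hFk P P')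
    {FkP : Type} [Field FkP] [Algebra (IsLocalRing.ResidueField A) FkP]
    (S : ValSetup Qb (FBar (M₀ * q * q)) (IsLocalRing.ResidueField A) FkP)
    (hold1 : WPOld S0 P' (wpdIota1 M₀ q) S) :
    WPOld S0 P (wpIota0 M₀ q) S ∧ WPOld S0 P (wpIota2 M₀ q) S :=
  oldMod_old02_of_lift hFk hq hqM hA S (wpl_finiteAlong (heckeAlphaBar Qb M₀ q)) hold1
    (fun hfin g hg => wpl_lift hq hqM hA hS0 hfin hfib g hg) hev

variable [Fact q.Prime] [CharP (IsLocalRing.ResidueField A) q]
  [PerfectRing (IsLocalRing.ResidueField A) q]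

variable (M₀ q A S0) in
/-- **(O3), OLD-FIBRE**, at all supersingular places: a place `w` of `F_{M₀ q}` whose restriction
along `α` reduces to the supersingular place `P'` has its restriction along `β` reducing to
`Φ • P'`. -/
def OldFibreSS : Prop :=
  ∀ (w : Place Qb ↥(modularFunctionFieldBar (M₀ * q)))
    (P' : Place (IsLocalRing.ResidueField A)
      ↥(modularFunctionFieldFullC (IsLocalRing.ResidueField A) M₀)),
    IsSSPlace (IsLocalRing.ResidueField A) M₀ q P' →
    S0.r (w.restrictAlong (heckeAlphaBar Qb M₀ q) (wpl_isIntegral _)) = P' →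
    S0.r (w.restrictAlong (heckeBetaBar Qb M₀ q) (wpl_isIntegral _)) =
      frobAut (IsLocalRing.ResidueField A) M₀ q • P'

variable (M₀ q A S0) in
/-- **(O4), OLD-EV**, at all pairs `P' = Φ • P`, `P = Φ • P'`. -/
def OldEvSS (hFk : IsRRField (IsLocalRing.ResidueField A)
    ↥(modularFunctionFieldFullC (IsLocalRing.ResidueField A) M₀)) : Prop :=
  ∀ P P' : Place (IsLocalRing.ResidueField A)
      ↥(modularFunctionFieldFullC (IsLocalRing.ResidueField A) M₀),
    frobAut (IsLocalRing.ResidueField A) M₀ q • P = P' →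
    frobAut (IsLocalRing.ResidueField A) M₀ q • P' = P →
    OldEvAt M₀ q S0 hFk P P'

/-- (Fq2) in the form `Φ • Φ • P = P`. -/
theorem oldFin_frob_frob (hq : q.Prime) (hqM : ¬ q ∣ M₀) (haux : AuxLevelOK q M₀)
    (hA : A.LiesOverPrime q)
    {P : Place (IsLocalRing.ResidueField A)
      ↥(modularFunctionFieldFullC (IsLocalRing.ResidueField A) M₀)}
    (hP : IsSSPlace (IsLocalRing.ResidueField A) M₀ q P) :
    frobAut (IsLocalRing.ResidueField A) M₀ q •
      (frobAut (IsLocalRing.ResidueField A) M₀ q • P) = P := by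
  have h := ssFrob_sq_smul hq (Nat.pos_of_ne_zero (NeZero.ne M₀)) hqM haux A hA P hP
  rwa [mul_smul] at h

/-- the supersingular places are stable under the Frobenius. -/
theorem oldFin_isSS_frob
    {P : Place (IsLocalRing.ResidueField A)
      ↥(modularFunctionFieldFullC (IsLocalRing.ResidueField A) M₀)}
    (hP : IsSSPlace (IsLocalRing.ResidueField A) M₀ q P) :
    IsSSPlace (IsLocalRing.ResidueField A) M₀ q
      (frobAut (IsLocalRing.ResidueField A) M₀ q • P) := by
  obtain ⟨u, hu, hpos⟩ := hP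
  exact ⟨u, hu, (ord_frobAut_smul_pos_iff (IsLocalRing.ResidueField A) M₀ q q hu P).mpr hpos⟩

/-- (O3) at the pair `(P, Φ • P)`. -/
theorem oldFin_fibreAt (hq : q.Prime) (hqM : ¬ q ∣ M₀) (haux : AuxLevelOK q M₀)
    (hA : A.LiesOverPrime q) (hfib : OldFibreSS M₀ q A S0)
    {P : Place (IsLocalRing.ResidueField A)
      ↥(modularFunctionFieldFullC (IsLocalRing.ResidueField A) M₀)}
    (hP : IsSSPlace (IsLocalRing.ResidueField A) M₀ q P) :
    OldFibreAt S0 q P (frobAut (IsLocalRing.ResidueField A) M₀ q • P) := by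
  intro w hw
  rw [hfib w _ (oldFin_isSS_frob hP) hw]
  exact oldFin_frob_frob hq hqM haux hA hP

/-- **OLD, final**: at a supersingular place `P` the field `old1` at the centre `Φ • P` gives the
fields `old0` and `old2` at `P`. -/
theorem oldFin_old02 (hq : q.Prime) (hqM : ¬ q ∣ M₀) (haux : AuxLevelOK q M₀)
    (hA : A.LiesOverPrime q) (hS0 : IsGaussRed M₀ A S0)
    (hFk : IsRRField (IsLocalRing.ResidueField A)
      ↥(modularFunctionFieldFullC (IsLocalRing.ResidueField A) M₀))
    (hfib : OldFibreSS M₀ q A S0) (hev : OldEvSS M₀ q A S0 hFk)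
    {P : Place (IsLocalRing.ResidueField A)
      ↥(modularFunctionFieldFullC (IsLocalRing.ResidueField A) M₀)}
    (hP : IsSSPlace (IsLocalRing.ResidueField A) M₀ q P)
    {FkP : Type} [Field FkP] [Algebra (IsLocalRing.ResidueField A) FkP]
    (S : ValSetup Qb (FBar (M₀ * q * q)) (IsLocalRing.ResidueField A) FkP)
    (hold1 : WPOld S0 (frobAut (IsLocalRing.ResidueField A) M₀ q • P) (wpdIota1 M₀ q) S) :
    WPOld S0 P (wpIota0 M₀ q) S ∧ WPOld S0 P (wpIota2 M₀ q) S :=
  oldFin_old02_at hq hqM hA hS0 hFk (oldFin_fibreAt hq hqM haux hA hfib hP)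
    (hev P _ rfl (oldFin_frob_frob hq hqM haux hA hP)) S hold1

/-- **OLD, final, for the assembly**: for every residue field `FkP` and every valuation setup
`S` of `F_{M₀ q²}`, `old1` at `Φ • P` gives `old0 ∧ old2` at `P`. -/
theorem oldFin_old02_ready (hq : q.Prime) (hqM : ¬ q ∣ M₀) (haux : AuxLevelOK q M₀)
    (hA : A.LiesOverPrime q) (hS0 : IsGaussRed M₀ A S0)
    (hFk : IsRRField (IsLocalRing.ResidueField A)
      ↥(modularFunctionFieldFullC (IsLocalRing.ResidueField A) M₀))
    (hfib : OldFibreSS M₀ q A S0) (hev : OldEvSS M₀ q A S0 hFk)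
    {P : Place (IsLocalRing.ResidueField A)
      ↥(modularFunctionFieldFullC (IsLocalRing.ResidueField A) M₀)}
    (hP : IsSSPlace (IsLocalRing.ResidueField A) M₀ q P) :
    ∀ (FkP : Type) [Field FkP] [Algebra (IsLocalRing.ResidueField A) FkP]
      (S : ValSetup Qb (FBar (M₀ * q * q)) (IsLocalRing.ResidueField A) FkP),
      WPOld S0 (frobAut (IsLocalRing.ResidueField A) M₀ q • P) (wpdIota1 M₀ q) S →
        WPOld S0 P (wpIota0 M₀ q) S ∧ WPOld S0 P (wpIota2 M₀ q) S :=
  fun _ _ _ S hold1 => oldFin_old02 hq hqM haux hA hS0 hFk hfib hev hP S hold1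

end Final

end Fermat.Agent.S36G
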