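/-
Cluster G (S36, Carayol at `q² ∥ M`), block W-P / SEED, seat OLD-FINAL, part 2 (helper69).

**`WPOldExists M₀ q`** (the OLD input of the assembly `S36/HPVal/Val.lean`) from the fibre
condition (O3) alone: (O4) is `oev_map_discEv` (helper1, `OldEvPoly.lean`), the rest is
`oldFin_old02_ready` (`OldFinal.lean`).

* `oldFin_evSS`         : (O4) `OldEvSS M₀ q A S0 hFk`, unconditional;
* `oldFin_old02_of_fibre` : `old1` at `Φ • P` ⟹ `old0 ∧ old2` at `P` from (O3) only;
* `oldFin_wpOldStep`    : the same in the shape `WPOldStep` of `Val.lean`;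
* `OldFibreAll M₀ q`    : (O3) at `wpdSetup` for every `A ∣ q` (the statement of OLD-FIBRE);
* `oldFin_wpOldExists`  : **`AuxLevelOK q M₀ → OldFibreAll M₀ q → WPOldExists M₀ q`**.
-/
import Mathlib
import Fermat.Agent.S36.Seed.OldFinal
import Fermat.Agent.S36.Seed.OldEvPoly
import Fermat.Agent.S36.HPVal.Val

set_option autoImplicit false
set_option linter.style.haveILetI false
set_option linter.unusedSectionVars false
set_option linter.unusedVariables false
set_option synthInstance.maxHeartbeats 400000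

noncomputable section
attribute [local instance 10000] SubalgebraClass.toAlgebra HahnSeries.powerSeriesAlgebra

namespace Fermat.Agent.S36G

open Polynomial ModularCurve AlgebraicCurve Fermat.Agent.F3 Fermat.Agent.F3G
  Fermat.Agent.GaussInt Fermat.Agent.Deuring Fermat.Agent.BadRed Fermat.Agent.HPVal
  Fermat.Agent.S18Key Fermat.Agent.RR Fermat.Agent.Kronecker

local notation "Qb" => AlgebraicClosure ℚ

section Final2

variable {M₀ q : ℕ} [NeZero M₀] [NeZero q] {A : ValuationSubring Qb}
  {S0 : RedSetup Qb (FBar M₀) (IsLocalRing.ResidueField A)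
    ↥(modularFunctionFieldFullC (IsLocalRing.ResidueField A) M₀)}
  [Fact q.Prime] [CharP (IsLocalRing.ResidueField A) q]
  [PerfectRing (IsLocalRing.ResidueField A) q]

/-- **(O4)** at all pairs `P' = Φ • P`, `P = Φ • P'` (OLD-EV, helper1). -/
theorem oldFin_evSS (hq : q.Prime) (hqM : ¬ q ∣ M₀) (hA : A.LiesOverPrime q)
    (hS0 : IsGaussRed M₀ A S0)
    (hFk : IsRRField (IsLocalRing.ResidueField A)
      ↥(modularFunctionFieldFullC (IsLocalRing.ResidueField A) M₀)) :
    OldEvSS M₀ q A S0 hFk := fun P P' hP' hP hfin g Cg hCg =>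
  oev_map_discEv hq hqM hA hS0 hFk P P' hP' hP hfin (g : FBar M₀) g.2 Cg hCg

/-- **OLD from (O3)**: at a supersingular place `P` the field `old1` at the centre `Φ • P` gives
the fields `old0` and `old2` at `P`. -/
theorem oldFin_old02_of_fibre (hq : q.Prime) (hqM : ¬ q ∣ M₀) (haux : AuxLevelOK q M₀)
    (hA : A.LiesOverPrime q) (hS0 : IsGaussRed M₀ A S0)
    (hFk : IsRRField (IsLocalRing.ResidueField A)
      ↥(modularFunctionFieldFullC (IsLocalRing.ResidueField A) M₀))
    (hfib : OldFibreSS M₀ q A S0)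
    {P : Place (IsLocalRing.ResidueField A)
      ↥(modularFunctionFieldFullC (IsLocalRing.ResidueField A) M₀)}
    (hP : IsSSPlace (IsLocalRing.ResidueField A) M₀ q P)
    {FkP : Type} [Field FkP] [Algebra (IsLocalRing.ResidueField A) FkP]
    (S : ValSetup Qb (FBar (M₀ * q * q)) (IsLocalRing.ResidueField A) FkP)
    (hold1 : WPOld S0 (frobAut (IsLocalRing.ResidueField A) M₀ q • P) (wpdIota1 M₀ q) S) :
    WPOld S0 P (wpIota0 M₀ q) S ∧ WPOld S0 P (wpIota2 M₀ q) S :=
  oldFin_old02 hq hqM haux hA hS0 hFk hfib (oldFin_evSS hq hqM hA hS0 hFk) hP S hold1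

/-- **OLD from (O3)** in the shape `WPOldStep` consumed by `wpv_of_coreModIn`. -/
theorem oldFin_wpOldStep (hq : q.Prime) (hqM : ¬ q ∣ M₀) (haux : AuxLevelOK q M₀)
    (hA : A.LiesOverPrime q) (hS0 : IsGaussRed M₀ A S0)
    (hFk : IsRRField (IsLocalRing.ResidueField A)
      ↥(modularFunctionFieldFullC (IsLocalRing.ResidueField A) M₀))
    (hfib : OldFibreSS M₀ q A S0)
    {P : Place (IsLocalRing.ResidueField A)
      ↥(modularFunctionFieldFullC (IsLocalRing.ResidueField A) M₀)}
    (hP : IsSSPlace (IsLocalRing.ResidueField A) M₀ q P) :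
    WPOldStep (q := q) S0 P (frobAut (IsLocalRing.ResidueField A) M₀ q • P) :=
  fun _ _ _ S hold1 => oldFin_old02_of_fibre hq hqM haux hA hS0 hFk hfib hP S hold1

end Final2

section Exists

variable (M₀ q : ℕ) [NeZero M₀] [NeZero q]

/-- **(O3), the statement of OLD-FIBRE at `wpdSetup`**: for every `A ∣ q`, a place `w` of
`F_{M₀ q}` whose restriction along `α` reduces to the supersingular place `P'` has its
restriction along `β` reducing to `Φ • P'`. -/
def OldFibreAll : Prop :=
  ∀ (hq : q.Prime) (hqM : ¬ q ∣ M₀) (A : ValuationSubring Qb) (hA : A.LiesOverPrime q)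
    (hg : genusFF Qb (modularFunctionFieldBar M₀) =
      genusFF (IsLocalRing.ResidueField A)
        (modularFunctionFieldFullC (IsLocalRing.ResidueField A) M₀))
    [Fact q.Prime] [CharP (IsLocalRing.ResidueField A) q]
    [PerfectRing (IsLocalRing.ResidueField A) q],
    OldFibreSS M₀ q A (wpdSetup A q M₀ hq hA hqM hg)

/-- **OLD, the input of the assembly `Val.lean`**, from (O3). -/
theorem oldFin_wpOldExists (haux : AuxLevelOK q M₀) (hfib : OldFibreAll M₀ q) :
    WPOldExists M₀ q := by
  intro hq hqM A hA hg _ _ _ P hP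
  exact oldFin_wpOldStep hq hqM haux hA (isGaussRed_wpdSetup A q M₀ hq hA hqM hg)
    (wpd_hFk A M₀) (hfib hq hqM A hA hg) hP

end Exists

end Fermat.Agent.S36G
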