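/-
Cluster G (S36, Carayol at `q² ∥ M`), block W-P / SEED, seat OLD-FINAL, part 3 (helper69).

**`WPOldExists M₀ q`, unconditionally** (up to the auxiliary level `AuxLevelOK q M₀`, which (Fq2)
needs): the OLD input of the assembly `S36/HPVal/Val.lean` (`wpValStatement_of`, `wpExists_of`).

Inputs, all on main: (O3) `olf_old02` (helper62, `OldFibre.lean`), (O4) `oev_map_discEv` (helper1,
`OldEvPoly.lean`), (Fq2) `ssFrob_sq_smul` (helper18, `SSFrob.lean`), the supersingular places are
not cusps (`seedOld_ord_jC_nonneg`), `Φ` preserves the supersingular places.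

* `oldFin_old02_main`      : `old1` at `Φ • P` ⟹ `old0 ∧ old2` at a supersingular `P`, for any
                             Gauss reduction package `S0` (genus equality given);
* `oldFin_wpOldStep_main`  : the same in the shape `WPOldStep`;
* `oldFin_wpOldExists_main`: **`AuxLevelOK q M₀ → WPOldExists M₀ q`**;
* `oldFin_fibreAll`        : (O3) in the shape `OldFibreAll M₀ q` of `OldFinal2.lean`.
-/
import Mathlib
import Fermat.Agent.S36.Seed.OldFinal2
import Fermat.Agent.S36.Seed.OldFibre

set_option autoImplicit false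
set_option linter.style.haveILetI false
set_option linter.unusedSectionVars false
set_option linter.unusedVariables false
set_option synthInstance.maxHeartbeats 400000

noncomputable section
attribute [local instance 10000] SubalgebraClass.toAlgebra HahnSeries.powerSeriesAlgebra

namespace Fermat.Agent.S36G

open Polynomial ModularCurve AlgebraicCurve Fermat.Agent.F3 Fermat.Agent.F3G
  Fermat.Agent.GaussInt Fermat.Agent.Deuring Fermat.Agent.BadRed Fermat.Agent.HPVal
  Fermat.Agent.S18Key Fermat.Agent.RR Fermat.Agent.Kronecker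

local notation "Qb" => AlgebraicClosure ℚ

section Main

variable {M₀ q : ℕ} [NeZero M₀] [NeZero q] {A : ValuationSubring Qb}
  {S0 : RedSetup Qb (FBar M₀) (IsLocalRing.ResidueField A)
    ↥(modularFunctionFieldFullC (IsLocalRing.ResidueField A) M₀)}
  [Fact q.Prime] [CharP (IsLocalRing.ResidueField A) q]
  [PerfectRing (IsLocalRing.ResidueField A) q]

/-- **OLD**: at a supersingular place `P` the field `old1` at the centre `Φ • P` gives the fields
`old0` and `old2` at `P`. -/
theorem oldFin_old02_main (hq : q.Prime) (hqM : ¬ q ∣ M₀) (haux : AuxLevelOK q M₀)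
    (hA : A.LiesOverPrime q) (hS0 : IsGaussRed M₀ A S0)
    (hgen : genusFF Qb (modularFunctionFieldBar M₀) =
      genusFF (IsLocalRing.ResidueField A)
        (modularFunctionFieldFullC (IsLocalRing.ResidueField A) M₀))
    (hFk : IsRRField (IsLocalRing.ResidueField A)
      ↥(modularFunctionFieldFullC (IsLocalRing.ResidueField A) M₀))
    {P : Place (IsLocalRing.ResidueField A)
      ↥(modularFunctionFieldFullC (IsLocalRing.ResidueField A) M₀)}
    (hP : IsSSPlace (IsLocalRing.ResidueField A) M₀ q P)
    {FkP : Type} [Field FkP] [Algebra (IsLocalRing.ResidueField A) FkP]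
    (S : ValSetup Qb (FBar (M₀ * q * q)) (IsLocalRing.ResidueField A) FkP)
    (hold1 : WPOld S0 (frobAut (IsLocalRing.ResidueField A) M₀ q • P) (wpdIota1 M₀ q) S) :
    WPOld S0 P (wpIota0 M₀ q) S ∧ WPOld S0 P (wpIota2 M₀ q) S :=
  olf_old02 (hFk := hFk) hq hqM hA hS0 hgen (seedOld_ord_jC_nonneg M₀ hq hA hP)
    (seedOld_ord_jC_nonneg M₀ hq hA (oldFin_isSS_frob hP))
    (oldFin_evSS hq hqM hA hS0 hFk P _ rfl (oldFin_frob_frob hq hqM haux hA hP)) S hold1

/-- **OLD** in the shape `WPOldStep` consumed by `wpv_of_coreModIn`. -/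
theorem oldFin_wpOldStep_main (hq : q.Prime) (hqM : ¬ q ∣ M₀) (haux : AuxLevelOK q M₀)
    (hA : A.LiesOverPrime q) (hS0 : IsGaussRed M₀ A S0)
    (hgen : genusFF Qb (modularFunctionFieldBar M₀) =
      genusFF (IsLocalRing.ResidueField A)
        (modularFunctionFieldFullC (IsLocalRing.ResidueField A) M₀))
    (hFk : IsRRField (IsLocalRing.ResidueField A)
      ↥(modularFunctionFieldFullC (IsLocalRing.ResidueField A) M₀))
    {P : Place (IsLocalRing.ResidueField A)
      ↥(modularFunctionFieldFullC (IsLocalRing.ResidueField A) M₀)}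
    (hP : IsSSPlace (IsLocalRing.ResidueField A) M₀ q P) :
    WPOldStep (q := q) S0 P (frobAut (IsLocalRing.ResidueField A) M₀ q • P) :=
  fun _ _ _ S hold1 => oldFin_old02_main hq hqM haux hA hS0 hgen hFk hP S hold1

/-- (O3) at all supersingular places, in the shape `OldFibreSS`. -/
theorem oldFin_fibreSS (hq : q.Prime) (hqM : ¬ q ∣ M₀) (haux : AuxLevelOK q M₀)
    (hA : A.LiesOverPrime q) (hS0 : IsGaussRed M₀ A S0)
    (hgen : genusFF Qb (modularFunctionFieldBar M₀) =
      genusFF (IsLocalRing.ResidueField A)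
        (modularFunctionFieldFullC (IsLocalRing.ResidueField A) M₀))
    (hFk : IsRRField (IsLocalRing.ResidueField A)
      ↥(modularFunctionFieldFullC (IsLocalRing.ResidueField A) M₀)) :
    OldFibreSS M₀ q A S0 := by
  intro w P' hP' hw
  have hQ : IsSSPlace (IsLocalRing.ResidueField A) M₀ q
      (frobAut (IsLocalRing.ResidueField A) M₀ q • P') := oldFin_isSS_frob hP'
  have h2 := oldFin_frob_frob hq hqM haux hA hP'
  exact olf_fibre (hFk := hFk) hq hqM hA hS0 hgen (seedOld_ord_jC_nonneg M₀ hq hA hQ)
    (seedOld_ord_jC_nonneg M₀ hq hA hP')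
    (oldFin_evSS hq hqM hA hS0 hFk _ P' h2 rfl) w hw

end Main

section Exists

variable (M₀ q : ℕ) [NeZero M₀] [NeZero q]

/-- **OLD, the input of the assembly `Val.lean`**: `WPOldExists M₀ q`. -/
theorem oldFin_wpOldExists_main (haux : AuxLevelOK q M₀) : WPOldExists M₀ q := by
  intro hq hqM A hA hg _ _ _ P hP
  exact oldFin_wpOldStep_main hq hqM haux hA (isGaussRed_wpdSetup A q M₀ hq hA hqM hg) hg
    (wpd_hFk A M₀) hP

/-- (O3) in the shape `OldFibreAll`. -/
theorem oldFin_fibreAll (haux : AuxLevelOK q M₀) : OldFibreAll M₀ q := by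
  intro hq hqM A hA hg _ _ _
  exact oldFin_fibreSS hq hqM haux hA (isGaussRed_wpdSetup A q M₀ hq hA hqM hg) hg
    (wpd_hFk A M₀)

end Exists

end Fermat.Agent.S36G
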