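import Mathlib
import Fermat.Agent.S36.Seed.Deg
import Fermat.Agent.S36.Seed.MN1

/-!
# Cluster G (S36), seat SEED-DEG (helper13): the seed function on the modular graph

Wiring of `sdeg_hdeg` (`S36/Seed/Deg.lean`) on the vertex type `Vtx Mid SS` of the modular graph.
Seed function (helper92's SEED blueprint v1)

  `x = u + ϖ / u + ∑_cl y cl`,     `u = u₁`, `ϖ = q ^ 12`, `cl` = the classes of supersingular points

for an arbitrary family `S c : ValSetup K F k (Fk c)`, `c : Vtx Mid SS`, and a class map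
`jcl : SS → Cl`.  The modular inputs are hypotheses, named after the seats which export them:

* `htr_oo`   : **U1**   (`red_∞ u` transcendental);
* `htr_mid`  : **UMID** (`red_m u` transcendental);
* `htr_zero` : **U2 / Zero2** (`red_0 (ϖ / u)` transcendental);
* `hu_hor`, `hu'_hor` : **SEED-UP** (`u`, `ϖ / u ∈ 𝔪_{w_P}`);
* `hy_vert`, `hy_hor`, `hy_tr` : **W-P** (`y cl ∈ 𝔪_c` for `c` vertical and `c = hor P`, `P ∉ cl`;
  `red_{hor P} (y cl)` transcendental for `P ∈ cl`);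
* `hdeg₁`, `hdeg₂` : **UDEG** (`finrank_uF_sq`, `finrank_red_uF`, `finrank_red_zero_uF`, IG degree);
* `hdegP` : **W-P DEG** (`[F : K(y cl)] ≤ ∑_{P ∈ cl} [k(H_P) : k(Ȳ_P)]`).

Results (`SeedRed` = the table of the reductions of `x`):
* `sdeg_seedRed`   : `x ∈ ⋂_c O_c`, `red_∞ x = red_∞ u`, `red_m x = red_m u`,
  `red_0 x = red_0 (ϖ / u)`, `red_{hor P} x = red_{hor P} (y (jcl P))`;
* `sdeg_seed_transcendental`, `sdeg_seed_R_pos` : `red_c x` is transcendental, `0 < deg (x̄_c)_∞`;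
* `sdeg_hdeg_vtx`  : **`deg (x)_∞ ≤ ∑_c deg (red_c x)_∞`**  (the hypothesis `hdeg` of SEED-X).
-/

set_option autoImplicit false
set_option linter.unusedSectionVars false

noncomputable section

open AlgebraicCurve Fermat.Agent.RR Fermat.Agent.Deuring IntermediateField

namespace Fermat.Agent.S36G

open Fermat.Agent.BadRed.SeedPoles

/-! ### one valuation -/

section One

variable {K F k Fk : Type*} [Field K] [Field F] [Algebra K F] [Field k] [Field Fk] [Algebra k Fk]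
  (S : ValSetup K F k Fk)

/-- a finite sum of elements of the maximal ideal of `O_v`. -/
theorem sdeg_red_sum_zero {ι : Type*} (s : Finset ι) (y : ι → F)
    (hy : ∀ i ∈ s, y i ∈ S.Ov ∧ S.red (y i) = 0) :
    ∑ i ∈ s, y i ∈ S.Ov ∧ S.red (∑ i ∈ s, y i) = 0 := by
  classical
  induction s using Finset.induction_on with
  | empty =>
    rw [Finset.sum_empty]
    exact ⟨zero_mem _, S.red_zero⟩
  | insert a s ha ih =>
    rw [Finset.sum_insert ha]
    obtain ⟨h1, h2⟩ := ih (fun i hi => hy i (Finset.mem_insert_of_mem hi))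
    obtain ⟨h3, h4⟩ := hy a (Finset.mem_insert_self a s)
    exact ⟨add_mem h3 h1, by rw [S.red_add h3 h1, h4, h2, add_zero]⟩

/-- a finite sum with one term outside the maximal ideal. -/
theorem sdeg_red_sum_single {ι : Type*} [DecidableEq ι] (s : Finset ι) (y : ι → F) {i₀ : ι}
    (hi₀ : i₀ ∈ s) (h₀ : y i₀ ∈ S.Ov)
    (hy : ∀ i ∈ s, i ≠ i₀ → y i ∈ S.Ov ∧ S.red (y i) = 0) :
    ∑ i ∈ s, y i ∈ S.Ov ∧ S.red (∑ i ∈ s, y i) = S.red (y i₀) := by
  rw [← Finset.add_sum_erase s y hi₀]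
  obtain ⟨h1, h2⟩ := sdeg_red_sum_zero S (s.erase i₀) y
    (fun i hi => hy i (Finset.mem_of_mem_erase hi) (Finset.ne_of_mem_erase hi))
  exact ⟨add_mem h₀ h1, by rw [S.red_add h₀ h1, h2, add_zero]⟩

/-- at a vertex where `u` is a unit (`∞`, `mid m`): `red x = red u`. -/
theorem sdeg_red_seed_u {Cl : Type*} [Fintype Cl] {u : F} {ϖ : K} (y : Cl → F) (hϖ : ϖ ∈ S.A)
    (hϖres : S.res ⟨ϖ, hϖ⟩ = 0) (hu : S.red u ≠ 0)
    (hy : ∀ cl, y cl ∈ S.Ov ∧ S.red (y cl) = 0) :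
    u + algebraMap K F ϖ / u + ∑ cl, y cl ∈ S.Ov ∧
      S.red (u + algebraMap K F ϖ / u + ∑ cl, y cl) = S.red u := by
  obtain ⟨-, -, h3, h4⟩ := red_add_div S hϖ hϖres hu
  obtain ⟨h5, h6⟩ := sdeg_red_sum_zero S Finset.univ y (fun cl _ => hy cl)
  exact ⟨add_mem h3 h5, by rw [S.red_add h3 h5, h4, h6, add_zero]⟩

/-- at a vertex where `ϖ / u` is a unit (`0`): `red x = red (ϖ / u)`. -/
theorem sdeg_red_seed_u' {Cl : Type*} [Fintype Cl] {u : F} {ϖ : K} (y : Cl → F) (hϖ : ϖ ∈ S.A)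
    (hϖres : S.res ⟨ϖ, hϖ⟩ = 0) (hu : S.red (algebraMap K F ϖ / u) ≠ 0)
    (hy : ∀ cl, y cl ∈ S.Ov ∧ S.red (y cl) = 0) :
    u + algebraMap K F ϖ / u + ∑ cl, y cl ∈ S.Ov ∧
      S.red (u + algebraMap K F ϖ / u + ∑ cl, y cl) = S.red (algebraMap K F ϖ / u) := by
  obtain ⟨-, -, h3, h4⟩ := red_add_div' S hϖ hϖres hu
  obtain ⟨h5, h6⟩ := sdeg_red_sum_zero S Finset.univ y (fun cl _ => hy cl)
  exact ⟨add_mem h3 h5, by rw [S.red_add h3 h5, h4, h6, add_zero]⟩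

/-- at a horizontal vertex `w_P`, `P ∈ cl₀`: `red x = red (y cl₀)`. -/
theorem sdeg_red_seed_y {Cl : Type*} [Fintype Cl] [DecidableEq Cl] {u : F} {ϖ : K} (y : Cl → F)
    (cl₀ : Cl) (hu : u ∈ S.Ov ∧ S.red u = 0)
    (hu' : algebraMap K F ϖ / u ∈ S.Ov ∧ S.red (algebraMap K F ϖ / u) = 0)
    (h₀ : y cl₀ ∈ S.Ov) (hy : ∀ cl, cl ≠ cl₀ → y cl ∈ S.Ov ∧ S.red (y cl) = 0) :
    u + algebraMap K F ϖ / u + ∑ cl, y cl ∈ S.Ov ∧
      S.red (u + algebraMap K F ϖ / u + ∑ cl, y cl) = S.red (y cl₀) := by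
  obtain ⟨h5, h6⟩ := sdeg_red_sum_single S Finset.univ y (Finset.mem_univ cl₀) h₀
    (fun cl _ hne => hy cl hne)
  have h3 : u + algebraMap K F ϖ / u ∈ S.Ov := add_mem hu.1 hu'.1
  have h4 : S.red (u + algebraMap K F ϖ / u) = 0 := by
    rw [S.red_add hu.1 hu'.1, hu.2, hu'.2, add_zero]
  exact ⟨add_mem h3 h5, by rw [S.red_add h3 h5, h4, h6, zero_add]⟩

/-- a transcendental reduction is not zero. -/
theorem sdeg_red_ne_zero_of_transcendental {f : F} (h : Transcendental k (S.red f)) :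
    S.red f ≠ 0 := by
  intro h0
  rw [h0] at h
  exact h isAlgebraic_zero

/-- an element with a transcendental (in particular nonzero) reduction is integral. -/
theorem sdeg_mem_of_transcendental {f : F} (h : Transcendental k (S.red f)) : f ∈ S.Ov := by
  by_contra hf
  exact sdeg_red_ne_zero_of_transcendental S h (S.red_of_not_mem hf)

end One

/-! ### the modular graph -/

section Vtx

variable {Mid SS : Type} [Fintype Mid] [Fintype SS]
  {K F k : Type*} [Field K] [Field F] [Algebra K F] [Field k]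
  {Fk : Vtx Mid SS → Type*} [∀ c, Field (Fk c)] [∀ c, Algebra k (Fk c)]
  (S : ∀ c : Vtx Mid SS, ValSetup K F k (Fk c))
  {Cl : Type*} [Fintype Cl] [DecidableEq Cl]

/-- the vertex `0`. -/
def sdegV₂ (Mid SS : Type) : Finset (Vtx Mid SS) := {Vtx.vert Vrt.zero}

/-- the horizontal vertices of a class. -/
def sdegVP (Mid : Type) {SS : Type} [Fintype SS] (jcl : SS → Cl) (cl : Cl) :
    Finset (Vtx Mid SS) :=
  (Finset.univ.filter fun P => jcl P = cl).map ⟨Vtx.hor, mn1_hor_injective⟩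

theorem mem_sdegV₂ {c : Vtx Mid SS} : c ∈ sdegV₂ Mid SS ↔ c = Vtx.vert Vrt.zero := by
  unfold sdegV₂
  exact Finset.mem_singleton

theorem mem_sdegVP {jcl : SS → Cl} {cl : Cl} {c : Vtx Mid SS} :
    c ∈ sdegVP Mid jcl cl ↔ ∃ P, jcl P = cl ∧ c = Vtx.hor P := by
  unfold sdegVP
  rw [Finset.mem_map]
  constructor
  · rintro ⟨P, hP, rfl⟩
    exact ⟨P, (Finset.mem_filter.mp hP).2, rfl⟩
  · rintro ⟨P, hP, rfl⟩
    exact ⟨P, Finset.mem_filter.mpr ⟨Finset.mem_univ _, hP⟩, rfl⟩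

theorem sum_sdegV₂ {M : Type*} [AddCommMonoid M] (g : Vtx Mid SS → M) :
    ∑ c ∈ sdegV₂ Mid SS, g c = g (Vtx.vert Vrt.zero) := by
  unfold sdegV₂
  exact Finset.sum_singleton _ _

theorem sum_sdegVP {M : Type*} [AddCommMonoid M] (jcl : SS → Cl) (cl : Cl)
    (g : Vtx Mid SS → M) :
    ∑ c ∈ sdegVP Mid jcl cl, g c = ∑ P ∈ Finset.univ.filter (fun P => jcl P = cl), g (Vtx.hor P) := by
  unfold sdegVP
  rw [Finset.sum_map]
  rfl

theorem sdeg_disjoint₁₂ : Disjoint (mn1V₁ Mid SS) (sdegV₂ Mid SS) := by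
  rw [Finset.disjoint_left]
  intro c h₁ h₂
  rw [mem_sdegV₂.mp h₂] at h₁
  exact zero_notMem_mn1V₁ h₁

theorem sdeg_disjoint₁P (jcl : SS → Cl) (cl : Cl) :
    Disjoint (mn1V₁ Mid SS) (sdegVP Mid jcl cl) := by
  rw [Finset.disjoint_left]
  intro c h₁ h₂
  obtain ⟨P, -, rfl⟩ := mem_sdegVP.mp h₂
  rcases mem_mn1V₁.mp h₁ with h | ⟨m, h⟩ <;> cases h

theorem sdeg_disjoint₂P (jcl : SS → Cl) (cl : Cl) :
    Disjoint (sdegV₂ Mid SS) (sdegVP Mid jcl cl) := by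
  rw [Finset.disjoint_left]
  intro c h₁ h₂
  obtain ⟨P, -, rfl⟩ := mem_sdegVP.mp h₂
  cases mem_sdegV₂.mp h₁

theorem sdeg_disjointPP (jcl : SS → Cl) (cl cl' : Cl) (h : cl ≠ cl') :
    Disjoint (sdegVP Mid jcl cl) (sdegVP Mid jcl cl') := by
  rw [Finset.disjoint_left]
  intro c h₁ h₂
  obtain ⟨P, hP, rfl⟩ := mem_sdegVP.mp h₁
  obtain ⟨P', hP', hPP⟩ := mem_sdegVP.mp h₂
  cases hPP
  exact h (hP.symm.trans hP')

/-- **The table of the reductions of the seed function** `x = u + ϖ / u + ∑ y cl`. -/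
structure SeedRed (jcl : SS → Cl) (u : F) (ϖ : K) (y : Cl → F) : Prop where
  mem : ∀ c, u + algebraMap K F ϖ / u + ∑ cl, y cl ∈ (S c).Ov
  red_oo : (S (Vtx.vert Vrt.oo)).red (u + algebraMap K F ϖ / u + ∑ cl, y cl) =
    (S (Vtx.vert Vrt.oo)).red u
  red_mid : ∀ m, (S (Vtx.vert (Vrt.mid m))).red (u + algebraMap K F ϖ / u + ∑ cl, y cl) =
    (S (Vtx.vert (Vrt.mid m))).red u
  red_zero : (S (Vtx.vert Vrt.zero)).red (u + algebraMap K F ϖ / u + ∑ cl, y cl) =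
    (S (Vtx.vert Vrt.zero)).red (algebraMap K F ϖ / u)
  red_hor : ∀ P, (S (Vtx.hor P)).red (u + algebraMap K F ϖ / u + ∑ cl, y cl) =
    (S (Vtx.hor P)).red (y (jcl P))

variable {S}

/-- **the reductions of the seed function.** -/
theorem sdeg_seedRed (jcl : SS → Cl) {u : F} {ϖ : K} {y : Cl → F}
    (hϖ : ∀ c, ϖ ∈ (S c).A) (hϖres : ∀ c, (S c).res ⟨ϖ, hϖ c⟩ = 0)
    (htr_oo : Transcendental k ((S (Vtx.vert Vrt.oo)).red u))
    (htr_mid : ∀ m, Transcendental k ((S (Vtx.vert (Vrt.mid m))).red u))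
    (htr_zero : Transcendental k ((S (Vtx.vert Vrt.zero)).red (algebraMap K F ϖ / u)))
    (hu_hor : ∀ P, u ∈ (S (Vtx.hor P)).Ov ∧ (S (Vtx.hor P)).red u = 0)
    (hu'_hor : ∀ P, algebraMap K F ϖ / u ∈ (S (Vtx.hor P)).Ov ∧
      (S (Vtx.hor P)).red (algebraMap K F ϖ / u) = 0)
    (hy_vert : ∀ cl v, y cl ∈ (S (Vtx.vert v)).Ov ∧ (S (Vtx.vert v)).red (y cl) = 0)
    (hy_hor : ∀ cl P, jcl P ≠ cl → y cl ∈ (S (Vtx.hor P)).Ov ∧ (S (Vtx.hor P)).red (y cl) = 0)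
    (hy_tr : ∀ P, Transcendental k ((S (Vtx.hor P)).red (y (jcl P)))) :
    SeedRed S jcl u ϖ y := by
  have hoo := sdeg_red_seed_u (S (Vtx.vert Vrt.oo)) y (hϖ _) (hϖres _)
    (sdeg_red_ne_zero_of_transcendental _ htr_oo) (fun cl => hy_vert cl _)
  have hmid := fun m => sdeg_red_seed_u (S (Vtx.vert (Vrt.mid m))) y (hϖ _) (hϖres _)
    (sdeg_red_ne_zero_of_transcendental _ (htr_mid m)) (fun cl => hy_vert cl _)
  have hzero := sdeg_red_seed_u' (S (Vtx.vert Vrt.zero)) y (hϖ _) (hϖres _)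
    (sdeg_red_ne_zero_of_transcendental _ htr_zero) (fun cl => hy_vert cl _)
  have hhor := fun P => sdeg_red_seed_y (S (Vtx.hor P)) y (jcl P) (hu_hor P) (hu'_hor P)
    (sdeg_mem_of_transcendental _ (hy_tr P)) (fun cl hne => hy_hor cl P (Ne.symm hne))
  refine ⟨?_, hoo.2, fun m => (hmid m).2, hzero.2, fun P => (hhor P).2⟩
  rintro (v | P)
  · cases v with
    | oo => exact hoo.1
    | zero => exact hzero.1
    | mid m => exact (hmid m).1
  · exact (hhor P).1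

/-- the reduction of the seed function is transcendental on every component. -/
theorem sdeg_seed_transcendental {jcl : SS → Cl} {u : F} {ϖ : K} {y : Cl → F}
    (h : SeedRed S jcl u ϖ y)
    (htr_oo : Transcendental k ((S (Vtx.vert Vrt.oo)).red u))
    (htr_mid : ∀ m, Transcendental k ((S (Vtx.vert (Vrt.mid m))).red u))
    (htr_zero : Transcendental k ((S (Vtx.vert Vrt.zero)).red (algebraMap K F ϖ / u)))
    (hy_tr : ∀ P, Transcendental k ((S (Vtx.hor P)).red (y (jcl P)))) (c : Vtx Mid SS) :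
    Transcendental k ((S c).red (u + algebraMap K F ϖ / u + ∑ cl, y cl)) := by
  rcases c with v | P
  · cases v with
    | oo => rw [h.red_oo]; exact htr_oo
    | zero => rw [h.red_zero]; exact htr_zero
    | mid m => rw [h.red_mid]; exact htr_mid m
  · rw [h.red_hor]
    exact hy_tr P

/-- `R_pos` of the seed: `0 < deg (x̄_c)_∞` on every component. -/
theorem sdeg_seed_R_pos {jcl : SS → Cl} {u : F} {ϖ : K} {y : Cl → F}
    (h : SeedRed S jcl u ϖ y)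
    (htr_oo : Transcendental k ((S (Vtx.vert Vrt.oo)).red u))
    (htr_mid : ∀ m, Transcendental k ((S (Vtx.vert (Vrt.mid m))).red u))
    (htr_zero : Transcendental k ((S (Vtx.vert Vrt.zero)).red (algebraMap K F ϖ / u)))
    (hy_tr : ∀ P, Transcendental k ((S (Vtx.hor P)).red (y (jcl P)))) (c : Vtx Mid SS) :
    0 < Divisor.degree (poleDiv (S c).hFk
      ((S c).red (u + algebraMap K F ϖ / u + ∑ cl, y cl))) :=
  Fermat.Agent.RRHur.degree_poleDiv_pos (S c).hFk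
    (sdeg_seed_transcendental h htr_oo htr_mid htr_zero hy_tr c)

/-- **SEED-DEG on the modular graph**: `deg (x)_∞ ≤ ∑_c deg (red_c x)_∞` for the seed function
`x = u + ϖ / u + ∑ y cl`. -/
theorem sdeg_hdeg_vtx [DecidableEq Mid] [DecidableEq SS] (hF : IsRRField K F)
    (jcl : SS → Cl) (u : F) (ϖ : K) (y : Cl → F)
    (hu : Transcendental K u) [FiniteDimensional K⟮u⟯ F] (hϖ0 : ϖ ≠ 0)
    (hy : ∀ cl, Transcendental K (y cl)) (hyfin : ∀ cl, FiniteDimensional K⟮y cl⟯ F)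
    (h : SeedRed S jcl u ϖ y)
    (htr_oo : Transcendental k ((S (Vtx.vert Vrt.oo)).red u))
    (htr_mid : ∀ m, Transcendental k ((S (Vtx.vert (Vrt.mid m))).red u))
    (htr_zero : Transcendental k ((S (Vtx.vert Vrt.zero)).red (algebraMap K F ϖ / u)))
    (hy_tr : ∀ P, Transcendental k ((S (Vtx.hor P)).red (y (jcl P))))
    (hdeg₁ : Module.finrank K⟮u⟯ F ≤
      Module.finrank k⟮(S (Vtx.vert Vrt.oo)).red u⟯ (Fk (Vtx.vert Vrt.oo)) +
        ∑ m, Module.finrank k⟮(S (Vtx.vert (Vrt.mid m))).red u⟯ (Fk (Vtx.vert (Vrt.mid m))))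
    (hdeg₂ : Module.finrank K⟮u⟯ F ≤
      Module.finrank k⟮(S (Vtx.vert Vrt.zero)).red (algebraMap K F ϖ / u)⟯
        (Fk (Vtx.vert Vrt.zero)))
    (hdegP : ∀ cl, Module.finrank K⟮y cl⟯ F ≤
      ∑ P ∈ Finset.univ.filter (fun P => jcl P = cl),
        Module.finrank k⟮(S (Vtx.hor P)).red (y cl)⟯ (Fk (Vtx.hor P))) :
    Divisor.degree (poleDiv hF (u + algebraMap K F ϖ / u + ∑ cl, y cl)) ≤
      ∑ c, Divisor.degree (poleDiv (S c).hFk
        ((S c).red (u + algebraMap K F ϖ / u + ∑ cl, y cl))) := by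
  refine sdeg_hdeg S hF u ϖ y hu hϖ0 hy hyfin (mn1V₁ Mid SS) (sdegV₂ Mid SS) (sdegVP Mid jcl)
    sdeg_disjoint₁₂ (sdeg_disjoint₁P jcl) (sdeg_disjoint₂P jcl) (sdeg_disjointPP jcl)
    ?_ ?_ ?_ ?_ ?_ ?_ ?_ ?_ ?_
  · intro c hc
    rcases mem_mn1V₁.mp hc with rfl | ⟨m, rfl⟩
    · exact h.red_oo
    · exact h.red_mid m
  · intro c hc
    rw [mem_sdegV₂.mp hc]
    exact h.red_zero
  · intro cl c hc
    obtain ⟨P, hP, rfl⟩ := mem_sdegVP.mp hc
    rw [h.red_hor, hP]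
  · intro c hc
    rcases mem_mn1V₁.mp hc with rfl | ⟨m, rfl⟩
    · exact htr_oo
    · exact htr_mid m
  · intro c hc
    rw [mem_sdegV₂.mp hc]
    exact htr_zero
  · intro cl c hc
    obtain ⟨P, hP, rfl⟩ := mem_sdegVP.mp hc
    rw [← hP]
    exact hy_tr P
  · rw [sum_mn1V₁ (fun c => Module.finrank k⟮(S c).red u⟯ (Fk c))]
    exact hdeg₁
  · rw [sum_sdegV₂ (fun c => Module.finrank k⟮(S c).red (algebraMap K F ϖ / u)⟯ (Fk c))]
    exact hdeg₂
  · intro cl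
    rw [sum_sdegVP jcl cl (fun c => Module.finrank k⟮(S c).red (y cl)⟯ (Fk c))]
    exact hdegP cl

/-! ### the seed with ONE function `y` (SEED blueprint v2: `y = q ^ (q n₀) · α₁ (h)`, no classes) -/

theorem sdeg_sum_unit (y : F) : ∑ _cl : Unit, y = y := by
  rw [Fintype.sum_unique]

/-- the table of the reductions of `x = u + ϖ / u + y`. -/
theorem sdeg_seedRed_one {u : F} {ϖ : K} {y : F}
    (hϖ : ∀ c, ϖ ∈ (S c).A) (hϖres : ∀ c, (S c).res ⟨ϖ, hϖ c⟩ = 0)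
    (htr_oo : Transcendental k ((S (Vtx.vert Vrt.oo)).red u))
    (htr_mid : ∀ m, Transcendental k ((S (Vtx.vert (Vrt.mid m))).red u))
    (htr_zero : Transcendental k ((S (Vtx.vert Vrt.zero)).red (algebraMap K F ϖ / u)))
    (hu_hor : ∀ P, u ∈ (S (Vtx.hor P)).Ov ∧ (S (Vtx.hor P)).red u = 0)
    (hu'_hor : ∀ P, algebraMap K F ϖ / u ∈ (S (Vtx.hor P)).Ov ∧
      (S (Vtx.hor P)).red (algebraMap K F ϖ / u) = 0)
    (hy_vert : ∀ v, y ∈ (S (Vtx.vert v)).Ov ∧ (S (Vtx.vert v)).red y = 0)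
    (hy_tr : ∀ P, Transcendental k ((S (Vtx.hor P)).red y)) :
    (∀ c, u + algebraMap K F ϖ / u + y ∈ (S c).Ov) ∧
    ((S (Vtx.vert Vrt.oo)).red (u + algebraMap K F ϖ / u + y) = (S (Vtx.vert Vrt.oo)).red u) ∧
    (∀ m, (S (Vtx.vert (Vrt.mid m))).red (u + algebraMap K F ϖ / u + y) =
      (S (Vtx.vert (Vrt.mid m))).red u) ∧
    ((S (Vtx.vert Vrt.zero)).red (u + algebraMap K F ϖ / u + y) =
      (S (Vtx.vert Vrt.zero)).red (algebraMap K F ϖ / u)) ∧
    (∀ P, (S (Vtx.hor P)).red (u + algebraMap K F ϖ / u + y) = (S (Vtx.hor P)).red y) ∧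
    ∀ c, Transcendental k ((S c).red (u + algebraMap K F ϖ / u + y)) := by
  have h : SeedRed S (fun _ : SS => ()) u ϖ (fun _ : Unit => y) :=
    sdeg_seedRed (fun _ : SS => ()) hϖ hϖres htr_oo htr_mid htr_zero hu_hor hu'_hor
      (fun _ v => hy_vert v) (fun cl P hne => absurd rfl hne) hy_tr
  have htr := sdeg_seed_transcendental h htr_oo htr_mid htr_zero hy_tr
  have h1 := h.mem
  have h2 := h.red_oo
  have h3 := h.red_mid
  have h4 := h.red_zero
  have h5 := h.red_hor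
  simp only [sdeg_sum_unit] at h1 h2 h3 h4 h5 htr
  exact ⟨h1, h2, h3, h4, h5, htr⟩

/-- `R_pos` for the seed `x = u + ϖ / u + y`. -/
theorem sdeg_R_pos_one {x : F} (htr : ∀ c, Transcendental k ((S c).red x)) (c : Vtx Mid SS) :
    0 < Divisor.degree (poleDiv (S c).hFk ((S c).red x)) :=
  Fermat.Agent.RRHur.degree_poleDiv_pos (S c).hFk (htr c)

/-- **SEED-DEG, one `y`**: `deg (x)_∞ ≤ ∑_c deg (red_c x)_∞` for `x = u + ϖ / u + y`. -/
theorem sdeg_hdeg_one [DecidableEq Mid] [DecidableEq SS] (hF : IsRRField K F)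
    (u : F) (ϖ : K) (y : F)
    (hu : Transcendental K u) [FiniteDimensional K⟮u⟯ F] (hϖ0 : ϖ ≠ 0)
    (hy : Transcendental K y) [hyfin : FiniteDimensional K⟮y⟯ F]
    (hϖ : ∀ c, ϖ ∈ (S c).A) (hϖres : ∀ c, (S c).res ⟨ϖ, hϖ c⟩ = 0)
    (htr_oo : Transcendental k ((S (Vtx.vert Vrt.oo)).red u))
    (htr_mid : ∀ m, Transcendental k ((S (Vtx.vert (Vrt.mid m))).red u))
    (htr_zero : Transcendental k ((S (Vtx.vert Vrt.zero)).red (algebraMap K F ϖ / u)))
    (hu_hor : ∀ P, u ∈ (S (Vtx.hor P)).Ov ∧ (S (Vtx.hor P)).red u = 0)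
    (hu'_hor : ∀ P, algebraMap K F ϖ / u ∈ (S (Vtx.hor P)).Ov ∧
      (S (Vtx.hor P)).red (algebraMap K F ϖ / u) = 0)
    (hy_vert : ∀ v, y ∈ (S (Vtx.vert v)).Ov ∧ (S (Vtx.vert v)).red y = 0)
    (hy_tr : ∀ P, Transcendental k ((S (Vtx.hor P)).red y))
    (hdeg₁ : Module.finrank K⟮u⟯ F ≤
      Module.finrank k⟮(S (Vtx.vert Vrt.oo)).red u⟯ (Fk (Vtx.vert Vrt.oo)) +
        ∑ m, Module.finrank k⟮(S (Vtx.vert (Vrt.mid m))).red u⟯ (Fk (Vtx.vert (Vrt.mid m))))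
    (hdeg₂ : Module.finrank K⟮u⟯ F ≤
      Module.finrank k⟮(S (Vtx.vert Vrt.zero)).red (algebraMap K F ϖ / u)⟯
        (Fk (Vtx.vert Vrt.zero)))
    (hdegP : Module.finrank K⟮y⟯ F ≤
      ∑ P, Module.finrank k⟮(S (Vtx.hor P)).red y⟯ (Fk (Vtx.hor P))) :
    Divisor.degree (poleDiv hF (u + algebraMap K F ϖ / u + y)) ≤
      ∑ c, Divisor.degree (poleDiv (S c).hFk ((S c).red (u + algebraMap K F ϖ / u + y))) := by
  have h : SeedRed S (fun _ : SS => ()) u ϖ (fun _ : Unit => y) :=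
    sdeg_seedRed (fun _ : SS => ()) hϖ hϖres htr_oo htr_mid htr_zero hu_hor hu'_hor
      (fun _ v => hy_vert v) (fun cl P hne => absurd rfl hne) hy_tr
  have hfilter : (Finset.univ.filter fun _P : SS => () = ()) = Finset.univ :=
    Finset.filter_true_of_mem (fun _ _ => rfl)
  have key := sdeg_hdeg_vtx (S := S) hF (fun _ : SS => ()) u ϖ (fun _ : Unit => y) hu hϖ0
    (fun _ => hy) (fun _ => hyfin) h htr_oo htr_mid htr_zero hy_tr hdeg₁ hdeg₂
    (fun cl => by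
      cases cl
      rw [hfilter]
      exact hdegP)
  simp only [sdeg_sum_unit] at key
  exact key

end Vtx

end Fermat.Agent.S36G
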