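import Mathlib
import Fermat.Agent.S36.Seed.DegMod
import Fermat.Agent.S36.Seed.UDeg

/-!
# Cluster G (S36), seat SEED-DEG, piece DEGP (helper13): the hypothesis `hdegP` of `sdeg_hdeg_one`

(FALLBACK for the SEED v2 function `y = c · ι₁ (h)`; SEED v3 takes `y ∈ K(u₁)` and gets `degP` from
`MNData.deg₂`.  The tower-law lemmas are general.)

SEED blueprint v2 (helper92): `y = c · ι₁ (h)`, `h ∈ F₀ = F_{M₀}` with `(h)_∞ = n ∑_P Pt P`,
`ι₁ : F₀ → F = F_{q² M₀}` of degree `q (q + 1)`, and `red_{w_P} y = a_P / Ȳ_P ^ n` with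
`[k(H_P) : k(Ȳ_P)] = q (q + 1)`.  Everything is a TOWER LAW (no pull-back of divisors):

* `sdegP_finrank_along`  : `[F : K(φ h)] = [F₀ : K(h)] · [F : φ F₀]`;
* `sdegP_finrank_const_mul` : `[F : K(c · y)] = [F : K(y)]`;
* `sdegP_finrank_const_div_pow` : `[Fk : k(a / Y ^ n)] = n · [Fk : k(Y)]`;
* `sdegP_finrank_of_poleDiv` : `[F₀ : K(h)] = n · s` if `(h)_∞ = n ∑_{P : SS} Pt P`, `s = #SS`;
* `sdegP_transcendental_along`, `sdegP_finiteDimensional_along` : `y` is transcendental and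
  `F` is finite over `K(y)`;
* `sdegP_hdegP` : **`[F : K(y)] ≤ ∑_P [Fk_P : k(red_P y)]`** (the hypothesis `hdegP`).
-/

set_option autoImplicit false
set_option linter.unusedSectionVars false
set_option linter.style.haveILetI false

noncomputable section

open AlgebraicCurve Fermat.Agent.RR Fermat.Agent.Deuring IntermediateField Polynomial

namespace Fermat.Agent.S36G

/-! ### the generic fibre: tower law along an embedding -/

section Along

variable {K F₀ F : Type*} [Field K] [Field F₀] [Field F] [Algebra K F₀] [Algebra K F]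

/-- `K(c · y) = K(y)` for a constant `c ≠ 0`. -/
theorem sdegP_adjoin_const_mul {c : K} (hc : c ≠ 0) (y : F) :
    K⟮algebraMap K F c * y⟯ = K⟮y⟯ := by
  have hcF : algebraMap K F c ≠ 0 := (_root_.map_ne_zero _).mpr hc
  apply le_antisymm
  · rw [IntermediateField.adjoin_simple_le_iff]
    exact mul_mem (IntermediateField.algebraMap_mem _ c)
      (IntermediateField.mem_adjoin_simple_self K y)
  · rw [IntermediateField.adjoin_simple_le_iff]
    have h2 : (algebraMap K F c)⁻¹ * (algebraMap K F c * y) ∈ K⟮algebraMap K F c * y⟯ :=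
      mul_mem (inv_mem (IntermediateField.algebraMap_mem _ c))
        (IntermediateField.mem_adjoin_simple_self K _)
    rwa [inv_mul_cancel_left₀ hcF] at h2

theorem sdegP_finrank_const_mul {c : K} (hc : c ≠ 0) (y : F) :
    Module.finrank K⟮algebraMap K F c * y⟯ F = Module.finrank K⟮y⟯ F := by
  rw [sdegP_adjoin_const_mul hc y]

/-- **tower law**: `[F : K(φ h)] = [F₀ : K(h)] · [F : φ F₀]`. -/
theorem sdegP_finrank_along (φ : F₀ →ₐ[K] F) (h : F₀) :
    Module.finrank K⟮φ h⟯ F = Module.finrank K⟮h⟯ F₀ * finrankAlong K φ := by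
  letI a0 : Algebra F₀ F := algebraAlong φ
  letI a1 : Algebra K⟮h⟯ F := ((algebraMap F₀ F).comp (algebraMap K⟮h⟯ F₀)).toAlgebra
  haveI : IsScalarTower K⟮h⟯ F₀ F := IsScalarTower.of_algebraMap_eq fun x => rfl
  have htower : Module.finrank K⟮h⟯ F₀ * Module.finrank F₀ F = Module.finrank K⟮h⟯ F :=
    Module.finrank_mul_finrank K⟮h⟯ F₀ F
  have hmap : K⟮φ h⟯ = K⟮h⟯.map φ := by
    rw [IntermediateField.adjoin_map, Set.image_singleton]
  let e₁ : K⟮h⟯ ≃+* K⟮φ h⟯ :=
    ((IntermediateField.equivMap K⟮h⟯ φ).trans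
      (IntermediateField.equivOfEq hmap.symm)).toRingEquiv
  have hc : (algebraMap K⟮φ h⟯ F).comp e₁.toRingHom =
      (RingEquiv.refl F).toRingHom.comp (algebraMap K⟮h⟯ F) := by
    refine RingHom.ext fun y => ?_
    rfl
  have he : @Module.finrank K⟮h⟯ F _ _ a1.toModule = Module.finrank K⟮φ h⟯ F :=
    @Algebra.finrank_eq_of_equiv_equiv K⟮h⟯ F _ _ a1 K⟮φ h⟯ F _ _ _ e₁ (RingEquiv.refl F) hc
  have htower' : Module.finrank K⟮h⟯ F₀ * @Module.finrank F₀ F _ _ a0.toModule =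
      @Module.finrank K⟮h⟯ F _ _ a1.toModule := htower
  rw [← he, ← htower']
  rfl

/-- `φ h` is transcendental if `h` is. -/
theorem sdegP_transcendental_along (φ : F₀ →ₐ[K] F) {h : F₀} (hh : Transcendental K h) :
    Transcendental K (φ h) := by
  intro halg
  exact hh ((isAlgebraic_algHom_iff φ φ.injective).mp halg)

end Along

/-! ### the special fibre -/

section Special

variable {k Fk : Type*} [Field k] [Field Fk] [Algebra k Fk]

/-- `[Fk : k(a / Y ^ n)] = n · [Fk : k(Y)]`. -/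
theorem sdegP_finrank_const_div_pow (hRR : IsRRField k Fk) {Y : Fk} (hY : Transcendental k Y)
    [FiniteDimensional k⟮Y⟯ Fk] {a : k} (ha : a ≠ 0) {n : ℕ} (hn : n ≠ 0) :
    Module.finrank k⟮algebraMap k Fk a / Y ^ n⟯ Fk = n * Module.finrank k⟮Y⟯ Fk := by
  rw [seedDeg_finrank_const_div ha]
  have hP : (Polynomial.X ^ n : k[X]).natDegree ≠ 0 := by
    rw [Polynomial.natDegree_X_pow]
    exact hn
  have h1 := Fermat.Agent.BadRed.finrank_adjoin_aeval hRR hY hP
  rwa [map_pow, Polynomial.aeval_X, Polynomial.natDegree_X_pow] at h1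

/-- `a / Y ^ n` is transcendental. -/
theorem sdegP_transcendental_const_div_pow {Y : Fk} (hY : Transcendental k Y) {a : k}
    (ha : a ≠ 0) {n : ℕ} (hn : n ≠ 0) : Transcendental k (algebraMap k Fk a / Y ^ n) := by
  have h1 : Transcendental k (Y ^ n) := hY.pow (Nat.pos_of_ne_zero hn)
  intro halg
  apply h1
  have h2 : IsAlgebraic k (algebraMap k Fk a * (algebraMap k Fk a / Y ^ n)⁻¹) :=
    IsAlgebraic.mul (isAlgebraic_algebraMap a) (IsAlgebraic.inv halg)
  rwa [← div_eq_mul_inv, div_div_cancel₀ ((_root_.map_ne_zero _).mpr ha)] at h2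

end Special

/-! ### the degree of `h` from its polar divisor -/

section Pole

variable {K F₀ : Type*} [Field K] [Field F₀] [Algebra K F₀]

/-- `[F₀ : K(h)] = n · #SS` if `(h)_∞ = n ∑_P Pt P`. -/
theorem sdegP_finrank_of_poleDiv (hF₀ : IsRRField K F₀) {SS : Type*} [Fintype SS]
    (Pt : SS → Place K F₀) {h : F₀} (hh : Transcendental K h) [FiniteDimensional K⟮h⟯ F₀]
    (n : ℕ) (hpole : poleDiv hF₀ h = n • ∑ P, Finsupp.single (Pt P) (1 : ℤ)) :
    Module.finrank K⟮h⟯ F₀ = n * Fintype.card SS := by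
  have h1 := Fermat.Agent.RRHur.degree_poleDiv_eq_finrank hF₀ hh
  rw [hpole, map_nsmul, map_sum] at h1
  simp only [degree_single_one hF₀, Finset.sum_const, Finset.card_univ, nsmul_eq_mul,
    mul_one] at h1
  exact_mod_cast h1.symm

end Pole

/-! ### the hypothesis `hdegP` -/

section Main

variable {Mid SS : Type} [Fintype Mid] [Fintype SS]
  {K F₀ F k : Type*} [Field K] [Field F₀] [Field F] [Algebra K F₀] [Algebra K F] [Field k]
  {Fk : Vtx Mid SS → Type*} [∀ c, Field (Fk c)] [∀ c, Algebra k (Fk c)]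
  {S : ∀ c : Vtx Mid SS, ValSetup K F k (Fk c)}

/-- **DEGP**: `[F : K(y)] ≤ ∑_P [Fk_P : k(red_P y)]` for `y = c · φ h`, if
`[F₀ : K(h)] ≤ n · #SS`, `[F : φ F₀] ≤ d` and `red_P y = a_P / Ȳ_P ^ n`, `[Fk_P : k(Ȳ_P)] = d`
(modular case: `d = q (q + 1)`). -/
theorem sdegP_hdegP (φ : F₀ →ₐ[K] F) (h : F₀) {c : K} (hc : c ≠ 0) {n d : ℕ} (hn : n ≠ 0)
    (hN : Module.finrank K⟮h⟯ F₀ ≤ n * Fintype.card SS) (hd : finrankAlong K φ ≤ d)
    (a : SS → k) (ha : ∀ P, a P ≠ 0) (Y : ∀ P : SS, Fk (Vtx.hor P))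
    (hY : ∀ P, Transcendental k (Y P)) (hYfin : ∀ P, FiniteDimensional k⟮Y P⟯ (Fk (Vtx.hor P)))
    (hYd : ∀ P, Module.finrank k⟮Y P⟯ (Fk (Vtx.hor P)) = d)
    (hred : ∀ P, (S (Vtx.hor P)).red (algebraMap K F c * φ h) =
      algebraMap k (Fk (Vtx.hor P)) (a P) / Y P ^ n) :
    Module.finrank K⟮algebraMap K F c * φ h⟯ F ≤
      ∑ P, Module.finrank k⟮(S (Vtx.hor P)).red (algebraMap K F c * φ h)⟯ (Fk (Vtx.hor P)) := by
  rw [sdegP_finrank_const_mul hc, sdegP_finrank_along]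
  have hsum : ∀ P, Module.finrank k⟮(S (Vtx.hor P)).red (algebraMap K F c * φ h)⟯
      (Fk (Vtx.hor P)) = n * d := by
    intro P
    haveI := hYfin P
    rw [hred P, sdegP_finrank_const_div_pow (S (Vtx.hor P)).hFk (hY P) (ha P) hn, hYd P]
  rw [Finset.sum_congr rfl (fun P _ => hsum P), Finset.sum_const, Finset.card_univ, smul_eq_mul]
  calc Module.finrank K⟮h⟯ F₀ * finrankAlong K φ ≤ (n * Fintype.card SS) * d :=
        Nat.mul_le_mul hN hd
    _ = Fintype.card SS * (n * d) := by ring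

/-- the reduction of `y` on `w_P` is transcendental. -/
theorem sdegP_red_transcendental {y : F} {n : ℕ} (hn : n ≠ 0)
    (a : SS → k) (ha : ∀ P, a P ≠ 0) (Y : ∀ P : SS, Fk (Vtx.hor P))
    (hY : ∀ P, Transcendental k (Y P))
    (hred : ∀ P, (S (Vtx.hor P)).red y = algebraMap k (Fk (Vtx.hor P)) (a P) / Y P ^ n)
    (P : SS) : Transcendental k ((S (Vtx.hor P)).red y) := by
  rw [hred P]
  exact sdegP_transcendental_const_div_pow (hY P) (ha P) hn

end Main

end Fermat.Agent.S36G
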