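import Mathlib
import Fermat.Agent.S36.Seed.Ends
import Fermat.Agent.S36.Seed.DegP
import Fermat.Agent.Lib.HP.Deg

set_option autoImplicit false
set_option linter.unusedSectionVars false
set_option linter.unusedVariables false
set_option linter.style.haveILetI false

/-!
# Cluster G (S36), SEED, seat ENDS-HOR: the inputs of the three node theorems on the horizontal
components  (helper18)

The hypotheses "W-P" (`hu_hor`, `htr_hor`, `hdeg₂` / `hdeg_hor`) of the multi-node data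
`mn1_data` (`S36/Seed/MN1.lean`), `mnA_data(_mod)` (`MNA.lean`), `mn2_data(_mod)` (`MN2.lean`), from
the three reductions `EndsRedA`, `EndsRed1`, `EndsRed2` of `S36/Seed/Ends.lean`
(`red_P x = c · X ^ (± 12)`, `X = X₁` or `X₂` a coordinate of `H_P`, of degree `q`):

* `x ∈ O_{w_P}`                    (`EndsRed*.mem`);
* `red_P x` is transcendental      (`EndsRed*.transcendental`);
* `[k(H_P) : k(red_P x)] = 12 q`   (`EndsRed*.finrank`);
* `n ≤ #SS · 12 q → n ≤ ∑_P [k(H_P) : k(red_P x)]`   (`EndsRed*.hdeg`).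

Single curve: `endsHor_finrank_const_mul_pow`, `endsHor_finrank_const_mul_pow_inv`,
`endsHor_transcendental_const_mul_pow(_inv)`.
-/

noncomputable section

open AlgebraicCurve IntermediateField Polynomial

namespace Fermat.Agent.S36G

open Fermat.Agent.RR Fermat.Agent.Deuring Fermat.Agent.BadRed Fermat.Agent.BadRedG
  Fermat.Agent.HP

/-! ### a single function field -/

section Single

variable {k E : Type*} [Field k] [Field E] [Algebra k E]

/-- `c X ^ n` is transcendental. -/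
theorem endsHor_transcendental_const_mul_pow {X : E} (hX : Transcendental k X) {c : k}
    (hc : c ≠ 0) {n : ℕ} (hn : n ≠ 0) : Transcendental k (algebraMap k E c * X ^ n) := by
  have h1 : Transcendental k (X ^ n) := hX.pow (Nat.pos_of_ne_zero hn)
  intro halg
  apply h1
  have hcE : algebraMap k E c ≠ 0 := (_root_.map_ne_zero _).mpr hc
  have h2 : IsAlgebraic k ((algebraMap k E c)⁻¹ * (algebraMap k E c * X ^ n)) :=
    IsAlgebraic.mul (IsAlgebraic.inv (isAlgebraic_algebraMap c)) halg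
  rwa [inv_mul_cancel_left₀ hcE] at h2

/-- `c (X ^ n)⁻¹` is transcendental. -/
theorem endsHor_transcendental_const_mul_pow_inv {X : E} (hX : Transcendental k X) {c : k}
    (hc : c ≠ 0) {n : ℕ} (hn : n ≠ 0) : Transcendental k (algebraMap k E c * (X ^ n)⁻¹) := by
  rw [← div_eq_mul_inv]
  exact sdegP_transcendental_const_div_pow hX hc hn

/-- `[E : k(c X ^ n)] = n [E : k(X)]`. -/
theorem endsHor_finrank_const_mul_pow (hRR : IsRRField k E) {X : E} (hX : Transcendental k X)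
    [FiniteDimensional k⟮X⟯ E] {c : k} (hc : c ≠ 0) {n : ℕ} (hn : n ≠ 0) :
    Module.finrank k⟮algebraMap k E c * X ^ n⟯ E = n * Module.finrank k⟮X⟯ E := by
  rw [sdegP_finrank_const_mul hc]
  have hP : (Polynomial.X ^ n : k[X]).natDegree ≠ 0 := by
    rw [Polynomial.natDegree_X_pow]
    exact hn
  have h1 := Fermat.Agent.BadRed.finrank_adjoin_aeval hRR hX hP
  rwa [map_pow, Polynomial.aeval_X, Polynomial.natDegree_X_pow] at h1

/-- `[E : k(c / X ^ n)] = n [E : k(X)]`. -/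
theorem endsHor_finrank_const_mul_pow_inv (hRR : IsRRField k E) {X : E}
    (hX : Transcendental k X) [FiniteDimensional k⟮X⟯ E] {c : k} (hc : c ≠ 0) {n : ℕ}
    (hn : n ≠ 0) :
    Module.finrank k⟮algebraMap k E c * (X ^ n)⁻¹⟯ E = n * Module.finrank k⟮X⟯ E := by
  rw [← div_eq_mul_inv]
  exact sdegP_finrank_const_div_pow hRR hX hc hn

end Single

/-! ### the family -/

section Family

variable {K F k : Type} [Field K] [Field F] [Algebra K F] [Field k] [IsAlgClosed k]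
  {Mid SS : Type}
  {Fk0 : Type} [Field Fk0] [Algebra k Fk0]
  {FkM : Mid → Type} [∀ m, Field (FkM m)] [∀ m, Algebra k (FkM m)]
  {FkP : SS → Type} [∀ P, Field (FkP P)] [∀ P, Algebra k (FkP P)]
  {S : ∀ c : Vtx Mid SS, ValSetup K F k (FkOf Fk0 FkM FkP c)}
  {q : ℕ} {H : ∀ P : SS, HPCurve k (FkOf Fk0 FkM FkP (Vtx.hor P)) q}

omit [IsAlgClosed k] in
theorem EndsRedA.red_ne {xA : F} (h : EndsRedA S H xA) (P : SS) :
    (S (Vtx.hor P)).red xA ≠ 0 := by
  obtain ⟨c, hc, hr⟩ := h P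
  rw [hr]
  exact mul_ne_zero ((_root_.map_ne_zero _).mpr hc) (pow_ne_zero _ (H P).X2_ne)

omit [IsAlgClosed k] in
theorem EndsRed1.red_ne {x1 : F} (h : EndsRed1 S H x1) (P : SS) :
    (S (Vtx.hor P)).red x1 ≠ 0 := by
  obtain ⟨c, hc, hr⟩ := h P
  rw [hr]
  exact mul_ne_zero ((_root_.map_ne_zero _).mpr hc) (inv_ne_zero (pow_ne_zero _ (H P).X1_ne))

omit [IsAlgClosed k] in
theorem EndsRed2.red_ne {x2 : F} (h : EndsRed2 S H x2) (P : SS) :
    (S (Vtx.hor P)).red x2 ≠ 0 := by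
  obtain ⟨c, hc, hr⟩ := h P
  rw [hr]
  exact mul_ne_zero ((_root_.map_ne_zero _).mpr hc) (pow_ne_zero _ (H P).X1_ne)

omit [IsAlgClosed k] in
/-- **`hu_hor` of (A)**. -/
theorem EndsRedA.mem {xA : F} (h : EndsRedA S H xA) (P : SS) : xA ∈ (S (Vtx.hor P)).Ov :=
  (S (Vtx.hor P)).mem_of_red_ne_zero (h.red_ne P)

omit [IsAlgClosed k] in
/-- **`hu_hor` of (1)**. -/
theorem EndsRed1.mem {x1 : F} (h : EndsRed1 S H x1) (P : SS) : x1 ∈ (S (Vtx.hor P)).Ov :=
  (S (Vtx.hor P)).mem_of_red_ne_zero (h.red_ne P)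

omit [IsAlgClosed k] in
/-- **`hu_hor` of (2)**. -/
theorem EndsRed2.mem {x2 : F} (h : EndsRed2 S H x2) (P : SS) : x2 ∈ (S (Vtx.hor P)).Ov :=
  (S (Vtx.hor P)).mem_of_red_ne_zero (h.red_ne P)

omit [IsAlgClosed k] in
theorem EndsRedA.inv_mem {xA : F} (h : EndsRedA S H xA) (P : SS) :
    xA⁻¹ ∈ (S (Vtx.hor P)).Ov :=
  (S (Vtx.hor P)).inv_mem_of_red_ne_zero (h.red_ne P)

omit [IsAlgClosed k] in
theorem EndsRed1.inv_mem {x1 : F} (h : EndsRed1 S H x1) (P : SS) :
    x1⁻¹ ∈ (S (Vtx.hor P)).Ov :=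
  (S (Vtx.hor P)).inv_mem_of_red_ne_zero (h.red_ne P)

omit [IsAlgClosed k] in
theorem EndsRed2.inv_mem {x2 : F} (h : EndsRed2 S H x2) (P : SS) :
    x2⁻¹ ∈ (S (Vtx.hor P)).Ov :=
  (S (Vtx.hor P)).inv_mem_of_red_ne_zero (h.red_ne P)

variable (hq : q.Prime) [CharP k q]

include hq

/-- **`htr_hor` of (A)**. -/
theorem EndsRedA.transcendental {xA : F} (h : EndsRedA S H xA) (P : SS) :
    Transcendental k ((S (Vtx.hor P)).red xA) := by
  obtain ⟨c, hc, hr⟩ := h P
  rw [hr]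
  exact endsHor_transcendental_const_mul_pow ((H P).X2_transcendental (ends_hq1 hq)) hc
    (by norm_num)

/-- **`htr_hor` of (1)**. -/
theorem EndsRed1.transcendental {x1 : F} (h : EndsRed1 S H x1) (P : SS) :
    Transcendental k ((S (Vtx.hor P)).red x1) := by
  obtain ⟨c, hc, hr⟩ := h P
  rw [hr]
  exact endsHor_transcendental_const_mul_pow_inv (H P).transc hc (by norm_num)

/-- **`htr_hor` of (2)**. -/
theorem EndsRed2.transcendental {x2 : F} (h : EndsRed2 S H x2) (P : SS) :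
    Transcendental k ((S (Vtx.hor P)).red x2) := by
  obtain ⟨c, hc, hr⟩ := h P
  rw [hr]
  exact endsHor_transcendental_const_mul_pow (H P).transc hc (by norm_num)

/-- (A): `[k(H_P) : k(red_P xA)] = 12 q`. -/
theorem EndsRedA.finrank {xA : F} (h : EndsRedA S H xA) (P : SS) :
    Module.finrank k⟮(S (Vtx.hor P)).red xA⟯ (FkOf Fk0 FkM FkP (Vtx.hor P)) = 12 * q := by
  obtain ⟨c, hc, hr⟩ := h P
  haveI := (H P).finiteDimensional_X2 (ends_hq1 hq)
  rw [hr, endsHor_finrank_const_mul_pow ((H P).isRRField (ends_hq1 hq))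
    ((H P).X2_transcendental (ends_hq1 hq)) hc (by norm_num), (H P).finrank_X2 (ends_hq1 hq)]

/-- (1): `[k(H_P) : k(red_P x1)] = 12 q`. -/
theorem EndsRed1.finrank {x1 : F} (h : EndsRed1 S H x1) (P : SS) :
    Module.finrank k⟮(S (Vtx.hor P)).red x1⟯ (FkOf Fk0 FkM FkP (Vtx.hor P)) = 12 * q := by
  obtain ⟨c, hc, hr⟩ := h P
  haveI := (H P).finiteDimensional_X1
  rw [hr, endsHor_finrank_const_mul_pow_inv ((H P).isRRField (ends_hq1 hq))
    (H P).transc hc (by norm_num), (H P).finrank_X1 (ends_hq1 hq)]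

/-- (2): `[k(H_P) : k(red_P x2)] = 12 q`. -/
theorem EndsRed2.finrank {x2 : F} (h : EndsRed2 S H x2) (P : SS) :
    Module.finrank k⟮(S (Vtx.hor P)).red x2⟯ (FkOf Fk0 FkM FkP (Vtx.hor P)) = 12 * q := by
  obtain ⟨c, hc, hr⟩ := h P
  haveI := (H P).finiteDimensional_X1
  rw [hr, endsHor_finrank_const_mul_pow ((H P).isRRField (ends_hq1 hq))
    (H P).transc hc (by norm_num), (H P).finrank_X1 (ends_hq1 hq)]

variable [Fintype SS]

/-- (A): the sum of the horizontal degrees is `#SS · 12 q`. -/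
theorem EndsRedA.sum_finrank {xA : F} (h : EndsRedA S H xA) :
    ∑ P : SS, Module.finrank k⟮(S (Vtx.hor P)).red xA⟯ (FkOf Fk0 FkM FkP (Vtx.hor P)) =
      Fintype.card SS * (12 * q) := by
  rw [Finset.sum_congr rfl fun P _ => h.finrank hq P, Finset.sum_const, Finset.card_univ,
    smul_eq_mul]

/-- (1): the sum of the horizontal degrees is `#SS · 12 q`. -/
theorem EndsRed1.sum_finrank {x1 : F} (h : EndsRed1 S H x1) :
    ∑ P : SS, Module.finrank k⟮(S (Vtx.hor P)).red x1⟯ (FkOf Fk0 FkM FkP (Vtx.hor P)) =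
      Fintype.card SS * (12 * q) := by
  rw [Finset.sum_congr rfl fun P _ => h.finrank hq P, Finset.sum_const, Finset.card_univ,
    smul_eq_mul]

/-- (2): the sum of the horizontal degrees is `#SS · 12 q`. -/
theorem EndsRed2.sum_finrank {x2 : F} (h : EndsRed2 S H x2) :
    ∑ P : SS, Module.finrank k⟮(S (Vtx.hor P)).red x2⟯ (FkOf Fk0 FkM FkP (Vtx.hor P)) =
      Fintype.card SS * (12 * q) := by
  rw [Finset.sum_congr rfl fun P _ => h.finrank hq P, Finset.sum_const, Finset.card_univ,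
    smul_eq_mul]

/-- **`hdeg_hor` of (A)**: `n ≤ #SS · 12 q → n ≤ ∑_P [k(H_P) : k(red_P xA)]`. -/
theorem EndsRedA.hdeg {xA : F} (h : EndsRedA S H xA) {n : ℕ}
    (hn : n ≤ Fintype.card SS * (12 * q)) :
    n ≤ ∑ P : SS, Module.finrank k⟮(S (Vtx.hor P)).red xA⟯ (FkOf Fk0 FkM FkP (Vtx.hor P)) := by
  rw [h.sum_finrank hq]
  exact hn

/-- **`hdeg₂` of (1)**: `n ≤ #SS · 12 q → n ≤ ∑_P [k(H_P) : k(red_P x1)]`. -/
theorem EndsRed1.hdeg {x1 : F} (h : EndsRed1 S H x1) {n : ℕ}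
    (hn : n ≤ Fintype.card SS * (12 * q)) :
    n ≤ ∑ P : SS, Module.finrank k⟮(S (Vtx.hor P)).red x1⟯ (FkOf Fk0 FkM FkP (Vtx.hor P)) := by
  rw [h.sum_finrank hq]
  exact hn

/-- **`hdeg_hor` of (2)**: `n ≤ #SS · 12 q → n ≤ ∑_P [k(H_P) : k(red_P x2)]`. -/
theorem EndsRed2.hdeg {x2 : F} (h : EndsRed2 S H x2) {n : ℕ}
    (hn : n ≤ Fintype.card SS * (12 * q)) :
    n ≤ ∑ P : SS, Module.finrank k⟮(S (Vtx.hor P)).red x2⟯ (FkOf Fk0 FkM FkP (Vtx.hor P)) := by
  rw [h.sum_finrank hq]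
  exact hn

omit [IsAlgClosed k] hq [CharP k q] [Fintype SS] in
/-- the numerical input: `(q - 1) ψ ≤ 12 #SS` gives `(q - 1) (q ψ) ≤ #SS · 12 q`
(`ψ = dedekindPsi M₀`; the hypothesis is the mass formula, GENUS). -/
theorem endsHor_num {s ψ : ℕ} (hmass : (q - 1) * ψ ≤ 12 * s) :
    (q - 1) * (q * ψ) ≤ s * (12 * q) := by
  calc (q - 1) * (q * ψ) = q * ((q - 1) * ψ) := by ring
    _ ≤ q * (12 * s) := Nat.mul_le_mul_left q hmass
    _ = s * (12 * q) := by ring

end Family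

end Fermat.Agent.S36G
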