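import Mathlib
import Fermat.Agent.S36.Seed.MN1
import Fermat.Agent.S36.Seed.UMidRed
import Fermat.Agent.S36.Seed.UDeg
import Fermat.Agent.S36.Seed.EndsHor
import Fermat.Agent.S36.Genus.IgGenus
import Fermat.Agent.S36.Genus.Small

set_option autoImplicit false
set_option linter.style.haveILetI false
set_option linter.unusedSectionVars false
set_option linter.unusedVariables false
set_option synthInstance.maxHeartbeats 400000

/-!
# Cluster G (S36), SEED, seat MN1-MOD: the multi-node data of the node family (1) on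
`X₀(M₀ q²)`  (helper18)

The modular instance of `mn1_data` (`S36/Seed/MN1.lean`), level `N = M₀ * q * q` (the level of
the middle setups `IsMidSetup` and of `WPOut`), parameter `u₁ = uF N q`, with the inputs at `∞`
and at the middle vertices DISCHARGED:

* `∞`     : `S ∞` a Gauss setup (`uF_mem_Ov`, `transcendental_red_uF`, `finrank_red_uF`);
* `mid m` : `S (mid m)` a middle setup (`umid_uF_mem_Ov`, `umid_transcendental_red_uF`) and
            `[Ig : k(Z)] = midDeg q` (`IgDegree`), `#Mid = midCard q`;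
* degree  : `[F : ℚ̄(u₁)] = (q - 1) q ψ(M₀) = (q - 1) ψ(M₀) (1 + #Mid · midDeg q)`.

What is left are the exports of W-P on the `hor P`:
* `mn1_data_mod`  : with `hu_hor`, `htr_hor`, `hdeg_hor` as hypotheses (the shape of helper91's
  `mnA_data_mod`, `mn2_data_mod`);
* `mn1_data_mod_of_red` : with `EndsRed1 S H (ϖ₁ / u₁)` (`S36/Seed/Ends.lean`: the reduction is
  `c / X₁ ^ 12` on every `H_P`) and the mass inequality `(q - 1) ψ(M₀) ≤ 12 #SS`.

Pieces: `mn1Mod_finrank_incl`, `mn1Mod_finrank_mid`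
(`[Ig : k(red_m u₁)] = midDeg q · (q - 1) ψ(M₀)`), `mn1Mod_num`.
-/

noncomputable section

namespace Fermat.Agent.S36G

open IntermediateField ModularCurve AlgebraicCurve Fermat.Agent.GaussInt
  Fermat.Agent.Deuring Fermat.Agent.F3 Fermat.Agent.F3G Fermat.Agent.BadRed
  Fermat.Agent.RR Fermat.Agent.BadRedG Fermat.Agent.HP

local notation "Qb" => AlgebraicClosure ℚ

/-! ### arithmetic -/

/-- `(q - 1) (q ψ) = (q - 1) ψ + #Mid · (midDeg q · ((q - 1) ψ))` for `#Mid = midCard q`. -/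
theorem mn1Mod_num {q : ℕ} (hq : q.Prime) (ψ c : ℕ) (hc : c = midCard q) :
    (q - 1) * (q * ψ) = (q - 1) * ψ + c * (midDeg q * ((q - 1) * ψ)) := by
  have h1 : c * midDeg q = q - 1 := by rw [hc]; exact gen_midCard_mul_midDeg hq
  have h2 : q = 1 + (q - 1) := by
    have := hq.one_lt
    omega
  calc (q - 1) * (q * ψ) = (q - 1) * ((1 + (q - 1)) * ψ) := by rw [← h2]
    _ = (q - 1) * ψ + (c * midDeg q) * ((q - 1) * ψ) := by rw [h1]; ring
    _ = (q - 1) * ψ + c * (midDeg q * ((q - 1) * ψ)) := by ring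

/-! ### the degree on the Igusa component -/

/-- tower law for an inclusion of intermediate fields:
`[B : k(y)] = [E : k(h)] · [B : E]` for `y = h ∈ E ≤ B`. -/
theorem mn1Mod_finrank_incl {k L : Type*} [Field k] [Field L] [Algebra k L]
    {E B : IntermediateField k L} (hle : E ≤ B) (h : E) (y : B) (hy : (y : L) = (h : L)) :
    Module.finrank k⟮y⟯ B = Module.finrank k⟮h⟯ E * IntermediateField.relfinrank E B := by
  have hyh : y = IntermediateField.inclusion hle h := Subtype.ext hy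
  rw [hyh, sdegP_finrank_along, ig_finrankAlong_inclusion]

attribute [local instance 10000] SubalgebraClass.toAlgebra HahnSeries.powerSeriesAlgebra

section Mid

variable (M₀ : ℕ) [NeZero M₀] {q : ℕ} {A : ValuationSubring Qb}

/-- **`[Ig : k(y)] = midDeg q · (q - 1) ψ(M₀)`** for `y ∈ Ig` with expansion `ssFun`. -/
theorem mn1Mod_finrank_mid (hq : q.Prime) (hqM : ¬ q ∣ M₀) (hA : A.LiesOverPrime q)
    (hIg : IntermediateField.relfinrank
      (modularFunctionFieldFullC (IsLocalRing.ResidueField A) M₀)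
      (igField (IsLocalRing.ResidueField A) M₀) = midDeg q)
    (h : ↥(modularFunctionFieldFullC (IsLocalRing.ResidueField A) M₀))
    (hh : (h : LaurentSeries (IsLocalRing.ResidueField A)) =
      ssFun (IsLocalRing.ResidueField A) q)
    (y : ↥(igField (IsLocalRing.ResidueField A) M₀))
    (hy : (y : LaurentSeries (IsLocalRing.ResidueField A)) =
      ssFun (IsLocalRing.ResidueField A) q) :
    Module.finrank (IsLocalRing.ResidueField A)⟮y⟯
      ↥(igField (IsLocalRing.ResidueField A) M₀) = midDeg q * ((q - 1) * dedekindPsi M₀) := by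
  have h1 := mn1Mod_finrank_incl (fullC_le_igField (IsLocalRing.ResidueField A) M₀) h y
    (hy.trans hh.symm)
  have h2 := finrank_adjoin_ss M₀ hq hqM hA h hh
  rw [h1, hIg, h2, Nat.mul_comm]

end Mid

/-! ### the modular instance -/

section Mod

variable (M₀ q : ℕ) [NeZero M₀] [NeZero q] {A : ValuationSubring Qb}
  {Mid SS : Type} [Fintype Mid] [Fintype SS]
  {FkP : SS → Type} [∀ P, Field (FkP P)] [∀ P, Algebra (IsLocalRing.ResidueField A) (FkP P)]
  (S : ∀ c : Vtx Mid SS, ValSetup Qb (FBar (M₀ * q * q)) (IsLocalRing.ResidueField A)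
    (FkOf (modularFunctionFieldFullC (IsLocalRing.ResidueField A) M₀)
      (fun _ : Mid => ↥(igField (IsLocalRing.ResidueField A) M₀)) FkP c))

set_option maxHeartbeats 3200000 in
/-- **the multi-node data of the node family (1) on `X₀(M₀ q²)`**: `u = u₁`, `V₁ = {∞} ∪ Mid`,
`V₂ = {hor P}`.  The inputs at `∞` and at the middle vertices are discharged; the inputs at the
`hor P` are the exports of W-P. -/
theorem mn1_data_mod [Nonempty SS] (hq : q.Prime) (hqM : ¬ q ∣ M₀) (hA : A.LiesOverPrime q)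
    (hAeq : ∀ c c' : Vtx Mid SS, (S c).A = (S c').A)
    (hres : ∀ (c c' : Vtx Mid SS) (x : Qb) (h : x ∈ (S c).A) (h' : x ∈ (S c').A),
      (S c).res ⟨x, h⟩ = (S c').res ⟨x, h'⟩)
    (hindep : ∀ c c' : Vtx Mid SS, c ≠ c' → ¬ (S c).Ov ≤ (S c').Ov)
    (hoo : IsGaussSetup (M₀ * q * q) M₀ A (S (Vtx.vert Vrt.oo)))
    {z : Mid → Qbˣ} {ε : Mid → (↥(modularFunctionFieldBar (M₀ * q * q)) →ₐ[Qb] LaurentSeries Qb)}
    (hε : ∀ m, IsMidExp M₀ q (z m) (ε m))
    (hmid : ∀ m, IsMidSetup M₀ q A (ε m) (S (Vtx.vert (Vrt.mid m))))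
    (hcard : Fintype.card Mid = midCard q)
    (hIg : IntermediateField.relfinrank
      (modularFunctionFieldFullC (IsLocalRing.ResidueField A) M₀)
      (igField (IsLocalRing.ResidueField A) M₀) = midDeg q)
    {ϖ : Qb} (hϖ0 : ϖ ≠ 0) (hϖm : ϖ ∈ A) (hϖr : IsLocalRing.residue A ⟨ϖ, hϖm⟩ = 0)
    -- W-P
    (hu_hor : ∀ P, algebraMap Qb (FBar (M₀ * q * q)) ϖ /
      uF (M₀ * q * q) q (umid_dvd1 M₀ q) ∈ (S (Vtx.hor P)).Ov)
    (htr_hor : ∀ P, Transcendental (IsLocalRing.ResidueField A)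
      ((S (Vtx.hor P)).red (algebraMap Qb (FBar (M₀ * q * q)) ϖ /
        uF (M₀ * q * q) q (umid_dvd1 M₀ q))))
    (hdeg_hor : (q - 1) * (q * dedekindPsi M₀) ≤
      ∑ P, Module.finrank (IsLocalRing.ResidueField A)⟮(S (Vtx.hor P)).red
        (algebraMap Qb (FBar (M₀ * q * q)) ϖ / uF (M₀ * q * q) q (umid_dvd1 M₀ q))⟯
        (FkOf (modularFunctionFieldFullC (IsLocalRing.ResidueField A) M₀)
          (fun _ : Mid => ↥(igField (IsLocalRing.ResidueField A) M₀)) FkP (Vtx.hor P))) :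
    MNData S (mn1V₁ Mid SS) (mn1V₂ Mid SS) (uF (M₀ * q * q) q (umid_dvd1 M₀ q)) ϖ := by
  have hAoo : (S (Vtx.vert Vrt.oo)).A = A := hoo.A_eq
  have hm0 : ϖ ∈ (S (Vtx.vert Vrt.oo)).A := by
    rw [hAoo]
    exact hϖm
  have hr0 : (S (Vtx.vert Vrt.oo)).res ⟨ϖ, hm0⟩ = 0 := by
    rw [hoo.res_eq ϖ hm0 hϖm, hϖr]
  refine mn1_data S hAeq hres hindep hϖ0 hm0 hr0 (uF_mem_Ov hoo q _)
    (transcendental_red_uF hoo q _ hq.two_le) (fun m => umid_uF_mem_Ov (hmid m) (hε m))
    (fun m => umid_transcendental_red_uF (hmid m) (hε m) hq.two_le) hu_hor htr_hor ?_ ?_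
  · have h1 := finrank_uF_sq hq (show M₀ * q * q = q * q * M₀ by ring) hqM (umid_dvd1 M₀ q)
    have h2 := finrank_red_uF hoo q hq hqM hA (umid_dvd1 M₀ q)
    have h3 := fun m : Mid => mn1Mod_finrank_mid M₀ hq hqM hA hIg _
      (coe_red_uF hoo q (umid_dvd1 M₀ q) hq hA) _ (umid_coe_red_uF (hmid m) (hε m) hq hA)
    have h4 : Fintype.card Mid * (midDeg q * ((q - 1) * dedekindPsi M₀)) =
        ∑ _m : Mid, midDeg q * ((q - 1) * dedekindPsi M₀) := by
      rw [Finset.sum_const, Finset.card_univ, smul_eq_mul]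
    exact le_of_eq (h1.trans ((mn1Mod_num hq (dedekindPsi M₀) (Fintype.card Mid) hcard).trans
      (congrArg₂ (· + ·) h2.symm (h4.trans (Finset.sum_congr rfl fun m _ => (h3 m).symm)))))
  · have h1 := finrank_uF_sq hq (show M₀ * q * q = q * q * M₀ by ring) hqM (umid_dvd1 M₀ q)
    exact h1.le.trans hdeg_hor

set_option maxHeartbeats 3200000 in
/-- **the multi-node data of the node family (1)** from the reduction of `ϖ₁ / u₁` on the
`H_P` (`EndsRed1`: `red_P (ϖ₁ / u₁) = c / X₁ ^ 12`) and the mass inequality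
`(q - 1) ψ(M₀) ≤ 12 #SS`. -/
theorem mn1_data_mod_of_red [Nonempty SS] (hq : q.Prime) (hqM : ¬ q ∣ M₀)
    (hA : A.LiesOverPrime q)
    (hAeq : ∀ c c' : Vtx Mid SS, (S c).A = (S c').A)
    (hres : ∀ (c c' : Vtx Mid SS) (x : Qb) (h : x ∈ (S c).A) (h' : x ∈ (S c').A),
      (S c).res ⟨x, h⟩ = (S c').res ⟨x, h'⟩)
    (hindep : ∀ c c' : Vtx Mid SS, c ≠ c' → ¬ (S c).Ov ≤ (S c').Ov)
    (hoo : IsGaussSetup (M₀ * q * q) M₀ A (S (Vtx.vert Vrt.oo)))
    {z : Mid → Qbˣ} {ε : Mid → (↥(modularFunctionFieldBar (M₀ * q * q)) →ₐ[Qb] LaurentSeries Qb)}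
    (hε : ∀ m, IsMidExp M₀ q (z m) (ε m))
    (hmid : ∀ m, IsMidSetup M₀ q A (ε m) (S (Vtx.vert (Vrt.mid m))))
    (hcard : Fintype.card Mid = midCard q)
    (hIg : IntermediateField.relfinrank
      (modularFunctionFieldFullC (IsLocalRing.ResidueField A) M₀)
      (igField (IsLocalRing.ResidueField A) M₀) = midDeg q)
    {ϖ : Qb} (hϖ0 : ϖ ≠ 0) (hϖm : ϖ ∈ A) (hϖr : IsLocalRing.residue A ⟨ϖ, hϖm⟩ = 0)
    -- W-P + SEED-UP
    (H : ∀ P : SS, HPCurve (IsLocalRing.ResidueField A)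
      (FkOf (modularFunctionFieldFullC (IsLocalRing.ResidueField A) M₀)
        (fun _ : Mid => ↥(igField (IsLocalRing.ResidueField A) M₀)) FkP (Vtx.hor P)) q)
    (hx1 : EndsRed1 S H (algebraMap Qb (FBar (M₀ * q * q)) ϖ /
      uF (M₀ * q * q) q (umid_dvd1 M₀ q)))
    -- GENUS
    (hmass : (q - 1) * dedekindPsi M₀ ≤ 12 * Fintype.card SS) :
    MNData S (mn1V₁ Mid SS) (mn1V₂ Mid SS) (uF (M₀ * q * q) q (umid_dvd1 M₀ q)) ϖ := by
  haveI : IsAlgClosed (IsLocalRing.ResidueField A) := Fermat.Agent.GaussInt.isAlgClosed_residue A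
  haveI : CharP (IsLocalRing.ResidueField A) q := uh_charP_residue A hq hA
  exact mn1_data_mod M₀ q S hq hqM hA hAeq hres hindep hoo hε hmid hcard hIg hϖ0 hϖm hϖr
    (fun P => hx1.mem P) (fun P => hx1.transcendental hq P) (hx1.hdeg hq (endsHor_num hmass))

end Mod

end Fermat.Agent.S36G
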