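/-
Cluster G (S36, bad reduction at `q² ∥ M`), SEED, seats MNAMod + MN2Mod, level `M` versions
(helper82; sub-architect helper92):
**the multi-node data `DA`, `D2` of the node families (A), (2) with the W-P inputs discharged**
from the SEED-UP outputs `EndsRedA` (`red_P (ϖ_A / u₂) = c · X₂ ^ 12`) resp. `EndsRed2`
(`red_P (u₁ / ϖ₁) = c · X₁ ^ 12`) of `S36/Seed/Ends.lean` and the mass inequality
`(q - 1) ψ(M₀) ≤ 12 #SS`.  Level `M` with `hM : M = D.Q * D.R`, `hR : M₀ = D.R`,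
`hQ : q * q = D.Q` (e.g. `M = M₀ * q * q`), as in `MNAt.lean` (helper91); the companion of
`mn1_data_mod_of_red` (helper18, `MN1Mod.lean`).

* `mnA_data_at_of_red` : `MNData S {∞} (mn1V₂ Mid SS) (uF2 M q h2) ϖ`;
* `mn2_data_at_of_red` : `MNData S (mn1V₂ Mid SS) {0} (uF M q h1 / ϖ₁) (q ^ 12 / ϖ₁)`;
* `mnA_data_at_modSS`, `mn2_data_at_modSS` : the same for `SS = ModSS A M₀ q`
  (`S36/G/ModSS.lean`), where the mass inequality is `modSS_card_ge` (GENUS).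
-/
import Mathlib
import Fermat.Agent.S36.Seed.MNAt
import Fermat.Agent.S36.Seed.EndsHor
import Fermat.Agent.S36.G.ModSS
import Fermat.Agent.Lib.BadRed.Mod.UHyp

set_option autoImplicit false
set_option linter.style.haveILetI false
set_option linter.unusedSectionVars false
set_option linter.unusedVariables false
set_option synthInstance.maxHeartbeats 400000

noncomputable section

namespace Fermat.Agent.S36G

open IntermediateField ModularCurve AlgebraicCurve Fermat.Agent.GaussInt Fermat.Agent.AtkinLehner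
  Fermat.Agent.Deuring Fermat.Agent.S28 Fermat.Agent.F3 Fermat.Agent.F3G Fermat.Agent.BadRed
  Fermat.Agent.RR Fermat.Agent.BadRedG Fermat.Agent.HP

local notation "Qb" => AlgebraicClosure ℚ

attribute [local instance 10000] SubalgebraClass.toAlgebra HahnSeries.powerSeriesAlgebra

section Red

variable (D : ALData) {M M₀ : ℕ} [NeZero M] [NeZero M₀] (q : ℕ) [NeZero q]
  {A : ValuationSubring Qb}
  {Mid SS : Type} [Fintype SS]
  {FkM : Mid → Type} [∀ m, Field (FkM m)] [∀ m, Algebra (IsLocalRing.ResidueField A) (FkM m)]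
  {FkP : SS → Type} [∀ P, Field (FkP P)] [∀ P, Algebra (IsLocalRing.ResidueField A) (FkP P)]
  (S : ∀ c : Vtx Mid SS, ValSetup Qb (FBar M) (IsLocalRing.ResidueField A)
    (FkOf (modularFunctionFieldFullC (IsLocalRing.ResidueField A) M₀) FkM FkP c))

/-- **`DA` from SEED-UP**: the multi-node data of the node family (A) (`u = u₂`, `V₁ = {∞}`,
`V₂ = {hor P}`), the inputs on the horizontal components being discharged from `EndsRedA`
(`red_P (ϖ / u₂) = c · X₂ ^ 12`) and the mass inequality. -/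
theorem mnA_data_at_of_red [Nonempty SS] (hM : M = D.Q * D.R) (hR : M₀ = D.R)
    (hQ : q * q = D.Q) (hq : q.Prime) (hqM : ¬ q ∣ M₀) (hA : A.LiesOverPrime q)
    (hAeq : ∀ c c' : Vtx Mid SS, (S c).A = (S c').A)
    (hres : ∀ (c c' : Vtx Mid SS) (x : Qb) (h : x ∈ (S c).A) (h' : x ∈ (S c').A),
      (S c).res ⟨x, h⟩ = (S c').res ⟨x, h'⟩)
    (hindep : ∀ c c' : Vtx Mid SS, c ≠ c' → ¬ (S c).Ov ≤ (S c').Ov)
    (hoo : IsGaussSetup M M₀ A (S (Vtx.vert Vrt.oo)))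
    (h2 : q * q ∣ M)
    {ϖ : Qb} (hϖ0 : ϖ ≠ 0) (hϖm : ϖ ∈ A) (hϖr : IsLocalRing.residue A ⟨ϖ, hϖm⟩ = 0)
    -- W-P + SEED-UP
    (H : ∀ P : SS, HPCurve (IsLocalRing.ResidueField A)
      (FkOf (modularFunctionFieldFullC (IsLocalRing.ResidueField A) M₀) FkM FkP (Vtx.hor P)) q)
    (hxA : EndsRedA S H (algebraMap Qb (FBar M) ϖ / uF2 M q h2))
    -- GENUS
    (hmass : (q - 1) * dedekindPsi M₀ ≤ 12 * Fintype.card SS) :
    MNData S {Vtx.vert Vrt.oo} (mn1V₂ Mid SS) (uF2 M q h2) ϖ := by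
  haveI : IsAlgClosed (IsLocalRing.ResidueField A) := Fermat.Agent.GaussInt.isAlgClosed_residue A
  haveI : CharP (IsLocalRing.ResidueField A) q := uh_charP_residue A hq hA
  exact mnA_data_at D q S hM hR hQ hq hqM hA hAeq hres hindep hoo h2 hϖ0 hϖm hϖr
    (fun P => hxA.mem P) (fun P => hxA.transcendental hq P) (hxA.hdeg hq (endsHor_num hmass))

/-- **`D2` from SEED-UP**: the multi-node data of the node family (2) (`u = u₁ / ϖ₁`,
`ϖ = q ^ 12 / ϖ₁`, `V₁ = {hor P}`, `V₂ = {0}`), the inputs on the horizontal components being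
discharged from `EndsRed2` (`red_P (u₁ / ϖ₁) = c · X₁ ^ 12`) and the mass inequality. -/
theorem mn2_data_at_of_red [Nonempty SS] (hM : M = D.Q * D.R) (hR : M₀ = D.R)
    (hQ : q * q = D.Q) (hq : q.Prime) (hqM : ¬ q ∣ M₀) (hA : A.LiesOverPrime q)
    (hAeq : ∀ c c' : Vtx Mid SS, (S c).A = (S c').A)
    (hres : ∀ (c c' : Vtx Mid SS) (x : Qb) (h : x ∈ (S c).A) (h' : x ∈ (S c').A),
      (S c).res ⟨x, h⟩ = (S c').res ⟨x, h'⟩)
    (hindep : ∀ c c' : Vtx Mid SS, c ≠ c' → ¬ (S c).Ov ≤ (S c').Ov)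
    (hoo : IsGaussSetup M M₀ A (S (Vtx.vert Vrt.oo)))
    (hzero : S (Vtx.vert Vrt.zero) = valSetupZeroAt D hM (S (Vtx.vert Vrt.oo)))
    (h1 : q ∣ M)
    {ϖ₁ : Qb} (hϖ0 : ϖ₁ ≠ 0) (hϖm : (q : Qb) ^ 12 / ϖ₁ ∈ A)
    (hϖr : IsLocalRing.residue A ⟨(q : Qb) ^ 12 / ϖ₁, hϖm⟩ = 0)
    -- W-P + SEED-UP
    (H : ∀ P : SS, HPCurve (IsLocalRing.ResidueField A)
      (FkOf (modularFunctionFieldFullC (IsLocalRing.ResidueField A) M₀) FkM FkP (Vtx.hor P)) q)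
    (hx2 : EndsRed2 S H (uF M q h1 / algebraMap Qb (FBar M) ϖ₁))
    -- GENUS
    (hmass : (q - 1) * dedekindPsi M₀ ≤ 12 * Fintype.card SS) :
    MNData S (mn1V₂ Mid SS) {Vtx.vert Vrt.zero}
      (uF M q h1 / algebraMap Qb (FBar M) ϖ₁) ((q : Qb) ^ 12 / ϖ₁) := by
  haveI : IsAlgClosed (IsLocalRing.ResidueField A) := Fermat.Agent.GaussInt.isAlgClosed_residue A
  haveI : CharP (IsLocalRing.ResidueField A) q := uh_charP_residue A hq hA
  exact mn2_data_at D q S hM hR hQ hq hqM hA hAeq hres hindep hoo hzero h1 hϖ0 hϖm hϖr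
    (fun P => hx2.mem P) (fun P => hx2.transcendental hq P) (hx2.hdeg hq (endsHor_num hmass))

end Red

/-! ### `SS = ModSS A M₀ q`: the mass inequality is `modSS_card_ge` -/

section ModSSInst

variable (D : ALData) {M M₀ : ℕ} [NeZero M] [NeZero M₀] (q : ℕ) [NeZero q]
  {A : ValuationSubring Qb} [Fintype (ModSS A M₀ q)]
  {Mid : Type}
  {FkM : Mid → Type} [∀ m, Field (FkM m)] [∀ m, Algebra (IsLocalRing.ResidueField A) (FkM m)]
  {FkP : ModSS A M₀ q → Type} [∀ P, Field (FkP P)]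
  [∀ P, Algebra (IsLocalRing.ResidueField A) (FkP P)]
  (S : ∀ c : Vtx Mid (ModSS A M₀ q),
    ValSetup Qb (FBar M) (IsLocalRing.ResidueField A)
      (FkOf (modularFunctionFieldFullC (IsLocalRing.ResidueField A) M₀) FkM FkP c))

/-- **`DA` for `SS = ModSS A M₀ q`** (`M₀` without elliptic points): the only input on the
horizontal components is `EndsRedA`. -/
theorem mnA_data_at_modSS (hM : M = D.Q * D.R) (hR : M₀ = D.R)
    (hQ : q * q = D.Q) (hq : q.Prime) (hqM : ¬ q ∣ M₀)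
    (hν2 : nuTwo M₀ = 0) (hν3 : nuThree M₀ = 0)
    (h2' : q = 2 → 3 ∣ M₀) (h3' : q = 3 → 2 ∣ M₀) (hA : A.LiesOverPrime q)
    (hAeq : ∀ c c' : Vtx Mid (ModSS A M₀ q), (S c).A = (S c').A)
    (hres : ∀ (c c' : Vtx Mid (ModSS A M₀ q)) (x : Qb) (h : x ∈ (S c).A) (h' : x ∈ (S c').A),
      (S c).res ⟨x, h⟩ = (S c').res ⟨x, h'⟩)
    (hindep : ∀ c c' : Vtx Mid (ModSS A M₀ q), c ≠ c' → ¬ (S c).Ov ≤ (S c').Ov)
    (hoo : IsGaussSetup M M₀ A (S (Vtx.vert Vrt.oo)))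
    (h2 : q * q ∣ M)
    {ϖ : Qb} (hϖ0 : ϖ ≠ 0) (hϖm : ϖ ∈ A) (hϖr : IsLocalRing.residue A ⟨ϖ, hϖm⟩ = 0)
    (H : ∀ P : ModSS A M₀ q, HPCurve (IsLocalRing.ResidueField A)
      (FkOf (modularFunctionFieldFullC (IsLocalRing.ResidueField A) M₀) FkM FkP (Vtx.hor P)) q)
    (hxA : EndsRedA S H (algebraMap Qb (FBar M) ϖ / uF2 M q h2)) :
    MNData S {Vtx.vert Vrt.oo} (mn1V₂ Mid (ModSS A M₀ q)) (uF2 M q h2) ϖ :=
  haveI : Nonempty (ModSS A M₀ q) := modSS_nonempty hq hqM hν2 hν3 h2' h3' hA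
  mnA_data_at_of_red D q S hM hR hQ hq hqM hA hAeq hres hindep hoo h2 hϖ0 hϖm hϖr H hxA
    (modSS_card_ge hq hqM hν2 hν3 h2' h3' hA)

/-- **`D2` for `SS = ModSS A M₀ q`** (`M₀` without elliptic points): the only input on the
horizontal components is `EndsRed2`. -/
theorem mn2_data_at_modSS (hM : M = D.Q * D.R) (hR : M₀ = D.R)
    (hQ : q * q = D.Q) (hq : q.Prime) (hqM : ¬ q ∣ M₀)
    (hν2 : nuTwo M₀ = 0) (hν3 : nuThree M₀ = 0)
    (h2' : q = 2 → 3 ∣ M₀) (h3' : q = 3 → 2 ∣ M₀) (hA : A.LiesOverPrime q)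
    (hAeq : ∀ c c' : Vtx Mid (ModSS A M₀ q), (S c).A = (S c').A)
    (hres : ∀ (c c' : Vtx Mid (ModSS A M₀ q)) (x : Qb) (h : x ∈ (S c).A) (h' : x ∈ (S c').A),
      (S c).res ⟨x, h⟩ = (S c').res ⟨x, h'⟩)
    (hindep : ∀ c c' : Vtx Mid (ModSS A M₀ q), c ≠ c' → ¬ (S c).Ov ≤ (S c').Ov)
    (hoo : IsGaussSetup M M₀ A (S (Vtx.vert Vrt.oo)))
    (hzero : S (Vtx.vert Vrt.zero) = valSetupZeroAt D hM (S (Vtx.vert Vrt.oo)))
    (h1 : q ∣ M)
    {ϖ₁ : Qb} (hϖ0 : ϖ₁ ≠ 0) (hϖm : (q : Qb) ^ 12 / ϖ₁ ∈ A)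
    (hϖr : IsLocalRing.residue A ⟨(q : Qb) ^ 12 / ϖ₁, hϖm⟩ = 0)
    (H : ∀ P : ModSS A M₀ q, HPCurve (IsLocalRing.ResidueField A)
      (FkOf (modularFunctionFieldFullC (IsLocalRing.ResidueField A) M₀) FkM FkP (Vtx.hor P)) q)
    (hx2 : EndsRed2 S H (uF M q h1 / algebraMap Qb (FBar M) ϖ₁)) :
    MNData S (mn1V₂ Mid (ModSS A M₀ q)) {Vtx.vert Vrt.zero}
      (uF M q h1 / algebraMap Qb (FBar M) ϖ₁) ((q : Qb) ^ 12 / ϖ₁) :=
  haveI : Nonempty (ModSS A M₀ q) := modSS_nonempty hq hqM hν2 hν3 h2' h3' hA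
  mn2_data_at_of_red D q S hM hR hQ hq hqM hA hAeq hres hindep hoo hzero h1 hϖ0 hϖm hϖr H hx2
    (modSS_card_ge hq hqM hν2 hν3 h2' h3' hA)

end ModSSInst

end Fermat.Agent.S36G
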