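/-
Cluster G (S36, Carayol at `q² ∥ M`), seat SEED / MG-INST glue (helper19; sub-architect helper92):
**the point `P_m` over a supersingular place `P` on the Igusa component, in the two languages**.

* `EndsVert.lean` (helper9) : restriction form,
  `Place.restrictAlong (igIncl k M₀) (sev_isIntegral ..) (pv P (mid m)) = ι P` (`sevPv`, `sevMidPt`);
* `Sep.lean` (helper70), `RamIndex.lean` (helper24) : `PlaceOver` form (`igPv`, `igPv_over`).

`igIncl` is an abbreviation of `IntermediateField.inclusion (fullC_le_igField k M₀)`.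

* `seedBr_placeOver_of_restrict` : restriction form ⟹ `PlaceOver` (any integral `φ`);
* `seedBr_restrict_of_placeOver` : `PlaceOver` ⟹ restriction form;
* `seedBr_sevMidPt_placeOver`, `seedBr_sevPv_placeOver` : `hpvM` of `sep_sep1_mod` for
  `pv := sevPv`;
* `seedBr_sevMidPt_eq_igPv` : the two mid points agree at a supersingular place;
* `seedBr_igPv_restrict`    : restriction form for `igPv` (any place `P`).
-/
import Mathlib
import Fermat.Agent.S36.Seed.EndsVert
import Fermat.Agent.S36.Seed.OldMid
import Fermat.Agent.S36.Igusa.RamIndex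
import Fermat.Agent.Lib.RR.Hurwitz.Rel

set_option autoImplicit false
set_option linter.style.haveILetI false
set_option linter.unusedSectionVars false
set_option linter.unusedVariables false
set_option synthInstance.maxHeartbeats 400000

noncomputable section

namespace Fermat.Agent.S36G

open ModularCurve AlgebraicCurve Fermat.Agent.BadRed Fermat.Agent.RR

section Abs

variable {K E F : Type*} [Field K] [Field E] [Field F] [Algebra K E] [Algebra K F]

/-- restriction form ⟹ `PlaceOver`. -/
theorem seedBr_placeOver_of_restrict (φ : E →ₐ[K] F) (hφ : φ.toRingHom.IsIntegral)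
    {P : Place K E} {Q : Place K F} (h : Q.restrictAlong φ hφ = P) : PlaceOver φ P Q :=
  fun x hx => (Fermat.Agent.RRRel.ord_map_pos_iff φ hφ Q x).mpr (h ▸ hx)

/-- the restriction of `Q` lies under `Q`. -/
theorem seedBr_placeOver_restrict (φ : E →ₐ[K] F) (hφ : φ.toRingHom.IsIntegral)
    (Q : Place K F) : PlaceOver φ (Q.restrictAlong φ hφ) Q :=
  seedBr_placeOver_of_restrict φ hφ rfl

end Abs

section Mod

variable (M₀ q : ℕ) (hq : q.Prime) (hqM : ¬ q ∣ M₀) (k : Type) [Field k] [IsAlgClosed k]
  [CharP k q]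

/-- `sevMidPt P` lies over `P`. -/
theorem seedBr_sevMidPt_placeOver (P : Place k ↥(modularFunctionFieldFullC k M₀)) :
    PlaceOver (IntermediateField.inclusion (fullC_le_igField k M₀)) P
      (sevMidPt M₀ q hq hqM k P) :=
  seedBr_placeOver_of_restrict (igIncl k M₀) (sev_isIntegral M₀ q hq k)
    (sev_restrict_midPt M₀ q hq hqM k P)

/-- **`hpvM` of `sep_sep1_mod` for `pv := sevPv`.** -/
theorem seedBr_sevPv_placeOver {Mid SS : Type}
    (FkP : SS → Type) [∀ P, Field (FkP P)] [∀ P, Algebra k (FkP P)]
    (ι : SS → Place k ↥(modularFunctionFieldFullC k M₀)) (P : SS) (m : Mid) :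
    PlaceOver (IntermediateField.inclusion (fullC_le_igField k M₀)) (ι P)
      (sevPv M₀ q hq hqM k FkP ι P (Vrt.mid m)) :=
  seedBr_sevMidPt_placeOver M₀ q hq hqM k (ι P)

/-- **the two mid points agree at a supersingular place.** -/
theorem seedBr_sevMidPt_eq_igPv (hRR : IsRRField k ↥(igField k M₀))
    (P : Place k ↥(modularFunctionFieldFullC k M₀)) (hSS : IsSSPlace k M₀ q P)
    (hno : ∀ u : ↥(modularFunctionFieldFullC k M₀), (u : LaurentSeries k) = ssFun k q →
      P.ord u = 12) :
    sevMidPt M₀ q hq hqM k P = igPv M₀ q hq hqM k hRR P :=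
  igPv_unique hq hqM k hRR P hSS hno _ (seedBr_sevMidPt_placeOver M₀ q hq hqM k P)

/-- **restriction form for `igPv`** at a supersingular place (so that `EndsVert.lean` applies
to `pv := igPv`). -/
theorem seedBr_igPv_restrict (hRR : IsRRField k ↥(igField k M₀))
    (P : Place k ↥(modularFunctionFieldFullC k M₀)) (hSS : IsSSPlace k M₀ q P)
    (hno : ∀ u : ↥(modularFunctionFieldFullC k M₀), (u : LaurentSeries k) = ssFun k q →
      P.ord u = 12) :
    (igPv M₀ q hq hqM k hRR P).restrictAlong (igIncl k M₀) (sev_isIntegral M₀ q hq k) = P := by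
  rw [← seedBr_sevMidPt_eq_igPv M₀ q hq hqM k hRR P hSS hno]
  exact sev_restrict_midPt M₀ q hq hqM k P

/-- `sevPv` at a middle vertex is `igPv` (at the supersingular places). -/
theorem seedBr_sevPv_mid_eq_igPv {Mid SS : Type}
    (FkP : SS → Type) [∀ P, Field (FkP P)] [∀ P, Algebra k (FkP P)]
    (hRR : IsRRField k ↥(igField k M₀))
    (ι : SS → Place k ↥(modularFunctionFieldFullC k M₀))
    (hss : ∀ P, IsSSPlace k M₀ q (ι P))
    (hno : ∀ Q : Place k ↥(modularFunctionFieldFullC k M₀), IsSSPlace k M₀ q Q →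
      ∀ u : ↥(modularFunctionFieldFullC k M₀), (u : LaurentSeries k) = ssFun k q → Q.ord u = 12)
    (P : SS) (m : Mid) :
    sevPv M₀ q hq hqM k FkP ι P (Vrt.mid m) = igPv M₀ q hq hqM k hRR (ι P) :=
  seedBr_sevMidPt_eq_igPv M₀ q hq hqM k hRR (ι P) (hss P) (hno (ι P) (hss P))

end Mod

end Fermat.Agent.S36G
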