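/-
Cluster G (S36, Carayol at `q² ∥ M`), seat SEED-SEP (helper70; sub-architects helper40, helper92):
**separation of the supersingular points by OLD functions**: the fields `sepA` and `sep1` of
`ModEndsInput` (`S36/G/SeedInput.lean`) for the modular family on `F = F_{M₀ q²}`.
(`sep2`, the vertex `v_0`: helper78's `S36/Seed/Sep2.lean`.)

For a supersingular point `P` take `g₀ ∈ F_{M₀}` Gauss-integral with cuspidal poles, `ḡ₀ (P) = 1`,
`ḡ₀ (P') = 0` at the other supersingular points (`seedOld_exists_delta`), and `g := g₀ (z)`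
(`oldFun2 M₀ q g₀ = wpIota0 M₀ q g₀`).  Then
* `g` is integral at `v_∞` and at the `v_m` with reduction `ḡ₀` (`OldMid.lean`), so its value at
  `P_∞`, `P_m` is `1`;
* `g` is integral at every `w_{P'}` with CONSTANT reduction `ḡ₀ (P')` (W-P, `WPOut.old0`), so
  `red_{P'} g = 0` for `P' ≠ P`;
* the poles of `g` are cusps, i.e. zeros or poles of `u₁`, `u₂` (`Cusp.lean`).

Layers:
* `SepHorOld`, `SepMidOld` : the two inputs (W-P and IG) as NAMED hypotheses on an arbitrary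
  family `S c`, `c : Vtx Mid SS`;
* `sep_sepA`, `sep_sep1`   : the fields `sepA`, `sep1` (any `VA₁ ⊆ {∞}`, `VA₂ ⊆ {hor P}`,
  `V1₁ ⊆ {∞} ∪ Mid`, `V1₂ ⊆ {hor P}`, any parameters `uA`, `u1` whose zeros and poles contain
  the cusps);
* `sepHorOld_of_wpOut`     : `SepHorOld` from a family of `WPOut`;
* `sepMidOld_of_isMidSetup`: `SepMidOld` from `IsMidExp` / `IsMidSetup` (`FkM m = igField`);
* `sep_cusp_uF2`, `sep_cusp_uF` : the hypotheses on `uA = u₂`, `u1 = u₁`;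
* `sep_sepA_mod`, `sep_sep1_mod` : everything put together.
-/
import Mathlib
import Fermat.Agent.S36.Seed.OldSep
import Fermat.Agent.S36.Seed.OldMid
import Fermat.Agent.S36.Seed.Cusp
import Fermat.Agent.S36.Seed.MN1
import Fermat.Agent.S36.HPVal.Defs
import Fermat.Agent.S36.HPVal.DiscModG
import Fermat.Agent.S36.G.SeedInput

set_option autoImplicit false
set_option linter.style.haveILetI false
set_option linter.unusedSectionVars false
set_option linter.unusedVariables false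
set_option synthInstance.maxHeartbeats 400000

noncomputable section

namespace Fermat.Agent.S36G

open ModularCurve AlgebraicCurve Fermat.Agent.GaussInt Fermat.Agent.Deuring
  Fermat.Agent.BadRed Fermat.Agent.BadRedG Fermat.Agent.S24 Fermat.Agent.AtkinLehner
  Fermat.Agent.HPVal

local notation "Qb" => AlgebraicClosure ℚ

/- speed: the two instances which the `Algebra` queries of this file resolve to anyway; tried first,
they cut the elaboration time of the statements by a factor 5 -/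
attribute [local instance 10000] SubalgebraClass.toAlgebra HahnSeries.powerSeriesAlgebra

section Abs

variable (M₀ q : ℕ) [NeZero M₀] [NeZero q] {A : ValuationSubring Qb}
  {Mid SS : Type}
  {FkM : Mid → Type} [∀ m, Field (FkM m)] [∀ m, Algebra (IsLocalRing.ResidueField A) (FkM m)]
  {FkP : SS → Type} [∀ P, Field (FkP P)] [∀ P, Algebra (IsLocalRing.ResidueField A) (FkP P)]
  (S : ∀ c : Vtx Mid SS, ValSetup Qb ↥(modularFunctionFieldBar (M₀ * q * q))
    (IsLocalRing.ResidueField A)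
    (FkOf ↥(modularFunctionFieldFullC (IsLocalRing.ResidueField A) M₀) FkM FkP c))
  (hq : q.Prime) (hA : A.LiesOverPrime q) (hqM : ¬ q ∣ M₀)
  (ssPlace : SS → Place (IsLocalRing.ResidueField A)
    ↥(modularFunctionFieldFullC (IsLocalRing.ResidueField A) M₀))
  (pv : ∀ (_ : SS) (v : Vrt Mid), Place (IsLocalRing.ResidueField A)
    (FkOf ↥(modularFunctionFieldFullC (IsLocalRing.ResidueField A) M₀) FkM FkP (Vtx.vert v)))

/-- **(OLD on the horizontal components)**, the export of W-P used by SEED-SEP: the old function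
`g₀ (z)` of a Gauss-integral `g₀` with cuspidal poles is integral at `w_{P'}` and reduces to the
CONSTANT `ḡ₀ (P')`. -/
def SepHorOld : Prop :=
  ∀ (P' : SS) (g₀ : ↥(modularFunctionFieldBar M₀)),
    g₀ ∈ (modularValSetup A q M₀ hq hA hqM).Ov →
    (∀ v : Place Qb ↥(modularFunctionFieldBar M₀), 0 ≤ v.ord (jBar M₀) → 0 ≤ v.ord g₀) →
    ∀ c : IsLocalRing.ResidueField A,
      ValAt (ssPlace P') ((modularValSetup A q M₀ hq hA hqM).red g₀) c →
      oldFun2 M₀ q g₀ ∈ (S (Vtx.hor P')).Ov ∧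
        (S (Vtx.hor P')).red (oldFun2 M₀ q g₀) =
          algebraMap (IsLocalRing.ResidueField A)
            (FkOf ↥(modularFunctionFieldFullC (IsLocalRing.ResidueField A) M₀) FkM FkP
              (Vtx.hor P')) c

/-- **(OLD on the middle components)**, the export of IG used by SEED-SEP: the old function
`g₀ (z)` of a Gauss-integral `g₀` is integral at `v_m` and its reduction takes at `P_m` the value
of `ḡ₀` at `P`. -/
def SepMidOld : Prop :=
  ∀ (m : Mid) (g₀ : ↥(modularFunctionFieldBar M₀)),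
    g₀ ∈ (modularValSetup A q M₀ hq hA hqM).Ov →
    oldFun2 M₀ q g₀ ∈ (S (Vtx.vert (Vrt.mid m))).Ov ∧
      ∀ (P : SS) (c : IsLocalRing.ResidueField A),
        ValAt (ssPlace P) ((modularValSetup A q M₀ hq hA hqM).red g₀) c →
        ValAt (pv P (Vrt.mid m)) ((S (Vtx.vert (Vrt.mid m))).red (oldFun2 M₀ q g₀)) c

/-- `F_{M₀} ⊆ F_{M₀ q²}` (as fields of series). -/
theorem sep_bar_le : modularFunctionFieldBar M₀ ≤ modularFunctionFieldBar (M₀ * q * q) := by
  intro x hx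
  have h := (oldFun2 M₀ q ⟨x, hx⟩).2
  rwa [coe_oldFun2] at h

/-- the poles of an old function of a function with cuspidal poles are zeros or poles of any
parameter `u` whose zeros and poles contain the cusps. -/
theorem sep_old_poles {u : ↥(modularFunctionFieldBar (M₀ * q * q))}
    (hcusp : ∀ v : Place Qb ↥(modularFunctionFieldBar (M₀ * q * q)),
      v.ord (jBar (M₀ * q * q)) < 0 → v.ord u ≠ 0)
    (g₀ : ↥(modularFunctionFieldBar M₀))
    (h : ∀ v₀ : Place Qb ↥(modularFunctionFieldBar M₀), 0 ≤ v₀.ord (jBar M₀) → 0 ≤ v₀.ord g₀)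
    (v : Place Qb ↥(modularFunctionFieldBar (M₀ * q * q)))
    (hv : v.ord (oldFun2 M₀ q g₀) < 0) : v.ord u ≠ 0 := by
  apply hcusp v
  by_contra hcon
  rw [not_lt] at hcon
  have := ord_oldFun2_nonneg q g₀ h v hcon
  omega

variable {M₀ q S hq hA hqM ssPlace pv}

set_option maxHeartbeats 3200000 in
/-- the separating old function at `P`: all its properties on the modular family. -/
theorem sep_exists_old (haux : AuxLevelOK q M₀)
    (hoo : IsGaussSetup (M₀ * q * q) M₀ A (S (Vtx.vert Vrt.oo)))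
    (hss : ∀ P, IsSSPlace (IsLocalRing.ResidueField A) M₀ q (ssPlace P))
    (hinj : Function.Injective ssPlace)
    (hhor : SepHorOld M₀ q S hq hA hqM ssPlace) (P : SS) :
    ∃ g₀ : ↥(modularFunctionFieldBar M₀),
      g₀ ∈ (modularValSetup A q M₀ hq hA hqM).Ov ∧
      (∀ v : Place Qb ↥(modularFunctionFieldBar M₀), 0 ≤ v.ord (jBar M₀) → 0 ≤ v.ord g₀) ∧
      ValAt (ssPlace P) ((modularValSetup A q M₀ hq hA hqM).red g₀) 1 ∧
      oldFun2 M₀ q g₀ ∈ (S (Vtx.vert Vrt.oo)).Ov ∧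
      (S (Vtx.vert Vrt.oo)).red (oldFun2 M₀ q g₀) = (modularValSetup A q M₀ hq hA hqM).red g₀ ∧
      (∀ P' : SS, oldFun2 M₀ q g₀ ∈ (S (Vtx.hor P')).Ov) ∧
      ∀ P' : SS, P' ≠ P → (S (Vtx.hor P')).red (oldFun2 M₀ q g₀) = 0 := by
  obtain ⟨g₀, h1, h2, h3, h4, h5⟩ := seedOld_exists_delta M₀ hq hqM haux hA (ssPlace P) (hss P)
  have hle := sep_bar_le M₀ q
  have hold : IsOldOf (oldFun2 M₀ q g₀) g₀ := isOldOf_oldFun2 M₀ q g₀
  have h1' := (mem_modularValSetup_Ov_iff A q M₀ hq hA hqM g₀).mp h1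
  refine ⟨g₀, h1, h2, h4, isOldOf_mem_gauss hoo hle hold h1',
    red_isOldOf_gauss hq hA hqM hoo hle hold h1, fun P' => ?_, fun P' hne => ?_⟩
  · by_cases hP : P' = P
    · subst hP
      exact (hhor P' g₀ h1 h2 1 h4).1
    · exact (hhor P' g₀ h1 h2 0 (h5 (ssPlace P') (hss P') (fun e => hP (hinj e)))).1
  · have := (hhor P' g₀ h1 h2 0 (h5 (ssPlace P') (hss P') (fun e => hne (hinj e)))).2
    rw [this, map_zero]

set_option maxHeartbeats 3200000 in
/-- **SEED-SEP (A)**: the field `sepA` of `ModEndsInput`. -/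
theorem sep_sepA (haux : AuxLevelOK q M₀)
    (hoo : IsGaussSetup (M₀ * q * q) M₀ A (S (Vtx.vert Vrt.oo)))
    (hss : ∀ P, IsSSPlace (IsLocalRing.ResidueField A) M₀ q (ssPlace P))
    (hinj : Function.Injective ssPlace)
    (hpv : ∀ P, pv P Vrt.oo = ssPlace P)
    (hhor : SepHorOld M₀ q S hq hA hqM ssPlace)
    {VA₁ VA₂ : Finset (Vtx Mid SS)} (hVA₁ : ∀ c ∈ VA₁, c = Vtx.vert Vrt.oo)
    (hVA₂ : ∀ c ∈ VA₂, ∃ P, c = Vtx.hor P)
    {uA : ↥(modularFunctionFieldBar (M₀ * q * q))}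
    (hcuspA : ∀ v : Place Qb ↥(modularFunctionFieldBar (M₀ * q * q)),
      v.ord (jBar (M₀ * q * q)) < 0 → v.ord uA ≠ 0) :
    ∀ P : SS, ∃ g ∈ ncAdm S VA₁ VA₂ uA,
      ValAt (pv P Vrt.oo) ((S (Vtx.vert Vrt.oo)).red g) 1 ∧
        ∀ P' : SS, P' ≠ P → (S (Vtx.hor P')).red g = 0 := by
  intro P
  obtain ⟨g₀, h1, h2, h4, hmoo, hroo, hmhor, hrhor⟩ :=
    sep_exists_old haux hoo hss hinj hhor P
  refine ⟨oldFun2 M₀ q g₀, ⟨?_, ?_, ?_⟩, ?_, hrhor⟩
  · intro c hc
    rw [hVA₁ c hc]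
    exact hmoo
  · intro c hc
    obtain ⟨P', rfl⟩ := hVA₂ c hc
    exact hmhor P'
  · exact fun v hv => sep_old_poles M₀ q hcuspA g₀ h2 v hv
  · rw [hpv P, hroo]
    exact h4

set_option maxHeartbeats 3200000 in
/-- **SEED-SEP (1)**: the field `sep1` of `ModEndsInput`. -/
theorem sep_sep1 (haux : AuxLevelOK q M₀)
    (hoo : IsGaussSetup (M₀ * q * q) M₀ A (S (Vtx.vert Vrt.oo)))
    (hss : ∀ P, IsSSPlace (IsLocalRing.ResidueField A) M₀ q (ssPlace P))
    (hinj : Function.Injective ssPlace)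
    (hhor : SepHorOld M₀ q S hq hA hqM ssPlace)
    (hmid : SepMidOld M₀ q S hq hA hqM ssPlace pv)
    {VA₁ VA₂ V1₁ V1₂ : Finset (Vtx Mid SS)} (hVA₁ : ∀ c ∈ VA₁, c = Vtx.vert Vrt.oo)
    (hVA₂ : ∀ c ∈ VA₂, ∃ P, c = Vtx.hor P)
    (hV1₁ : ∀ c ∈ V1₁, c = Vtx.vert Vrt.oo ∨ ∃ m, c = Vtx.vert (Vrt.mid m))
    (hV1₂ : ∀ c ∈ V1₂, ∃ P, c = Vtx.hor P)
    {uA u1 : ↥(modularFunctionFieldBar (M₀ * q * q))}
    (hcuspA : ∀ v : Place Qb ↥(modularFunctionFieldBar (M₀ * q * q)),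
      v.ord (jBar (M₀ * q * q)) < 0 → v.ord uA ≠ 0)
    (hcusp1 : ∀ v : Place Qb ↥(modularFunctionFieldBar (M₀ * q * q)),
      v.ord (jBar (M₀ * q * q)) < 0 → v.ord u1 ≠ 0) :
    ∀ (P : SS) (m : Mid), ∃ g ∈ ncAdm S V1₁ V1₂ u1 ∩ ncAdm S VA₁ VA₂ uA,
      ValAt (pv P (Vrt.mid m)) ((S (Vtx.vert (Vrt.mid m))).red g) 1 ∧
        ∀ P' : SS, P' ≠ P → (S (Vtx.hor P')).red g = 0 := by
  intro P m
  obtain ⟨g₀, h1, h2, h4, hmoo, hroo, hmhor, hrhor⟩ :=
    sep_exists_old haux hoo hss hinj hhor P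
  refine ⟨oldFun2 M₀ q g₀, ⟨⟨?_, ?_, ?_⟩, ⟨?_, ?_, ?_⟩⟩, ?_, hrhor⟩
  · intro c hc
    rcases hV1₁ c hc with rfl | ⟨m', rfl⟩
    · exact hmoo
    · exact (hmid m' g₀ h1).1
  · intro c hc
    obtain ⟨P', rfl⟩ := hV1₂ c hc
    exact hmhor P'
  · exact fun v hv => sep_old_poles M₀ q hcusp1 g₀ h2 v hv
  · intro c hc
    rw [hVA₁ c hc]
    exact hmoo
  · intro c hc
    obtain ⟨P', rfl⟩ := hVA₂ c hc
    exact hmhor P'
  · exact fun v hv => sep_old_poles M₀ q hcuspA g₀ h2 v hv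
  · exact (hmid m g₀ h1).2 P 1 h4

end Abs

/-! ### the parameters `u₁`, `u₂` -/

section Cusp

variable (M₀ q : ℕ) [NeZero M₀] [NeZero q]

/-- the cusps are zeros or poles of `u₂`. -/
theorem sep_cusp_uF2 (hq : q.Prime) (h : q * q ∣ M₀ * q * q)
    (v : Place Qb ↥(modularFunctionFieldBar (M₀ * q * q)))
    (hv : v.ord (jBar (M₀ * q * q)) < 0) : v.ord (uF2 (M₀ * q * q) q h) ≠ 0 :=
  (ord_jBar_neg_iff_uF2 (M₀ * q * q) q h hq v).mp hv

/-- the cusps are zeros or poles of `u₁`. -/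
theorem sep_cusp_uF (hq : q.Prime) (h : q ∣ M₀ * q * q)
    (v : Place Qb ↥(modularFunctionFieldBar (M₀ * q * q)))
    (hv : v.ord (jBar (M₀ * q * q)) < 0) : v.ord (uF (M₀ * q * q) q h) ≠ 0 :=
  (ord_jBar_neg_iff_uF hq h v).mp hv

end Cusp

/-! ### the inputs from W-P and IG -/

section Inputs

variable {M₀ q : ℕ} [NeZero M₀] [NeZero q] {A : ValuationSubring Qb}
  {Mid SS : Type}
  {FkP : SS → Type} [∀ P, Field (FkP P)] [∀ P, Algebra (IsLocalRing.ResidueField A) (FkP P)]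
  {hq : q.Prime} {hA : A.LiesOverPrime q} {hqM : ¬ q ∣ M₀}
  {ssPlace : SS → Place (IsLocalRing.ResidueField A)
    ↥(modularFunctionFieldFullC (IsLocalRing.ResidueField A) M₀)}

set_option maxHeartbeats 3200000 in
/-- **`SepHorOld` from W-P**: a family of `WPOut` at the supersingular points, `S (hor P)` the
constant reduction `w_P`. -/
theorem sepHorOld_of_wpOut
    {FkM : Mid → Type} [∀ m, Field (FkM m)] [∀ m, Algebra (IsLocalRing.ResidueField A) (FkM m)]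
    {S : ∀ c : Vtx Mid SS, ValSetup Qb ↥(modularFunctionFieldBar (M₀ * q * q))
      (IsLocalRing.ResidueField A)
      (FkOf ↥(modularFunctionFieldFullC (IsLocalRing.ResidueField A) M₀) FkM FkP c)}
    {S0 : Fermat.Agent.S18Key.RedSetup Qb ↥(modularFunctionFieldBar M₀)
      (IsLocalRing.ResidueField A)
      ↥(modularFunctionFieldFullC (IsLocalRing.ResidueField A) M₀)}
    (hS0 : IsGaussRed M₀ A S0)
    (hss : ∀ P, IsSSPlace (IsLocalRing.ResidueField A) M₀ q (ssPlace P))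
    (O : ∀ P', WPOut M₀ q A S0 (ssPlace P') (FkP P'))
    (hSP : ∀ P', S (Vtx.hor P') = (O P').S) :
    SepHorOld M₀ q S hq hA hqM ssPlace := by
  intro P' g₀ h1 h2 c hc
  have hd : g₀ ∈ discRing S0 (ssPlace P') := hS0.mem_discRing_ss hq hA hqM h1 h2 (hss P')
  have hc' : ValAt (ssPlace P') (S0.red g₀) c := by
    rw [hS0.red_eq hq hA hqM]
    exact hc
  have h := (O P').old0 g₀ hd c hc'
  rw [hSP P']
  exact h

set_option maxHeartbeats 3200000 in
/-- **`SepMidOld` from IG**: `S (mid m)` the constant reduction of a middle expansion, `P_m` a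
place of `Fk_m` over `P`. -/
theorem sepMidOld_of_isMidSetup
    {S : ∀ c : Vtx Mid SS, ValSetup Qb ↥(modularFunctionFieldBar (M₀ * q * q))
      (IsLocalRing.ResidueField A)
      (FkOf ↥(modularFunctionFieldFullC (IsLocalRing.ResidueField A) M₀)
        (fun _ : Mid => ↥(igField (IsLocalRing.ResidueField A) M₀)) FkP c)}
    {pv : ∀ (_ : SS) (v : Vrt Mid), Place (IsLocalRing.ResidueField A)
      (FkOf ↥(modularFunctionFieldFullC (IsLocalRing.ResidueField A) M₀)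
        (fun _ : Mid => ↥(igField (IsLocalRing.ResidueField A) M₀)) FkP (Vtx.vert v))}
    {z : Mid → Qbˣ}
    {ε : Mid → (↥(modularFunctionFieldBar (M₀ * q * q)) →ₐ[Qb] LaurentSeries Qb)}
    (hε : ∀ m, IsMidExp M₀ q (z m) (ε m))
    (hSm : ∀ m, IsMidSetup M₀ q A (ε m) (S (Vtx.vert (Vrt.mid m))))
    (hpvM : ∀ P m, PlaceOver
      (IntermediateField.inclusion (fullC_le_igField (IsLocalRing.ResidueField A) M₀))
      (ssPlace P) (pv P (Vrt.mid m))) :
    SepMidOld M₀ q S hq hA hqM ssPlace pv := by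
  intro m g₀ h1
  have hold : IsOldOf (oldFun2 M₀ q g₀) g₀ := isOldOf_oldFun2 M₀ q g₀
  have h1' := (mem_modularValSetup_Ov_iff A q M₀ hq hA hqM g₀).mp h1
  exact ⟨isOldOf_mem_mid M₀ q (hε m) (hSm m) hold h1', fun P c hc =>
    valAt_red_isOldOf_mid M₀ q hq hA hqM (hε m) (hSm m) hold h1 (hpvM P m) hc⟩

end Inputs

/-! ### everything put together -/

section Mod

variable {M₀ q : ℕ} [NeZero M₀] [NeZero q] {A : ValuationSubring Qb}
  {Mid SS : Type} [Fintype Mid] [Fintype SS]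
  {FkP : SS → Type} [∀ P, Field (FkP P)] [∀ P, Algebra (IsLocalRing.ResidueField A) (FkP P)]
  {S : ∀ c : Vtx Mid SS, ValSetup Qb ↥(modularFunctionFieldBar (M₀ * q * q))
    (IsLocalRing.ResidueField A)
    (FkOf ↥(modularFunctionFieldFullC (IsLocalRing.ResidueField A) M₀)
      (fun _ : Mid => ↥(igField (IsLocalRing.ResidueField A) M₀)) FkP c)}
  {pv : ∀ (_ : SS) (v : Vrt Mid), Place (IsLocalRing.ResidueField A)
    (FkOf ↥(modularFunctionFieldFullC (IsLocalRing.ResidueField A) M₀)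
      (fun _ : Mid => ↥(igField (IsLocalRing.ResidueField A) M₀)) FkP (Vtx.vert v))}
  {ssPlace : SS → Place (IsLocalRing.ResidueField A)
    ↥(modularFunctionFieldFullC (IsLocalRing.ResidueField A) M₀)}
  {S0 : Fermat.Agent.S18Key.RedSetup Qb ↥(modularFunctionFieldBar M₀)
    (IsLocalRing.ResidueField A)
    ↥(modularFunctionFieldFullC (IsLocalRing.ResidueField A) M₀)}

set_option maxHeartbeats 3200000 in
/-- **SEED-SEP (A), modular**: `sepA` for `uA = u₂`, `VA₁ = {∞}`, `VA₂ = {hor P}`, from W-P. -/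
theorem sep_sepA_mod (hq : q.Prime) (hA : A.LiesOverPrime q) (hqM : ¬ q ∣ M₀)
    (haux : AuxLevelOK q M₀)
    (hoo : IsGaussSetup (M₀ * q * q) M₀ A (S (Vtx.vert Vrt.oo)))
    (hss : ∀ P, IsSSPlace (IsLocalRing.ResidueField A) M₀ q (ssPlace P))
    (hinj : Function.Injective ssPlace)
    (hpv : ∀ P, pv P Vrt.oo = ssPlace P)
    (hS0 : IsGaussRed M₀ A S0)
    (O : ∀ P', WPOut M₀ q A S0 (ssPlace P') (FkP P'))
    (hSP : ∀ P', S (Vtx.hor P') = (O P').S)
    (h : q * q ∣ M₀ * q * q) :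
    ∀ P : SS, ∃ g ∈ ncAdm S {Vtx.vert Vrt.oo} (mn1V₂ Mid SS) (uF2 (M₀ * q * q) q h),
      ValAt (pv P Vrt.oo) ((S (Vtx.vert Vrt.oo)).red g) 1 ∧
        ∀ P' : SS, P' ≠ P → (S (Vtx.hor P')).red g = 0 :=
  sep_sepA (hq := hq) (hA := hA) (hqM := hqM) haux hoo hss hinj hpv
    (sepHorOld_of_wpOut hS0 hss O hSP)
    (fun c hc => Finset.mem_singleton.mp hc) (fun c hc => mem_mn1V₂.mp hc)
    (sep_cusp_uF2 M₀ q hq h)

set_option maxHeartbeats 3200000 in
/-- **SEED-SEP (1), modular**: `sep1` for `u1 = u₁`, `uA = u₂`, `V1₁ = {∞} ∪ Mid`,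
`V1₂ = VA₂ = {hor P}`, `VA₁ = {∞}`, from W-P and IG. -/
theorem sep_sep1_mod (hq : q.Prime) (hA : A.LiesOverPrime q) (hqM : ¬ q ∣ M₀)
    (haux : AuxLevelOK q M₀)
    (hoo : IsGaussSetup (M₀ * q * q) M₀ A (S (Vtx.vert Vrt.oo)))
    (hss : ∀ P, IsSSPlace (IsLocalRing.ResidueField A) M₀ q (ssPlace P))
    (hinj : Function.Injective ssPlace)
    (hS0 : IsGaussRed M₀ A S0)
    (O : ∀ P', WPOut M₀ q A S0 (ssPlace P') (FkP P'))
    (hSP : ∀ P', S (Vtx.hor P') = (O P').S)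
    {z : Mid → Qbˣ}
    {ε : Mid → (↥(modularFunctionFieldBar (M₀ * q * q)) →ₐ[Qb] LaurentSeries Qb)}
    (hε : ∀ m, IsMidExp M₀ q (z m) (ε m))
    (hSm : ∀ m, IsMidSetup M₀ q A (ε m) (S (Vtx.vert (Vrt.mid m))))
    (hpvM : ∀ P m, PlaceOver
      (IntermediateField.inclusion (fullC_le_igField (IsLocalRing.ResidueField A) M₀))
      (ssPlace P) (pv P (Vrt.mid m)))
    (h1 : q ∣ M₀ * q * q) (h2 : q * q ∣ M₀ * q * q) :
    ∀ (P : SS) (m : Mid),
      ∃ g ∈ ncAdm S (mn1V₁ Mid SS) (mn1V₂ Mid SS) (uF (M₀ * q * q) q h1) ∩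
          ncAdm S {Vtx.vert Vrt.oo} (mn1V₂ Mid SS) (uF2 (M₀ * q * q) q h2),
        ValAt (pv P (Vrt.mid m)) ((S (Vtx.vert (Vrt.mid m))).red g) 1 ∧
          ∀ P' : SS, P' ≠ P → (S (Vtx.hor P')).red g = 0 :=
  sep_sep1 (hq := hq) (hA := hA) (hqM := hqM) haux hoo hss hinj
    (sepHorOld_of_wpOut hS0 hss O hSP) (sepMidOld_of_isMidSetup hε hSm hpvM)
    (fun c hc => Finset.mem_singleton.mp hc) (fun c hc => mem_mn1V₂.mp hc)
    (fun c hc => mem_mn1V₁.mp hc) (fun c hc => mem_mn1V₂.mp hc)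
    (sep_cusp_uF2 M₀ q hq h2) (sep_cusp_uF M₀ q hq h1)

end Mod

end Fermat.Agent.S36G
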