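/-
Cluster G (S36, Carayol at `q² ∥ M`), seat SEED-SEP, part `sep2` (helper78; sub-architect helper92,
integration helper40; `sepA`, `sep1`: helper70, `S36/Seed/Sep.lean`).

**The field `sep2` of `ModEndsInput`**: for every supersingular place `P` there is an OLD function
`g = ι g₀` which is admissible for the node theorem (2) (integral at all the `w_{P'}` and at `v_0`,
poles at the zeros and poles of `u` only), takes the value `1` at the place `P` of the component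
`v_0` and has reduction `0` on the components `H_{P'}`, `P' ≠ P`.

CAST-FREE: the level `N` is arbitrary, `v_0 = comapEquiv v_∞ W` for an automorphism `W` of `F_N`
(`valSetupZero D S`, `valSetupZeroAt D hM S`), `ι : F_{M₀} → F_N` any map with `IsOldOf (ι g₀) g₀`
(`alphaQ D`, `oldFun2Hom M₀ q = wpIota0 M₀ q`), `IsOldTwist W Q (ι g₀) g₀`, `Q = q ^ 2`.

* `Sep2Old M₀ q A ι ssPl SP` : (WP-OLD) for the old functions with CUSPIDAL poles: they are
  integral for `w_P`, with reduction the constant `ḡ₀ (P)`  (`WPOut.old0`);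
* `sep2_valAt_zero`  : `ValAt P (red_0 (ι g₀)) c ↔ ValAt P ḡ₀ c` for `P` supersingular
  (`Frob²` fixes the supersingular places: `ssFrob_sq_smul`);
* `sep2_core`        : the function, for the setups `S₀ = comapEquiv S_∞ W` and `SP P`;
* `sep2_ncAdm`       : the field `sep2` for a family `S` on `Vtx Mid SS`;
* `sep2_cusp_div`    : `u₁ / ϖ₁` has a zero or a pole at every cusp;
* `sep2_mod`         : the field `sep2` at the level `M₀ * q * q`, `g = oldFun2 M₀ q g₀`,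
  `S (vert 0) = valSetupZeroAt D hM (S (vert ∞))`, `u = u₁ / ϖ₁`.
-/
import Mathlib
import Fermat.Agent.S36.Seed.OldZero
import Fermat.Agent.S36.Seed.OldSep
import Fermat.Agent.S36.Seed.SSFrob
import Fermat.Agent.S36.Seed.Cusp
import Fermat.Agent.S36.Val.Restr
import Fermat.Agent.S36.G.Types
import Fermat.Agent.Lib.BadRed.Graph.NodeCount

set_option autoImplicit false
set_option linter.style.haveILetI false
set_option linter.unusedSectionVars false
set_option synthInstance.maxHeartbeats 400000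

noncomputable section

namespace Fermat.Agent.S36G

open ModularCurve AlgebraicCurve Fermat.Agent.GaussInt Fermat.Agent.Deuring
  Fermat.Agent.BadRed Fermat.Agent.F3G Fermat.Agent.S24 Fermat.Agent.AtkinLehner
  Fermat.Agent.F3 Fermat.Agent.Kronecker Fermat.Agent.BadRedG

local notation "Qb" => AlgebraicClosure ℚ

attribute [local instance 10000] SubalgebraClass.toAlgebra HahnSeries.powerSeriesAlgebra

section Core

variable {N M₀ : ℕ} [NeZero N] [NeZero M₀] {A : ValuationSubring Qb}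
  {q : ℕ} (hq : q.Prime) (hA : A.LiesOverPrime q) (hqM : ¬ q ∣ M₀)

/-- **(WP-OLD)** in the shape used by `sep2`: the old functions `ι g₀`, `g₀` Gauss-integral with
CUSPIDAL poles, are integral for `w_P` (`P = ssPl i`), with reduction the constant `ḡ₀ (P)`. -/
def Sep2Old {SS : Type} {FkP : SS → Type} [∀ P, Field (FkP P)]
    [∀ P, Algebra (IsLocalRing.ResidueField A) (FkP P)]
    (ι : ↥(modularFunctionFieldBar M₀) →+* FBar N)
    (ssPl : SS → Place (IsLocalRing.ResidueField A)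
      ↥(modularFunctionFieldFullC (IsLocalRing.ResidueField A) M₀))
    (SP : ∀ P : SS, ValSetup Qb (FBar N) (IsLocalRing.ResidueField A) (FkP P)) : Prop :=
  ∀ (P : SS) (g₀ : ↥(modularFunctionFieldBar M₀)),
    g₀ ∈ (modularValSetup A q M₀ hq hA hqM).Ov →
    (∀ v : Place Qb ↥(modularFunctionFieldBar M₀), 0 ≤ v.ord (jBar M₀) → 0 ≤ v.ord g₀) →
    ∀ c : IsLocalRing.ResidueField A,
      ValAt (ssPl P) ((modularValSetup A q M₀ hq hA hqM).red g₀) c →
        ι g₀ ∈ (SP P).Ov ∧ (SP P).red (ι g₀) = algebraMap (IsLocalRing.ResidueField A) (FkP P) c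

/-- the value of `red_0` of an old function at a SUPERSINGULAR place `P` is `ḡ₀ (P)`
(`Q = q ^ 2`, `Frob²` fixes `P`). -/
theorem sep2_valAt_zero (haux : AuxLevelOK q M₀)
    {S : ValSetup Qb (FBar N) (IsLocalRing.ResidueField A)
      (modularFunctionFieldFullC (IsLocalRing.ResidueField A) M₀)}
    (hS : IsGaussSetup N M₀ A S) (W : FBar N ≃ₐ[Qb] FBar N) (Q : ℕ) [NeZero Q]
    (hQe : Q = q ^ 2)
    (hQ : ∀ x ∈ modularFunctionFieldBar M₀, qExpand Qb Q x ∈ modularFunctionFieldBar N)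
    {g : FBar N} {g₀ : ↥(modularFunctionFieldBar M₀)} (hW : IsOldTwist W Q g g₀)
    (hg₀ : g₀ ∈ (modularValSetup A q M₀ hq hA hqM).Ov)
    {P : Place (IsLocalRing.ResidueField A)
      ↥(modularFunctionFieldFullC (IsLocalRing.ResidueField A) M₀)}
    (hP : IsSSPlace (IsLocalRing.ResidueField A) M₀ q P) (c : IsLocalRing.ResidueField A) :
    ValAt P ((comapEquiv S W).red g) c ↔
      ValAt P ((modularValSetup A q M₀ hq hA hqM).red g₀) c := by
  haveI : Fact q.Prime := ⟨hq⟩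
  haveI : CharP (IsLocalRing.ResidueField A) q := Fermat.Agent.FrobTrace.charP_residueField A hA
  haveI : IsAlgClosed (IsLocalRing.ResidueField A) := Fermat.Agent.GaussInt.isAlgClosed_residue A
  haveI : PerfectRing (IsLocalRing.ResidueField A) q := inferInstance
  rw [valAt_red_zero_isOldTwist hq hA hqM hS W Q hQe hQ hW hg₀ P c]
  have h2 : (frobAut (IsLocalRing.ResidueField A) M₀ q ^ 2) • P = P := by
    rw [pow_two]
    exact ssFrob_sq_smul hq (Nat.pos_of_ne_zero (NeZero.ne M₀)) hqM haux A hA P hP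
  rw [h2]

variable {SS : Type} {FkP : SS → Type} [∀ P, Field (FkP P)]
  [∀ P, Algebra (IsLocalRing.ResidueField A) (FkP P)]

/-- **`sep2`, the function**: for every supersingular `P = ssPl i` an old function `g = ι g₀`,
integral at `v_0 = v_∞ ∘ W` and at all the `w_{P'}`, with poles at the cusps only, with value `1`
at the place `P` of `v_0` and reduction `0` on the `H_{P'}`, `P' ≠ P`. -/
theorem sep2_core (haux : AuxLevelOK q M₀)
    {S : ValSetup Qb (FBar N) (IsLocalRing.ResidueField A)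
      (modularFunctionFieldFullC (IsLocalRing.ResidueField A) M₀)}
    (hS : IsGaussSetup N M₀ A S) (W : FBar N ≃ₐ[Qb] FBar N) (Q : ℕ) [NeZero Q]
    (hQe : Q = q ^ 2)
    (hQ : ∀ x ∈ modularFunctionFieldBar M₀, qExpand Qb Q x ∈ modularFunctionFieldBar N)
    (hle : modularFunctionFieldBar M₀ ≤ modularFunctionFieldBar N)
    (ι : ↥(modularFunctionFieldBar M₀) →+* FBar N)
    (hι : ∀ g₀, IsOldOf (ι g₀) g₀) (hW : ∀ g₀, IsOldTwist W Q (ι g₀) g₀)
    (ssPl : SS → Place (IsLocalRing.ResidueField A)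
      ↥(modularFunctionFieldFullC (IsLocalRing.ResidueField A) M₀))
    (hss : ∀ P, IsSSPlace (IsLocalRing.ResidueField A) M₀ q (ssPl P))
    (hinj : Function.Injective ssPl)
    (SP : ∀ P : SS, ValSetup Qb (FBar N) (IsLocalRing.ResidueField A) (FkP P))
    (hold : Sep2Old hq hA hqM ι ssPl SP) (P : SS) :
    ∃ g : FBar N, g ∈ (comapEquiv S W).Ov ∧ (∀ P' : SS, g ∈ (SP P').Ov) ∧
      (∀ v : Place Qb (FBar N), v.ord g < 0 → v.ord (jBar N) < 0) ∧
      ValAt (ssPl P) ((comapEquiv S W).red g) 1 ∧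
      ∀ P' : SS, P' ≠ P → (SP P').red g = 0 := by
  obtain ⟨g₀, h1, h2, -, h4, h5⟩ := seedOld_exists_delta M₀ hq hqM haux hA (ssPl P) (hss P)
  have hg₀' := (mem_modularValSetup_Ov_iff A q M₀ hq hA hqM g₀).mp h1
  refine ⟨ι g₀, isOldTwist_mem_zero hS W Q hQ (hW g₀) hg₀', fun P' => ?_, fun v hv => ?_, ?_,
    fun P' hne => ?_⟩
  · -- integral at `w_{P'}`
    by_cases hP' : P' = P
    · subst hP'
      exact (hold P' g₀ h1 h2 1 h4).1
    · exact (hold P' g₀ h1 h2 0 (h5 (ssPl P') (hss P') fun h => hP' (hinj h))).1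
  · -- poles at the cusps
    by_contra hj
    rw [not_lt] at hj
    exact absurd (ord_isOldOf_nonneg hle (hι g₀) h2 v hj) (not_le.mpr hv)
  · -- value `1` at `P` on `v_0`
    exact (sep2_valAt_zero hq hA hqM haux hS W Q hQe hQ (hW g₀) h1 (hss P) 1).mpr h4
  · -- reduction `0` on `H_{P'}`
    have h := (hold P' g₀ h1 h2 0 (h5 (ssPl P') (hss P') fun h => hne (hinj h))).2
    rw [h, map_zero]

end Core

/-! ### the field `sep2` of `ModEndsInput` -/

section Family

variable {N M₀ : ℕ} [NeZero N] [NeZero M₀] {A : ValuationSubring Qb}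
  {q : ℕ} (hq : q.Prime) (hA : A.LiesOverPrime q) (hqM : ¬ q ∣ M₀)
  {Mid SS : Type}
  {FkM : Mid → Type} [∀ m, Field (FkM m)] [∀ m, Algebra (IsLocalRing.ResidueField A) (FkM m)]
  {FkP : SS → Type} [∀ P, Field (FkP P)] [∀ P, Algebra (IsLocalRing.ResidueField A) (FkP P)]

/-- **`sep2`** for a family `S` on the vertices `Vtx Mid SS`: `S (vert ∞)` a Gauss setup,
`S (vert 0) = comapEquiv (S (vert ∞)) W`, (WP-OLD) on the `S (hor P)`; `V₁ ⊆ {hor P}`,
`V₂ ⊆ {vert 0}`, and `u` has a zero or a pole at every cusp. -/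
theorem sep2_ncAdm (haux : AuxLevelOK q M₀)
    (S : ∀ c : Vtx Mid SS, ValSetup Qb (FBar N) (IsLocalRing.ResidueField A)
      (FkOf (modularFunctionFieldFullC (IsLocalRing.ResidueField A) M₀) FkM FkP c))
    (hoo : IsGaussSetup N M₀ A (S (Vtx.vert Vrt.oo)))
    (W : FBar N ≃ₐ[Qb] FBar N)
    (hzero : S (Vtx.vert Vrt.zero) = comapEquiv (S (Vtx.vert Vrt.oo)) W)
    (Q : ℕ) [NeZero Q] (hQe : Q = q ^ 2)
    (hQ : ∀ x ∈ modularFunctionFieldBar M₀, qExpand Qb Q x ∈ modularFunctionFieldBar N)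
    (hle : modularFunctionFieldBar M₀ ≤ modularFunctionFieldBar N)
    (ι : ↥(modularFunctionFieldBar M₀) →+* FBar N)
    (hι : ∀ g₀, IsOldOf (ι g₀) g₀) (hW : ∀ g₀, IsOldTwist W Q (ι g₀) g₀)
    (ssPl : SS → Place (IsLocalRing.ResidueField A)
      ↥(modularFunctionFieldFullC (IsLocalRing.ResidueField A) M₀))
    (hss : ∀ P, IsSSPlace (IsLocalRing.ResidueField A) M₀ q (ssPl P))
    (hinj : Function.Injective ssPl)
    (hold : Sep2Old hq hA hqM ι ssPl (fun P => S (Vtx.hor P)))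
    (V₁ V₂ : Finset (Vtx Mid SS)) (hV₁ : ∀ c ∈ V₁, ∃ P, c = Vtx.hor P)
    (hV₂ : ∀ c ∈ V₂, c = Vtx.vert Vrt.zero)
    (u : FBar N) (hu : ∀ v : Place Qb (FBar N), v.ord (jBar N) < 0 → v.ord u ≠ 0) (P : SS) :
    ∃ g ∈ ncAdm S V₁ V₂ u,
      ValAt (ssPl P) ((S (Vtx.vert Vrt.zero)).red g) 1 ∧
        ∀ P' : SS, P' ≠ P → (S (Vtx.hor P')).red g = 0 := by
  obtain ⟨g, h1, h2, h3, h4, h5⟩ := sep2_core hq hA hqM haux hoo W Q hQe hQ hle ι hι hW ssPl hss
    hinj (fun P => S (Vtx.hor P)) hold P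
  refine ⟨g, ⟨?_, ?_, fun v hv => hu v (h3 v hv)⟩, ?_, h5⟩
  · intro c hc
    obtain ⟨P', rfl⟩ := hV₁ c hc
    exact h2 P'
  · intro c hc
    rw [hV₂ c hc, hzero]
    exact h1
  · rw [hzero]
    exact h4

end Family

/-! ### the modular instance at the level `M₀ * q * q` -/

section Mod

/-- `u₁ / ϖ₁` (the parameter of the node theorem (2)) has a zero or a pole at every cusp. -/
theorem sep2_cusp_div {N q : ℕ} [NeZero N] [NeZero q] (hq : q.Prime) (hN : q ∣ N) {ϖ₁ : Qb}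
    (hϖ : ϖ₁ ≠ 0) (v : Place Qb (FBar N)) (hv : v.ord (jBar N) < 0) :
    v.ord (uF N q hN / algebraMap Qb (FBar N) ϖ₁) ≠ 0 :=
  (cusp_ord_div_const_ne_zero_iff v (uF_ne_zero N q hN) hϖ).mpr
    ((ord_jBar_neg_iff_uF hq hN v).mp hv)

variable {M₀ q : ℕ} [NeZero M₀] [NeZero q] {A : ValuationSubring Qb}
  (hq : q.Prime) (hA : A.LiesOverPrime q) (hqM : ¬ q ∣ M₀)
  {Mid SS : Type}
  {FkM : Mid → Type} [∀ m, Field (FkM m)] [∀ m, Algebra (IsLocalRing.ResidueField A) (FkM m)]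
  {FkP : SS → Type} [∀ P, Field (FkP P)] [∀ P, Algebra (IsLocalRing.ResidueField A) (FkP P)]

/-- `F_{M₀} ≤ F_{M₀ q q}`. -/
theorem sep2_le_level (M₀ q : ℕ) [NeZero M₀] [NeZero q] :
    modularFunctionFieldBar M₀ ≤ modularFunctionFieldBar (M₀ * q * q) := by
  intro x hx
  have h := (oldFun2 M₀ q ⟨x, hx⟩).2
  rwa [coe_oldFun2] at h

/-- **the field `sep2` of `ModEndsInput`** at the level `M₀ * q * q`: `g = oldFun2 M₀ q g₀`
(`= wpIota0 M₀ q g₀`), `S (vert 0) = valSetupZeroAt D hM (S (vert ∞))` with `D.Q = q ^ 2`,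
`D.R = M₀`, and `u = u₁ / ϖ₁`.  The only named input is (WP-OLD) for `ι₀` (`WPOut.old0`). -/
theorem sep2_mod (haux : AuxLevelOK q M₀)
    (D : ALData) [NeZero D.Q] (hM : M₀ * q * q = D.Q * D.R) (hR : M₀ = D.R) (hQe : D.Q = q ^ 2)
    (S : ∀ c : Vtx Mid SS, ValSetup Qb (FBar (M₀ * q * q)) (IsLocalRing.ResidueField A)
      (FkOf (modularFunctionFieldFullC (IsLocalRing.ResidueField A) M₀) FkM FkP c))
    (hoo : IsGaussSetup (M₀ * q * q) M₀ A (S (Vtx.vert Vrt.oo)))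
    (hzero : S (Vtx.vert Vrt.zero) = valSetupZeroAt D hM (S (Vtx.vert Vrt.oo)))
    (ssPl : SS → Place (IsLocalRing.ResidueField A)
      ↥(modularFunctionFieldFullC (IsLocalRing.ResidueField A) M₀))
    (hss : ∀ P, IsSSPlace (IsLocalRing.ResidueField A) M₀ q (ssPl P))
    (hinj : Function.Injective ssPl)
    (hold : Sep2Old hq hA hqM ((oldFun2Hom M₀ q : ↥(modularFunctionFieldBar M₀) →ₐ[Qb]
      ↥(modularFunctionFieldBar (M₀ * q * q))) : ↥(modularFunctionFieldBar M₀) →+*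
        FBar (M₀ * q * q)) ssPl (fun P => S (Vtx.hor P)))
    (V₁ V₂ : Finset (Vtx Mid SS)) (hV₁ : ∀ c ∈ V₁, ∃ P, c = Vtx.hor P)
    (hV₂ : ∀ c ∈ V₂, c = Vtx.vert Vrt.zero)
    (hN : q ∣ M₀ * q * q) {ϖ₁ : Qb} (hϖ : ϖ₁ ≠ 0) (P : SS) :
    ∃ g ∈ ncAdm S V₁ V₂
        (uF (M₀ * q * q) q hN / algebraMap Qb (FBar (M₀ * q * q)) ϖ₁),
      ValAt (ssPl P) ((S (Vtx.vert Vrt.zero)).red g) 1 ∧
        ∀ P' : SS, P' ≠ P → (S (Vtx.hor P')).red g = 0 := by
  haveI : NeZero D.R := ⟨by rw [← hR]; exact NeZero.ne M₀⟩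
  exact sep2_ncAdm hq hA hqM haux S hoo (wAt D hM) hzero D.Q hQe
    (qExpand_mem_of_level_eq D hM hR) (sep2_le_level M₀ q)
    ((oldFun2Hom M₀ q : ↥(modularFunctionFieldBar M₀) →ₐ[Qb]
      ↥(modularFunctionFieldBar (M₀ * q * q))) : ↥(modularFunctionFieldBar M₀) →+*
        FBar (M₀ * q * q))
    (fun g₀ => isOldOf_oldFun2 M₀ q g₀)
    (fun g₀ => isOldTwist_wAt D hM hR (isOldOf_oldFun2 M₀ q g₀))
    ssPl hss hinj hold V₁ V₂ hV₁ hV₂ _ (fun v hv => sep2_cusp_div hq hN hϖ v hv) P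

end Mod

end Fermat.Agent.S36G
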