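/-
Cluster G (S36, Carayol at `q² ∥ M`), seat SEED-SEP, part `sep2`, the modular wiring from W-P
(helper78; `sepA`, `sep1`: helper70, `S36/Seed/Sep.lean`).

* `sep2Old_of_sepHorOld` : helper70's `SepHorOld` is `Sep2Old` for `ι = oldFun2Hom M₀ q`;
* `sep2_of_sepHorOld`    : the field `sep2` of `ModEndsInput` from `SepHorOld`;
* `sep2_mod_wp`          : the field `sep2` from a family of `WPOut` (the shape of
  `sep_sepA_mod`): `V2₁ = {hor P}`, `V2₂ = {vert 0}`, `u2 = u₁ / ϖ₁`,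
  `S (vert 0) = valSetupZeroAt D hM (S (vert ∞))`, `pv P 0 = ssPlace P`.
-/
import Mathlib
import Fermat.Agent.S36.Seed.Sep2
import Fermat.Agent.S36.Seed.Sep

set_option autoImplicit false
set_option linter.style.haveILetI false
set_option linter.unusedSectionVars false
set_option synthInstance.maxHeartbeats 400000

noncomputable section

namespace Fermat.Agent.S36G

open ModularCurve AlgebraicCurve Fermat.Agent.GaussInt Fermat.Agent.Deuring
  Fermat.Agent.BadRed Fermat.Agent.F3G Fermat.Agent.S24 Fermat.Agent.AtkinLehner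
  Fermat.Agent.F3 Fermat.Agent.Kronecker Fermat.Agent.BadRedG Fermat.Agent.HPVal

local notation "Qb" => AlgebraicClosure ℚ

attribute [local instance 10000] SubalgebraClass.toAlgebra HahnSeries.powerSeriesAlgebra

variable {M₀ q : ℕ} [NeZero M₀] [NeZero q] {A : ValuationSubring Qb}
  {Mid SS : Type} [Fintype SS]
  {FkM : Mid → Type} [∀ m, Field (FkM m)] [∀ m, Algebra (IsLocalRing.ResidueField A) (FkM m)]
  {FkP : SS → Type} [∀ P, Field (FkP P)] [∀ P, Algebra (IsLocalRing.ResidueField A) (FkP P)]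
  {S : ∀ c : Vtx Mid SS, ValSetup Qb (FBar (M₀ * q * q)) (IsLocalRing.ResidueField A)
    (FkOf ↥(modularFunctionFieldFullC (IsLocalRing.ResidueField A) M₀) FkM FkP c)}
  {ssPlace : SS → Place (IsLocalRing.ResidueField A)
    ↥(modularFunctionFieldFullC (IsLocalRing.ResidueField A) M₀)}

set_option maxHeartbeats 3200000 in
/-- helper70's `SepHorOld` is `Sep2Old` for the old functions `oldFun2 M₀ q g₀`. -/
theorem sep2Old_of_sepHorOld {hq : q.Prime} {hA : A.LiesOverPrime q} {hqM : ¬ q ∣ M₀}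
    (h : SepHorOld M₀ q S hq hA hqM ssPlace) :
    Sep2Old hq hA hqM ((oldFun2Hom M₀ q : ↥(modularFunctionFieldBar M₀) →ₐ[Qb]
      ↥(modularFunctionFieldBar (M₀ * q * q))) : ↥(modularFunctionFieldBar M₀) →+*
        FBar (M₀ * q * q)) ssPlace (fun P => S (Vtx.hor P)) := by
  intro P g₀ h1 h2 c hc
  exact h P g₀ h1 h2 c hc

set_option maxHeartbeats 3200000 in
/-- **the field `sep2`** from `SepHorOld`. -/
theorem sep2_of_sepHorOld (hq : q.Prime) (hA : A.LiesOverPrime q) (hqM : ¬ q ∣ M₀)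
    (haux : AuxLevelOK q M₀)
    (D : ALData) [NeZero D.Q] (hM : M₀ * q * q = D.Q * D.R) (hR : M₀ = D.R) (hQe : D.Q = q ^ 2)
    (hoo : IsGaussSetup (M₀ * q * q) M₀ A (S (Vtx.vert Vrt.oo)))
    (hzero : S (Vtx.vert Vrt.zero) = valSetupZeroAt D hM (S (Vtx.vert Vrt.oo)))
    (hss : ∀ P, IsSSPlace (IsLocalRing.ResidueField A) M₀ q (ssPlace P))
    (hinj : Function.Injective ssPlace)
    (pv : ∀ (_ : SS) (v : Vrt Mid), Place (IsLocalRing.ResidueField A)
      (FkOf ↥(modularFunctionFieldFullC (IsLocalRing.ResidueField A) M₀) FkM FkP (Vtx.vert v)))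
    (hpv : ∀ P, pv P Vrt.zero = ssPlace P)
    (hhor : SepHorOld M₀ q S hq hA hqM ssPlace)
    (hN : q ∣ M₀ * q * q) {ϖ₁ : Qb} (hϖ : ϖ₁ ≠ 0) :
    ∀ P : SS, ∃ g ∈ ncAdm S (mn1V₂ Mid SS) {Vtx.vert Vrt.zero}
        (uF (M₀ * q * q) q hN / algebraMap Qb (FBar (M₀ * q * q)) ϖ₁),
      ValAt (pv P Vrt.zero) ((S (Vtx.vert Vrt.zero)).red g) 1 ∧
        ∀ P' : SS, P' ≠ P → (S (Vtx.hor P')).red g = 0 := by
  intro P
  rw [hpv P]
  exact sep2_mod hq hA hqM haux D hM hR hQe S hoo hzero ssPlace hss hinj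
    (sep2Old_of_sepHorOld hhor) (mn1V₂ Mid SS) {Vtx.vert Vrt.zero}
    (fun c hc => mem_mn1V₂.mp hc) (fun c hc => Finset.mem_singleton.mp hc) hN hϖ P

set_option maxHeartbeats 3200000 in
/-- **SEED-SEP (2), modular**: `sep2` for `u2 = u₁ / ϖ₁`, `V2₁ = {hor P}`, `V2₂ = {vert 0}`,
from W-P. -/
theorem sep2_mod_wp (hq : q.Prime) (hA : A.LiesOverPrime q) (hqM : ¬ q ∣ M₀)
    (haux : AuxLevelOK q M₀)
    (D : ALData) [NeZero D.Q] (hM : M₀ * q * q = D.Q * D.R) (hR : M₀ = D.R) (hQe : D.Q = q ^ 2)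
    (hoo : IsGaussSetup (M₀ * q * q) M₀ A (S (Vtx.vert Vrt.oo)))
    (hzero : S (Vtx.vert Vrt.zero) = valSetupZeroAt D hM (S (Vtx.vert Vrt.oo)))
    (hss : ∀ P, IsSSPlace (IsLocalRing.ResidueField A) M₀ q (ssPlace P))
    (hinj : Function.Injective ssPlace)
    (pv : ∀ (_ : SS) (v : Vrt Mid), Place (IsLocalRing.ResidueField A)
      (FkOf ↥(modularFunctionFieldFullC (IsLocalRing.ResidueField A) M₀) FkM FkP (Vtx.vert v)))
    (hpv : ∀ P, pv P Vrt.zero = ssPlace P)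
    {S0 : Fermat.Agent.S18Key.RedSetup Qb ↥(modularFunctionFieldBar M₀)
      (IsLocalRing.ResidueField A)
      ↥(modularFunctionFieldFullC (IsLocalRing.ResidueField A) M₀)}
    (hS0 : IsGaussRed M₀ A S0)
    (O : ∀ P', WPOut M₀ q A S0 (ssPlace P') (FkP P'))
    (hSP : ∀ P', S (Vtx.hor P') = (O P').S)
    (hN : q ∣ M₀ * q * q) {ϖ₁ : Qb} (hϖ : ϖ₁ ≠ 0) :
    ∀ P : SS, ∃ g ∈ ncAdm S (mn1V₂ Mid SS) {Vtx.vert Vrt.zero}
        (uF (M₀ * q * q) q hN / algebraMap Qb (FBar (M₀ * q * q)) ϖ₁),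
      ValAt (pv P Vrt.zero) ((S (Vtx.vert Vrt.zero)).red g) 1 ∧
        ∀ P' : SS, P' ≠ P → (S (Vtx.hor P')).red g = 0 :=
  sep2_of_sepHorOld hq hA hqM haux D hM hR hQe hoo hzero hss hinj pv hpv
    (sepHorOld_of_wpOut (hq := hq) (hA := hA) (hqM := hqM) hS0 hss O hSP) hN hϖ

end Fermat.Agent.S36G
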