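/-
Cluster G (S36), SEED v2, seat SEED-ENDS, VERTICAL side (helper9): the hypothesis `hno` of
S36/Seed/EndsVert.lean for ALL primes `q`.

`q` prime, `q ∤ M₀`, `ν₂(M₀) = ν₃(M₀) = 0`, auxiliary level (`q = 2 → 3 ∣ M₀`, `q = 3 → 2 ∣ M₀`),
`A | q`, `k` the residue field:  `ord_P ssFun = 12` at every supersingular place `P` of
`k(Z) = modularFunctionFieldFullC k M₀`.

* `sev_hno`      : `q ≥ 5`: `gen_hno` (helper98), `q = 2, 3`: `hno23` (helper27);
* `sev_hno_aux`  : the same with `BadRed.AuxLevelOK q M₀`.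
-/
import Mathlib
import Fermat.Agent.S36.Genus.Hno
import Fermat.Agent.S36.Genus.Hno23

set_option autoImplicit false
set_option linter.unusedSectionVars false
set_option linter.style.haveILetI false
set_option synthInstance.maxHeartbeats 400000
set_option maxHeartbeats 1000000

noncomputable section

open AlgebraicCurve ModularCurve Fermat.Agent.BadRed

namespace Fermat.Agent.S36G

local notation "Qb" => AlgebraicClosure ℚ

/-- **`hno` for all primes**: `ord_P ssFun = 12` at every supersingular place. -/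
theorem sev_hno (M₀ : ℕ) [NeZero M₀] {q : ℕ} (hq : q.Prime) (hqM : ¬ q ∣ M₀)
    (hν2 : nuTwo M₀ = 0) (hν3 : nuThree M₀ = 0) (h2 : q = 2 → 3 ∣ M₀) (h3 : q = 3 → 2 ∣ M₀)
    {A : ValuationSubring Qb} (hA : A.LiesOverPrime q)
    (P : Place (IsLocalRing.ResidueField A)
      ↥(modularFunctionFieldFullC (IsLocalRing.ResidueField A) M₀))
    (hP : IsSSPlace (IsLocalRing.ResidueField A) M₀ q P)
    (u : ↥(modularFunctionFieldFullC (IsLocalRing.ResidueField A) M₀))
    (hu : (u : LaurentSeries (IsLocalRing.ResidueField A)) =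
      ssFun (IsLocalRing.ResidueField A) q) :
    P.ord u = 12 := by
  by_cases h5 : 5 ≤ q
  · exact gen_hno M₀ hq h5 hqM hν2 hν3 hA P hP u hu
  · have h23 : q = 2 ∨ q = 3 := by
      have h := hq.two_le
      have h4 : q ≠ 4 := by
        rintro rfl
        exact absurd hq (by decide)
      omega
    exact hno23 M₀ h23 hqM h2 h3 hν2 hν3 hA P hP u hu

/-- **`hno` for all primes**, with `AuxLevelOK`. -/
theorem sev_hno_aux (M₀ : ℕ) [NeZero M₀] {q : ℕ} (hq : q.Prime) (hqM : ¬ q ∣ M₀)
    (hν2 : nuTwo M₀ = 0) (hν3 : nuThree M₀ = 0)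
    (haux : Fermat.Agent.BadRed.AuxLevelOK q M₀)
    {A : ValuationSubring Qb} (hA : A.LiesOverPrime q)
    (P : Place (IsLocalRing.ResidueField A)
      ↥(modularFunctionFieldFullC (IsLocalRing.ResidueField A) M₀))
    (hP : IsSSPlace (IsLocalRing.ResidueField A) M₀ q P)
    (u : ↥(modularFunctionFieldFullC (IsLocalRing.ResidueField A) M₀))
    (hu : (u : LaurentSeries (IsLocalRing.ResidueField A)) =
      ssFun (IsLocalRing.ResidueField A) q) :
    P.ord u = 12 :=
  sev_hno M₀ hq hqM hν2 hν3 haux.1 haux.2 hA P hP u hu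

end Fermat.Agent.S36G
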