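/-
Cluster G (S36), block SEED, seat SEED-UP (helper90), abstract part: **functions which are regular
at a node are constant on the horizontal valuation**.

`E ⊆ F` fields, `V` a valuation ring of `F` (the horizontal valuation `w_P`) with a residue map
`ρ : V →+* κ`, `B` a subring of `E` (the integral functions of the lower level whose reduction is
regular at `P`) with an evaluation `ev : B →+* k`, such that every `b ∈ B` lies in `V` with the
CONSTANT residue `ev b` (this is `WP-OLD`).

* `nc_mem_of_monic_root` : a root of a monic polynomial over `V` lies in `V`;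
* `nc_res_of_monic_root` : if the reduced polynomial is `(X - c) ^ n`, the residue of the root
                           is `c`;
* `nc_const`             : if `t ∈ F` is a root of a monic `G ∈ B[X]` with `ev G = (X - c) ^ n`,
                           then `t ∈ V` and `ρ t = c`.

Use: `t` a function of level `q M₀` which is integral for the two vertical valuations with
reductions regular at the node over `P` and equal values `c` there; `G` = its characteristic
polynomial over the field of level `M₀` (`nm_charpoly_multi`: it reduces to the product of the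
characteristic polynomials of the two reductions, `(X - t̄_∞) (X ^ q - t̄_0 ^ q)`, whose value at
`P` is `(X - c) ^ (q + 1)`).  Mathlib only.
-/
import Mathlib

set_option autoImplicit false
set_option linter.style.haveILetI false
set_option linter.unusedSectionVars false

noncomputable section

namespace Fermat.Agent.NodeConst

open Polynomial

variable {F : Type*} [Field F]

/-- a root of a monic polynomial with coefficients in a valuation ring lies in the ring. -/
theorem nc_mem_of_monic_root (V : ValuationSubring F) (G : (↥V)[X]) (hG : G.Monic) (t : F)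
    (ht : (G.map V.subtype).eval t = 0) : t ∈ V := by
  have hint : IsIntegral V t := ⟨G, hG, by rwa [Polynomial.eval₂_eq_eval_map]⟩
  obtain ⟨y, hy⟩ := (IsIntegrallyClosed.isIntegral_iff (R := V) (K := F)).1 hint
  rw [← hy]
  exact y.2

/-- the residue of a root, when the reduced polynomial is `(X - c) ^ n`. -/
theorem nc_res_of_monic_root {κ : Type*} [CommRing κ] [IsReduced κ] (V : ValuationSubring F)
    (ρ : V →+* κ) (G : (↥V)[X]) (t : F) (ht : t ∈ V)
    (hroot : (G.map V.subtype).eval t = 0) (c : κ) (n : ℕ)
    (hred : G.map ρ = (X - C c) ^ n) : ρ ⟨t, ht⟩ = c := by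
  have h1 : G.eval (⟨t, ht⟩ : V) = 0 := by
    apply Subtype.ext
    have := Polynomial.eval_map V.subtype (⟨t, ht⟩ : V) (p := G)
    have h2 : (G.map V.subtype).eval (V.subtype ⟨t, ht⟩) = V.subtype (G.eval ⟨t, ht⟩) := by
      rw [Polynomial.eval_map, Polynomial.eval₂_at_apply]
    have h3 : V.subtype ⟨t, ht⟩ = t := rfl
    rw [h3, hroot] at h2
    exact h2.symm
  have h4 : (G.map ρ).eval (ρ ⟨t, ht⟩) = 0 := by
    rw [Polynomial.eval_map, Polynomial.eval₂_at_apply, h1, map_zero]
  rw [hred, Polynomial.eval_pow, Polynomial.eval_sub, Polynomial.eval_X, Polynomial.eval_C] at h4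
  have h5 : IsNilpotent (ρ ⟨t, ht⟩ - c) := ⟨n, h4⟩
  exact sub_eq_zero.1 (IsReduced.eq_zero _ h5)

variable {E : Type*} [Field E] [Algebra E F]

/-- **Regular at the node ⟹ constant on the horizontal valuation.** -/
theorem nc_const {k κ : Type*} [CommRing k] [CommRing κ] [IsReduced κ] [Algebra k κ]
    (V : ValuationSubring F) (ρ : V →+* κ) (B : Subring E) (ev : B →+* k)
    (hB : ∀ b : B, ∃ hb : algebraMap E F (b : E) ∈ V, ρ ⟨_, hb⟩ = algebraMap k κ (ev b))
    (G : (↥B)[X]) (hG : G.Monic) (t : F)
    (hroot : ((G.map B.subtype).map (algebraMap E F)).eval t = 0) (c : k) (n : ℕ)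
    (hev : G.map ev = (X - C c) ^ n) :
    ∃ ht : t ∈ V, ρ ⟨t, ht⟩ = algebraMap k κ c := by
  -- the inclusion `B → V`
  let incl : B →+* V :=
    { toFun := fun b => ⟨algebraMap E F (b : E), (hB b).1⟩
      map_one' := by
        apply Subtype.ext
        simp
      map_mul' := fun x y => by
        apply Subtype.ext
        simp
      map_zero' := by
        apply Subtype.ext
        simp
      map_add' := fun x y => by
        apply Subtype.ext
        simp }
  have hincl : V.subtype.comp incl = (algebraMap E F).comp B.subtype := by
    ext b
    rfl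
  have hρ : ρ.comp incl = (algebraMap k κ).comp ev := by
    ext b
    exact (hB b).2
  set G' : (↥V)[X] := G.map incl with hG'
  have hG'm : G'.Monic := hG.map incl
  have hG'root : (G'.map V.subtype).eval t = 0 := by
    rw [hG', Polynomial.map_map, hincl, ← Polynomial.map_map]
    exact hroot
  have ht : t ∈ V := nc_mem_of_monic_root V G' hG'm t hG'root
  refine ⟨ht, ?_⟩
  refine nc_res_of_monic_root V ρ G' t ht hG'root (algebraMap k κ c) n ?_
  rw [hG', Polynomial.map_map, hρ, ← Polynomial.map_map, hev, Polynomial.map_pow,
    Polynomial.map_sub, Polynomial.map_X, Polynomial.map_C]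

end Fermat.Agent.NodeConst
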