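/-
Cluster G (S36), block SEED, seat SEED-UP (helper90), abstract part 3: **the parameters `u₁`, `u₂`
on a horizontal valuation** (algebra on a constant reduction `S : ValSetup K F k Fk`).

* `uhor_red` : `u R ^ n = H Z ^ n`, `H ↦ c_H`, `R ↦ c_R ≠ 0` (constants), `Z / ϖ ∈ O`
               ⟹ `u / ϖ ^ n ∈ O` and `red (u / ϖ ^ n) = (c_H / c_R ^ n) red (Z / ϖ) ^ n`;
* `uhor_Z_first`  : `T₀ = a + ϖ W`, `T₁ = a ^ q + ϖ ^ q Y`, `a ^ (q ^ 2) = a`, `res ϖ = 0`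
               ⟹ `(T₀ - T₁ ^ q) / ϖ ∈ O` with reduction `red W`;
* `uhor_Z_second` : `T₁ = a ^ q + ϖ ^ q Y`, `T₂ = a + ϖ Zc`, `ϖ ^ (q + 1) = q`, `q` prime
               ⟹ `(T₁ - T₂ ^ q) / ϖ ^ q ∈ O` with reduction `red Y - (red Zc) ^ q`.

Use (SEED-UP v2): `u = u₁`, `H = u₁ (θ / q) ^ 12`, `R = - θ Z / q`, `θ = t₁ - t₀ ^ q`,
`Z = t₀ - t₁ ^ q` at level `q M₀`, transported to level `q² M₀` by the two degeneracy maps.
-/
import Mathlib
import Fermat.Agent.Lib.Deuring.Basic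

set_option autoImplicit false
set_option linter.style.haveILetI false
set_option linter.unusedSectionVars false

noncomputable section

namespace Fermat.Agent.S36G

open Fermat.Agent.Deuring

variable {K F k Fk : Type*} [Field K] [Field F] [Algebra K F] [Field k] [Field Fk] [Algebra k Fk]

/-- **the reduction of `u / ϖ ^ n`** from `u R ^ n = H Z ^ n`. -/
theorem uhor_red (S : ValSetup K F k Fk) {u H R Z : F} {ϖ : K} (hϖ : ϖ ≠ 0) (n : ℕ)
    (hrel : u * R ^ n = H * Z ^ n) {cH cR : k} (hcR : cR ≠ 0)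
    (hH : H ∈ S.Ov) (hHr : S.red H = algebraMap k Fk cH)
    (hRr : S.red R = algebraMap k Fk cR)
    (hZ : Z / algebraMap K F ϖ ∈ S.Ov) :
    u / algebraMap K F (ϖ ^ n) ∈ S.Ov ∧
      S.red (u / algebraMap K F (ϖ ^ n)) =
        algebraMap k Fk (cH / cR ^ n) * S.red (Z / algebraMap K F ϖ) ^ n := by
  have hcRF : algebraMap k Fk cR ≠ 0 := (map_ne_zero (algebraMap k Fk)).mpr hcR
  have hRne : S.red R ≠ 0 := by rw [hRr]; exact hcRF
  have hR : R ∈ S.Ov := S.mem_of_red_ne_zero hRne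
  have hRi : R⁻¹ ∈ S.Ov := S.inv_mem_of_red_ne_zero hRne
  have hR0 : R ≠ 0 := S.ne_zero_of_red_ne_zero hRne
  have hϖF : algebraMap K F ϖ ≠ 0 := (map_ne_zero (algebraMap K F)).mpr hϖ
  have hu : u / algebraMap K F (ϖ ^ n) = H * (Z / algebraMap K F ϖ) ^ n * (R⁻¹) ^ n := by
    have h1 : u = H * Z ^ n * (R⁻¹) ^ n := by
      rw [inv_pow, ← hrel, mul_assoc, mul_inv_cancel₀ (pow_ne_zero n hR0), mul_one]
    rw [h1, map_pow, div_pow]
    field_simp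
  rw [hu]
  refine ⟨mul_mem (mul_mem hH (pow_mem hZ n)) (pow_mem hRi n), ?_⟩
  rw [S.red_mul (mul_mem hH (pow_mem hZ n)) (pow_mem hRi n), S.red_mul hH (pow_mem hZ n),
    S.red_pow hZ, S.red_pow hRi, S.red_inv hR hRi hR0, hHr, hRr, map_div₀, map_pow,
    div_eq_mul_inv, inv_pow]
  ring

/-- the uniformiser `ϖ` is in the maximal ideal: multiples of `ϖ` reduce to `0`. -/
theorem uhor_red_mul_const (S : ValSetup K F k Fk) {ϖ : K} (hϖA : ϖ ∈ S.A)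
    (hϖr : S.res ⟨ϖ, hϖA⟩ = 0) {x : F} (hx : x ∈ S.Ov) :
    algebraMap K F ϖ * x ∈ S.Ov ∧ S.red (algebraMap K F ϖ * x) = 0 := by
  refine ⟨mul_mem (S.algebraMap_mem hϖA) hx, ?_⟩
  rw [S.red_mul (S.algebraMap_mem hϖA) hx, S.red_algebraMap hϖA, hϖr, map_zero, zero_mul]

/-- **first copy**: `(T₀ - T₁ ^ q) / ϖ` reduces to `red W`. -/
theorem uhor_Z_first (S : ValSetup K F k Fk) {q : ℕ} (hq : 2 ≤ q) {a ϖ : K} (hϖ : ϖ ≠ 0)
    (hϖA : ϖ ∈ S.A) (hϖr : S.res ⟨ϖ, hϖA⟩ = 0) (haA : a ∈ S.A) (ha : a ^ (q ^ 2) = a)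
    {T₀ T₁ : F}
    (hW : (T₀ - algebraMap K F a) / algebraMap K F ϖ ∈ S.Ov)
    (hY : (T₁ - algebraMap K F (a ^ q)) / algebraMap K F (ϖ ^ q) ∈ S.Ov) :
    (T₀ - T₁ ^ q) / algebraMap K F ϖ ∈ S.Ov ∧
      S.red ((T₀ - T₁ ^ q) / algebraMap K F ϖ) =
        S.red ((T₀ - algebraMap K F a) / algebraMap K F ϖ) := by
  have hϖF : algebraMap K F ϖ ≠ 0 := (map_ne_zero (algebraMap K F)).mpr hϖ
  set W := (T₀ - algebraMap K F a) / algebraMap K F ϖ with hWdef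
  set Y := (T₁ - algebraMap K F (a ^ q)) / algebraMap K F (ϖ ^ q) with hYdef
  have hϖq : algebraMap K F (ϖ ^ q) ≠ 0 := (map_ne_zero (algebraMap K F)).mpr (pow_ne_zero q hϖ)
  have hT₁ : T₁ = algebraMap K F (a ^ q) + algebraMap K F (ϖ ^ q) * Y := by
    rw [hYdef]; field_simp; ring
  have haqO : algebraMap K F (a ^ q) ∈ S.Ov := S.algebraMap_mem (pow_mem haA q)
  have hϖqO : algebraMap K F (ϖ ^ q) ∈ S.Ov := S.algebraMap_mem (pow_mem hϖA q)
  have hT₁O : T₁ ∈ S.Ov := by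
    rw [hT₁]; exact add_mem haqO (mul_mem hϖqO hY)
  -- `T₁ ^ q - a = (T₁ - a ^ q) * B` in `O`
  obtain ⟨B, hB⟩ := sub_dvd_pow_sub_pow (⟨T₁, hT₁O⟩ : S.Ov) ⟨algebraMap K F (a ^ q), haqO⟩ q
  have hB' : T₁ ^ q - algebraMap K F a = (T₁ - algebraMap K F (a ^ q)) * (B : F) := by
    have h1 : T₁ ^ q - (algebraMap K F (a ^ q)) ^ q =
        (T₁ - algebraMap K F (a ^ q)) * (B : F) := by
      have := congrArg (fun x : S.Ov => (x : F)) hB
      simpa using this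
    have h2 : (algebraMap K F (a ^ q)) ^ q = algebraMap K F a := by
      rw [← map_pow, ← pow_mul, ← sq, ha]
    rw [← h2]
    exact h1
  have hq1 : q = (q - 1) + 1 := by omega
  have hkey : (T₀ - T₁ ^ q) / algebraMap K F ϖ =
      W - algebraMap K F ϖ * (algebraMap K F (ϖ ^ (q - 2)) * Y * (B : F)) := by
    have h3 : T₀ - T₁ ^ q = (T₀ - algebraMap K F a) - (T₁ ^ q - algebraMap K F a) := by ring
    have h4 : T₁ - algebraMap K F (a ^ q) = algebraMap K F (ϖ ^ q) * Y := by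
      rw [hT₁]; ring
    have h5 : algebraMap K F (ϖ ^ q) = algebraMap K F ϖ * (algebraMap K F ϖ *
        algebraMap K F (ϖ ^ (q - 2))) := by
      rw [← map_mul, ← map_mul, ← pow_succ', ← pow_succ']
      congr 2
      omega
    rw [h3, hB', h4, h5, sub_div, hWdef]
    congr 1
    field_simp
  have hE : algebraMap K F (ϖ ^ (q - 2)) * Y * (B : F) ∈ S.Ov :=
    mul_mem (mul_mem (S.algebraMap_mem (pow_mem hϖA _)) hY) B.2
  obtain ⟨hm, hr⟩ := uhor_red_mul_const S hϖA hϖr hE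
  rw [hkey]
  refine ⟨sub_mem hW hm, ?_⟩
  rw [S.red_sub hW hm, hr, sub_zero]

/-- **second copy**: `(T₁ - T₂ ^ q) / ϖ ^ q` reduces to `red Y - (red Zc) ^ q`. -/
theorem uhor_Z_second (S : ValSetup K F k Fk) {q : ℕ} (hq : q.Prime) {a ϖ : K} (hϖ : ϖ ≠ 0)
    (hϖA : ϖ ∈ S.A) (hϖr : S.res ⟨ϖ, hϖA⟩ = 0) (hϖq : ϖ ^ (q + 1) = (q : K)) (haA : a ∈ S.A)
    {T₁ T₂ : F}
    (hY : (T₁ - algebraMap K F (a ^ q)) / algebraMap K F (ϖ ^ q) ∈ S.Ov)
    (hZc : (T₂ - algebraMap K F a) / algebraMap K F ϖ ∈ S.Ov) :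
    (T₁ - T₂ ^ q) / algebraMap K F (ϖ ^ q) ∈ S.Ov ∧
      S.red ((T₁ - T₂ ^ q) / algebraMap K F (ϖ ^ q)) =
        S.red ((T₁ - algebraMap K F (a ^ q)) / algebraMap K F (ϖ ^ q)) -
          S.red ((T₂ - algebraMap K F a) / algebraMap K F ϖ) ^ q := by
  have hϖF : algebraMap K F ϖ ≠ 0 := (map_ne_zero (algebraMap K F)).mpr hϖ
  have hϖqF : algebraMap K F (ϖ ^ q) ≠ 0 :=
    (map_ne_zero (algebraMap K F)).mpr (pow_ne_zero q hϖ)
  set Y := (T₁ - algebraMap K F (a ^ q)) / algebraMap K F (ϖ ^ q) with hYdef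
  set Zc := (T₂ - algebraMap K F a) / algebraMap K F ϖ with hZdef
  have haO : algebraMap K F a ∈ S.Ov := S.algebraMap_mem haA
  have hϖO : algebraMap K F ϖ ∈ S.Ov := S.algebraMap_mem hϖA
  have hT₂ : T₂ = algebraMap K F ϖ * Zc + algebraMap K F a := by
    rw [hZdef]; field_simp; ring
  -- `(x + y) ^ q = x ^ q + y ^ q + q x y r` in `O`
  obtain ⟨r, hr⟩ := exists_add_pow_prime_eq hq
    ((⟨algebraMap K F ϖ, hϖO⟩ : S.Ov) * ⟨Zc, hZc⟩) (⟨algebraMap K F a, haO⟩ : S.Ov)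
  have hr' : T₂ ^ q = (algebraMap K F ϖ * Zc) ^ q + (algebraMap K F a) ^ q +
      (q : F) * (algebraMap K F ϖ * Zc) * algebraMap K F a * (r : F) := by
    have h1 : (algebraMap K F ϖ * Zc + algebraMap K F a) ^ q =
        (algebraMap K F ϖ * Zc) ^ q + (algebraMap K F a) ^ q +
          (q : F) * (algebraMap K F ϖ * Zc) * algebraMap K F a * (r : F) := by
      have := congrArg (fun x : S.Ov => (x : F)) hr
      simpa using this
    rw [hT₂]
    exact h1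
  have hqF : (q : F) = algebraMap K F ϖ ^ (q + 1) := by
    rw [← map_pow, hϖq, map_natCast]
  have hkey : (T₁ - T₂ ^ q) / algebraMap K F (ϖ ^ q) =
      Y - Zc ^ q - algebraMap K F ϖ *
        (algebraMap K F ϖ * Zc * algebraMap K F a * (r : F)) := by
    have h3 : T₁ - algebraMap K F (a ^ q) = algebraMap K F (ϖ ^ q) * Y := by
      rw [hYdef]; field_simp
    have h4 : T₁ - T₂ ^ q = algebraMap K F (ϖ ^ q) * (Y - Zc ^ q - algebraMap K F ϖ *
        (algebraMap K F ϖ * Zc * algebraMap K F a * (r : F))) := by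
      have h5 : T₁ - T₂ ^ q = (T₁ - algebraMap K F (a ^ q)) -
          (T₂ ^ q - algebraMap K F (a ^ q)) := by ring
      rw [h5, h3, hr', hqF, map_pow, map_pow]
      ring
    rw [h4, mul_div_cancel_left₀ _ hϖqF]
  have hE : algebraMap K F ϖ * Zc * algebraMap K F a * (r : F) ∈ S.Ov :=
    mul_mem (mul_mem (mul_mem hϖO hZc) haO) r.2
  obtain ⟨hm, hrz⟩ := uhor_red_mul_const S hϖA hϖr hE
  rw [hkey]
  refine ⟨sub_mem (sub_mem hY (pow_mem hZc q)) hm, ?_⟩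
  rw [S.red_sub (sub_mem hY (pow_mem hZc q)) hm, hrz, sub_zero, S.red_sub hY (pow_mem hZc q),
    S.red_pow hZc]

end Fermat.Agent.S36G
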