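/-
Cluster G (S36), block SEED, seat SEED-UP (helper90): **the parameters `u₁`, `u₂` on the horizontal
valuation `w_P`** (final statements, on the output `O : WPOut` of block W-P).

Design (SEED-UP v2, TRAP-free: only functions with cuspidal poles): at level `q M₀`
`θ = t₁ - t₀ ^ q`, `Z = t₀ - t₁ ^ q`, `H = u₁ (θ / q) ^ 12`, `R = - θ Z / q`, so `u₁ R ^ 12 = H Z ^ 12`;
`H` and `R` are roots of monic polynomials over the old copy `ι₁ (R_{P'})` which reduce at the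
centre `P'` to `(X - d) ^ (q + 1)` (`UHorRoot`; supplied by UP-KC + UP-NV), hence CONSTANT on `w_P`.

* `UHorRoot O hFk y d` : `y` is a root of a monic polynomial `C` over `ι₁ (discRing S0 P')` with
                         `C.map discEv = (X - d) ^ deg C`;
* `uhor_const`         : `UHorRoot O hFk y d → y ∈ O_{w_P} ∧ red y = d`;
* `uhor_u1`            : `red (u₁ / ϖ ^ 12) = c X₁ ^ 12`, `c ≠ 0`              (`EndsRed2`);
* `uhor_u2`            : `red (ϖ ^ (12 q) / u₂) = c X₂ ^ 12`, `c ≠ 0`          (`EndsRedA`).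
-/
import Mathlib
import Fermat.Agent.S36.HPVal.Defs
import Fermat.Agent.S36.Seed.NodeConst
import Fermat.Agent.S36.Seed.UHorAbs
import Fermat.Agent.Lib.FF.Value

set_option autoImplicit false
set_option linter.style.haveILetI false
set_option linter.unusedSectionVars false
set_option synthInstance.maxHeartbeats 400000

noncomputable section

namespace Fermat.Agent.S36G

open ModularCurve AlgebraicCurve Fermat.Agent.F3 Fermat.Agent.F3G Fermat.Agent.GaussInt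
  Fermat.Agent.Deuring Fermat.Agent.BadRed Fermat.Agent.HPVal Fermat.Agent.HP Fermat.Agent.RR
  Polynomial Fermat.Agent.NodeConst

local notation "Qb" => AlgebraicClosure ℚ

attribute [local instance 10000] SubalgebraClass.toAlgebra HahnSeries.powerSeriesAlgebra

variable {M₀ q : ℕ} [NeZero M₀] [NeZero q] {A : ValuationSubring Qb}
  {S0 : Fermat.Agent.S18Key.RedSetup Qb (FBar M₀) (IsLocalRing.ResidueField A)
    ↥(modularFunctionFieldFullC (IsLocalRing.ResidueField A) M₀)}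
  {P : Place (IsLocalRing.ResidueField A)
    ↥(modularFunctionFieldFullC (IsLocalRing.ResidueField A) M₀)}
  {FkP : Type} [Field FkP] [Algebra (IsLocalRing.ResidueField A) FkP]

/-- `y` is a root of a monic polynomial over the old copy `ι₁ (R_{P'})` whose reduction at the
centre `P'` is `(X - d) ^ n`. -/
def UHorRoot (O : WPOut M₀ q A S0 P FkP)
    (hFk : IsRRField (IsLocalRing.ResidueField A)
      ↥(modularFunctionFieldFullC (IsLocalRing.ResidueField A) M₀))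
    (y : FBar (M₀ * q * q)) (d : IsLocalRing.ResidueField A) : Prop :=
  ∃ C : Polynomial (discRing S0 O.P'), C.Monic ∧
    C.map (discEv S0 O.P' hFk) = (X - Polynomial.C d) ^ C.natDegree ∧
    Polynomial.eval₂ ((wpdIota1 M₀ q).toRingHom.comp (discRing S0 O.P').subtype) y C = 0

/-- the old functions of the copy `ι₁`, in the form used by `nc_const`. -/
theorem uhor_old1 (O : WPOut M₀ q A S0 P FkP)
    (hFk : IsRRField (IsLocalRing.ResidueField A)
      ↥(modularFunctionFieldFullC (IsLocalRing.ResidueField A) M₀))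
    (b : discRing S0 O.P') :
    ∃ hb : wpdIota1 M₀ q (b : FBar M₀) ∈ O.S.Ov,
      O.S.ρ ⟨_, hb⟩ = algebraMap (IsLocalRing.ResidueField A) FkP (discEv S0 O.P' hFk b) := by
  have hreg : S0.red (b : FBar M₀) ∈ O.P'.toValuationSubring :=
    Fermat.Agent.FF.mem_of_ord_nonneg' O.P' (ord_red_nonneg_of_mem b.2)
  have hval : ValAt O.P' (S0.red (b : FBar M₀)) (discEv S0 O.P' hFk b) := by
    rw [discEv_apply]
    exact Fermat.Agent.FF.valueAt_spec hFk O.P' hreg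
  obtain ⟨h1, h2⟩ := O.old1 (b : FBar M₀) b.2 _ hval
  refine ⟨h1, ?_⟩
  rw [← h2, O.S.red_of_mem h1]

/-- **constancy on `w_P`**: a root of a monic polynomial over `ι₁ (R_{P'})` with reduction
`(X - d) ^ n` at the centre lies in `O_{w_P}` and has the constant residue `d`. -/
theorem uhor_const (O : WPOut M₀ q A S0 P FkP)
    (hFk : IsRRField (IsLocalRing.ResidueField A)
      ↥(modularFunctionFieldFullC (IsLocalRing.ResidueField A) M₀))
    {y : FBar (M₀ * q * q)} {d : IsLocalRing.ResidueField A} (h : UHorRoot O hFk y d) :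
    y ∈ O.S.Ov ∧ O.S.red y = algebraMap (IsLocalRing.ResidueField A) FkP d := by
  obtain ⟨C, hCm, hCev, hroot⟩ := h
  -- the inclusion `R_{P'} → O_{w_P}`
  let incl : discRing S0 O.P' →+* O.S.Ov :=
    ((wpdIota1 M₀ q).toRingHom.comp (discRing S0 O.P').subtype).codRestrict O.S.Ov
      fun b => (uhor_old1 O hFk b).1
  have hincl : O.S.Ov.subtype.comp incl =
      (wpdIota1 M₀ q).toRingHom.comp (discRing S0 O.P').subtype := by
    ext b
    rfl
  have hρ : O.S.ρ.comp incl =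
      (algebraMap (IsLocalRing.ResidueField A) FkP).comp (discEv S0 O.P' hFk) := by
    ext b
    exact (uhor_old1 O hFk b).2
  set G : Polynomial O.S.Ov := C.map incl with hG
  have hGm : G.Monic := hCm.map incl
  have hGroot : (G.map O.S.Ov.subtype).eval y = 0 := by
    rw [hG, Polynomial.map_map, hincl, Polynomial.eval_map]
    exact hroot
  have hy : y ∈ O.S.Ov := nc_mem_of_monic_root O.S.Ov G hGm y hGroot
  refine ⟨hy, ?_⟩
  rw [O.S.red_of_mem hy]
  refine nc_res_of_monic_root O.S.Ov O.S.ρ G y hy hGroot _ C.natDegree ?_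
  rw [hG, Polynomial.map_map, hρ, ← Polynomial.map_map, hCev, Polynomial.map_pow,
    Polynomial.map_sub, Polynomial.map_X, Polynomial.map_C]

/-- **SEED-UP, `u₁`**: `red (u₁ / ϖ ^ 12) = c X₁ ^ 12` with a constant `c ≠ 0`. -/
theorem uhor_u1 (O : WPOut M₀ q A S0 P FkP)
    (hFk : IsRRField (IsLocalRing.ResidueField A)
      ↥(modularFunctionFieldFullC (IsLocalRing.ResidueField A) M₀))
    (hq : q.Prime) (hϖA : O.ϖ ∈ O.S.A) (hϖr : O.S.res ⟨O.ϖ, hϖA⟩ = 0)
    {u H R : FBar (M₀ * q * q)} {dH dR : IsLocalRing.ResidueField A}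
    (hdH : dH ≠ 0) (hdR : dR ≠ 0)
    (hrel : u * R ^ 12 = H * (wpIota0 M₀ q O.t - wpdIota1 M₀ q O.t ^ q) ^ 12)
    (hH : UHorRoot O hFk H dH) (hR : UHorRoot O hFk R dR) :
    ∃ c : IsLocalRing.ResidueField A, c ≠ 0 ∧
      u / algebraMap Qb (FBar (M₀ * q * q)) (O.ϖ ^ 12) ∈ O.S.Ov ∧
      O.S.red (u / algebraMap Qb (FBar (M₀ * q * q)) (O.ϖ ^ 12)) =
        algebraMap (IsLocalRing.ResidueField A) FkP c * O.H.X1 ^ 12 := by
  have hϖ : O.ϖ ≠ 0 := O.ϖ_ne hq
  have haA : O.a ∈ O.S.A := by rw [O.A_eq]; exact O.a_mem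
  obtain ⟨hHm, hHr⟩ := uhor_const O hFk hH
  obtain ⟨-, hRr⟩ := uhor_const O hFk hR
  obtain ⟨hZm, hZr⟩ := uhor_Z_first O.S hq.two_le hϖ hϖA hϖr haA O.a_pow
    (T₀ := wpIota0 M₀ q O.t) (T₁ := wpdIota1 M₀ q O.t) O.W_mem O.Y_mem
  obtain ⟨hum, hur⟩ := uhor_red O.S hϖ 12 hrel hdR hHm hHr hRr hZm
  refine ⟨dH / dR ^ 12, div_ne_zero hdH (pow_ne_zero _ hdR), hum, ?_⟩
  rw [hur, hZr]
  congr 2
  exact O.red_W

/-- **SEED-UP, `u₂`**: `red (ϖ ^ (12 q) / u₂) = c X₂ ^ 12` with a constant `c ≠ 0`. -/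
theorem uhor_u2 [CharP (IsLocalRing.ResidueField A) q] (O : WPOut M₀ q A S0 P FkP)
    (hFk : IsRRField (IsLocalRing.ResidueField A)
      ↥(modularFunctionFieldFullC (IsLocalRing.ResidueField A) M₀))
    (hq : q.Prime) (hϖA : O.ϖ ∈ O.S.A) (hϖr : O.S.res ⟨O.ϖ, hϖA⟩ = 0)
    {u H R : FBar (M₀ * q * q)} {dH dR : IsLocalRing.ResidueField A}
    (hdH : dH ≠ 0) (hdR : dR ≠ 0)
    (hrel : u * R ^ 12 = H * (wpdIota1 M₀ q O.t - wpIota2 M₀ q O.t ^ q) ^ 12)
    (hH : UHorRoot O hFk H dH) (hR : UHorRoot O hFk R dR) :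
    ∃ c : IsLocalRing.ResidueField A, c ≠ 0 ∧
      (u / algebraMap Qb (FBar (M₀ * q * q)) ((O.ϖ ^ q) ^ 12))⁻¹ ∈ O.S.Ov ∧
      O.S.red ((u / algebraMap Qb (FBar (M₀ * q * q)) ((O.ϖ ^ q) ^ 12))⁻¹) =
        algebraMap (IsLocalRing.ResidueField A) FkP c * O.H.X2 ^ 12 := by
  have hϖ : O.ϖ ≠ 0 := O.ϖ_ne hq
  have haA : O.a ∈ O.S.A := by rw [O.A_eq]; exact O.a_mem
  obtain ⟨hHm, hHr⟩ := uhor_const O hFk hH
  obtain ⟨-, hRr⟩ := uhor_const O hFk hR
  obtain ⟨hZm, hZr⟩ := uhor_Z_second O.S hq hϖ hϖA hϖr O.ϖ_pow haA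
    (T₁ := wpdIota1 M₀ q O.t) (T₂ := wpIota2 M₀ q O.t) O.Y_mem O.Z_mem
  obtain ⟨hum, hur⟩ := uhor_red O.S (pow_ne_zero q hϖ) 12 hrel hdR hHm hHr hRr hZm
  -- the reduction of `Z / ϖ ^ q` is `c / X₂`
  have hY : O.S.red ((wpdIota1 M₀ q O.t - algebraMap Qb (FBar (M₀ * q * q)) (O.a ^ q)) /
      algebraMap Qb (FBar (M₀ * q * q)) (O.ϖ ^ q)) = O.H.Yf := O.red_Y
  have hZc : O.S.red ((wpIota2 M₀ q O.t - algebraMap Qb (FBar (M₀ * q * q)) O.a) /
      algebraMap Qb (FBar (M₀ * q * q)) O.ϖ) = O.H.X2 := O.red_Z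
  have hX2 := O.H.X2_ne
  have hcF : algebraMap (IsLocalRing.ResidueField A) FkP O.H.c ≠ 0 := O.H.algebraMap_c_ne
  have hZr' : O.S.red ((wpdIota1 M₀ q O.t - wpIota2 M₀ q O.t ^ q) /
      algebraMap Qb (FBar (M₀ * q * q)) (O.ϖ ^ q)) =
      algebraMap (IsLocalRing.ResidueField A) FkP O.H.c / O.H.X2 := by
    rw [hZr, hY, hZc, O.H.Yf_eq_X2 hq]
    ring
  rw [hZr'] at hur
  set x := u / algebraMap Qb (FBar (M₀ * q * q)) ((O.ϖ ^ q) ^ 12) with hx
  have hdF : algebraMap (IsLocalRing.ResidueField A) FkP (dH / dR ^ 12) ≠ 0 :=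
    (_root_.map_ne_zero _).mpr (div_ne_zero hdH (pow_ne_zero _ hdR))
  have hxr : O.S.red x ≠ 0 := by
    rw [hur]
    exact mul_ne_zero hdF (pow_ne_zero _ (div_ne_zero hcF hX2))
  have hxi : x⁻¹ ∈ O.S.Ov := O.S.inv_mem_of_red_ne_zero hxr
  have hx0 : x ≠ 0 := O.S.ne_zero_of_red_ne_zero hxr
  refine ⟨(dH / dR ^ 12 * O.H.c ^ 12)⁻¹, ?_, hxi, ?_⟩
  · exact inv_ne_zero (mul_ne_zero (div_ne_zero hdH (pow_ne_zero _ hdR))
      (pow_ne_zero _ O.H.c_ne))
  · rw [O.S.red_inv hum hxi hx0, hur, map_inv₀, map_mul, map_pow, div_pow]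
    field_simp

end Fermat.Agent.S36G
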