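/-
Cluster G (S36), block SEED, seat SEED-UP (helper90): **the level `M₀ q` functions `H`, `R` of
SEED-UP in the language of the degeneracy maps** `α₀ = heckeAlphaBar Qb M₀ q`,
`β₀ = heckeBetaBar Qb M₀ q : F_{M₀} → F_{M₀ q}`, and the shape of their node values
(`UNodeGauss`) consumed by `S36/Seed/UHorRootMod.lean` (helper98) and produced by UP-NV
(helper23, `S36/Seed/UNode.lean` + adapters).

* `uhTheta M₀ q t = β₀ t - (α₀ t) ^ q`,  `uhZ M₀ q t = α₀ t - (β₀ t) ^ q`,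
  `uhH M₀ q t = (θ / q) ^ 12 u₁`,  `uhR M₀ q t = - (θ / q) Z`  (`u₁ = uF (M₀ q) q`);
* `uh_rel : u₁ R ^ 12 = H Z ^ 12`;
* `coe_uhTheta`, `coe_uhZ`, `coe_uhH`, `coe_uhR` : the expansions;
* `UNodeGauss M₀ q A D hM y Q d` : `y`, `w y` Gauss-integral, poles of `y` at the cusps only,
  `ȳ (Q) = d = (w y)‾ (τ⁻¹ Q)`.
-/
import Mathlib
import Fermat.Agent.Lib.BadRed.KroneckerCharpolyLQPole
import Fermat.Agent.Lib.BadRed.Mod.FrobAut

set_option autoImplicit false
set_option linter.style.haveILetI false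
set_option linter.unusedSectionVars false
set_option synthInstance.maxHeartbeats 400000

noncomputable section

namespace Fermat.Agent.S36G

open ModularCurve AlgebraicCurve Fermat.Agent.F3 Fermat.Agent.F3G Fermat.Agent.GaussInt
  Fermat.Agent.Deuring Fermat.Agent.BadRed Fermat.Agent.RR Fermat.Agent.AtkinLehner

local notation "Qb" => AlgebraicClosure ℚ

section Defs

variable (M₀ q : ℕ) [NeZero M₀] [NeZero q]

/-- `θ = β₀ t - (α₀ t) ^ q` at the level `M₀ q`. -/
def uhTheta (t : FBar M₀) : FBar (M₀ * q) :=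
  heckeBetaBar Qb M₀ q t - heckeAlphaBar Qb M₀ q t ^ q

/-- `Z = α₀ t - (β₀ t) ^ q` at the level `M₀ q`. -/
def uhZ (t : FBar M₀) : FBar (M₀ * q) :=
  heckeAlphaBar Qb M₀ q t - heckeBetaBar Qb M₀ q t ^ q

/-- `u₁ = Δ(z) / Δ(qz)` at the level `M₀ q`. -/
def uhU : FBar (M₀ * q) := uF (M₀ * q) q (Dvd.intro_left M₀ rfl)

/-- `H = (θ / q) ^ 12 u₁`. -/
def uhH (t : FBar M₀) : FBar (M₀ * q) :=
  (uhTheta M₀ q t / algebraMap Qb (FBar (M₀ * q)) (q : Qb)) ^ 12 * uhU M₀ q

/-- `R = - (θ / q) Z`. -/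
def uhR (t : FBar M₀) : FBar (M₀ * q) :=
  -(uhTheta M₀ q t / algebraMap Qb (FBar (M₀ * q)) (q : Qb) * uhZ M₀ q t)

/-- `u₁ R ^ 12 = H Z ^ 12`. -/
theorem uh_rel (t : FBar M₀) :
    uhU M₀ q * uhR M₀ q t ^ 12 = uhH M₀ q t * uhZ M₀ q t ^ 12 := by
  unfold uhH uhR
  ring

theorem coe_uhU : ((uhU M₀ q : FBar (M₀ * q)) : LaurentSeries Qb) = uSer Qb q := rfl

theorem coe_uhTheta (t : FBar M₀) :
    ((uhTheta M₀ q t : FBar (M₀ * q)) : LaurentSeries Qb) =
      qExpand Qb q (t : LaurentSeries Qb) - (t : LaurentSeries Qb) ^ q := by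
  show ((heckeBetaBar Qb M₀ q t : FBar (M₀ * q)) : LaurentSeries Qb) -
    ((heckeAlphaBar Qb M₀ q t : FBar (M₀ * q)) : LaurentSeries Qb) ^ q = _
  rw [coe_heckeBetaBar, coe_heckeAlphaBar]

theorem coe_uhZ (t : FBar M₀) :
    ((uhZ M₀ q t : FBar (M₀ * q)) : LaurentSeries Qb) =
      (t : LaurentSeries Qb) - qExpand Qb q (t : LaurentSeries Qb) ^ q := by
  show ((heckeAlphaBar Qb M₀ q t : FBar (M₀ * q)) : LaurentSeries Qb) -
    ((heckeBetaBar Qb M₀ q t : FBar (M₀ * q)) : LaurentSeries Qb) ^ q = _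
  rw [coe_heckeBetaBar, coe_heckeAlphaBar]

end Defs

/-- **the node values of a level `M₀ q` function `y` at the supersingular place `Q`, Gauss
form**: `y` and `w y` are Gauss-integral, `y` has poles only at the cusps, and the reductions
`ȳ`, `(w y)‾` (elements of `k (X₀(M₀))` with the expansions `gaussResFun`) take the same value
`d` at `Q` and at `τ⁻¹ Q`. -/
structure UNodeGauss (M₀ q : ℕ) [NeZero M₀] [NeZero q] (A : ValuationSubring Qb)
    [Fact q.Prime] [CharP (IsLocalRing.ResidueField A) q]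
    [PerfectRing (IsLocalRing.ResidueField A) q]
    (D : ALData) (hM : M₀ * q = D.Q * D.R) (y : FBar (M₀ * q))
    (Q : Place (IsLocalRing.ResidueField A)
      ↥(modularFunctionFieldFullC (IsLocalRing.ResidueField A) M₀))
    (d : IsLocalRing.ResidueField A) : Prop where
  mem : (y : LaurentSeries Qb) ∈ gaussSub A (modularFunctionFieldBar (M₀ * q))
  wmem : ((wAt D hM y : FBar (M₀ * q)) : LaurentSeries Qb) ∈
    gaussSub A (modularFunctionFieldBar (M₀ * q))
  pole : ∀ w : Place Qb (FBar (M₀ * q)),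
    0 ≤ w.ord (heckeAlphaBar Qb M₀ q (Fermat.Agent.S24.jBar M₀)) → 0 ≤ w.ord y
  val : ∃ ybar wbar : ↥(modularFunctionFieldFullC (IsLocalRing.ResidueField A) M₀),
    ((ybar : ↥(modularFunctionFieldFullC (IsLocalRing.ResidueField A) M₀)) :
        LaurentSeries (IsLocalRing.ResidueField A)) =
      gaussResFun A (modularFunctionFieldBar (M₀ * q)) (y : LaurentSeries Qb) ∧
    ((wbar : ↥(modularFunctionFieldFullC (IsLocalRing.ResidueField A) M₀)) :
        LaurentSeries (IsLocalRing.ResidueField A)) =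
      gaussResFun A (modularFunctionFieldBar (M₀ * q))
        ((wAt D hM y : FBar (M₀ * q)) : LaurentSeries Qb) ∧
    ValAt Q ybar d ∧
    ValAt ((frobAut (IsLocalRing.ResidueField A) M₀ q)⁻¹ • Q) wbar d

end Fermat.Agent.S36G
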