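/-
Cluster G (S36), block SEED, seat UHOR-ROOT (helper98; statements: helper90).

**The hypothesis `UHorRoot` of `S36/Seed/UHor.lean`, modular instance**: for a function `y` of
level `q M₀` such that `y` and `w y` (`w = wAt D hM` the Atkin–Lehner involution at `q`) are
Gauss-integral, `y` with cuspidal poles only, and with the node values
`ȳ (P') = d`, `(w y)‾ (τ⁻¹ P') = d` (`ȳ`, `(w y)‾` the Gauss residues, `τ` the coefficientwise
Frobenius), the copy `β y` of `y` at level `q² M₀` is a root of a monic polynomial over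
`ι₁ (R_{P'})` which reduces at the centre `P'` to `(X - d) ^ (q + 1)`; the same for `α y` with the
roles of `y`, `w y` exchanged.

* `uhrm_discEv_map` : (abstract) a polynomial over `R_P` of degree `q + 1` whose coefficientwise
                      reduction is `(X - ȳ) (X ^ q - z̄)`, `ȳ (P) = d`, `z̄ (P) = d ^ q`, evaluates
                      to `(X - d) ^ (q + 1)`;
* `uhrm_root_gen`   : the general form (any ring homomorphism `ψ` with `ψ ∘ α₀ = ι₁`);
* `uhrm_root_b`     : `UHorRoot O hFk (β y) d`;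
* `uhrm_root_a`     : `UHorRoot O hFk (α y) d`.

Inputs: `kroneckerCharpolyLQ` (UP-KC, `Lib/BadRed/KroneckerCharpolyLQ.lean`),
`kclqp_coeff_of_map`, `kclqp_ord_wAt` ((K'), helper50), `IsGaussRed.mem_discRing_ss` (helper93).
-/
import Mathlib
import Fermat.Agent.S36.Seed.UHor
import Fermat.Agent.Lib.BadRed.KroneckerCharpolyLQPole
import Fermat.Agent.S36.HPVal.DiscModG
import Fermat.Agent.Lib.BadRed.Mod.FrobAut
import Fermat.Agent.E.Desc.Kp.Ann

set_option autoImplicit false
set_option linter.style.haveILetI false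
set_option linter.unusedSectionVars false
set_option linter.unusedVariables false
set_option synthInstance.maxHeartbeats 400000

noncomputable section

namespace Fermat.Agent.S36G

/- build-time recipe (helper70): the two instances found by typeclass search, tried first. -/
attribute [local instance 10000] SubalgebraClass.toAlgebra HahnSeries.powerSeriesAlgebra


open ModularCurve AlgebraicCurve Fermat.Agent.F3 Fermat.Agent.F3G Fermat.Agent.GaussInt
  Fermat.Agent.Deuring Fermat.Agent.BadRed Fermat.Agent.HPVal Fermat.Agent.HP Fermat.Agent.RR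
  Polynomial Fermat.Agent.Kronecker Fermat.Agent.AtkinLehner

local notation "Qb" => AlgebraicClosure ℚ

/-! ### abstract part -/

section Abstract

variable {K F k Fk : Type*} [Field K] [Field F] [Algebra K F] [Field k] [Field Fk] [Algebra k Fk]

/-- a function with a value at `P` is regular at `P`. -/
theorem uhrm_mem_of_valAt {P : Place k Fk} {f : Fk} {c : k} (h : ValAt P f c) :
    f ∈ P.toValuationSubring := by
  rcases h with h | h
  · rw [h]
    exact P.algebraMap_mem' c
  · have h1 : f - algebraMap k Fk c ∈ P.toValuationSubring :=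
      Fermat.Agent.FF.mem_of_ord_nonneg' P h.le
    have h2 := add_mem h1 (P.algebraMap_mem' c)
    rwa [sub_add_cancel] at h2

/-- the value at `P`, as a value of `valueHom`. -/
theorem uhrm_valueHom_of_valAt (hFk : IsRRField k Fk) {P : Place k Fk} {f : Fk} {c : k}
    (h : ValAt P f c) :
    Fermat.Agent.FF.valueHom hFk P ⟨f, uhrm_mem_of_valAt h⟩ = c := by
  rw [← Fermat.Agent.FF.valueAt_of_mem hFk P (uhrm_mem_of_valAt h)]
  exact (Fermat.Agent.FF.valueAt_eq_iff hFk P (uhrm_mem_of_valAt h) c).mpr h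

/-- `(X - d) (X ^ q - d ^ q) = (X - d) ^ (q + 1)` in characteristic `q`. -/
theorem uhrm_pow_char (q : ℕ) [Fact q.Prime] [CharP k q] (d : k) :
    (X - Polynomial.C d) * (X ^ q - Polynomial.C (d ^ q)) =
      (X - Polynomial.C d : Polynomial k) ^ (q + 1) := by
  rw [pow_succ', sub_pow_char, map_pow]

/-- **evaluation at the centre**: a polynomial over `R_P` of degree `q + 1` whose coefficientwise
reduction is `(X - ȳ) (X ^ q - z̄)` with `ȳ (P) = d`, `z̄ (P) = d ^ q` evaluates to
`(X - d) ^ (q + 1)`. -/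
theorem uhrm_discEv_map (S : Fermat.Agent.S18Key.RedSetup K F k Fk) (P : Place k Fk)
    (hFk : IsRRField k Fk) (q : ℕ) [Fact q.Prime] [CharP k q]
    (C : Polynomial (discRing S P)) (hCd : C.natDegree = q + 1)
    (y z : Fk) (d : k) (hy : ValAt P y d) (hz : ValAt P z (d ^ q))
    (hred : ∀ i, S.red ((C.coeff i : discRing S P) : F) =
      ((X - Polynomial.C y) * (X ^ q - Polynomial.C z) : Polynomial Fk).coeff i) :
    C.map (discEv S P hFk) = (X - Polynomial.C d) ^ C.natDegree := by
  set G' : Polynomial P.toValuationSubring :=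
    (X - Polynomial.C ⟨y, uhrm_mem_of_valAt hy⟩) * (X ^ q - Polynomial.C ⟨z, uhrm_mem_of_valAt hz⟩)
    with hG'
  have hG'map : G'.map P.toValuationSubring.subtype =
      (X - Polynomial.C y) * (X ^ q - Polynomial.C z) := by
    rw [hG', Polynomial.map_mul, Polynomial.map_sub, Polynomial.map_sub, Polynomial.map_pow,
      Polynomial.map_X, Polynomial.map_C, Polynomial.map_C]
    rfl
  have h1 : C.map (discRed S P) = G' := by
    apply Polynomial.map_injective P.toValuationSubring.subtype Subtype.val_injective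
    rw [hG'map]
    ext i
    rw [Polynomial.coeff_map, Polynomial.coeff_map, ← hred i]
    rfl
  have h2 : discEv S P hFk = (Fermat.Agent.FF.valueHom hFk P).comp (discRed S P) := rfl
  rw [h2, ← Polynomial.map_map, h1, hG', Polynomial.map_mul, Polynomial.map_sub,
    Polynomial.map_sub, Polynomial.map_pow, Polynomial.map_X, Polynomial.map_C, Polynomial.map_C,
    uhrm_valueHom_of_valAt hFk hy, uhrm_valueHom_of_valAt hFk hz, hCd, uhrm_pow_char]

end Abstract

/-! ### modular part -/

section Modular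

variable {M₀ q : ℕ} [NeZero M₀] [NeZero q] {A : ValuationSubring Qb}
  {S0 : Fermat.Agent.S18Key.RedSetup Qb (FBar M₀) (IsLocalRing.ResidueField A)
    ↥(modularFunctionFieldFullC (IsLocalRing.ResidueField A) M₀)}
  {P : Place (IsLocalRing.ResidueField A)
    ↥(modularFunctionFieldFullC (IsLocalRing.ResidueField A) M₀)}
  {FkP : Type} [Field FkP] [Algebra (IsLocalRing.ResidueField A) FkP]

/-- the image of `(X - a) (X ^ q - b)` under a ring homomorphism. -/
theorem uhrm_map_gen {R S : Type*} [CommRing R] [CommRing S] (φ : R →+* S) (q : ℕ) (a b : R) :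
    ((X - Polynomial.C a) * (X ^ q - Polynomial.C b) : Polynomial R).map φ =
      (X - Polynomial.C (φ a)) * (X ^ q - Polynomial.C (φ b)) := by
  simp only [Polynomial.map_mul, Polynomial.map_sub, Polynomial.map_pow, Polynomial.map_X,
    Polynomial.map_C]

set_option maxHeartbeats 1000000 in
/-- the expansion of `(X - ȳ) (X ^ q - τ w̄)`. -/
theorem uhrm_map_val [Fact q.Prime] [CharP (IsLocalRing.ResidueField A) q]
    [PerfectRing (IsLocalRing.ResidueField A) q]
    (ybar wbar : ↥(modularFunctionFieldFullC (IsLocalRing.ResidueField A) M₀)) :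
    ((X - Polynomial.C ybar) *
        (X ^ q - Polynomial.C (frobAut (IsLocalRing.ResidueField A) M₀ q • wbar)) :
      Polynomial ↥(modularFunctionFieldFullC (IsLocalRing.ResidueField A) M₀)).map
        (algebraMap ↥(modularFunctionFieldFullC (IsLocalRing.ResidueField A) M₀)
          (LaurentSeries (IsLocalRing.ResidueField A))) =
      kclqPoly q (IsLocalRing.ResidueField A)
        (ybar : LaurentSeries (IsLocalRing.ResidueField A))
        (wbar : LaurentSeries (IsLocalRing.ResidueField A)) := by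
  have e1 : algebraMap ↥(modularFunctionFieldFullC (IsLocalRing.ResidueField A) M₀)
      (LaurentSeries (IsLocalRing.ResidueField A)) ybar =
      (ybar : LaurentSeries (IsLocalRing.ResidueField A)) := rfl
  have e2 : algebraMap ↥(modularFunctionFieldFullC (IsLocalRing.ResidueField A) M₀)
      (LaurentSeries (IsLocalRing.ResidueField A))
        (frobAut (IsLocalRing.ResidueField A) M₀ q • wbar) =
      coeffMap (frobenius (IsLocalRing.ResidueField A) q)
        (wbar : LaurentSeries (IsLocalRing.ResidueField A)) :=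
    coe_frobAut_smul (IsLocalRing.ResidueField A) M₀ q wbar
  have h := uhrm_map_gen (algebraMap ↥(modularFunctionFieldFullC (IsLocalRing.ResidueField A) M₀)
      (LaurentSeries (IsLocalRing.ResidueField A))) q ybar
        (frobAut (IsLocalRing.ResidueField A) M₀ q • wbar)
  rw [e1, e2] at h
  exact h

set_option maxHeartbeats 1000000 in
/-- **`UHorRoot`, general form**: `ψ` any ring homomorphism `F_{q M₀} → F_{q² M₀}` with
`ψ ∘ α₀ = ι₁`. -/
theorem uhrm_root_gen [Fact q.Prime] [CharP (IsLocalRing.ResidueField A) q]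
    [PerfectRing (IsLocalRing.ResidueField A) q]
    (O : WPOut M₀ q A S0 P FkP)
    (hFk : IsRRField (IsLocalRing.ResidueField A)
      ↥(modularFunctionFieldFullC (IsLocalRing.ResidueField A) M₀))
    (hG : IsGaussRed M₀ A S0) (hq : q.Prime) (hqM : ¬ q ∣ M₀) (hA : A.LiesOverPrime q)
    (D : ALData) (hQ : D.Q = q) (hR : D.R = M₀) (hM : M₀ * q = D.Q * D.R)
    (y wy : FBar (M₀ * q)) (hwy : wAt D hM y = wy)
    (hy : (y : LaurentSeries Qb) ∈ gaussSub A (modularFunctionFieldBar (M₀ * q)))
    (hwym : (wy : LaurentSeries Qb) ∈ gaussSub A (modularFunctionFieldBar (M₀ * q)))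
    (hpole : ∀ w : Place Qb (FBar (M₀ * q)),
      0 ≤ w.ord (heckeAlphaBar Qb M₀ q (Fermat.Agent.S24.jBar M₀)) → 0 ≤ w.ord y)
    (ybar wbar : ↥(modularFunctionFieldFullC (IsLocalRing.ResidueField A) M₀))
    (hyb : (ybar : LaurentSeries (IsLocalRing.ResidueField A)) =
      gaussResFun A (modularFunctionFieldBar (M₀ * q)) (y : LaurentSeries Qb))
    (hwb : (wbar : LaurentSeries (IsLocalRing.ResidueField A)) =
      gaussResFun A (modularFunctionFieldBar (M₀ * q)) (wy : LaurentSeries Qb))
    (d : IsLocalRing.ResidueField A)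
    (hv1 : ValAt O.P' ybar d)
    (hv2 : ValAt ((frobAut (IsLocalRing.ResidueField A) M₀ q)⁻¹ • O.P') wbar d)
    (ψ : FBar (M₀ * q) →+* FBar (M₀ * q * q))
    (hψ : ψ.comp (heckeAlphaBar Qb M₀ q).toRingHom = (wpdIota1 M₀ q).toRingHom) :
    UHorRoot O hFk (ψ y) d := by
  classical
  have hfin : FiniteAlong Qb (heckeAlphaBar Qb M₀ q) := (finrank_heckeAlphaBar M₀ q hq hqM).1
  obtain ⟨Pg, hPm, hPd, hPmap, hPred⟩ :=
    kroneckerCharpolyLQ hqM hq A hA hfin D hQ hR hM ⟨y, hy⟩ ⟨wy, hwym⟩ hwy
  obtain ⟨C₀, hC₀⟩ : ∃ C₀ : Polynomial (FBar M₀),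
      C₀ = Pg.map (gaussOvS M₀ hq A hA).subtype := ⟨_, rfl⟩
  have hC₀coeff : ∀ i, C₀.coeff i = ((Pg.coeff i : ↥(gaussOvS M₀ hq A hA)) : FBar M₀) := by
    intro i
    rw [hC₀, Polynomial.coeff_map]
    rfl
  -- the coefficients lie in `R_{P'}`
  have hcoeff : ∀ i, C₀.coeff i ∈ discRing S0 O.P' := by
    intro i
    rw [hC₀coeff]
    refine hG.mem_discRing_ss hq hA hqM (Pg.coeff i).2 ?_ O.ss'
    intro v hv
    exact Fermat.Agent.S36.kclqp_coeff_of_map M₀ q hfin y hpole _ Pg hPmap v hv i
  have hsub : (↑C₀.coeffs : Set (FBar M₀)) ⊆ (discRing S0 O.P' : Set (FBar M₀)) := by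
    intro x hx
    obtain ⟨n, -, rfl⟩ := Polynomial.mem_coeffs_iff.mp (Finset.mem_coe.mp hx)
    exact hcoeff n
  obtain ⟨C, hCmap⟩ : ∃ C : Polynomial (discRing S0 O.P'),
      C.map (discRing S0 O.P').subtype = C₀ :=
    ⟨C₀.toSubring (discRing S0 O.P') hsub, Polynomial.map_toSubring C₀ (discRing S0 O.P') hsub⟩
  have hC₀m : C₀.Monic := by rw [hC₀]; exact hPm.map _
  have hCm : C.Monic := by
    have h1 : (C.map (discRing S0 O.P').subtype).Monic := by rw [hCmap]; exact hC₀m
    exact Polynomial.monic_of_injective Subtype.val_injective h1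
  have hCd : C.natDegree = q + 1 := by
    rw [← hPd, ← Polynomial.natDegree_map_eq_of_injective
      (f := (discRing S0 O.P').subtype) Subtype.val_injective C, hCmap, hC₀,
      Polynomial.natDegree_map_eq_of_injective Subtype.val_injective Pg]
  have hCcoeff : ∀ i, ((C.coeff i : discRing S0 O.P') : FBar M₀) =
      ((Pg.coeff i : ↥(gaussOvS M₀ hq A hA)) : FBar M₀) := by
    intro i
    rw [← hC₀coeff, ← hCmap, Polynomial.coeff_map]
    rfl
  -- the values at the centre
  have hz : ValAt O.P' (frobAut (IsLocalRing.ResidueField A) M₀ q • wbar) (d ^ q) := by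
    have h := Fermat.Agent.EKp.an_valAt_smul (frobAut (IsLocalRing.ResidueField A) M₀ q) hv2
    rw [smul_inv_smul, baseAut_frobAut_apply] at h
    exact h
  -- the reduction of the coefficients
  have hred : ∀ i, S0.red ((C.coeff i : discRing S0 O.P') : FBar M₀) =
      ((X - Polynomial.C ybar) *
        (X ^ q - Polynomial.C (frobAut (IsLocalRing.ResidueField A) M₀ q • wbar)) :
      Polynomial ↥(modularFunctionFieldFullC (IsLocalRing.ResidueField A) M₀)).coeff i := by
    intro i
    apply Subtype.ext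
    have hmem : ((C.coeff i : discRing S0 O.P') : FBar M₀) ∈ S0.Ov := (C.coeff i).2.1
    rw [hG.coe_red _ hmem, hCcoeff]
    have h1 : gaussResFun A (modularFunctionFieldBar M₀)
        ((((Pg.coeff i : ↥(gaussOvS M₀ hq A hA)) : FBar M₀)) : LaurentSeries Qb) =
        (Pg.map (gaussOvRes M₀ hq A hA)).coeff i := by
      rw [Polynomial.coeff_map]
      rfl
    rw [h1, hPred]
    have h2 := congrArg (fun p => Polynomial.coeff p i) (uhrm_map_val (q := q) ybar wbar)
    simp only [Polynomial.coeff_map] at h2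
    rw [hyb, hwb] at h2
    exact h2.symm
  refine ⟨C, hCm, uhrm_discEv_map S0 O.P' hFk q C hCd ybar _ d hv1 hz hred, ?_⟩
  -- the root
  have hroot : C₀.eval₂ (heckeAlphaBar Qb M₀ q).toRingHom y = 0 := by
    rw [hC₀, hPmap]
    exact kclq_root hfin y
  rw [← hψ, ← Polynomial.eval₂_map, hCmap, ← Polynomial.hom_eval₂, hroot, map_zero]

/-- **`UHorRoot` for the `β`-copy** (`u₂` side): centre `O.P'` = the node point. -/
theorem uhrm_root_b [Fact q.Prime] [CharP (IsLocalRing.ResidueField A) q]
    [PerfectRing (IsLocalRing.ResidueField A) q]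
    (O : WPOut M₀ q A S0 P FkP)
    (hFk : IsRRField (IsLocalRing.ResidueField A)
      ↥(modularFunctionFieldFullC (IsLocalRing.ResidueField A) M₀))
    (hG : IsGaussRed M₀ A S0) (hq : q.Prime) (hqM : ¬ q ∣ M₀) (hA : A.LiesOverPrime q)
    (D : ALData) (hQ : D.Q = q) (hR : D.R = M₀) (hM : M₀ * q = D.Q * D.R)
    (y : FBar (M₀ * q))
    (hy : (y : LaurentSeries Qb) ∈ gaussSub A (modularFunctionFieldBar (M₀ * q)))
    (hwy : ((wAt D hM y : FBar (M₀ * q)) : LaurentSeries Qb) ∈
      gaussSub A (modularFunctionFieldBar (M₀ * q)))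
    (hpole : ∀ w : Place Qb (FBar (M₀ * q)),
      0 ≤ w.ord (heckeAlphaBar Qb M₀ q (Fermat.Agent.S24.jBar M₀)) → 0 ≤ w.ord y)
    (ybar wbar : ↥(modularFunctionFieldFullC (IsLocalRing.ResidueField A) M₀))
    (hyb : (ybar : LaurentSeries (IsLocalRing.ResidueField A)) =
      gaussResFun A (modularFunctionFieldBar (M₀ * q)) (y : LaurentSeries Qb))
    (hwb : (wbar : LaurentSeries (IsLocalRing.ResidueField A)) =
      gaussResFun A (modularFunctionFieldBar (M₀ * q))
        ((wAt D hM y : FBar (M₀ * q)) : LaurentSeries Qb))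
    (d : IsLocalRing.ResidueField A)
    (hv1 : ValAt O.P' ybar d)
    (hv2 : ValAt ((frobAut (IsLocalRing.ResidueField A) M₀ q)⁻¹ • O.P') wbar d) :
    UHorRoot O hFk (heckeBetaBar Qb (M₀ * q) q y) d := by
  have h := uhrm_root_gen O hFk hG hq hqM hA D hQ hR hM y (wAt D hM y) rfl hy hwy hpole
    ybar wbar hyb hwb d hv1 hv2 (heckeBetaBar Qb (M₀ * q) q).toRingHom
    (by rw [wpdIota1_eq_beta_alpha]; rfl)
  exact h

/-- **`UHorRoot` for the `α`-copy** (`u₁` side): centre `O.P'` = `τ⁻¹ •` (the node point). -/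
theorem uhrm_root_a [Fact q.Prime] [CharP (IsLocalRing.ResidueField A) q]
    [PerfectRing (IsLocalRing.ResidueField A) q]
    (O : WPOut M₀ q A S0 P FkP)
    (hFk : IsRRField (IsLocalRing.ResidueField A)
      ↥(modularFunctionFieldFullC (IsLocalRing.ResidueField A) M₀))
    (hG : IsGaussRed M₀ A S0) (hq : q.Prime) (hqM : ¬ q ∣ M₀) (hA : A.LiesOverPrime q)
    (D : ALData) (hQ : D.Q = q) (hR : D.R = M₀) (hM : M₀ * q = D.Q * D.R)
    (y : FBar (M₀ * q))
    (hy : (y : LaurentSeries Qb) ∈ gaussSub A (modularFunctionFieldBar (M₀ * q)))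
    (hwy : ((wAt D hM y : FBar (M₀ * q)) : LaurentSeries Qb) ∈
      gaussSub A (modularFunctionFieldBar (M₀ * q)))
    (hpole : ∀ w : Place Qb (FBar (M₀ * q)),
      0 ≤ w.ord (heckeAlphaBar Qb M₀ q (Fermat.Agent.S24.jBar M₀)) → 0 ≤ w.ord y)
    (ybar wbar : ↥(modularFunctionFieldFullC (IsLocalRing.ResidueField A) M₀))
    (hyb : (ybar : LaurentSeries (IsLocalRing.ResidueField A)) =
      gaussResFun A (modularFunctionFieldBar (M₀ * q)) (y : LaurentSeries Qb))
    (hwb : (wbar : LaurentSeries (IsLocalRing.ResidueField A)) =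
      gaussResFun A (modularFunctionFieldBar (M₀ * q))
        ((wAt D hM y : FBar (M₀ * q)) : LaurentSeries Qb))
    (d : IsLocalRing.ResidueField A)
    (hv1 : ValAt O.P' wbar d)
    (hv2 : ValAt ((frobAut (IsLocalRing.ResidueField A) M₀ q)⁻¹ • O.P') ybar d) :
    UHorRoot O hFk (heckeAlphaBar Qb (M₀ * q) q y) d := by
  have hpole' : ∀ w : Place Qb (FBar (M₀ * q)),
      0 ≤ w.ord (heckeAlphaBar Qb M₀ q (Fermat.Agent.S24.jBar M₀)) →
        0 ≤ w.ord (wAt D hM y) := fun w hw =>
    Fermat.Agent.S36.kclqp_ord_wAt M₀ q hq hqM D hQ hR hM y hpole w hw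
  have hyb' : (ybar : LaurentSeries (IsLocalRing.ResidueField A)) =
      gaussResFun A (modularFunctionFieldBar (M₀ * q))
        ((wAt D hM (wAt D hM y) : FBar (M₀ * q)) : LaurentSeries Qb) := by
    rw [wAt_wAt]; exact hyb
  have hy' : ((wAt D hM (wAt D hM y) : FBar (M₀ * q)) : LaurentSeries Qb) ∈
      gaussSub A (modularFunctionFieldBar (M₀ * q)) := by
    rw [wAt_wAt]; exact hy
  let ψ : FBar (M₀ * q) →+* FBar (M₀ * q * q) :=
    (heckeAlphaBar Qb (M₀ * q) q).toRingHom.comp
      ((wAt D hM : FBar (M₀ * q) ≃ₐ[Qb] FBar (M₀ * q)) : FBar (M₀ * q) →+* FBar (M₀ * q))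
  have hψ : ψ.comp (heckeAlphaBar Qb M₀ q).toRingHom = (wpdIota1 M₀ q).toRingHom := by
    refine RingHom.ext fun x => ?_
    show heckeAlphaBar Qb (M₀ * q) q (wAt D hM (heckeAlphaBar Qb M₀ q x)) = wpdIota1 M₀ q x
    rw [wpd_wAt_alpha D hQ hR hM]
    rfl
  have h := uhrm_root_gen O hFk hG hq hqM hA D hQ hR hM (wAt D hM y)
    (wAt D hM (wAt D hM y)) rfl hwy hy' hpole' wbar ybar hwb hyb' d hv1 hv2 ψ hψ
  have hψy : ψ (wAt D hM y) = heckeAlphaBar Qb (M₀ * q) q y := by
    show heckeAlphaBar Qb (M₀ * q) q (wAt D hM (wAt D hM y)) = _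
    rw [wAt_wAt]
  rw [hψy] at h
  exact h

end Modular

end Fermat.Agent.S36G
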