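/-
Cluster G (S36, bad reduction at `q² ∥ M`), block SEED-UP, seat UP-NV (helper23; owner of
SEED-UP helper90, sub-architects helper92 / helper59, architect helper80).

**The node values of `H = u₁ (θ / q) ^ 12` and of `R = - θ Z / q`** at the level `q M₀`:
the MODULAR instance of `S36/Reg/RegNode.regNode_aux` / `regNode` at the nodal seed
`kpSeed D A ..` of cluster T (`q = D.Q`, `M₀ = D.R`, `u₁ = fwU D = Δ(z) / Δ(qz)`, `ϖ = q ^ 12`).

Notation: `t ∈ F_{M₀}`, `t₀ = α t`, `t₁ = β t`,
  `θ = t₁ - t₀ ^ q` (`unodeTheta`),  `Z = t₀ - t₁ ^ q` (`unodeZ`, `= w_q θ`),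
  `H = (θ / q) ^ 12 u₁` (`unodeH`),   `R = - (θ / q) Z` (`unodeR`, `w_q R = R`),
  `u₁ R ^ 12 = H Z ^ 12` (`unode_rel`).

Hypotheses, all LOCAL at one node `i` (`UNodeHyp`): `t` has an integral Frobenius-stable expansion
(`IsFrobInt`, `S36/Reg/RegInt.lean`), `α t`, `β t` have no pole at the places of type N with node
`i`, `t̄ - t̄ ^ (q²)` has a simple zero at the supersingular place `i.1`, and `ε_i = 12`.

* `unode_H` : `H ∈ O_∞`, `w_q H ∈ O_∞` and there is `d ≠ 0` with
  `red_∞ H (P) = d` at `P = i.1` and `red_∞ (w_q H) (τ⁻¹ P) = d` (`τ` the Frobenius of the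
  coefficients);
* `unode_R` : the same for `R` (`w_q R = R`);
* `unode_H_coe`, `unode_R_coe`, `unode_wH_coe` : the expansions of the reductions are the Gauss
  residues `gaussResFun` of the expansions (level-order agnostic form).
-/
import Mathlib
import Fermat.Agent.S36.Reg.RegNode
import Fermat.Agent.S36.Reg.RegInt
import Fermat.Agent.Lib.BadRed.PeuD.ModU

set_option autoImplicit false
set_option linter.style.haveILetI false
set_option linter.unusedSectionVars false
set_option linter.unusedVariables false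
set_option synthInstance.maxHeartbeats 400000
set_option maxHeartbeats 1000000

noncomputable section

namespace Fermat.Agent.S36G

open IntermediateField ModularCurve AlgebraicCurve Fermat.Agent.F3 Fermat.Agent.F3G
  Fermat.Agent.GaussInt Fermat.Agent.AtkinLehner Fermat.Agent.Deuring Fermat.Agent.RR
  Fermat.Agent.BadRed Fermat.Agent.EKp Fermat.Agent.PeuD Fermat.Agent.S36RegN

local notation "Qb" => AlgebraicClosure ℚ
attribute [local instance 10000] SubalgebraClass.toAlgebra HahnSeries.powerSeriesAlgebra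

attribute [local instance] Fermat.Agent.BadRed.fwFintype

/-! ### the functions -/

section Defs

variable (D : ALData) [NeZero D.Q] [NeZero D.R] [NeZero (D.Q * D.R)]

/-- `θ = t₁ - t₀ ^ q`. -/
def unodeTheta (t : modularFunctionFieldBar D.R) : modularFunctionFieldBar (D.Q * D.R) :=
  betaQ D t - alphaQ D t ^ D.Q

/-- `Z = t₀ - t₁ ^ q`. -/
def unodeZ (t : modularFunctionFieldBar D.R) : modularFunctionFieldBar (D.Q * D.R) :=
  alphaQ D t - betaQ D t ^ D.Q

/-- `H = (θ / q) ^ 12 u₁`. -/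
def unodeH (t : modularFunctionFieldBar D.R) : modularFunctionFieldBar (D.Q * D.R) :=
  (unodeTheta D t / algebraMap Qb (modularFunctionFieldBar (D.Q * D.R)) (D.Q : Qb)) ^ 12 * fwU D

/-- `R = - (θ / q) Z`. -/
def unodeR (t : modularFunctionFieldBar D.R) : modularFunctionFieldBar (D.Q * D.R) :=
  -(unodeTheta D t / algebraMap Qb (modularFunctionFieldBar (D.Q * D.R)) (D.Q : Qb) * unodeZ D t)

/-- `u₁ R ^ 12 = H Z ^ 12`. -/
theorem unode_rel (t : modularFunctionFieldBar D.R) :
    fwU D * unodeR D t ^ 12 = unodeH D t * unodeZ D t ^ 12 := by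
  unfold unodeH unodeR
  ring

/-- `θ Z = - q R`. -/
theorem unode_theta_mul_Z (hq : D.Q.Prime) (t : modularFunctionFieldBar D.R) :
    unodeTheta D t * unodeZ D t =
      -(algebraMap Qb (modularFunctionFieldBar (D.Q * D.R)) (D.Q : Qb) * unodeR D t) := by
  have hq0 : algebraMap Qb (modularFunctionFieldBar (D.Q * D.R)) (D.Q : Qb) ≠ 0 :=
    (map_ne_zero _).mpr (by exact_mod_cast hq.ne_zero)
  unfold unodeR
  field_simp

theorem atkinLehner_unodeTheta (t : modularFunctionFieldBar D.R) :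
    atkinLehner D (unodeTheta D t) = unodeZ D t := by
  unfold unodeTheta unodeZ
  rw [map_sub, map_pow, atkinLehner_betaQ, atkinLehner_alphaQ]

theorem atkinLehner_unodeZ (t : modularFunctionFieldBar D.R) :
    atkinLehner D (unodeZ D t) = unodeTheta D t := by
  unfold unodeTheta unodeZ
  rw [map_sub, map_pow, atkinLehner_betaQ, atkinLehner_alphaQ]

/-- `R` is fixed by `w_q`. -/
theorem atkinLehner_unodeR (t : modularFunctionFieldBar D.R) :
    atkinLehner D (unodeR D t) = unodeR D t := by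
  unfold unodeR
  rw [map_neg, map_mul, map_div₀, atkinLehner_unodeTheta, atkinLehner_unodeZ, AlgEquiv.commutes]
  unfold unodeTheta unodeZ
  ring

/-- `w_q H = (Z / q) ^ 12 (q ^ 12 / u₁)` in the form `(Z / q) ^ 12 w_q u₁`. -/
theorem atkinLehner_unodeH (t : modularFunctionFieldBar D.R) :
    atkinLehner D (unodeH D t) =
      (unodeZ D t / algebraMap Qb (modularFunctionFieldBar (D.Q * D.R)) (D.Q : Qb)) ^ 12 *
        atkinLehner D (fwU D) := by
  unfold unodeH
  rw [map_mul, map_pow, map_div₀, atkinLehner_unodeTheta, AlgEquiv.commutes]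

end Defs

/-- the order of a fixed function at the place transported by the inverse. -/
theorem unode_ord_inv_smul_of_fixed {K' F' : Type*} [Field K'] [Field F'] [Algebra K' F']
    (g : SemilinearAut K' F') (Q : Place K' F') (f : F') (hf : g • f = f) :
    (g⁻¹ • Q).ord f = Q.ord f := by
  have h1 := SemilinearAut.ord_smul g⁻¹ Q (g • f)
  rw [inv_smul_smul] at h1
  rw [h1, hf]

/-! ### the node values -/

section Main

variable (D : ALData) [NeZero D.Q] [NeZero D.R] [NeZero (D.Q * D.R)]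
  (A : ValuationSubring Qb) (hq : D.Q.Prime) (hA : A.LiesOverPrime D.Q) (hqR : ¬ D.Q ∣ D.R)
  [Fact D.Q.Prime] [CharP (IsLocalRing.ResidueField A) D.Q]
  [PerfectRing (IsLocalRing.ResidueField A) D.Q]

/-- **the local hypotheses of UP-NV at the node `i`.** -/
structure UNodeHyp (haux : AuxLevelOK D.Q D.R) (t : modularFunctionFieldBar D.R)
    (z : LaurentSeries A) (i : kpIota D A hq hA hqR) : Prop where
  /-- `t` has an integral Frobenius-stable expansion -/
  frob : IsFrobInt D A t z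
  /-- `α t` has no pole at the places of type N with node `i` -/
  pole_alpha : NoPoleAtNode (kpSeed D A hq hA hqR haux) i (alphaQ D t)
  /-- `β t` has no pole at the places of type N with node `i` -/
  pole_beta : NoPoleAtNode (kpSeed D A hq hA hqR haux) i (betaQ D t)
  /-- `t̄ - t̄ ^ (q²)` has a simple zero at the supersingular place `i.1` -/
  ord : i.1.ord ((kpS D A hq hA hqR).red (alphaQ D t) -
    (kpS D A hq hA hqR).red (alphaQ D t) ^ (D.Q ^ 2)) = 1
  /-- `ε_i = 12` -/
  eps : kpEps D A hq hA hqR i = 12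

variable {D A hq hA hqR}
variable {haux : AuxLevelOK D.Q D.R} {t : modularFunctionFieldBar D.R} {z : LaurentSeries A}
  {i : kpIota D A hq hA hqR}

namespace UNodeHyp

/-- the global form of the two pole conditions. -/
theorem of_global (hF : IsFrobInt D A t z)
    (hnp : ∀ P : Place Qb (modularFunctionFieldBar (D.Q * D.R)),
      (kpSeed D A hq hA hqR haux).rmap P = none →
        0 ≤ P.ord (alphaQ D t) ∧ 0 ≤ P.ord (betaQ D t))
    (hord : i.1.ord ((kpS D A hq hA hqR).red (alphaQ D t) -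
      (kpS D A hq hA hqR).red (alphaQ D t) ^ (D.Q ^ 2)) = 1)
    (heps : kpEps D A hq hA hqR i = 12) : UNodeHyp D A hq hA hqR haux t z i :=
  ⟨hF, fun P hP => (hnp P hP.1).1, fun P hP => (hnp P hP.1).2, hord, heps⟩

variable (h : UNodeHyp D A hq hA hqR haux t z i)

include h

theorem theta_noPole : NoPoleAtNode (kpSeed D A hq hA hqR haux) i (unodeTheta D t) := by
  intro P hP
  have h1 := Fermat.Agent.S24Res.mem_of_ord_nonneg P (h.pole_alpha P hP)
  have h2 := Fermat.Agent.S24Res.mem_of_ord_nonneg P (h.pole_beta P hP)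
  exact Fermat.Agent.S24Res.ord_nonneg_of_mem P (sub_mem h2 (pow_mem h1 _))

theorem Z_noPole : NoPoleAtNode (kpSeed D A hq hA hqR haux) i (unodeZ D t) := by
  intro P hP
  have h1 := Fermat.Agent.S24Res.mem_of_ord_nonneg P (h.pole_alpha P hP)
  have h2 := Fermat.Agent.S24Res.mem_of_ord_nonneg P (h.pole_beta P hP)
  exact Fermat.Agent.S24Res.ord_nonneg_of_mem P (sub_mem h1 (pow_mem h2 _))

/-- `t̄ - t̄ ^ (q²)` is fixed by the Frobenius of the coefficients. -/
theorem frobAut_smul_tbar :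
    frobAut (IsLocalRing.ResidueField A) D.R D.Q •
        ((kpS D A hq hA hqR).red (alphaQ D t) -
          (kpS D A hq hA hqR).red (alphaQ D t) ^ (D.Q ^ 2)) =
      (kpS D A hq hA hqR).red (alphaQ D t) -
        (kpS D A hq hA hqR).red (alphaQ D t) ^ (D.Q ^ 2) := by
  have hx : frobAut (IsLocalRing.ResidueField A) D.R D.Q •
      (kpS D A hq hA hqR).red (alphaQ D t) = (kpS D A hq hA hqR).red (alphaQ D t) := by
    apply Subtype.ext
    rw [coe_frobAut_smul]
    exact h.frob.coeffMap_frobenius_red_alpha (isGaussSetup_gaussSetupBad D hq hqR A hA)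
  rw [smul_sub, smul_pow', hx]

/-- the order of `t̄ - t̄ ^ (q²)` at the second branch `τ⁻¹ P`. -/
theorem ord_inv :
    ((frobAut (IsLocalRing.ResidueField A) D.R D.Q)⁻¹ • i.1).ord
        ((kpS D A hq hA hqR).red (alphaQ D t) -
          (kpS D A hq hA hqR).red (alphaQ D t) ^ (D.Q ^ 2)) = 1 := by
  exact (unode_ord_inv_smul_of_fixed _ i.1 _ h.frobAut_smul_tbar).trans h.ord

theorem tbar_ne_zero :
    (kpS D A hq hA hqR).red (alphaQ D t) -
      (kpS D A hq hA hqR).red (alphaQ D t) ^ (D.Q ^ 2) ≠ 0 := by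
  intro h0
  have := h.ord
  rw [h0, Place.ord_zero] at this
  exact absurd this (by norm_num)

end UNodeHyp

/-- `ord (-f) = ord f`. -/
theorem unode_ord_neg {K' F' : Type*} [Field K'] [Field F'] [Algebra K' F'] (Q : Place K' F')
    (f : F') : Q.ord (-f) = Q.ord f := by
  rcases eq_or_ne f 0 with rfl | hf
  · rw [neg_zero]
  have h1 : (-f) = algebraMap K' F' (-1) * f := by
    rw [map_neg, map_one, neg_one_mul]
  have h2 : algebraMap K' F' (-1 : K') ≠ 0 := (map_ne_zero _).mpr (by norm_num)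
  rw [h1, Q.ord_mul h2 hf, Fermat.Agent.S24Res.ord_algebraMap, zero_add]

/-- **UP-NV for `H = (θ / q) ^ 12 u₁`**: `H ∈ O_∞ ∩ O_0`, no pole of type N at the node `i`,
and the two reductions take the same NONZERO value on the two branches of the node. -/
theorem unode_H (h : UNodeHyp D A hq hA hqR haux t z i) :
    unodeH D t ∈ (kpS D A hq hA hqR).Ov ∧
      atkinLehner D (unodeH D t) ∈ (kpS D A hq hA hqR).Ov ∧
      NoPoleAtNode (kpSeed D A hq hA hqR haux) i (unodeH D t) ∧
      ∃ d : IsLocalRing.ResidueField A, d ≠ 0 ∧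
        ValAt i.1 ((kpS D A hq hA hqR).red (unodeH D t)) d ∧
        ValAt ((frobAut (IsLocalRing.ResidueField A) D.R D.Q)⁻¹ • i.1)
          ((kpS D A hq hA hqR).red (atkinLehner D (unodeH D t))) d := by
  haveI := infinite_residue A
  have hS := isGaussSetup_gaussSetupBad D hq hqR A hA
  have hq0 : (D.Q : Qb) ≠ 0 := by exact_mod_cast hq.ne_zero
  have hε₂ : ((kpSeed D A hq hA hqR haux).s₂ i).ord
      ((kpSeed D A hq hA hqR haux).S₂.red
        (algebraMap Qb (modularFunctionFieldBar (D.Q * D.R)) (fwPi D) * (fwU D)⁻¹)) =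
      ((12 : ℕ) : ℤ) := by
    rw [wu_eps₂, h.eps]
  have h₂ : (kpSeed D A hq hA hqR haux).S₂.red (unodeTheta D t) ≠ 0 := by
    show (valSetupZero D (kpS D A hq hA hqR)).red (betaQ D t - alphaQ D t ^ D.Q) ≠ 0
    rw [h.frob.red_zero_theta hS]
    exact h.tbar_ne_zero
  have ha : ((kpSeed D A hq hA hqR haux).s₂ i).ord
      ((kpSeed D A hq hA hqR haux).S₂.red (unodeTheta D t)) = ((1 : ℕ) : ℤ) := by
    show ((frobAut (IsLocalRing.ResidueField A) D.R D.Q)⁻¹ • i.1).ord
      ((valSetupZero D (kpS D A hq hA hqR)).red (betaQ D t - alphaQ D t ^ D.Q)) = _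
    rw [h.frob.red_zero_theta hS, h.ord_inv, Nat.cast_one]
  have h₁ : unodeTheta D t / algebraMap Qb (modularFunctionFieldBar (D.Q * D.R)) (D.Q : Qb) ∈
      (kpSeed D A hq hA hqR haux).S₁.Ov := h.frob.delta_mem hS hA
  obtain ⟨hf₁, hf₂, hpole, d, hd0, hd⟩ :=
    regNode_aux (N := kpSeed D A hq hA hqR haux) (u := fwU D) (ϖ := fwPi D) (ε := 12) (a := 1)
      (i := i) (wu_red₁_ne D A hq hA hqR haux) (wu_red₂_ne D A hq hA hqR haux) hε₂
      (wu_noDiv D A hq hA hqR haux i).noPole h.theta_noPole hq0 (by rw [pow_one]) h₁ h₂ ha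
  rw [pow_one] at hf₁ hf₂ hpole hd
  refine ⟨hf₁, hf₂, hpole, d, hd0, hd.1, ?_⟩
  have h2 := hd.2
  rwa [show (kpSeed D A hq hA hqR haux).S₂.red
      ((unodeTheta D t / algebraMap Qb (modularFunctionFieldBar (D.Q * D.R)) (D.Q : Qb)) ^ 12 *
        fwU D) = (kpS D A hq hA hqR).red (atkinLehner D
      ((unodeTheta D t / algebraMap Qb (modularFunctionFieldBar (D.Q * D.R)) (D.Q : Qb)) ^ 12 *
        fwU D)) from valSetupZero_red D _ _] at h2

/-- the slope: `red_∞ (θ / q)` has a SIMPLE POLE at the supersingular place `i.1`. -/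
theorem unode_delta (h : UNodeHyp D A hq hA hqR haux t z i) :
    (kpS D A hq hA hqR).red
        (unodeTheta D t / algebraMap Qb (modularFunctionFieldBar (D.Q * D.R)) (D.Q : Qb)) ≠ 0 ∧
      i.1.ord ((kpS D A hq hA hqR).red
        (unodeTheta D t / algebraMap Qb (modularFunctionFieldBar (D.Q * D.R)) (D.Q : Qb))) =
        -1 := by
  haveI := infinite_residue A
  have hS := isGaussSetup_gaussSetupBad D hq hqR A hA
  have hq0 : (D.Q : Qb) ≠ 0 := by exact_mod_cast hq.ne_zero
  have hε₁ : ((kpSeed D A hq hA hqR haux).s₁ i).ord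
      ((kpSeed D A hq hA hqR haux).S₁.red (fwU D)) = ((12 : ℕ) : ℤ) := by
    rw [wu_eps₁, h.eps]
  have hε₂ : ((kpSeed D A hq hA hqR haux).s₂ i).ord
      ((kpSeed D A hq hA hqR haux).S₂.red
        (algebraMap Qb (modularFunctionFieldBar (D.Q * D.R)) (fwPi D) * (fwU D)⁻¹)) =
      ((12 : ℕ) : ℤ) := by
    rw [wu_eps₂, h.eps]
  have h₂ : (kpSeed D A hq hA hqR haux).S₂.red (unodeTheta D t) ≠ 0 := by
    show (valSetupZero D (kpS D A hq hA hqR)).red (betaQ D t - alphaQ D t ^ D.Q) ≠ 0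
    rw [h.frob.red_zero_theta hS]
    exact h.tbar_ne_zero
  have ha : ((kpSeed D A hq hA hqR haux).s₂ i).ord
      ((kpSeed D A hq hA hqR haux).S₂.red (unodeTheta D t)) = ((1 : ℕ) : ℤ) := by
    show ((frobAut (IsLocalRing.ResidueField A) D.R D.Q)⁻¹ • i.1).ord
      ((valSetupZero D (kpS D A hq hA hqR)).red (betaQ D t - alphaQ D t ^ D.Q)) = _
    rw [h.frob.red_zero_theta hS, h.ord_inv, Nat.cast_one]
  have h₁ : unodeTheta D t / algebraMap Qb (modularFunctionFieldBar (D.Q * D.R)) (D.Q : Qb) ∈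
      (kpSeed D A hq hA hqR haux).S₁.Ov := h.frob.delta_mem hS hA
  have key := regNode (N := kpSeed D A hq hA hqR haux) (u := fwU D) (ϖ := fwPi D) (ε := 12)
    (a := 1) (i := i) (by norm_num) (wu_red₁_ne D A hq hA hqR haux)
    (wu_red₂_ne D A hq hA hqR haux) hε₁ hε₂ (wu_noDiv D A hq hA hqR haux i).noPole
    h.theta_noPole hq0 (by rw [pow_one]) h₁ h₂ ha
  refine ⟨key.1, ?_⟩
  have := key.2
  rw [Nat.cast_one] at this
  exact this

/-- **UP-NV for `R = - (θ / q) Z`** (`w_q R = R`): `R ∈ O_∞ ∩ O_0`, no pole of type N at the node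
`i`, and its reduction takes the same NONZERO value on the two branches of the node. -/
theorem unode_R (h : UNodeHyp D A hq hA hqR haux t z i) :
    unodeR D t ∈ (kpS D A hq hA hqR).Ov ∧
      NoPoleAtNode (kpSeed D A hq hA hqR haux) i (unodeR D t) ∧
      ∃ d : IsLocalRing.ResidueField A, d ≠ 0 ∧
        ValAt i.1 ((kpS D A hq hA hqR).red (unodeR D t)) d ∧
        ValAt ((frobAut (IsLocalRing.ResidueField A) D.R D.Q)⁻¹ • i.1)
          ((kpS D A hq hA hqR).red (unodeR D t)) d := by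
  haveI := infinite_residue A
  have hS := isGaussSetup_gaussSetupBad D hq hqR A hA
  have hq0 : (D.Q : Qb) ≠ 0 := by exact_mod_cast hq.ne_zero
  have hδ : unodeTheta D t / algebraMap Qb (modularFunctionFieldBar (D.Q * D.R)) (D.Q : Qb) ∈
      (kpS D A hq hA hqR).Ov := h.frob.delta_mem hS hA
  have hZ : unodeZ D t ∈ (kpS D A hq hA hqR).Ov :=
    sub_mem (h.frob.alpha_mem hS) (pow_mem (h.frob.beta_mem hS) _)
  have hR₁ : unodeR D t ∈ (kpS D A hq hA hqR).Ov := neg_mem (mul_mem hδ hZ)
  have hR₂ : unodeR D t ∈ (kpSeed D A hq hA hqR haux).S₂.Ov := by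
    show unodeR D t ∈ (valSetupZero D (kpS D A hq hA hqR)).Ov
    rw [mem_valSetupZero_Ov, atkinLehner_unodeR]
    exact hR₁
  have hpole : NoPoleAtNode (kpSeed D A hq hA hqR haux) i (unodeR D t) := by
    intro P hP
    have h1 : 0 ≤ P.ord (unodeTheta D t /
        algebraMap Qb (modularFunctionFieldBar (D.Q * D.R)) (D.Q : Qb)) := by
      rw [regNode_ord_div_const P _ hq0]
      exact h.theta_noPole P hP
    have h2 : 0 ≤ P.ord (unodeZ D t) := h.Z_noPole P hP
    exact Fermat.Agent.S24Res.ord_nonneg_of_mem P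
      (neg_mem (mul_mem (Fermat.Agent.S24Res.mem_of_ord_nonneg P h1)
        (Fermat.Agent.S24Res.mem_of_ord_nonneg P h2)))
  obtain ⟨-, -, d, hd⟩ := node_loc (N := kpSeed D A hq hA hqR haux) (i := i) hR₁ hR₂ hpole
  -- the order of the first reduction at the node is `-1 + 1 = 0`
  obtain ⟨hδ0, hδord⟩ := unode_delta h
  have hredZ : (kpS D A hq hA hqR).red (unodeZ D t) =
      (kpS D A hq hA hqR).red (alphaQ D t) -
        (kpS D A hq hA hqR).red (alphaQ D t) ^ (D.Q ^ 2) := h.frob.red_Z hS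
  have hZ0 : (kpS D A hq hA hqR).red (unodeZ D t) ≠ 0 := by
    rw [hredZ]
    exact h.tbar_ne_zero
  have hred : (kpS D A hq hA hqR).red (unodeR D t) =
      -((kpS D A hq hA hqR).red
          (unodeTheta D t / algebraMap Qb (modularFunctionFieldBar (D.Q * D.R)) (D.Q : Qb)) *
        (kpS D A hq hA hqR).red (unodeZ D t)) := by
    unfold unodeR
    rw [(kpS D A hq hA hqR).red_neg (mul_mem hδ hZ), (kpS D A hq hA hqR).red_mul hδ hZ]
  have hR0 : (kpS D A hq hA hqR).red (unodeR D t) ≠ 0 := by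
    rw [hred]
    exact neg_ne_zero.mpr (mul_ne_zero hδ0 hZ0)
  have hord : i.1.ord ((kpS D A hq hA hqR).red (unodeR D t)) = 0 := by
    rw [hred, unode_ord_neg, i.1.ord_mul hδ0 hZ0, hδord, hredZ, h.ord]
    norm_num
  have hd0 : d ≠ 0 := ne_zero_of_valAt_of_ord_eq_zero hR0 hord hd.1
  refine ⟨hR₁, hpole, d, hd0, hd.1, ?_⟩
  have h2 := hd.2
  rwa [show (kpSeed D A hq hA hqR haux).S₂.red (unodeR D t) =
      (kpS D A hq hA hqR).red (atkinLehner D (unodeR D t)) from valSetupZero_red D _ _,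
    atkinLehner_unodeR] at h2

end Main

end Fermat.Agent.S36G
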