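/-
Cluster G (S36, bad reduction at `q² ∥ M`), block SEED-UP, seat UP-NV, part 2 (helper23; owner of
SEED-UP helper90): **wiring of `UNodeHyp`** (`S36/Seed/UNode.lean`) from the landed seats, in the
language of places (`Q` a supersingular place of `X₀(M₀)` mod `q`, `M₀ = D.R`, `q = D.Q`).

* `unode_isFrobInt_of_rat` : a RATIONAL function with `A`-integral `q`-expansion (`ExTDatum.mem`,
  `ExTDatum.int`) satisfies `IsFrobInt` with `z = kctLift A t0 hint`;
* `unodeNode`, `unode_eps_of_hno` : a supersingular place (`IsSSPlace`) is a node of `kpSeed`,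
  and `ε = 12` there if `ord_Q ssFun = 12` (`hno`);
* `unode_red_alpha_eq` : `red_∞ (α t) = S0.red t` for a Gauss reduction package `S0` (`IsGaussRed`);
* `unode_ord_of_unif`  : `ord_Q (t̄ - c) = 1`, `c ^ (q²) = c` ⟹ the field `ord` of `UNodeHyp`;
* `unodeHyp_of_place`  : the assembly (poles by `reg_noPole`);
* `unode_H_at`, `unode_R_at` : **UP-NV at a supersingular place `Q`**: there is `d ≠ 0` with
  `red_∞ H (Q) = d`, `red_∞ (w_q H) (τ⁻¹ Q) = d`; the same for `R`;
* `unode_H_poles`, `unode_wH_poles`, `unode_R_poles` : `H`, `w_q H`, `R` have CUSPIDAL poles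
  (poles of `α j` only) if `t` has;
* `unode_gauss` : for `y ∈ O_∞` the expansion of `y` is Gauss-integral and the expansion of
  `red_∞ y` is its Gauss residue `gaussResFun` (the level-order agnostic form).
-/
import Mathlib
import Fermat.Agent.S36.Seed.UNode
import Fermat.Agent.S36.HPVal.RegNoPole
import Fermat.Agent.S36.HPVal.Reg
import Fermat.Agent.S36.HPVal.KCtRat
import Fermat.Agent.S36.HPVal.Defs

set_option autoImplicit false
set_option linter.style.haveILetI false
set_option linter.unusedSectionVars false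
set_option linter.unusedVariables false
set_option synthInstance.maxHeartbeats 400000
set_option maxHeartbeats 1000000

noncomputable section

namespace Fermat.Agent.S36G

open IntermediateField ModularCurve AlgebraicCurve Fermat.Agent.F3 Fermat.Agent.F3G
  Fermat.Agent.GaussInt Fermat.Agent.AtkinLehner Fermat.Agent.Deuring Fermat.Agent.RR
  Fermat.Agent.BadRed Fermat.Agent.EKp Fermat.Agent.PeuD Fermat.Agent.S36RegN

local notation "Qb" => AlgebraicClosure ℚ
attribute [local instance 10000] SubalgebraClass.toAlgebra HahnSeries.powerSeriesAlgebra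

attribute [local instance] Fermat.Agent.BadRed.fwFintype

section Wire

variable (D : ALData) [NeZero D.Q] [NeZero D.R] [NeZero (D.Q * D.R)]
  (A : ValuationSubring Qb) (hq : D.Q.Prime) (hA : A.LiesOverPrime D.Q) (hqR : ¬ D.Q ∣ D.R)
  [Fact D.Q.Prime] [CharP (IsLocalRing.ResidueField A) D.Q]
  [PerfectRing (IsLocalRing.ResidueField A) D.Q]

/-! ### `IsFrobInt` from a rational integral expansion -/

include hA in
/-- a rational function with `A`-integral `q`-expansion has an integral Frobenius-stable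
expansion. -/
theorem unode_isFrobInt_of_rat (t : modularFunctionFieldBar D.R) (t0 : LaurentSeries ℚ)
    (ht : (t : LaurentSeries Qb) = coeffEmb Qb t0)
    (hint : ∀ n : ℤ, algebraMap ℚ Qb (t0.coeff n) ∈ A) :
    IsFrobInt D A t (Fermat.Agent.S36.kctLift A t0 hint) := by
  refine isFrobInt_of_rat D A hA t _ ?_ ?_
  · rw [Fermat.Agent.S36.emb_kctLift, ht]
  · intro n
    refine ⟨t0.coeff n, ?_⟩
    have h1 : (((Fermat.Agent.S36.kctLift A t0 hint).coeff n : A) : Qb) =
        algebraMap ℚ Qb (t0.coeff n) := rfl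
    rw [h1]
    exact eq_ratCast (algebraMap ℚ Qb) (t0.coeff n)

/-! ### supersingular places are nodes -/

variable {D A}

/-- the function `ū₁ = ssFun` is positive at a supersingular place. -/
theorem unode_pos_of_isSSPlace
    {Q : Place (IsLocalRing.ResidueField A)
      (modularFunctionFieldFullC (IsLocalRing.ResidueField A) D.R)}
    (hss : IsSSPlace (IsLocalRing.ResidueField A) D.R D.Q Q) :
    0 < Q.ord ((kpS D A hq hA hqR).red (fwU D)) := by
  obtain ⟨u, hu, hpos⟩ := hss
  have e : u = (kpS D A hq hA hqR).red (fwU D) :=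
    Subtype.ext (hu.trans (fw_coe_red_uF D A hq hA (kpS D A hq hA hqR)
      (isGaussSetup_gaussSetupBad D hq hqR A hA)).symm)
  rwa [← e]

/-- a supersingular place, as a node of the modular seed. -/
def unodeNode
    (Q : Place (IsLocalRing.ResidueField A)
      (modularFunctionFieldFullC (IsLocalRing.ResidueField A) D.R))
    (hss : IsSSPlace (IsLocalRing.ResidueField A) D.R D.Q Q) : kpIota D A hq hA hqR :=
  ⟨Q, unode_pos_of_isSSPlace hq hA hqR hss⟩

theorem unodeNode_val
    (Q : Place (IsLocalRing.ResidueField A)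
      (modularFunctionFieldFullC (IsLocalRing.ResidueField A) D.R))
    (hss : IsSSPlace (IsLocalRing.ResidueField A) D.R D.Q Q) :
    (unodeNode hq hA hqR Q hss).1 = Q := rfl

/-- `ε = 12` at a supersingular place without elliptic points. -/
theorem unode_eps_of_hno
    (Q : Place (IsLocalRing.ResidueField A)
      (modularFunctionFieldFullC (IsLocalRing.ResidueField A) D.R))
    (hss : IsSSPlace (IsLocalRing.ResidueField A) D.R D.Q Q)
    (hno : ∀ u : modularFunctionFieldFullC (IsLocalRing.ResidueField A) D.R,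
      (u : LaurentSeries (IsLocalRing.ResidueField A)) =
        ssFun (IsLocalRing.ResidueField A) D.Q → Q.ord u = 12) :
    kpEps D A hq hA hqR (unodeNode hq hA hqR Q hss) = 12 := by
  have h1 := hno ((kpS D A hq hA hqR).red (fwU D))
    (fw_coe_red_uF D A hq hA (kpS D A hq hA hqR) (isGaussSetup_gaussSetupBad D hq hqR A hA))
  have h2 := kpEps_cast D A hq hA hqR (unodeNode hq hA hqR Q hss)
  rw [unodeNode_val, h1] at h2
  exact_mod_cast h2

/-! ### the reduction of `α t` -/

/-- `red_∞ (α t) = S0.red t`. -/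
theorem unode_red_alpha_eq
    {S0 : Fermat.Agent.S18Key.RedSetup Qb (FBar D.R) (IsLocalRing.ResidueField A)
      ↥(modularFunctionFieldFullC (IsLocalRing.ResidueField A) D.R)}
    (hG : IsGaussRed D.R A S0) {t : modularFunctionFieldBar D.R} {z : LaurentSeries A}
    (hF : IsFrobInt D A t z) :
    t ∈ S0.Ov ∧ (kpS D A hq hA hqR).red (alphaQ D t) = S0.red t := by
  have hmem : emb A z ∈ modularFunctionFieldBar D.R := by
    rw [hF.emb_eq]
    exact t.2
  have ht : t ∈ S0.Ov := by
    rw [hG.mem_iff, ← hF.emb_eq]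
    exact emb_mem_gaussSub hmem
  refine ⟨ht, Subtype.ext ?_⟩
  rw [hF.coe_red_alpha (isGaussSetup_gaussSetupBad D hq hqR A hA), hG.coe_red t ht, ← hF.emb_eq,
    gaussResFun_emb hmem]

/-- the field `ord` of `UNodeHyp` from "`t̄ - c` is a uniformiser at `Q`, `c ∈ 𝔽_{q²}`". -/
theorem unode_ord_of_unif {t : modularFunctionFieldBar D.R}
    (Q : Place (IsLocalRing.ResidueField A)
      (modularFunctionFieldFullC (IsLocalRing.ResidueField A) D.R))
    {c : IsLocalRing.ResidueField A} (hc : c ^ (D.Q ^ 2) = c)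
    (hord : Q.ord ((kpS D A hq hA hqR).red (alphaQ D t) -
      algebraMap (IsLocalRing.ResidueField A)
        (modularFunctionFieldFullC (IsLocalRing.ResidueField A) D.R) c) = 1) :
    Q.ord ((kpS D A hq hA hqR).red (alphaQ D t) -
      (kpS D A hq hA hqR).red (alphaQ D t) ^ (D.Q ^ 2)) = 1 :=
  reg_ord_sub_pow D.Q Q hc hord

/-! ### the assembly -/

/-- **`UNodeHyp` at a supersingular place `Q`**. -/
theorem unodeHyp_of_place (haux : AuxLevelOK D.Q D.R) {t : modularFunctionFieldBar D.R}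
    {z : LaurentSeries A} (hF : IsFrobInt D A t z)
    (hpoles : ∀ Q' : Place Qb (modularFunctionFieldBar D.R),
      0 ≤ Q'.ord (Fermat.Agent.S24.jBar D.R) → 0 ≤ Q'.ord t)
    (Q : Place (IsLocalRing.ResidueField A)
      (modularFunctionFieldFullC (IsLocalRing.ResidueField A) D.R))
    (hss : IsSSPlace (IsLocalRing.ResidueField A) D.R D.Q Q)
    (hno : ∀ u : modularFunctionFieldFullC (IsLocalRing.ResidueField A) D.R,
      (u : LaurentSeries (IsLocalRing.ResidueField A)) =
        ssFun (IsLocalRing.ResidueField A) D.Q → Q.ord u = 12)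
    {c : IsLocalRing.ResidueField A} (hc : c ^ (D.Q ^ 2) = c)
    (hord : Q.ord ((kpS D A hq hA hqR).red (alphaQ D t) -
      algebraMap (IsLocalRing.ResidueField A)
        (modularFunctionFieldFullC (IsLocalRing.ResidueField A) D.R) c) = 1) :
    UNodeHyp D A hq hA hqR haux t z (unodeNode hq hA hqR Q hss) :=
  UNodeHyp.of_global hF (fun P hP => reg_noPole D A hq hA hqR haux t hpoles P hP)
    (unode_ord_of_unif hq hA hqR Q hc hord) (unode_eps_of_hno hq hA hqR Q hss hno)

/-- **UP-NV for `H` at a supersingular place `Q`.** -/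
theorem unode_H_at (haux : AuxLevelOK D.Q D.R) {t : modularFunctionFieldBar D.R}
    {z : LaurentSeries A} (hF : IsFrobInt D A t z)
    (hpoles : ∀ Q' : Place Qb (modularFunctionFieldBar D.R),
      0 ≤ Q'.ord (Fermat.Agent.S24.jBar D.R) → 0 ≤ Q'.ord t)
    (Q : Place (IsLocalRing.ResidueField A)
      (modularFunctionFieldFullC (IsLocalRing.ResidueField A) D.R))
    (hss : IsSSPlace (IsLocalRing.ResidueField A) D.R D.Q Q)
    (hno : ∀ u : modularFunctionFieldFullC (IsLocalRing.ResidueField A) D.R,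
      (u : LaurentSeries (IsLocalRing.ResidueField A)) =
        ssFun (IsLocalRing.ResidueField A) D.Q → Q.ord u = 12)
    {c : IsLocalRing.ResidueField A} (hc : c ^ (D.Q ^ 2) = c)
    (hord : Q.ord ((kpS D A hq hA hqR).red (alphaQ D t) -
      algebraMap (IsLocalRing.ResidueField A)
        (modularFunctionFieldFullC (IsLocalRing.ResidueField A) D.R) c) = 1) :
    unodeH D t ∈ (kpS D A hq hA hqR).Ov ∧
      atkinLehner D (unodeH D t) ∈ (kpS D A hq hA hqR).Ov ∧
      ∃ d : IsLocalRing.ResidueField A, d ≠ 0 ∧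
        ValAt Q ((kpS D A hq hA hqR).red (unodeH D t)) d ∧
        ValAt ((frobAut (IsLocalRing.ResidueField A) D.R D.Q)⁻¹ • Q)
          ((kpS D A hq hA hqR).red (atkinLehner D (unodeH D t))) d := by
  obtain ⟨h1, h2, -, d, hd0, hd1, hd2⟩ :=
    unode_H (unodeHyp_of_place hq hA hqR haux hF hpoles Q hss hno hc hord)
  exact ⟨h1, h2, d, hd0, hd1, hd2⟩

/-- **UP-NV for `R` at a supersingular place `Q`.** -/
theorem unode_R_at (haux : AuxLevelOK D.Q D.R) {t : modularFunctionFieldBar D.R}
    {z : LaurentSeries A} (hF : IsFrobInt D A t z)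
    (hpoles : ∀ Q' : Place Qb (modularFunctionFieldBar D.R),
      0 ≤ Q'.ord (Fermat.Agent.S24.jBar D.R) → 0 ≤ Q'.ord t)
    (Q : Place (IsLocalRing.ResidueField A)
      (modularFunctionFieldFullC (IsLocalRing.ResidueField A) D.R))
    (hss : IsSSPlace (IsLocalRing.ResidueField A) D.R D.Q Q)
    (hno : ∀ u : modularFunctionFieldFullC (IsLocalRing.ResidueField A) D.R,
      (u : LaurentSeries (IsLocalRing.ResidueField A)) =
        ssFun (IsLocalRing.ResidueField A) D.Q → Q.ord u = 12)
    {c : IsLocalRing.ResidueField A} (hc : c ^ (D.Q ^ 2) = c)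
    (hord : Q.ord ((kpS D A hq hA hqR).red (alphaQ D t) -
      algebraMap (IsLocalRing.ResidueField A)
        (modularFunctionFieldFullC (IsLocalRing.ResidueField A) D.R) c) = 1) :
    unodeR D t ∈ (kpS D A hq hA hqR).Ov ∧
      ∃ d : IsLocalRing.ResidueField A, d ≠ 0 ∧
        ValAt Q ((kpS D A hq hA hqR).red (unodeR D t)) d ∧
        ValAt ((frobAut (IsLocalRing.ResidueField A) D.R D.Q)⁻¹ • Q)
          ((kpS D A hq hA hqR).red (unodeR D t)) d := by
  obtain ⟨h1, -, d, hd0, hd1, hd2⟩ :=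
    unode_R (unodeHyp_of_place hq hA hqR haux hF hpoles Q hss hno hc hord)
  exact ⟨h1, d, hd0, hd1, hd2⟩

/-- the Gauss form of a reduction at `v_∞`. -/
theorem unode_gauss {y : modularFunctionFieldBar (D.Q * D.R)}
    (hy : y ∈ (kpS D A hq hA hqR).Ov) :
    (y : LaurentSeries Qb) ∈ gaussSub A (modularFunctionFieldBar (D.Q * D.R)) ∧
      (((kpS D A hq hA hqR).red y :
          modularFunctionFieldFullC (IsLocalRing.ResidueField A) D.R) :
          LaurentSeries (IsLocalRing.ResidueField A)) =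
        gaussResFun A (modularFunctionFieldBar (D.Q * D.R)) (y : LaurentSeries Qb) :=
  ⟨((isGaussSetup_gaussSetupBad D hq hqR A hA).mem_iff y).mp hy,
    (isGaussSetup_gaussSetupBad D hq hqR A hA).coe_red y hy⟩

end Wire

/-! ### cuspidal poles -/

section Poles

variable (D : ALData) [NeZero D.Q] [NeZero D.R] [NeZero (D.Q * D.R)]

/-- `α t`, `β t` and `u₁` at a place where `α j` has no pole. -/
theorem unode_ord_nonneg_of_jBar (hq : D.Q.Prime) {t : modularFunctionFieldBar D.R}
    (hpoles : ∀ Q' : Place Qb (modularFunctionFieldBar D.R),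
      0 ≤ Q'.ord (Fermat.Agent.S24.jBar D.R) → 0 ≤ Q'.ord t)
    (w : Place Qb (modularFunctionFieldBar (D.Q * D.R)))
    (hw : 0 ≤ w.ord (alphaQ D (Fermat.Agent.S24.jBar D.R))) :
    0 ≤ w.ord (alphaQ D t) ∧ 0 ≤ w.ord (betaQ D t) ∧ w.ord (fwU D) = 0 := by
  have hint := regNoPole_isIntegral D.R t hpoles
  have hj : 0 ≤ w.ord (Fermat.Agent.S24.jBar (D.Q * D.R)) := by
    rwa [Fermat.Agent.R38.key_alphaQ_jBar] at hw
  have hβj : 0 ≤ w.ord (betaQ D (Fermat.Agent.S24.jBar D.R)) := by
    by_contra hneg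
    rw [not_le] at hneg
    have h1 := Fermat.Agent.R38.key_ord_jBar_of_betaQ D hq w hneg
    omega
  refine ⟨regNoPole_ord_nonneg_of_isIntegral (alphaQ D) w hint hw,
    regNoPole_ord_nonneg_of_isIntegral (betaQ D) w hint hβj, ?_⟩
  by_contra hne
  have := (ord_jBar_neg_iff_uF hq (Dvd.intro _ rfl) w).mpr hne
  omega

/-- `H` has cuspidal poles. -/
theorem unode_H_poles (hq : D.Q.Prime) {t : modularFunctionFieldBar D.R}
    (hpoles : ∀ Q' : Place Qb (modularFunctionFieldBar D.R),
      0 ≤ Q'.ord (Fermat.Agent.S24.jBar D.R) → 0 ≤ Q'.ord t)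
    (w : Place Qb (modularFunctionFieldBar (D.Q * D.R)))
    (hw : 0 ≤ w.ord (alphaQ D (Fermat.Agent.S24.jBar D.R))) :
    0 ≤ w.ord (unodeH D t) := by
  obtain ⟨h1, h2, h3⟩ := unode_ord_nonneg_of_jBar D hq hpoles w hw
  have hq0 : (D.Q : Qb) ≠ 0 := by exact_mod_cast hq.ne_zero
  have hθ : 0 ≤ w.ord (unodeTheta D t /
      algebraMap Qb (modularFunctionFieldBar (D.Q * D.R)) (D.Q : Qb)) := by
    rw [regNode_ord_div_const w _ hq0]
    exact Fermat.Agent.S24Res.ord_nonneg_of_mem w
      (sub_mem (Fermat.Agent.S24Res.mem_of_ord_nonneg w h2)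
        (pow_mem (Fermat.Agent.S24Res.mem_of_ord_nonneg w h1) _))
  exact Fermat.Agent.S24Res.ord_nonneg_of_mem w
    (mul_mem (pow_mem (Fermat.Agent.S24Res.mem_of_ord_nonneg w hθ) _)
      (Fermat.Agent.S24Res.mem_of_ord_nonneg w h3.ge))

/-- `R` has cuspidal poles. -/
theorem unode_R_poles (hq : D.Q.Prime) {t : modularFunctionFieldBar D.R}
    (hpoles : ∀ Q' : Place Qb (modularFunctionFieldBar D.R),
      0 ≤ Q'.ord (Fermat.Agent.S24.jBar D.R) → 0 ≤ Q'.ord t)
    (w : Place Qb (modularFunctionFieldBar (D.Q * D.R)))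
    (hw : 0 ≤ w.ord (alphaQ D (Fermat.Agent.S24.jBar D.R))) :
    0 ≤ w.ord (unodeR D t) := by
  obtain ⟨h1, h2, h3⟩ := unode_ord_nonneg_of_jBar D hq hpoles w hw
  have hq0 : (D.Q : Qb) ≠ 0 := by exact_mod_cast hq.ne_zero
  have hθ : 0 ≤ w.ord (unodeTheta D t /
      algebraMap Qb (modularFunctionFieldBar (D.Q * D.R)) (D.Q : Qb)) := by
    rw [regNode_ord_div_const w _ hq0]
    exact Fermat.Agent.S24Res.ord_nonneg_of_mem w
      (sub_mem (Fermat.Agent.S24Res.mem_of_ord_nonneg w h2)
        (pow_mem (Fermat.Agent.S24Res.mem_of_ord_nonneg w h1) _))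
  have hZ : unodeZ D t ∈ w.toValuationSubring :=
    sub_mem (Fermat.Agent.S24Res.mem_of_ord_nonneg w h1)
      (pow_mem (Fermat.Agent.S24Res.mem_of_ord_nonneg w h2) _)
  exact Fermat.Agent.S24Res.ord_nonneg_of_mem w
    (neg_mem (mul_mem (Fermat.Agent.S24Res.mem_of_ord_nonneg w hθ) hZ))

/-- `w_q H` has cuspidal poles (`w_q u₁ = q ^ 12 / u₁` has no zero and no pole where `u₁` has
none). -/
theorem unode_wH_poles (hq : D.Q.Prime) {t : modularFunctionFieldBar D.R}
    (hpoles : ∀ Q' : Place Qb (modularFunctionFieldBar D.R),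
      0 ≤ Q'.ord (Fermat.Agent.S24.jBar D.R) → 0 ≤ Q'.ord t)
    (w : Place Qb (modularFunctionFieldBar (D.Q * D.R)))
    (hw : 0 ≤ w.ord (alphaQ D (Fermat.Agent.S24.jBar D.R))) :
    0 ≤ w.ord (atkinLehner D (unodeH D t)) := by
  obtain ⟨h1, h2, h3⟩ := unode_ord_nonneg_of_jBar D hq hpoles w hw
  have hwu : 0 ≤ w.ord (atkinLehner D (fwU D)) := by
    rw [Fermat.Agent.R38.key_ord_uF_atkinLehner, h3, neg_zero]
  have hq0 : (D.Q : Qb) ≠ 0 := by exact_mod_cast hq.ne_zero
  have hZ : 0 ≤ w.ord (unodeZ D t /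
      algebraMap Qb (modularFunctionFieldBar (D.Q * D.R)) (D.Q : Qb)) := by
    rw [regNode_ord_div_const w _ hq0]
    exact Fermat.Agent.S24Res.ord_nonneg_of_mem w
      (sub_mem (Fermat.Agent.S24Res.mem_of_ord_nonneg w h1)
        (pow_mem (Fermat.Agent.S24Res.mem_of_ord_nonneg w h2) _))
  rw [atkinLehner_unodeH]
  exact Fermat.Agent.S24Res.ord_nonneg_of_mem w
    (mul_mem (pow_mem (Fermat.Agent.S24Res.mem_of_ord_nonneg w hZ) _)
      (Fermat.Agent.S24Res.mem_of_ord_nonneg w hwu))

end Poles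

end Fermat.Agent.S36G
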