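/-
Cluster G (S36, bad reduction at `q² ∥ M`), block SEED-UP, seat UP-NV, part 3 (helper23; owner of
SEED-UP helper90): **the node values of `H`, `R` in GAUSS FORM** (`UNodeGauss`,
`S36/Seed/UHorDefs.lean`), at the level `M₀ q` in the language of the degeneracy maps
`heckeAlphaBar`, `heckeBetaBar` and of `wAt D hM`.

Input: the datum `t ∈ F_{M₀}` of W-P: rational with `A`-integral `q`-expansion (`t0`, `hint`),
poles at the cusps only (`hpoles`), and a supersingular place `Q` without elliptic points (`hno`)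
where `t̄ - c` is a uniformiser, `c ∈ 𝔽_{q²}`.

* `unodeA_castF_H`, `unodeA_castF_R` : `castF hM (uhH D.R D.Q t) = unodeH D t`, the same for `R`;
* `unodeA_poles`   : `α₀ t`, `β₀ t` regular and `u₁` a unit at the places which are not poles of
  `α₀ j`; `unodeA_H_pole`, `unodeA_R_pole` : the field `pole` of `UNodeGauss`;
* `unodeGauss_H`   : `∃ d ≠ 0, UNodeGauss M₀ q A D hM (uhH M₀ q t) Q d`;
* `unodeGauss_R`   : `∃ d ≠ 0, UNodeGauss M₀ q A D hM (uhR M₀ q t) Q d`.
-/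
import Mathlib
import Fermat.Agent.S36.Seed.UNodeWire
import Fermat.Agent.S36.Seed.UHorDefs
import Fermat.Agent.S36.HPVal.KCtPole
import Fermat.Agent.Lib.BadRed.Bridge.LevelCast

set_option autoImplicit false
set_option linter.style.haveILetI false
set_option linter.unusedSectionVars false
set_option linter.unusedVariables false
set_option synthInstance.maxHeartbeats 400000
set_option maxHeartbeats 1000000

noncomputable section

namespace Fermat.Agent.S36G

open IntermediateField ModularCurve AlgebraicCurve Fermat.Agent.F3 Fermat.Agent.F3G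
  Fermat.Agent.GaussInt Fermat.Agent.AtkinLehner Fermat.Agent.Deuring Fermat.Agent.RR
  Fermat.Agent.BadRed Fermat.Agent.EKp Fermat.Agent.PeuD Fermat.Agent.S36RegN

local notation "Qb" => AlgebraicClosure ℚ
attribute [local instance 10000] SubalgebraClass.toAlgebra HahnSeries.powerSeriesAlgebra

attribute [local instance] Fermat.Agent.BadRed.fwFintype

/-! ### the two languages -/

section Cast

variable (D : ALData) [NeZero D.Q] [NeZero D.R] [NeZero (D.Q * D.R)]

theorem unodeA_coe_const (N : ℕ) [NeZero N] (c : Qb) :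
    ((algebraMap Qb (modularFunctionFieldBar N) c : modularFunctionFieldBar N) :
      LaurentSeries Qb) = algebraMap Qb (LaurentSeries Qb) c := rfl

theorem unodeA_coe_theta (t : FBar D.R) :
    ((uhTheta D.R D.Q t : FBar (D.R * D.Q)) : LaurentSeries Qb) =
      ((unodeTheta D t : FBar (D.Q * D.R)) : LaurentSeries Qb) := by
  rw [coe_uhTheta]
  unfold unodeTheta
  rw [AddSubgroupClass.coe_sub, IntermediateField.coe_pow, coe_betaQ, coe_alphaQ]

theorem unodeA_coe_Z (t : FBar D.R) :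
    ((uhZ D.R D.Q t : FBar (D.R * D.Q)) : LaurentSeries Qb) =
      ((unodeZ D t : FBar (D.Q * D.R)) : LaurentSeries Qb) := by
  rw [coe_uhZ]
  unfold unodeZ
  rw [AddSubgroupClass.coe_sub, IntermediateField.coe_pow, coe_betaQ, coe_alphaQ]

theorem unodeA_castF_theta (hM : D.R * D.Q = D.Q * D.R) (t : FBar D.R) :
    castF hM (uhTheta D.R D.Q t) = unodeTheta D t :=
  Subtype.ext (by rw [coe_castF]; exact unodeA_coe_theta D t)

theorem unodeA_castF_Z (hM : D.R * D.Q = D.Q * D.R) (t : FBar D.R) :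
    castF hM (uhZ D.R D.Q t) = unodeZ D t :=
  Subtype.ext (by rw [coe_castF]; exact unodeA_coe_Z D t)

theorem unodeA_castF_U (hM : D.R * D.Q = D.Q * D.R) :
    castF hM (uhU D.R D.Q) = fwU D :=
  Subtype.ext (by rw [coe_castF]; rfl)

/-- `H` in the two languages. -/
theorem unodeA_castF_H (hM : D.R * D.Q = D.Q * D.R) (t : FBar D.R) :
    castF hM (uhH D.R D.Q t) = unodeH D t := by
  unfold uhH unodeH
  rw [map_mul, map_pow, map_div₀, AlgEquiv.commutes, unodeA_castF_theta, unodeA_castF_U]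

/-- `R` in the two languages. -/
theorem unodeA_castF_R (hM : D.R * D.Q = D.Q * D.R) (t : FBar D.R) :
    castF hM (uhR D.R D.Q t) = unodeR D t := by
  unfold uhR unodeR
  rw [map_neg, map_mul, map_div₀, AlgEquiv.commutes, unodeA_castF_theta, unodeA_castF_Z]

/-- the Gauss data of `y` at the level `D.R * D.Q` from those of `castF hM y` at `v_∞`. -/
theorem unodeA_gauss (A : ValuationSubring Qb) (hq : D.Q.Prime) (hA : A.LiesOverPrime D.Q)
    (hqR : ¬ D.Q ∣ D.R) [Fact D.Q.Prime] [CharP (IsLocalRing.ResidueField A) D.Q]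
    [PerfectRing (IsLocalRing.ResidueField A) D.Q]
    (hM : D.R * D.Q = D.Q * D.R) (y : FBar (D.R * D.Q))
    (hy : castF hM y ∈ (kpS D A hq hA hqR).Ov) :
    (y : LaurentSeries Qb) ∈ gaussSub A (modularFunctionFieldBar (D.R * D.Q)) ∧
      (((kpS D A hq hA hqR).red (castF hM y) :
          modularFunctionFieldFullC (IsLocalRing.ResidueField A) D.R) :
          LaurentSeries (IsLocalRing.ResidueField A)) =
        gaussResFun A (modularFunctionFieldBar (D.R * D.Q)) (y : LaurentSeries Qb) := by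
  have hFB : modularFunctionFieldBar (D.R * D.Q) = modularFunctionFieldBar (D.Q * D.R) :=
    congrArg modularFunctionFieldBar hM
  have e1 : gaussSub A (modularFunctionFieldBar (D.R * D.Q)) =
      gaussSub A (modularFunctionFieldBar (D.Q * D.R)) := by rw [hFB]
  have e2 : ∀ x : LaurentSeries Qb, gaussResFun A (modularFunctionFieldBar (D.R * D.Q)) x =
      gaussResFun A (modularFunctionFieldBar (D.Q * D.R)) x := fun x => by rw [hFB]
  obtain ⟨h1, h2⟩ := unode_gauss hq hA hqR hy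
  rw [coe_castF] at h1 h2
  rw [e1, e2]
  exact ⟨h1, h2⟩

/-- the same for `w y`. -/
theorem unodeA_gauss_wAt (A : ValuationSubring Qb) (hq : D.Q.Prime) (hA : A.LiesOverPrime D.Q)
    (hqR : ¬ D.Q ∣ D.R) [Fact D.Q.Prime] [CharP (IsLocalRing.ResidueField A) D.Q]
    [PerfectRing (IsLocalRing.ResidueField A) D.Q]
    (hM : D.R * D.Q = D.Q * D.R) (y : FBar (D.R * D.Q))
    (hy : atkinLehner D (castF hM y) ∈ (kpS D A hq hA hqR).Ov) :
    ((wAt D hM y : FBar (D.R * D.Q)) : LaurentSeries Qb) ∈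
        gaussSub A (modularFunctionFieldBar (D.R * D.Q)) ∧
      (((kpS D A hq hA hqR).red (atkinLehner D (castF hM y)) :
          modularFunctionFieldFullC (IsLocalRing.ResidueField A) D.R) :
          LaurentSeries (IsLocalRing.ResidueField A)) =
        gaussResFun A (modularFunctionFieldBar (D.R * D.Q))
          ((wAt D hM y : FBar (D.R * D.Q)) : LaurentSeries Qb) := by
  have hFB : modularFunctionFieldBar (D.R * D.Q) = modularFunctionFieldBar (D.Q * D.R) :=
    congrArg modularFunctionFieldBar hM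
  have e1 : gaussSub A (modularFunctionFieldBar (D.R * D.Q)) =
      gaussSub A (modularFunctionFieldBar (D.Q * D.R)) := by rw [hFB]
  have e2 : ∀ x : LaurentSeries Qb, gaussResFun A (modularFunctionFieldBar (D.R * D.Q)) x =
      gaussResFun A (modularFunctionFieldBar (D.Q * D.R)) x := fun x => by rw [hFB]
  obtain ⟨h1, h2⟩ := unode_gauss hq hA hqR hy
  rw [coe_wAt, e1, e2]
  exact ⟨h1, h2⟩

end Cast

/-! ### cuspidal poles at the level `M₀ q` -/

section Poles

variable (M₀ q : ℕ) [NeZero M₀] [NeZero q]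

theorem unodeA_alpha_jBar :
    heckeAlphaBar Qb M₀ q (Fermat.Agent.S24.jBar M₀) = Fermat.Agent.S24.jBar (M₀ * q) := by
  apply Subtype.ext
  rw [coe_heckeAlphaBar]
  rfl

/-- `α₀ t`, `β₀ t` are regular and `u₁` is a unit where `α₀ j` has no pole. -/
theorem unodeA_poles (hq : q.Prime) (hqM : ¬ q ∣ M₀) (t : FBar M₀)
    (hpoles : ∀ Q' : Place Qb (FBar M₀), 0 ≤ Q'.ord (Fermat.Agent.S24.jBar M₀) → 0 ≤ Q'.ord t)
    (w : Place Qb (FBar (M₀ * q)))
    (hw : 0 ≤ w.ord (heckeAlphaBar Qb M₀ q (Fermat.Agent.S24.jBar M₀))) :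
    0 ≤ w.ord (heckeAlphaBar Qb M₀ q t) ∧ 0 ≤ w.ord (heckeBetaBar Qb M₀ q t) ∧
      w.ord (uhU M₀ q) = 0 := by
  refine ⟨Fermat.Agent.S36.kcp_ord_alpha M₀ q t hpoles w hw,
    Fermat.Agent.S36.kcp_ord_beta M₀ q hq hqM t hpoles w hw, ?_⟩
  rw [unodeA_alpha_jBar] at hw
  exact ord_uF_eq_zero hq (Dvd.intro_left M₀ rfl) w hw

theorem unodeA_theta_pole (hq : q.Prime) (hqM : ¬ q ∣ M₀) (t : FBar M₀)
    (hpoles : ∀ Q' : Place Qb (FBar M₀), 0 ≤ Q'.ord (Fermat.Agent.S24.jBar M₀) → 0 ≤ Q'.ord t)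
    (w : Place Qb (FBar (M₀ * q)))
    (hw : 0 ≤ w.ord (heckeAlphaBar Qb M₀ q (Fermat.Agent.S24.jBar M₀))) :
    uhTheta M₀ q t / algebraMap Qb (FBar (M₀ * q)) (q : Qb) ∈ w.toValuationSubring := by
  obtain ⟨h1, h2, h3⟩ := unodeA_poles M₀ q hq hqM t hpoles w hw
  have hq0 : (q : Qb) ≠ 0 := by exact_mod_cast hq.ne_zero
  apply Fermat.Agent.S24Res.mem_of_ord_nonneg
  rw [regNode_ord_div_const w _ hq0]
  exact Fermat.Agent.S24Res.ord_nonneg_of_mem w
    (sub_mem (Fermat.Agent.S24Res.mem_of_ord_nonneg w h2)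
      (pow_mem (Fermat.Agent.S24Res.mem_of_ord_nonneg w h1) _))

/-- the field `pole` of `UNodeGauss` for `H`. -/
theorem unodeA_H_pole (hq : q.Prime) (hqM : ¬ q ∣ M₀) (t : FBar M₀)
    (hpoles : ∀ Q' : Place Qb (FBar M₀), 0 ≤ Q'.ord (Fermat.Agent.S24.jBar M₀) → 0 ≤ Q'.ord t)
    (w : Place Qb (FBar (M₀ * q)))
    (hw : 0 ≤ w.ord (heckeAlphaBar Qb M₀ q (Fermat.Agent.S24.jBar M₀))) :
    0 ≤ w.ord (uhH M₀ q t) := by
  obtain ⟨h1, h2, h3⟩ := unodeA_poles M₀ q hq hqM t hpoles w hw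
  exact Fermat.Agent.S24Res.ord_nonneg_of_mem w
    (mul_mem (pow_mem (unodeA_theta_pole M₀ q hq hqM t hpoles w hw) _)
      (Fermat.Agent.S24Res.mem_of_ord_nonneg w h3.ge))

/-- the field `pole` of `UNodeGauss` for `R`. -/
theorem unodeA_R_pole (hq : q.Prime) (hqM : ¬ q ∣ M₀) (t : FBar M₀)
    (hpoles : ∀ Q' : Place Qb (FBar M₀), 0 ≤ Q'.ord (Fermat.Agent.S24.jBar M₀) → 0 ≤ Q'.ord t)
    (w : Place Qb (FBar (M₀ * q)))
    (hw : 0 ≤ w.ord (heckeAlphaBar Qb M₀ q (Fermat.Agent.S24.jBar M₀))) :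
    0 ≤ w.ord (uhR M₀ q t) := by
  obtain ⟨h1, h2, h3⟩ := unodeA_poles M₀ q hq hqM t hpoles w hw
  have hZ : uhZ M₀ q t ∈ w.toValuationSubring :=
    sub_mem (Fermat.Agent.S24Res.mem_of_ord_nonneg w h1)
      (pow_mem (Fermat.Agent.S24Res.mem_of_ord_nonneg w h2) _)
  exact Fermat.Agent.S24Res.ord_nonneg_of_mem w
    (neg_mem (mul_mem (unodeA_theta_pole M₀ q hq hqM t hpoles w hw) hZ))

end Poles

/-! ### the Gauss form of UP-NV -/

section Final

variable {M₀ q : ℕ} [NeZero M₀] [NeZero q] {A : ValuationSubring Qb}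
  [Fact q.Prime] [CharP (IsLocalRing.ResidueField A) q]
  [PerfectRing (IsLocalRing.ResidueField A) q]

/-- **UP-NV, Gauss form, for `H = u₁ (θ / q) ^ 12`.** -/
theorem unodeGauss_H (hq : q.Prime) (hA : A.LiesOverPrime q) (hqM : ¬ q ∣ M₀)
    (D : ALData) (hQ : D.Q = q) (hR : D.R = M₀) (hM : M₀ * q = D.Q * D.R)
    (haux : AuxLevelOK q M₀) (t : FBar M₀) (t0 : LaurentSeries ℚ)
    (ht : (t : LaurentSeries Qb) = coeffEmb Qb t0)
    (hint : ∀ n : ℤ, algebraMap ℚ Qb (t0.coeff n) ∈ A)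
    (hpoles : ∀ Q' : Place Qb (FBar M₀), 0 ≤ Q'.ord (Fermat.Agent.S24.jBar M₀) → 0 ≤ Q'.ord t)
    (Q : Place (IsLocalRing.ResidueField A)
      ↥(modularFunctionFieldFullC (IsLocalRing.ResidueField A) M₀))
    (hss : IsSSPlace (IsLocalRing.ResidueField A) M₀ q Q)
    (hno : ∀ u : ↥(modularFunctionFieldFullC (IsLocalRing.ResidueField A) M₀),
      (u : LaurentSeries (IsLocalRing.ResidueField A)) =
        ssFun (IsLocalRing.ResidueField A) q → Q.ord u = 12)
    (tbar : ↥(modularFunctionFieldFullC (IsLocalRing.ResidueField A) M₀))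
    (htb : (tbar : LaurentSeries (IsLocalRing.ResidueField A)) =
      gaussResFun A (modularFunctionFieldBar M₀) (t : LaurentSeries Qb))
    {c : IsLocalRing.ResidueField A} (hc : c ^ (q ^ 2) = c)
    (hord : Q.ord (tbar - algebraMap (IsLocalRing.ResidueField A)
      ↥(modularFunctionFieldFullC (IsLocalRing.ResidueField A) M₀) c) = 1) :
    ∃ d : IsLocalRing.ResidueField A, d ≠ 0 ∧ UNodeGauss M₀ q A D hM (uhH M₀ q t) Q d := by
  subst hQ hR
  haveI : NeZero (D.Q * D.R) := ⟨Nat.mul_ne_zero (NeZero.ne _) (NeZero.ne _)⟩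
  have hS := isGaussSetup_gaussSetupBad D hq hqM A hA
  have hF := unode_isFrobInt_of_rat D A hA t t0 ht hint
  have hmem : emb A (Fermat.Agent.S36.kctLift A t0 hint) ∈ modularFunctionFieldBar D.R := by
    rw [hF.emb_eq]
    exact t.2
  have e : tbar = (kpS D A hq hA hqM).red (alphaQ D t) := by
    apply Subtype.ext
    rw [htb, hF.coe_red_alpha hS, ← hF.emb_eq, gaussResFun_emb hmem]
  rw [e] at hord
  obtain ⟨hH₁, hH₂, d, hd0, hv1, hv2⟩ :=
    unode_H_at hq hA hqM haux hF hpoles Q hss hno hc hord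
  rw [← unodeA_castF_H D hM t] at hH₁ hH₂ hv1 hv2
  obtain ⟨g1, g2⟩ := unodeA_gauss D A hq hA hqM hM _ hH₁
  obtain ⟨g3, g4⟩ := unodeA_gauss_wAt D A hq hA hqM hM _ hH₂
  exact ⟨d, hd0, ⟨g1, g3, fun w hw => unodeA_H_pole D.R D.Q hq hqM t hpoles w hw,
    ⟨_, _, g2, g4, hv1, hv2⟩⟩⟩

/-- **UP-NV, Gauss form, for `R = - (θ / q) Z`.** -/
theorem unodeGauss_R (hq : q.Prime) (hA : A.LiesOverPrime q) (hqM : ¬ q ∣ M₀)
    (D : ALData) (hQ : D.Q = q) (hR : D.R = M₀) (hM : M₀ * q = D.Q * D.R)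
    (haux : AuxLevelOK q M₀) (t : FBar M₀) (t0 : LaurentSeries ℚ)
    (ht : (t : LaurentSeries Qb) = coeffEmb Qb t0)
    (hint : ∀ n : ℤ, algebraMap ℚ Qb (t0.coeff n) ∈ A)
    (hpoles : ∀ Q' : Place Qb (FBar M₀), 0 ≤ Q'.ord (Fermat.Agent.S24.jBar M₀) → 0 ≤ Q'.ord t)
    (Q : Place (IsLocalRing.ResidueField A)
      ↥(modularFunctionFieldFullC (IsLocalRing.ResidueField A) M₀))
    (hss : IsSSPlace (IsLocalRing.ResidueField A) M₀ q Q)
    (hno : ∀ u : ↥(modularFunctionFieldFullC (IsLocalRing.ResidueField A) M₀),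
      (u : LaurentSeries (IsLocalRing.ResidueField A)) =
        ssFun (IsLocalRing.ResidueField A) q → Q.ord u = 12)
    (tbar : ↥(modularFunctionFieldFullC (IsLocalRing.ResidueField A) M₀))
    (htb : (tbar : LaurentSeries (IsLocalRing.ResidueField A)) =
      gaussResFun A (modularFunctionFieldBar M₀) (t : LaurentSeries Qb))
    {c : IsLocalRing.ResidueField A} (hc : c ^ (q ^ 2) = c)
    (hord : Q.ord (tbar - algebraMap (IsLocalRing.ResidueField A)
      ↥(modularFunctionFieldFullC (IsLocalRing.ResidueField A) M₀) c) = 1) :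
    ∃ d : IsLocalRing.ResidueField A, d ≠ 0 ∧ UNodeGauss M₀ q A D hM (uhR M₀ q t) Q d := by
  subst hQ hR
  haveI : NeZero (D.Q * D.R) := ⟨Nat.mul_ne_zero (NeZero.ne _) (NeZero.ne _)⟩
  have hS := isGaussSetup_gaussSetupBad D hq hqM A hA
  have hF := unode_isFrobInt_of_rat D A hA t t0 ht hint
  have hmem : emb A (Fermat.Agent.S36.kctLift A t0 hint) ∈ modularFunctionFieldBar D.R := by
    rw [hF.emb_eq]
    exact t.2
  have e : tbar = (kpS D A hq hA hqM).red (alphaQ D t) := by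
    apply Subtype.ext
    rw [htb, hF.coe_red_alpha hS, ← hF.emb_eq, gaussResFun_emb hmem]
  rw [e] at hord
  obtain ⟨hR₁, d, hd0, hv1, hv2⟩ :=
    unode_R_at hq hA hqM haux hF hpoles Q hss hno hc hord
  have hR₂ : atkinLehner D (unodeR D t) ∈ (kpS D A hq hA hqM).Ov := by
    rw [atkinLehner_unodeR]
    exact hR₁
  have hv2' : ValAt ((frobAut (IsLocalRing.ResidueField A) D.R D.Q)⁻¹ • Q)
      ((kpS D A hq hA hqM).red (atkinLehner D (unodeR D t))) d := by
    rw [atkinLehner_unodeR]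
    exact hv2
  rw [← unodeA_castF_R D hM t] at hR₁ hR₂ hv1 hv2'
  obtain ⟨g1, g2⟩ := unodeA_gauss D A hq hA hqM hM _ hR₁
  obtain ⟨g3, g4⟩ := unodeA_gauss_wAt D A hq hA hqM hM _ hR₂
  exact ⟨d, hd0, ⟨g1, g3, fun w hw => unodeA_R_pole D.R D.Q hq hqM t hpoles w hw,
    ⟨_, _, g2, g4, hv1, hv2'⟩⟩⟩

end Final

end Fermat.Agent.S36G
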