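/-
Cluster G (S36), block SEED, seat SEED-UP (helper90): **FINAL WIRING**.  The reductions on the
horizontal valuations `w_P` of `u₁ = Δ(z) / Δ(qz)`, `u₂ = Δ(qz) / Δ(q² z)`:

  `red_P (u₁ / ϖ ^ 12) = c X₁ ^ 12`,  `red_P (ϖ ^ 12 / u₁) = c (X₁ ^ 12)⁻¹`,
  `red_P (ϖ ^ (12 q) / u₂) = c X₂ ^ 12`,   `c ≠ 0`,

for the output `O : WPOut M₀ q A S0 P FkP` of block W-P, from

* UP-KC + (K') (helper98, helper50), UHOR-ROOT (helper98: `uhrm_root_a`, `uhrm_root_b`),
* UP-NV (helper23: `unodeGauss_H`, `unodeGauss_R`), SS-FQ2 (helper18: `ssFrob_smul_eq_inv_smul`),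
* the assembly `uhorAsm_u1`, `uhorAsm_u1_inv`, `uhorAsm_u2` (`S36/Seed/UHorAsm.lean`).

Hypotheses on the datum `t = O.t`, NOT exported by `WPOut`: `UHorDatum A O.t`
(`S36/Seed/UHorDatum.lean`: `t` is rational with
`A`-integral expansion and has poles only at the cusps; true for the datum of EX_t,
`uhorDatum_of_exT`), and `hno` (`ord_Q ssFun = 12` at the supersingular places: no elliptic
points, `gen_hno` / `hno23_ord_ssFun`).

* `uhorFinal_roots_b`, `uhorFinal_roots_a` : the constancy data `UHorRoot` of the two copies;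
* `uhorFinal_u1`, `uhorFinal_u1_inv`, `uhorFinal_u2` : the three reductions at one `P`;
* `uhorFinal_endsRed2`, `uhorFinal_endsRed1`, `uhorFinal_endsRedA` : **`EndsRed2`, `EndsRed1`,
  `EndsRedA`** (`S36/Seed/Ends.lean`) for a family `W : WPFamily M₀ q A S0 ϖ`.
-/
import Mathlib
import Fermat.Agent.S36.Seed.UHorAsm
import Fermat.Agent.S36.Seed.UHorRootMod
import Fermat.Agent.S36.Seed.UNodeAdapt
import Fermat.Agent.S36.Seed.SSFrob
import Fermat.Agent.S36.HPVal.ValFamily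
import Fermat.Agent.S36.Seed.UHorDatum

set_option autoImplicit false
set_option linter.style.haveILetI false
set_option linter.unusedSectionVars false
set_option linter.unusedVariables false
set_option synthInstance.maxHeartbeats 400000
set_option maxHeartbeats 1000000

noncomputable section

namespace Fermat.Agent.S36G

open ModularCurve AlgebraicCurve Fermat.Agent.F3 Fermat.Agent.F3G Fermat.Agent.GaussInt
  Fermat.Agent.Deuring Fermat.Agent.BadRed Fermat.Agent.HPVal Fermat.Agent.HP Fermat.Agent.RR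
  Fermat.Agent.BadRedG Fermat.Agent.AtkinLehner Fermat.Agent.S36RegN

local notation "Qb" => AlgebraicClosure ℚ

attribute [local instance 10000] SubalgebraClass.toAlgebra HahnSeries.powerSeriesAlgebra

/-! ### the reduction of the datum is fixed by the Frobenius -/

section Frob

variable {M₀ q : ℕ} [NeZero M₀] [NeZero q] (A : ValuationSubring Qb)
  [Fact q.Prime] [CharP (IsLocalRing.ResidueField A) q]
  [PerfectRing (IsLocalRing.ResidueField A) q]

/-- `t̄` has coefficients in the prime field. -/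
theorem uhf_tbar_fixed (hA : A.LiesOverPrime q) (D : ALData) (hQ : D.Q = q) (hR : D.R = M₀)
    (t : FBar M₀) (t0 : LaurentSeries ℚ) (ht : (t : LaurentSeries Qb) = coeffEmb Qb t0)
    (hint : ∀ n : ℤ, algebraMap ℚ Qb (t0.coeff n) ∈ A)
    (tbar : ↥(modularFunctionFieldFullC (IsLocalRing.ResidueField A) M₀))
    (htb : (tbar : LaurentSeries (IsLocalRing.ResidueField A)) =
      gaussResFun A (modularFunctionFieldBar M₀) (t : LaurentSeries Qb)) :
    frobAut (IsLocalRing.ResidueField A) M₀ q • tbar = tbar := by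
  subst hQ hR
  haveI : NeZero (D.Q * D.R) := ⟨Nat.mul_ne_zero (NeZero.ne _) (NeZero.ne _)⟩
  have hF := unode_isFrobInt_of_rat D A hA t t0 ht hint
  have hmem : emb A (Fermat.Agent.S36.kctLift A t0 hint) ∈ modularFunctionFieldBar D.R := by
    rw [hF.emb_eq]
    exact t.2
  apply Subtype.ext
  rw [coe_frobAut_smul, htb, ← hF.emb_eq, gaussResFun_emb hmem]
  exact red_frobStable_coeff hF.stable

/-- transport of a uniformiser `t̄ - c` by the Frobenius. -/
theorem uhf_ord_frob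
    {tbar : ↥(modularFunctionFieldFullC (IsLocalRing.ResidueField A) M₀)}
    (hfix : frobAut (IsLocalRing.ResidueField A) M₀ q • tbar = tbar)
    (Q : Place (IsLocalRing.ResidueField A)
      ↥(modularFunctionFieldFullC (IsLocalRing.ResidueField A) M₀))
    {c : IsLocalRing.ResidueField A}
    (hord : Q.ord (tbar - algebraMap (IsLocalRing.ResidueField A)
      ↥(modularFunctionFieldFullC (IsLocalRing.ResidueField A) M₀) c) = 1) :
    (frobAut (IsLocalRing.ResidueField A) M₀ q • Q).ord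
      (tbar - algebraMap (IsLocalRing.ResidueField A)
        ↥(modularFunctionFieldFullC (IsLocalRing.ResidueField A) M₀) (c ^ q)) = 1 := by
  have e : tbar - algebraMap (IsLocalRing.ResidueField A)
      ↥(modularFunctionFieldFullC (IsLocalRing.ResidueField A) M₀) (c ^ q) =
      frobAut (IsLocalRing.ResidueField A) M₀ q •
        (tbar - algebraMap (IsLocalRing.ResidueField A)
          ↥(modularFunctionFieldFullC (IsLocalRing.ResidueField A) M₀) c) := by
    rw [smul_sub, hfix, frobAut_smul_algebraMap]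
  rw [e, SemilinearAut.ord_smul]
  exact hord

end Frob

/-! ### the constancy data of the two copies -/

section Roots

variable {M₀ q : ℕ} [NeZero M₀] [NeZero q] {A : ValuationSubring Qb}
  [Fact q.Prime] [CharP (IsLocalRing.ResidueField A) q]
  [PerfectRing (IsLocalRing.ResidueField A) q]
  {S0 : Fermat.Agent.S18Key.RedSetup Qb (FBar M₀) (IsLocalRing.ResidueField A)
    ↥(modularFunctionFieldFullC (IsLocalRing.ResidueField A) M₀)}
  {P : Place (IsLocalRing.ResidueField A)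
    ↥(modularFunctionFieldFullC (IsLocalRing.ResidueField A) M₀)}
  {FkP : Type} [Field FkP] [Algebra (IsLocalRing.ResidueField A) FkP]

/-- the constant `c = res (a ^ q)` of the centre is fixed by `x ↦ x ^ (q²)`. -/
theorem uhf_c_pow (O : WPOut M₀ q A S0 P FkP) :
    IsLocalRing.residue A ⟨O.a ^ q, pow_mem O.a_mem q⟩ ^ (q ^ 2) =
      IsLocalRing.residue A ⟨O.a ^ q, pow_mem O.a_mem q⟩ := by
  rw [← map_pow]
  congr 1
  apply Subtype.ext
  show (O.a ^ q) ^ (q ^ 2) = O.a ^ q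
  rw [← pow_mul, mul_comm, pow_mul, O.a_pow]

/-- the reduction of the datum, Gauss form. -/
theorem uhf_tbar (O : WPOut M₀ q A S0 P FkP) (hG : IsGaussRed M₀ A S0) :
    ((S0.red O.t : ↥(modularFunctionFieldFullC (IsLocalRing.ResidueField A) M₀)) :
        LaurentSeries (IsLocalRing.ResidueField A)) =
      gaussResFun A (modularFunctionFieldBar M₀) (O.t : LaurentSeries Qb) :=
  hG.coe_red O.t (O.t_mem O.P' O.ss').1

/-- **the `β`-copies of `H`, `R` are constant on `w_P`** (`u₂` side; node `= O.P'`). -/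
theorem uhorFinal_roots_b (O : WPOut M₀ q A S0 P FkP)
    (hFk : IsRRField (IsLocalRing.ResidueField A)
      ↥(modularFunctionFieldFullC (IsLocalRing.ResidueField A) M₀))
    (hG : IsGaussRed M₀ A S0) (hq : q.Prime) (hqM : ¬ q ∣ M₀) (hA : A.LiesOverPrime q)
    (haux : AuxLevelOK q M₀) (hT : UHorDatum A O.t)
    (hno : ∀ u : ↥(modularFunctionFieldFullC (IsLocalRing.ResidueField A) M₀),
      (u : LaurentSeries (IsLocalRing.ResidueField A)) =
        ssFun (IsLocalRing.ResidueField A) q → O.P'.ord u = 12) :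
    ∃ dH dR : IsLocalRing.ResidueField A, dH ≠ 0 ∧ dR ≠ 0 ∧
      UHorRoot O hFk (heckeBetaBar Qb (M₀ * q) q (uhH M₀ q O.t)) dH ∧
      UHorRoot O hFk (heckeBetaBar Qb (M₀ * q) q (uhR M₀ q O.t)) dR := by
  obtain ⟨t0, ht, hint, hpoles⟩ := hT
  obtain ⟨D, hQ, hR⟩ := ALData.exists_of_coprime hq.pos (Nat.pos_of_ne_zero (NeZero.ne M₀))
    ((Nat.Prime.coprime_iff_not_dvd hq).mpr hqM)
  have hM : M₀ * q = D.Q * D.R := by rw [hQ, hR, mul_comm]
  obtain ⟨dH, hdH, gH⟩ := unodeGauss_H hq hA hqM D hQ hR hM haux O.t t0 ht hint hpoles O.P'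
    O.ss' hno (S0.red O.t) (uhf_tbar O hG) (uhf_c_pow O) O.ord_t'
  obtain ⟨dR, hdR, gR⟩ := unodeGauss_R hq hA hqM D hQ hR hM haux O.t t0 ht hint hpoles O.P'
    O.ss' hno (S0.red O.t) (uhf_tbar O hG) (uhf_c_pow O) O.ord_t'
  obtain ⟨yH, wH, hyH, hwH, v1H, v2H⟩ := gH.val
  obtain ⟨yR, wR, hyR, hwR, v1R, v2R⟩ := gR.val
  exact ⟨dH, dR, hdH, hdR,
    uhrm_root_b O hFk hG hq hqM hA D hQ hR hM _ gH.mem gH.wmem gH.pole yH wH hyH hwH dH v1H v2H,
    uhrm_root_b O hFk hG hq hqM hA D hQ hR hM _ gR.mem gR.wmem gR.pole yR wR hyR hwR dR v1R v2R⟩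

/-- **the `α`-copies of `H`, `R` are constant on `w_P`** (`u₁` side; node `= τ • O.P'`). -/
theorem uhorFinal_roots_a (O : WPOut M₀ q A S0 P FkP)
    (hFk : IsRRField (IsLocalRing.ResidueField A)
      ↥(modularFunctionFieldFullC (IsLocalRing.ResidueField A) M₀))
    (hG : IsGaussRed M₀ A S0) (hq : q.Prime) (hqM : ¬ q ∣ M₀) (hA : A.LiesOverPrime q)
    (haux : AuxLevelOK q M₀) (hT : UHorDatum A O.t)
    (hno : ∀ u : ↥(modularFunctionFieldFullC (IsLocalRing.ResidueField A) M₀),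
      (u : LaurentSeries (IsLocalRing.ResidueField A)) =
        ssFun (IsLocalRing.ResidueField A) q →
        (frobAut (IsLocalRing.ResidueField A) M₀ q • O.P').ord u = 12) :
    ∃ dH dR : IsLocalRing.ResidueField A, dH ≠ 0 ∧ dR ≠ 0 ∧
      UHorRoot O hFk (heckeAlphaBar Qb (M₀ * q) q (uhH M₀ q O.t)) dH ∧
      UHorRoot O hFk (heckeAlphaBar Qb (M₀ * q) q (uhR M₀ q O.t)) dR := by
  obtain ⟨t0, ht, hint, hpoles⟩ := hT
  obtain ⟨D, hQ, hR⟩ := ALData.exists_of_coprime hq.pos (Nat.pos_of_ne_zero (NeZero.ne M₀))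
    ((Nat.Prime.coprime_iff_not_dvd hq).mpr hqM)
  have hM : M₀ * q = D.Q * D.R := by rw [hQ, hR, mul_comm]
  have hfix := uhf_tbar_fixed A hA D hQ hR O.t t0 ht hint (S0.red O.t) (uhf_tbar O hG)
  have hord := uhf_ord_frob A hfix O.P' O.ord_t'
  have hc : (IsLocalRing.residue A ⟨O.a ^ q, pow_mem O.a_mem q⟩ ^ q) ^ (q ^ 2) =
      IsLocalRing.residue A ⟨O.a ^ q, pow_mem O.a_mem q⟩ ^ q := by
    rw [← pow_mul, mul_comm, pow_mul, uhf_c_pow O]
  have hss := centres_isSS_frob (IsLocalRing.ResidueField A) M₀ q O.ss'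
  have hτ : frobAut (IsLocalRing.ResidueField A) M₀ q • O.P' =
      (frobAut (IsLocalRing.ResidueField A) M₀ q)⁻¹ • O.P' :=
    ssFrob_smul_eq_inv_smul hq (Nat.pos_of_ne_zero (NeZero.ne M₀)) hqM haux A hA O.P' O.ss'
  obtain ⟨dH, hdH, gH⟩ := unodeGauss_H hq hA hqM D hQ hR hM haux O.t t0 ht hint hpoles _
    hss hno (S0.red O.t) (uhf_tbar O hG) hc hord
  obtain ⟨dR, hdR, gR⟩ := unodeGauss_R hq hA hqM D hQ hR hM haux O.t t0 ht hint hpoles _
    hss hno (S0.red O.t) (uhf_tbar O hG) hc hord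
  obtain ⟨yH, wH, hyH, hwH, v1H, v2H⟩ := gH.val
  obtain ⟨yR, wR, hyR, hwR, v1R, v2R⟩ := gR.val
  rw [inv_smul_smul] at v2H v2R
  rw [hτ] at v1H v1R
  exact ⟨dH, dR, hdH, hdR,
    uhrm_root_a O hFk hG hq hqM hA D hQ hR hM _ gH.mem gH.wmem gH.pole yH wH hyH hwH dH v2H v1H,
    uhrm_root_a O hFk hG hq hqM hA D hQ hR hM _ gR.mem gR.wmem gR.pole yR wR hyR hwR dR v2R v1R⟩

/-! ### the three reductions at one `P` -/

/-- **SEED-UP (2)**: `red_P (u₁ / ϖ ^ 12) = c X₁ ^ 12`, `c ≠ 0`. -/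
theorem uhorFinal_u1 (O : WPOut M₀ q A S0 P FkP)
    (hFk : IsRRField (IsLocalRing.ResidueField A)
      ↥(modularFunctionFieldFullC (IsLocalRing.ResidueField A) M₀))
    (hG : IsGaussRed M₀ A S0) (hq : q.Prime) (hqM : ¬ q ∣ M₀) (hA : A.LiesOverPrime q)
    (haux : AuxLevelOK q M₀) (hT : UHorDatum A O.t)
    (hno : ∀ Q : Place (IsLocalRing.ResidueField A)
        ↥(modularFunctionFieldFullC (IsLocalRing.ResidueField A) M₀),
      IsSSPlace (IsLocalRing.ResidueField A) M₀ q Q →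
      ∀ u : ↥(modularFunctionFieldFullC (IsLocalRing.ResidueField A) M₀),
        (u : LaurentSeries (IsLocalRing.ResidueField A)) =
          ssFun (IsLocalRing.ResidueField A) q → Q.ord u = 12) :
    ∃ c : IsLocalRing.ResidueField A, c ≠ 0 ∧
      uF (M₀ * q * q) q (uhasm_dvd1 M₀ q) / algebraMap Qb (FBar (M₀ * q * q)) (O.ϖ ^ 12) ∈
        O.S.Ov ∧
      O.S.red (uF (M₀ * q * q) q (uhasm_dvd1 M₀ q) /
          algebraMap Qb (FBar (M₀ * q * q)) (O.ϖ ^ 12)) =
        algebraMap (IsLocalRing.ResidueField A) FkP c * O.H.X1 ^ 12 := by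
  obtain ⟨dH, dR, hdH, hdR, hH, hR⟩ := uhorFinal_roots_a O hFk hG hq hqM hA haux hT
    (hno _ (centres_isSS_frob (IsLocalRing.ResidueField A) M₀ q O.ss'))
  exact uhorAsm_u1 O hFk hq hA hdH hdR hH hR

/-- **SEED-UP (1)**: `red_P (ϖ ^ 12 / u₁) = c (X₁ ^ 12)⁻¹`, `c ≠ 0`. -/
theorem uhorFinal_u1_inv (O : WPOut M₀ q A S0 P FkP)
    (hFk : IsRRField (IsLocalRing.ResidueField A)
      ↥(modularFunctionFieldFullC (IsLocalRing.ResidueField A) M₀))
    (hG : IsGaussRed M₀ A S0) (hq : q.Prime) (hqM : ¬ q ∣ M₀) (hA : A.LiesOverPrime q)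
    (haux : AuxLevelOK q M₀) (hT : UHorDatum A O.t)
    (hno : ∀ Q : Place (IsLocalRing.ResidueField A)
        ↥(modularFunctionFieldFullC (IsLocalRing.ResidueField A) M₀),
      IsSSPlace (IsLocalRing.ResidueField A) M₀ q Q →
      ∀ u : ↥(modularFunctionFieldFullC (IsLocalRing.ResidueField A) M₀),
        (u : LaurentSeries (IsLocalRing.ResidueField A)) =
          ssFun (IsLocalRing.ResidueField A) q → Q.ord u = 12) :
    ∃ c : IsLocalRing.ResidueField A, c ≠ 0 ∧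
      algebraMap Qb (FBar (M₀ * q * q)) (O.ϖ ^ 12) / uF (M₀ * q * q) q (uhasm_dvd1 M₀ q) ∈
        O.S.Ov ∧
      O.S.red (algebraMap Qb (FBar (M₀ * q * q)) (O.ϖ ^ 12) /
          uF (M₀ * q * q) q (uhasm_dvd1 M₀ q)) =
        algebraMap (IsLocalRing.ResidueField A) FkP c * (O.H.X1 ^ 12)⁻¹ := by
  obtain ⟨dH, dR, hdH, hdR, hH, hR⟩ := uhorFinal_roots_a O hFk hG hq hqM hA haux hT
    (hno _ (centres_isSS_frob (IsLocalRing.ResidueField A) M₀ q O.ss'))
  exact uhorAsm_u1_inv O hFk hq hA hdH hdR hH hR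

/-- **SEED-UP (A)**: `red_P (ϖ ^ (12 q) / u₂) = c X₂ ^ 12`, `c ≠ 0`. -/
theorem uhorFinal_u2 (O : WPOut M₀ q A S0 P FkP)
    (hFk : IsRRField (IsLocalRing.ResidueField A)
      ↥(modularFunctionFieldFullC (IsLocalRing.ResidueField A) M₀))
    (hG : IsGaussRed M₀ A S0) (hq : q.Prime) (hqM : ¬ q ∣ M₀) (hA : A.LiesOverPrime q)
    (haux : AuxLevelOK q M₀) (hT : UHorDatum A O.t)
    (hno : ∀ Q : Place (IsLocalRing.ResidueField A)
        ↥(modularFunctionFieldFullC (IsLocalRing.ResidueField A) M₀),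
      IsSSPlace (IsLocalRing.ResidueField A) M₀ q Q →
      ∀ u : ↥(modularFunctionFieldFullC (IsLocalRing.ResidueField A) M₀),
        (u : LaurentSeries (IsLocalRing.ResidueField A)) =
          ssFun (IsLocalRing.ResidueField A) q → Q.ord u = 12) :
    ∃ c : IsLocalRing.ResidueField A, c ≠ 0 ∧
      algebraMap Qb (FBar (M₀ * q * q)) (O.ϖ ^ (12 * q)) /
        uF2 (M₀ * q * q) q (uhasm_dvd2 M₀ q) ∈ O.S.Ov ∧
      O.S.red (algebraMap Qb (FBar (M₀ * q * q)) (O.ϖ ^ (12 * q)) /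
          uF2 (M₀ * q * q) q (uhasm_dvd2 M₀ q)) =
        algebraMap (IsLocalRing.ResidueField A) FkP c * O.H.X2 ^ 12 := by
  obtain ⟨dH, dR, hdH, hdR, hH, hR⟩ := uhorFinal_roots_b O hFk hG hq hqM hA haux hT
    (hno _ O.ss')
  exact uhorAsm_u2 O hFk hq hA hdH hdR hH hR

end Roots

/-! ### the family -/

section Family

variable {M₀ q : ℕ} [NeZero M₀] [NeZero q] {A : ValuationSubring Qb}
  [Fact q.Prime] [CharP (IsLocalRing.ResidueField A) q]
  [PerfectRing (IsLocalRing.ResidueField A) q]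
  {S0 : Fermat.Agent.S18Key.RedSetup Qb (FBar M₀) (IsLocalRing.ResidueField A)
    ↥(modularFunctionFieldFullC (IsLocalRing.ResidueField A) M₀)} {ϖ : Qb}
  (W : WPFamily M₀ q A S0 ϖ)
  {Mid : Type}
  {Fk0 : Type} [Field Fk0] [Algebra (IsLocalRing.ResidueField A) Fk0]
  {FkM : Mid → Type} [∀ m, Field (FkM m)] [∀ m, Algebra (IsLocalRing.ResidueField A) (FkM m)]
  (Soo S00 : ValSetup Qb (FBar (M₀ * q * q)) (IsLocalRing.ResidueField A) Fk0)
  (Sm : ∀ m, ValSetup Qb (FBar (M₀ * q * q)) (IsLocalRing.ResidueField A) (FkM m))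
  (hFk : IsRRField (IsLocalRing.ResidueField A)
    ↥(modularFunctionFieldFullC (IsLocalRing.ResidueField A) M₀))
  (hG : IsGaussRed M₀ A S0) (hq : q.Prime) (hqM : ¬ q ∣ M₀) (hA : A.LiesOverPrime q)
  (haux : AuxLevelOK q M₀) (hT : ∀ P, UHorDatum A (W.t P))
  (hno : ∀ Q : Place (IsLocalRing.ResidueField A)
      ↥(modularFunctionFieldFullC (IsLocalRing.ResidueField A) M₀),
    IsSSPlace (IsLocalRing.ResidueField A) M₀ q Q →
    ∀ u : ↥(modularFunctionFieldFullC (IsLocalRing.ResidueField A) M₀),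
      (u : LaurentSeries (IsLocalRing.ResidueField A)) =
        ssFun (IsLocalRing.ResidueField A) q → Q.ord u = 12)

include hFk hG hq hqM hA haux hT hno

/-- **`EndsRed2`** for `x2 = u₁ / ϖ ^ 12`. -/
theorem uhorFinal_endsRed2 :
    EndsRed2 (vtxFamily Soo S00 Sm W.S) W.H
      (uF (M₀ * q * q) q (uhasm_dvd1 M₀ q) / algebraMap Qb (FBar (M₀ * q * q)) (ϖ ^ 12)) := by
  intro P
  obtain ⟨c, hc, -, hr⟩ := uhorFinal_u1 (W.O P) hFk hG hq hqM hA haux (hT P) hno
  rw [W.ϖ_eq P] at hr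
  exact ⟨c, hc, hr⟩

/-- **`EndsRed1`** for `x1 = ϖ ^ 12 / u₁`. -/
theorem uhorFinal_endsRed1 :
    EndsRed1 (vtxFamily Soo S00 Sm W.S) W.H
      (algebraMap Qb (FBar (M₀ * q * q)) (ϖ ^ 12) / uF (M₀ * q * q) q (uhasm_dvd1 M₀ q)) := by
  intro P
  obtain ⟨c, hc, -, hr⟩ := uhorFinal_u1_inv (W.O P) hFk hG hq hqM hA haux (hT P) hno
  rw [W.ϖ_eq P] at hr
  exact ⟨c, hc, hr⟩

/-- **`EndsRedA`** for `xA = ϖ ^ (12 q) / u₂`. -/
theorem uhorFinal_endsRedA :
    EndsRedA (vtxFamily Soo S00 Sm W.S) W.H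
      (algebraMap Qb (FBar (M₀ * q * q)) (ϖ ^ (12 * q)) /
        uF2 (M₀ * q * q) q (uhasm_dvd2 M₀ q)) := by
  intro P
  obtain ⟨c, hc, -, hr⟩ := uhorFinal_u2 (W.O P) hFk hG hq hqM hA haux (hT P) hno
  rw [W.ϖ_eq P] at hr
  exact ⟨c, hc, hr⟩

end Family

end Fermat.Agent.S36G
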