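/-
Cluster G (S36, bad reduction at `q² ∥ M`), seat SEED-MN, leaf MN2Mod (helper86; sub-architect
helper92): **modular discharge of the W-P hypotheses of `mn2_data_mod`** (`S36/Seed/MN2.lean`).

The node family (2): `u = u₁ / ϖ₁`, `ϖ = q ^ 12 / ϖ₁`, `V₁ = {hor P}`, `V₂ = {0}`.  The three named
hypotheses `hu_hor`, `htr_hor`, `hdeg_hor` of `mn2_data_mod` follow from

* the SEED-UP output `EndsRed2 S H (u₁ / ϖ₁)` (`S36/Seed/Ends.lean`): `red_P (u₁ / ϖ₁) = c · X₁ ^ 12`,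
  `c ≠ 0`, `X₁` the first coordinate of `H_P : X₁ X₂ (X₁ - X₂)^(q-1) = c_P`
  (helper18's `EndsRed2.mem`, `EndsRed2.transcendental`, `EndsRed2.hdeg`, `S36/Seed/EndsHor.lean`);
* the count of the supersingular points `(q - 1) ψ(M₀) ≤ 12 #SS` (GENUS, `modSS_card_ge`).

* `mn2_data_of_ends` : **`MNData S (mn1V₂ Mid SS) {0} (u₁ / ϖ₁) (q ^ 12 / ϖ₁)`** on `X₀(q² M₀)`;
* `mn2_node_of_ends` : the node theorem of the family (2) for it.
-/
import Mathlib
import Fermat.Agent.S36.Seed.MN2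
import Fermat.Agent.S36.Seed.EndsHor

set_option autoImplicit false
set_option linter.style.haveILetI false
set_option linter.unusedSectionVars false
set_option linter.unusedVariables false
set_option synthInstance.maxHeartbeats 400000

noncomputable section

namespace Fermat.Agent.S36G

open IntermediateField ModularCurve AlgebraicCurve Fermat.Agent.GaussInt Fermat.Agent.AtkinLehner
  Fermat.Agent.Deuring Fermat.Agent.S28 Fermat.Agent.F3 Fermat.Agent.F3G Fermat.Agent.BadRed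
  Fermat.Agent.RR Fermat.Agent.BadRedG Fermat.Agent.HP

local notation "Qb" => AlgebraicClosure ℚ

section Mod

variable (D : ALData) [NeZero (D.Q * D.R)] [NeZero D.R] (q : ℕ) [NeZero q] (hQ : q * q = D.Q)
  {A : ValuationSubring Qb}
  {Mid SS : Type} [Fintype SS]
  {FkM : Mid → Type} [∀ m, Field (FkM m)] [∀ m, Algebra (IsLocalRing.ResidueField A) (FkM m)]
  {FkP : SS → Type} [∀ P, Field (FkP P)] [∀ P, Algebra (IsLocalRing.ResidueField A) (FkP P)]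
  (S : ∀ c : Vtx Mid SS, ValSetup Qb (FBar (D.Q * D.R)) (IsLocalRing.ResidueField A)
    (FkOf (modularFunctionFieldFullC (IsLocalRing.ResidueField A) D.R) FkM FkP c))

/-- **MN2Mod**: the multi-node data of the node family (2) on `X₀(q² M₀)`, `u = u₁ / ϖ₁`,
`ϖ = q ^ 12 / ϖ₁`, `V₁ = {hor P}`, `V₂ = {0}`, from the SEED-UP output `EndsRed2` and the count
of the supersingular points. -/
theorem mn2_data_of_ends [Nonempty SS] (hq : q.Prime) (hqR : ¬ q ∣ D.R) (hA : A.LiesOverPrime q)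
    (hAeq : ∀ c c' : Vtx Mid SS, (S c).A = (S c').A)
    (hres : ∀ (c c' : Vtx Mid SS) (x : Qb) (h : x ∈ (S c).A) (h' : x ∈ (S c').A),
      (S c).res ⟨x, h⟩ = (S c').res ⟨x, h'⟩)
    (hindep : ∀ c c' : Vtx Mid SS, c ≠ c' → ¬ (S c).Ov ≤ (S c').Ov)
    (hoo : IsGaussSetup (D.Q * D.R) D.R A (S (Vtx.vert Vrt.oo)))
    (hzero : S (Vtx.vert Vrt.zero) = valSetupZero D (S (Vtx.vert Vrt.oo)))
    {ϖ₁ : Qb} (hϖ0 : ϖ₁ ≠ 0) (hϖm : (q : Qb) ^ 12 / ϖ₁ ∈ A)
    (hϖr : IsLocalRing.residue A ⟨(q : Qb) ^ 12 / ϖ₁, hϖm⟩ = 0)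
    (H : ∀ P : SS, HPCurve (IsLocalRing.ResidueField A)
      (FkOf (modularFunctionFieldFullC (IsLocalRing.ResidueField A) D.R) FkM FkP (Vtx.hor P)) q)
    (hred : EndsRed2 S H (uF (D.Q * D.R) q (seedU_dvd (seedU_dvd_level D q hQ)) /
      algebraMap Qb (FBar (D.Q * D.R)) ϖ₁))
    (hss : (q - 1) * dedekindPsi D.R ≤ 12 * Fintype.card SS) :
    MNData S (mn1V₂ Mid SS) {Vtx.vert Vrt.zero}
      (uF (D.Q * D.R) q (seedU_dvd (seedU_dvd_level D q hQ)) /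
        algebraMap Qb (FBar (D.Q * D.R)) ϖ₁) ((q : Qb) ^ 12 / ϖ₁) := by
  haveI : IsAlgClosed (IsLocalRing.ResidueField A) := isAlgClosed_residue A
  haveI : CharP (IsLocalRing.ResidueField A) q :=
    uh_charP_residue A hq hA
  exact mn2_data_mod D q hQ S hq hqR hA hAeq hres hindep hoo hzero hϖ0 hϖm hϖr
    (fun P => hred.mem P) (fun P => hred.transcendental hq P)
    (hred.hdeg hq (endsHor_num hss))

/-- **the node theorem of the family (2) on `X₀(q² M₀)`** (`mn2_node` for `mn2_data_of_ends`). -/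
theorem mn2_node_of_ends [Nonempty SS] (hq : q.Prime) (hqR : ¬ q ∣ D.R) (hA : A.LiesOverPrime q)
    (hAeq : ∀ c c' : Vtx Mid SS, (S c).A = (S c').A)
    (hres : ∀ (c c' : Vtx Mid SS) (x : Qb) (h : x ∈ (S c).A) (h' : x ∈ (S c').A),
      (S c).res ⟨x, h⟩ = (S c').res ⟨x, h'⟩)
    (hindep : ∀ c c' : Vtx Mid SS, c ≠ c' → ¬ (S c).Ov ≤ (S c').Ov)
    (hoo : IsGaussSetup (D.Q * D.R) D.R A (S (Vtx.vert Vrt.oo)))
    (hzero : S (Vtx.vert Vrt.zero) = valSetupZero D (S (Vtx.vert Vrt.oo)))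
    {ϖ₁ : Qb} (hϖ0 : ϖ₁ ≠ 0) (hϖm : (q : Qb) ^ 12 / ϖ₁ ∈ A)
    (hϖr : IsLocalRing.residue A ⟨(q : Qb) ^ 12 / ϖ₁, hϖm⟩ = 0)
    (H : ∀ P : SS, HPCurve (IsLocalRing.ResidueField A)
      (FkOf (modularFunctionFieldFullC (IsLocalRing.ResidueField A) D.R) FkM FkP (Vtx.hor P)) q)
    (hred : EndsRed2 S H (uF (D.Q * D.R) q (seedU_dvd (seedU_dvd_level D q hQ)) /
      algebraMap Qb (FBar (D.Q * D.R)) ϖ₁))
    (hss : (q - 1) * dedekindPsi D.R ≤ 12 * Fintype.card SS)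
    (f : FBar (D.Q * D.R)) (hf_hor : ∀ P, f ∈ (S (Vtx.hor P)).Ov)
    (hf_zero : f ∈ (S (Vtx.vert Vrt.zero)).Ov)
    (hf : ∀ P : Place Qb (FBar (D.Q * D.R)), P.ord f < 0 →
      P.ord (uF (D.Q * D.R) q (seedU_dvd (seedU_dvd_level D q hQ)) /
        algebraMap Qb (FBar (D.Q * D.R)) ϖ₁) ≠ 0) :
    (∀ (P : SS) (Q : Place (IsLocalRing.ResidueField A)
        (FkOf (modularFunctionFieldFullC (IsLocalRing.ResidueField A) D.R) FkM FkP (Vtx.hor P))),
      0 ≤ Q.ord ((S (Vtx.hor P)).red (uF (D.Q * D.R) q (seedU_dvd (seedU_dvd_level D q hQ)) /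
        algebraMap Qb (FBar (D.Q * D.R)) ϖ₁)) → 0 ≤ Q.ord ((S (Vtx.hor P)).red f)) ∧
    (∀ Q : Place (IsLocalRing.ResidueField A)
        (FkOf (modularFunctionFieldFullC (IsLocalRing.ResidueField A) D.R) FkM FkP
          (Vtx.vert Vrt.zero)),
      0 ≤ Q.ord ((S (Vtx.vert Vrt.zero)).red
        (algebraMap Qb (FBar (D.Q * D.R)) ((q : Qb) ^ 12 / ϖ₁) /
          (uF (D.Q * D.R) q (seedU_dvd (seedU_dvd_level D q hQ)) /
            algebraMap Qb (FBar (D.Q * D.R)) ϖ₁))) →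
        0 ≤ Q.ord ((S (Vtx.vert Vrt.zero)).red f)) ∧
    ∀ a : IsLocalRing.ResidueField A,
      ∑ P, mnCount (S (Vtx.hor P)).hFk
          ((S (Vtx.hor P)).red (uF (D.Q * D.R) q (seedU_dvd (seedU_dvd_level D q hQ)) /
            algebraMap Qb (FBar (D.Q * D.R)) ϖ₁)) ((S (Vtx.hor P)).red f) a =
      mnCount (S (Vtx.vert Vrt.zero)).hFk
        ((S (Vtx.vert Vrt.zero)).red
          (algebraMap Qb (FBar (D.Q * D.R)) ((q : Qb) ^ 12 / ϖ₁) /
            (uF (D.Q * D.R) q (seedU_dvd (seedU_dvd_level D q hQ)) /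
              algebraMap Qb (FBar (D.Q * D.R)) ϖ₁)))
        ((S (Vtx.vert Vrt.zero)).red f) a := by
  haveI : Infinite (IsLocalRing.ResidueField A) := infinite_residue A
  exact mn2_node (mn2_data_of_ends D q hQ S hq hqR hA hAeq hres hindep hoo hzero hϖ0 hϖm hϖr H
    hred hss) f hf_hor hf_zero hf

end Mod

end Fermat.Agent.S36G
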