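import Mathlib
import Fermat.Agent.S36.Seed.EndsHor
import Fermat.Agent.S36.Seed.MNA
import Fermat.Agent.S36.Genus.SSPos

/-!
# Cluster G (S36), SEED, seat MNA-MOD (helper47; sub-architect helper92)

**The multi-node data of the node family (A) on `X₀(q² M₀)` from the SEED-UP reduction**: the
three horizontal inputs `hu_hor`, `htr_hor`, `hdeg_hor` of `mnA_data_mod` (helper91,
`S36/Seed/MNA.lean`) are discharged from

* `H P : HPCurve k (FkP P) q`        (the curves `H_P`: W-P),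
* `EndsRedA S H (ϖ / u₂)`            (`red_P (ϖ / u₂) = c X₂ ^ 12`, `c ≠ 0`: SEED-UP),
* `(q - 1) ψ(M₀) ≤ 12 #SS`           (GENUS: `gen_twelve_ss_card_ge`),

by the shared lemmas of `S36/Seed/EndsHor.lean` (helper18).

* `mnAMod_data`     : `MNData S {∞} (mn1V₂ Mid SS) u₂ ϖ`;
* `mnAMod_card_ss`  : `(q - 1) ψ(M₀) ≤ 12 #SS` for every finite type `SS` in bijection with the
                      supersingular places of `X₀(M₀)` mod `q`;
* `mnAMod_data_ss`  : `mnAMod_data` with the count discharged.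
-/

set_option autoImplicit false
set_option linter.style.haveILetI false
set_option linter.unusedSectionVars false
set_option synthInstance.maxHeartbeats 400000

noncomputable section

namespace Fermat.Agent.S36G

open IntermediateField ModularCurve AlgebraicCurve Fermat.Agent.GaussInt Fermat.Agent.AtkinLehner
  Fermat.Agent.Deuring Fermat.Agent.S28 Fermat.Agent.F3 Fermat.Agent.F3G Fermat.Agent.BadRed
  Fermat.Agent.RR Fermat.Agent.BadRedG Fermat.Agent.HP

local notation "Qb" => AlgebraicClosure ℚ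

/-- `(q - 1) ψ(M₀) ≤ 12 #SS` for a finite type `SS` in bijection with the supersingular places of
`X₀(M₀)` mod `q` (`M₀` without elliptic points). -/
theorem mnAMod_card_ss {A : ValuationSubring Qb} (M₀ : ℕ) [NeZero M₀] {q : ℕ} (hq : q.Prime)
    (hqM : ¬ q ∣ M₀) (hν2 : nuTwo M₀ = 0) (hν3 : nuThree M₀ = 0)
    (h2 : q = 2 → 3 ∣ M₀) (h3 : q = 3 → 2 ∣ M₀) (hA : A.LiesOverPrime q)
    {SS : Type} [Fintype SS]
    (e : SS ≃ {P : Place (IsLocalRing.ResidueField A)
      ↥(modularFunctionFieldFullC (IsLocalRing.ResidueField A) M₀) //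
        IsSSPlace (IsLocalRing.ResidueField A) M₀ q P}) :
    (q - 1) * dedekindPsi M₀ ≤ 12 * Fintype.card SS := by
  have h := gen_twelve_ss_card_ge M₀ hq hqM hν2 hν3 h2 h3 hA
  rwa [← Nat.card_congr e, Nat.card_eq_fintype_card] at h

section Mod

variable (D : ALData) [NeZero (D.Q * D.R)] [NeZero D.R] (q : ℕ) [NeZero q] (hQ : q * q = D.Q)
  {A : ValuationSubring Qb}
  {Mid SS : Type} [Fintype SS]
  {FkM : Mid → Type} [∀ m, Field (FkM m)] [∀ m, Algebra (IsLocalRing.ResidueField A) (FkM m)]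
  {FkP : SS → Type} [∀ P, Field (FkP P)] [∀ P, Algebra (IsLocalRing.ResidueField A) (FkP P)]
  (S : ∀ c : Vtx Mid SS, ValSetup Qb (FBar (D.Q * D.R)) (IsLocalRing.ResidueField A)
    (FkOf (modularFunctionFieldFullC (IsLocalRing.ResidueField A) D.R) FkM FkP c))

set_option maxHeartbeats 3200000 in
/-- **MNA-MOD**: the multi-node data of the node family (A) on `X₀(q² M₀)`, from the SEED-UP
reduction `red_P (ϖ / u₂) = c X₂ ^ 12` on the curves `H_P` and the count of the supersingular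
points. -/
theorem mnAMod_data [Nonempty SS] (hq : q.Prime) (hqR : ¬ q ∣ D.R) (hA : A.LiesOverPrime q)
    (hAeq : ∀ c c' : Vtx Mid SS, (S c).A = (S c').A)
    (hres : ∀ (c c' : Vtx Mid SS) (x : Qb) (h : x ∈ (S c).A) (h' : x ∈ (S c').A),
      (S c).res ⟨x, h⟩ = (S c').res ⟨x, h'⟩)
    (hindep : ∀ c c' : Vtx Mid SS, c ≠ c' → ¬ (S c).Ov ≤ (S c').Ov)
    (hoo : IsGaussSetup (D.Q * D.R) D.R A (S (Vtx.vert Vrt.oo)))
    {ϖ : Qb} (hϖ0 : ϖ ≠ 0) (hϖm : ϖ ∈ A) (hϖr : IsLocalRing.residue A ⟨ϖ, hϖm⟩ = 0)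
    -- W-P
    (H : ∀ P : SS, HPCurve (IsLocalRing.ResidueField A)
      (FkOf (modularFunctionFieldFullC (IsLocalRing.ResidueField A) D.R) FkM FkP (Vtx.hor P)) q)
    -- SEED-UP
    (hxA : EndsRedA S H (algebraMap Qb (FBar (D.Q * D.R)) ϖ /
      uF2 (D.Q * D.R) q (seedU_dvd_level D q hQ)))
    -- GENUS
    (hSS : (q - 1) * dedekindPsi D.R ≤ 12 * Fintype.card SS) :
    MNData S {Vtx.vert Vrt.oo} (mn1V₂ Mid SS)
      (uF2 (D.Q * D.R) q (seedU_dvd_level D q hQ)) ϖ := by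
  haveI : IsAlgClosed (IsLocalRing.ResidueField A) := isAlgClosed_residue A
  haveI : Fact q.Prime := ⟨hq⟩
  haveI : CharP (IsLocalRing.ResidueField A) q := Fermat.Agent.FrobTrace.charP_residueField A hA
  exact mnA_data_mod D q hQ S hq hqR hA hAeq hres hindep hoo hϖ0 hϖm hϖr
    (fun P => hxA.mem P) (fun P => hxA.transcendental hq P) (hxA.hdeg hq (endsHor_num hSS))

set_option maxHeartbeats 3200000 in
/-- **MNA-MOD** with the count of the supersingular points discharged (`SS` in bijection with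
the supersingular places of `X₀(M₀)` mod `q`, `M₀ = D.R` without elliptic points). -/
theorem mnAMod_data_ss [Nonempty SS] (hq : q.Prime) (hqR : ¬ q ∣ D.R) (hA : A.LiesOverPrime q)
    (hAeq : ∀ c c' : Vtx Mid SS, (S c).A = (S c').A)
    (hres : ∀ (c c' : Vtx Mid SS) (x : Qb) (h : x ∈ (S c).A) (h' : x ∈ (S c').A),
      (S c).res ⟨x, h⟩ = (S c').res ⟨x, h'⟩)
    (hindep : ∀ c c' : Vtx Mid SS, c ≠ c' → ¬ (S c).Ov ≤ (S c').Ov)
    (hoo : IsGaussSetup (D.Q * D.R) D.R A (S (Vtx.vert Vrt.oo)))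
    {ϖ : Qb} (hϖ0 : ϖ ≠ 0) (hϖm : ϖ ∈ A) (hϖr : IsLocalRing.residue A ⟨ϖ, hϖm⟩ = 0)
    (H : ∀ P : SS, HPCurve (IsLocalRing.ResidueField A)
      (FkOf (modularFunctionFieldFullC (IsLocalRing.ResidueField A) D.R) FkM FkP (Vtx.hor P)) q)
    (hxA : EndsRedA S H (algebraMap Qb (FBar (D.Q * D.R)) ϖ /
      uF2 (D.Q * D.R) q (seedU_dvd_level D q hQ)))
    (hν2 : nuTwo D.R = 0) (hν3 : nuThree D.R = 0)
    (h2 : q = 2 → 3 ∣ D.R) (h3 : q = 3 → 2 ∣ D.R)
    (e : SS ≃ {P : Place (IsLocalRing.ResidueField A)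
      ↥(modularFunctionFieldFullC (IsLocalRing.ResidueField A) D.R) //
        IsSSPlace (IsLocalRing.ResidueField A) D.R q P}) :
    MNData S {Vtx.vert Vrt.oo} (mn1V₂ Mid SS)
      (uF2 (D.Q * D.R) q (seedU_dvd_level D q hQ)) ϖ :=
  mnAMod_data D q hQ S hq hqR hA hAeq hres hindep hoo hϖ0 hϖm hϖr H hxA
    (mnAMod_card_ss D.R hq hqR hν2 hν3 h2 h3 hA e)

end Mod

end Fermat.Agent.S36G
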