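/-
Cluster G (S36), block SEED, seat SEED-UP (helper90), abstract part 2: **the constant-reduction
lemma from the NORMS of `a - h`** (no coefficient of the characteristic polynomial is needed).

`E` a field, `B` a subring of `E` (the disc ring `R_P` of helper51's `DiscTaylor`), `χ ∈ E[X]`
monic of degree `n` (the characteristic polynomial of `h` over `E`, `χ(a) = Norm (a - h)`),
`a_0, …, a_n ∈ B` with `a_i - a_j` units of `B` (constants with pairwise different residues).

* `nc_lifts_of_values` : if `χ(a_j) ∈ B` for all `j` then all coefficients of `χ` lie in `B`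
                         (Lagrange interpolation with unit denominators);
* `nc_map_of_values`   : if moreover `ev : B →+* k` and `ev (χ(a_j)) = g (ev a_j)` for a monic
                         `g ∈ k[X]` of degree `n` (and the `ev a_j` are pairwise different), then
                         `ev χ = g`;
* `nc_const_of_norms`  : with `g = (X - c) ^ n`: for every valuation ring `V` of an extension `F`
                         of `E` in which the elements of `B` have the CONSTANT residue `ev b`,
                         every root `t ∈ F` of `χ` lies in `V` and has the residue `c`.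
Mathlib only.
-/
import Mathlib
import Fermat.Agent.S36.Seed.NodeConst

set_option autoImplicit false
set_option linter.style.haveILetI false
set_option linter.unusedSectionVars false

noncomputable section

namespace Fermat.Agent.NodeConst

open Polynomial

variable {E : Type*} [Field E]

/-- the subring of the polynomials with coefficients in `B`. -/
def ncPolys (B : Subring E) : Subring E[X] := (Polynomial.mapRingHom B.subtype).range

theorem nc_C_mem (B : Subring E) {x : E} (hx : x ∈ B) : (C x : E[X]) ∈ ncPolys B :=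
  ⟨C ⟨x, hx⟩, by simp⟩

theorem nc_X_mem (B : Subring E) : (X : E[X]) ∈ ncPolys B :=
  ⟨X, by simp⟩

theorem nc_mem_lifts_of_mem (B : Subring E) {f : E[X]} (hf : f ∈ ncPolys B) :
    f ∈ Polynomial.lifts B.subtype := by
  obtain ⟨g, hg⟩ := hf
  rw [Polynomial.mem_lifts]
  exact ⟨g, hg⟩

/-- the Lagrange basis polynomial has coefficients in `B`. -/
theorem nc_basis_mem (B : Subring E) {ι : Type*} [DecidableEq ι] (s : Finset ι)
    (v : ι → E) (hv : ∀ i ∈ s, v i ∈ B)
    (hu : ∀ i ∈ s, ∀ j ∈ s, i ≠ j → (v i - v j)⁻¹ ∈ B) (i : ι) (hi : i ∈ s) :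
    Lagrange.basis s v i ∈ ncPolys B := by
  rw [Lagrange.basis]
  refine Subring.prod_mem _ fun j hj => ?_
  have hjs : j ∈ s := Finset.mem_of_mem_erase hj
  have hji : j ≠ i := Finset.ne_of_mem_erase hj
  rw [Lagrange.basisDivisor]
  refine Subring.mul_mem _ (nc_C_mem B (hu i hi j hjs hji.symm)) ?_
  exact Subring.sub_mem _ (nc_X_mem B) (nc_C_mem B (hv j hjs))

/-- **Interpolation with unit denominators**: a polynomial of degree `< #s` with values in `B` at
the points `v i ∈ B`, `i ∈ s`, whose differences are units of `B`, has coefficients in `B`. -/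
theorem nc_mem_lifts_of_values (B : Subring E) {ι : Type*} [DecidableEq ι] (s : Finset ι)
    (v : ι → E) (hv : ∀ i ∈ s, v i ∈ B)
    (hu : ∀ i ∈ s, ∀ j ∈ s, i ≠ j → (v i - v j)⁻¹ ∈ B)
    (hinj : Set.InjOn v s) (f : E[X]) (hdeg : f.degree < s.card)
    (hval : ∀ i ∈ s, f.eval (v i) ∈ B) : f ∈ Polynomial.lifts B.subtype := by
  have h := Lagrange.eq_interpolate_of_eval_eq (s := s) (v := v) (r := fun i => f.eval (v i))
    (f := f) hinj hdeg (fun i _ => rfl)
  apply nc_mem_lifts_of_mem
  rw [h, Lagrange.interpolate_apply]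
  refine Subring.sum_mem _ fun i hi => ?_
  exact Subring.mul_mem _ (nc_C_mem B (hval i hi)) (nc_basis_mem B s v hv hu i hi)

/-- a monic polynomial with values in `B` at `n + 1` points of `B` with unit differences lies in
`B[X]`. -/
theorem nc_lifts_of_values (B : Subring E) (χ : E[X]) (hχ : χ.Monic) {ι : Type*}
    [DecidableEq ι] (s : Finset ι) (hs : χ.natDegree < s.card)
    (v : ι → E) (hv : ∀ i ∈ s, v i ∈ B)
    (hu : ∀ i ∈ s, ∀ j ∈ s, i ≠ j → (v i - v j)⁻¹ ∈ B)
    (hinj : Set.InjOn v s)
    (hval : ∀ i ∈ s, χ.eval (v i) ∈ B) :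
    ∃ G : (↥B)[X], G.Monic ∧ G.map B.subtype = χ ∧ G.natDegree = χ.natDegree := by
  have hdeg : χ.degree < s.card := by
    rw [Polynomial.degree_eq_natDegree hχ.ne_zero]
    exact_mod_cast hs
  have h := nc_mem_lifts_of_values B s v hv hu hinj χ hdeg hval
  obtain ⟨G, hG1, hG2, hG3⟩ := Polynomial.lifts_and_degree_eq_and_monic h hχ
  exact ⟨G, hG3, hG1, Polynomial.natDegree_eq_of_degree_eq hG2⟩

/-- the image of `G` under `ev` is determined by `n + 1` values. -/
theorem nc_map_of_values {k : Type*} [Field k] (B : Subring E) (ev : B →+* k) (G : (↥B)[X])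
    (hG : G.Monic) (g : k[X]) (hg : g.Monic) (hdeg : g.natDegree = G.natDegree)
    {ι : Type*} [DecidableEq ι] (s : Finset ι) (hs : G.natDegree < s.card) (a : ι → B)
    (hinj : Set.InjOn (fun i => ev (a i)) s)
    (h : ∀ i ∈ s, ev (G.eval (a i)) = g.eval (ev (a i))) : G.map ev = g := by
  classical
  have hGm : (G.map ev).Monic := hG.map ev
  have hGd : (G.map ev).natDegree = G.natDegree := hG.natDegree_map ev
  refine Polynomial.eq_of_degree_sub_lt_of_eval_finset_eq (s.image fun i => ev (a i)) ?_ ?_
  · have h1 : (G.map ev - g).degree < (G.map ev).degree := by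
      refine Polynomial.degree_sub_lt_left ?_ hGm.ne_zero ?_
      · rw [Polynomial.degree_eq_natDegree hGm.ne_zero, Polynomial.degree_eq_natDegree hg.ne_zero,
          hGd, hdeg]
      · rw [hGm.leadingCoeff, hg.leadingCoeff]
    refine lt_of_lt_of_le h1 ?_
    rw [Polynomial.degree_eq_natDegree hGm.ne_zero, hGd, Finset.card_image_of_injOn hinj]
    exact_mod_cast hs.le
  · intro x hx
    obtain ⟨i, hi, rfl⟩ := Finset.mem_image.1 hx
    rw [Polynomial.eval_map, Polynomial.eval₂_at_apply]
    exact h i hi

variable {F : Type*} [Field F] [Algebra E F]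

/-- **Regular at the node ⟹ constant on the horizontal valuation, norm form.**
`χ` monic of degree `n` with `χ(t) = 0`; `a i ∈ B`, `i ∈ s`, `#s > n`, with unit differences and
pairwise different `ev`; `χ(a i) ∈ B` with `ev (χ(a i)) = (ev (a i) - c) ^ n`.  Then `t ∈ V` and
the residue of `t` is `c`. -/
theorem nc_const_of_norms {k κ : Type*} [Field k] [CommRing κ] [IsReduced κ] [Algebra k κ]
    (V : ValuationSubring F) (ρ : V →+* κ) (B : Subring E) (ev : B →+* k)
    (hB : ∀ b : B, ∃ hb : algebraMap E F (b : E) ∈ V, ρ ⟨_, hb⟩ = algebraMap k κ (ev b))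
    (χ : E[X]) (hχ : χ.Monic) (t : F) (hroot : (χ.map (algebraMap E F)).eval t = 0)
    {ι : Type*} [DecidableEq ι] (s : Finset ι) (hs : χ.natDegree < s.card) (a : ι → B)
    (hu : ∀ i ∈ s, ∀ j ∈ s, i ≠ j → ((a i : E) - (a j : E))⁻¹ ∈ B)
    (hinj : Set.InjOn (fun i => ev (a i)) s)
    (hval : ∀ i ∈ s, χ.eval (a i : E) ∈ B) (c : k)
    (hev : ∀ i (hi : i ∈ s), ev ⟨χ.eval (a i : E), hval i hi⟩ = (ev (a i) - c) ^ χ.natDegree) :
    ∃ ht : t ∈ V, ρ ⟨t, ht⟩ = algebraMap k κ c := by
  have hinjE : Set.InjOn (fun i => (a i : E)) s := by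
    intro i hi j hj hij
    apply hinj hi hj
    have : a i = a j := Subtype.ext hij
    simp only [this]
  obtain ⟨G, hGm, hGχ, hGd⟩ := nc_lifts_of_values B χ hχ s hs (fun i => (a i : E))
    (fun i _ => (a i).2) hu hinjE hval
  have hGev : ∀ i ∈ s, ev (G.eval (a i)) = ((X - C c : k[X]) ^ χ.natDegree).eval (ev (a i)) := by
    intro i hi
    have h1 : ((G.eval (a i) : B) : E) = χ.eval (a i : E) := by
      rw [← hGχ, Polynomial.eval_map]
      exact (Polynomial.eval₂_at_apply B.subtype (a i)).symm
    have h2 : G.eval (a i) = ⟨χ.eval (a i : E), hval i hi⟩ := Subtype.ext h1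
    rw [h2, hev i hi, Polynomial.eval_pow, Polynomial.eval_sub, Polynomial.eval_X,
      Polynomial.eval_C]
  have hmap : G.map ev = (X - C c) ^ χ.natDegree := by
    refine nc_map_of_values B ev G hGm _ ((Polynomial.monic_X_sub_C c).pow _) ?_ s
      (by rw [hGd]; exact hs) a hinj hGev
    rw [(Polynomial.monic_X_sub_C c).natDegree_pow, Polynomial.natDegree_X_sub_C, mul_one, hGd]
  refine nc_const V ρ B ev hB G hGm t ?_ c χ.natDegree hmap
  rw [hGχ]
  exact hroot

end Fermat.Agent.NodeConst
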