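/-
Cluster G (S36, Carayol at `q² ∥ M`), block W-P / SEED, seat OLD-MOD, CUSP ROUTE (helper57; owner
of OLD: helper30, sub-architect helper59; the route is helper95's DENOM remark).

**FINAL WIRING of (OLD) WITHOUT the fibre statement (O3)**.

`Cu = oldCuspRing S0 j` : the integral functions of `F₀ = F_{M₀}` with poles only at the poles
of `j` (the cusps).  For `g ∈ Cu` the coefficients of `C_g = charpolyAlong α₀ (β₀ g)` are again
in `Cu` (KC-GEN `kroneckerCharpolyGen` + (K') `kcp_charpoly_coeff`), and `Cu ⊆ R_P, R_{P'}` as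
soon as `P`, `P'` are not reductions of cusps.  Hence the abstract core `wpo_restrOld` gives (OLD)
for the functions of `Cu`, and (OLD) for ALL of `R_P` follows by denominators
(`restrOld_of_loc`, DENOM): every `g ∈ R_P` is `(g d) / d` with `d, g d ∈ Cu`, `d̄ (P) ≠ 0`.

Inputs: `old1`, (O4) `OldEvAt` (helper1), DENOM `OldDenomAt` (helper95: `exists_denom_ev`),
non-cuspidality of `P`, `P'`.

* `oldCuspRing`, `oldCuspRing_le_discRing`;
* `oldMod_wpOld_of_cusp`   : abstract wiring;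
* `oldMod_cusp_coeff_mem`  : (O1) + (K'): the coefficients of `C_g` lie in `R_{P'}`;
* `OldDenomAt`, `oldMod_denomAt_of_isReduction` : DENOM in the language of `S0`;
* `oldMod_old02_of_cusp`   : **`old0 ∧ old2` from `old1`**, cusp route.
-/
import Mathlib
import Fermat.Agent.S36.Seed.OldMod
import Fermat.Agent.S36.HPVal.KCtPole
import Fermat.Agent.Lib.BadRed.HPVal.Denom

set_option autoImplicit false
set_option linter.style.haveILetI false
set_option linter.unusedSectionVars false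
set_option linter.unusedVariables false
set_option synthInstance.maxHeartbeats 400000

noncomputable section
attribute [local instance 10000] SubalgebraClass.toAlgebra HahnSeries.powerSeriesAlgebra

namespace Fermat.Agent.S36G

open Polynomial ModularCurve AlgebraicCurve Fermat.Agent.F3 Fermat.Agent.F3G
  Fermat.Agent.GaussInt Fermat.Agent.Deuring Fermat.Agent.BadRed Fermat.Agent.HPVal
  Fermat.Agent.S18Key Fermat.Agent.RR Fermat.Agent.Kronecker

local notation "Qb" => AlgebraicClosure ℚ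

/-! ### abstract part -/

section Abs

variable {K F₀ F k Fk0 FkP : Type*} [Field K] [Field F₀] [Algebra K F₀] [Field F] [Algebra K F]
  [Field k] [Field Fk0] [Algebra k Fk0] [Field FkP] [Algebra k FkP]

/-- the ring of the integral functions with poles only at the poles of `j`. -/
def oldCuspRing (S0 : RedSetup K F₀ k Fk0) (j : F₀) : Subring F₀ where
  carrier := {g | g ∈ S0.Ov ∧ ∀ x : Place K F₀, 0 ≤ x.ord j → 0 ≤ x.ord g}
  zero_mem' := ⟨zero_mem _, fun x _ => by rw [Place.ord_zero]⟩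
  one_mem' := ⟨one_mem _, fun x _ => by rw [Place.ord_one]⟩
  add_mem' := fun {a b} ha hb =>
    ⟨add_mem ha.1 hb.1, fun x hx => ord_nonneg_add x (ha.2 x hx) (hb.2 x hx)⟩
  mul_mem' := fun {a b} ha hb =>
    ⟨mul_mem ha.1 hb.1, fun x hx => ord_nonneg_mul x (ha.2 x hx) (hb.2 x hx)⟩
  neg_mem' := fun {a} ha => ⟨neg_mem ha.1, fun x hx => by rw [ord_neg']; exact ha.2 x hx⟩

theorem mem_oldCuspRing_iff {S0 : RedSetup K F₀ k Fk0} {j g : F₀} :
    g ∈ oldCuspRing S0 j ↔ g ∈ S0.Ov ∧ ∀ x : Place K F₀, 0 ≤ x.ord j → 0 ≤ x.ord g := Iff.rfl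

/-- `Cu ⊆ R_P` if `P` is not the reduction of a pole of `j`. -/
theorem oldCuspRing_le_discRing (S0 : RedSetup K F₀ k Fk0) (j : F₀) (P : Place k Fk0)
    (hnc : ∀ x : Place K F₀, S0.r x = P → 0 ≤ x.ord j) :
    oldCuspRing S0 j ≤ discRing S0 P :=
  fun g hg => ⟨hg.1, fun x hx => hg.2 x (hnc x hx)⟩

/-- **abstract wiring, cusp route**: (OLD) for `ι` on `R_P` from (OLD) for `ι₁` on `R_{P'}`,
the Kronecker data of the functions of `Cu` and denominators. -/
theorem oldMod_wpOld_of_cusp (q : ℕ) [Fact q.Prime] [CharP FkP q]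
    (S0 : RedSetup K F₀ k Fk0) (hFk : IsRRField k Fk0) (P P' : Place k Fk0)
    (ι₁ ι : F₀ →ₐ[K] F) (S : ValSetup K F k FkP) (j : F₀)
    (hnc : ∀ x : Place K F₀, S0.r x = P → 0 ≤ x.ord j)
    (hold1 : WPOld S0 P' ι₁ S)
    (hKC : ∀ g : oldCuspRing S0 j, ∃ Cg : Polynomial (discRing S0 P'), Cg.Monic ∧
      Cg.map (discEv S0 P' hFk) =
        (X - C (discEv S0 P hFk ⟨g, oldCuspRing_le_discRing S0 j P hnc g.2⟩)) *
          (X ^ q - C (discEv S0 P hFk ⟨g, oldCuspRing_le_discRing S0 j P hnc g.2⟩ ^ q)) ∧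
      ((Cg.map (discRing S0 P').subtype).map ι₁.toRingHom).eval (ι (g : F₀)) = 0)
    (hden : ∀ b : discRing S0 P, ∃ (d : F₀) (hd : d ∈ oldCuspRing S0 j),
      discEv S0 P hFk ⟨d, oldCuspRing_le_discRing S0 j P hnc hd⟩ ≠ 0 ∧
        (b : F₀) * d ∈ oldCuspRing S0 j) :
    WPOld S0 P ι S := by
  have hCB : oldCuspRing S0 j ≤ discRing S0 P := oldCuspRing_le_discRing S0 j P hnc
  refine oldMod_wpOld_of_restrOld S0 P hFk ι S ?_
  have hRc : RestrOld ι.toRingHom S.Ov S.ρ (oldCuspRing S0 j)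
      ((discEv S0 P hFk).comp (Subring.inclusion hCB)) := by
    refine wpo_restrOld q ι₁.toRingHom ι.toRingHom S.Ov S.ρ (discRing S0 P')
      (discEv S0 P' hFk) (oldMod_restrOld_of_wpOld S0 P' hFk ι₁ S hold1) (oldCuspRing S0 j)
      ((discEv S0 P hFk).comp (Subring.inclusion hCB)) ?_
    intro g
    obtain ⟨Cg, hm, hev, hroot⟩ := hKC g
    refine ⟨Cg, hm, hev, ?_⟩
    rw [Polynomial.map_map, Polynomial.eval_map] at hroot
    exact hroot
  exact restrOld_of_loc (ι := ι.toRingHom) (Ow := S.Ov) (ρ := S.ρ) (B := discRing S0 P)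
    (ev := discEv S0 P hFk) S.ρ_eq_zero_iff (oldCuspRing S0 j) hCB (fun c => hRc c) hden

end Abs

/-! ### DENOM in the language of `S0` -/

section Denom

variable {K F k Fk : Type*} [Field K] [Field F] [Algebra K F] [Field k] [Field Fk] [Algebra k Fk]

/-- the cusp ring of a reduction is helper95's `cuspRing` for `Z = {poles of j}`. -/
theorem oldCuspRing_eq_cuspRing (S : ValSetup K F k Fk) {r : Place K F → Place k Fk}
    (hr : Fermat.Agent.FF.IsReduction S r) (j : F) :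
    oldCuspRing hr.redSetup j = cuspRing S {x : Place K F | x.ord j < 0} := by
  ext g
  rw [mem_oldCuspRing_iff, mem_cuspRing_iff]
  exact and_congr Iff.rfl (forall_congr' fun x => imp_congr_left not_lt.symm)

/-- **DENOM** (helper95) in the language of `oldCuspRing`: for a reduction `S0 = hr.redSetup`
every `b ∈ R_P` has a denominator `d ∈ Cu`, `d̄ (P) ≠ 0`, with `b d ∈ Cu`. -/
theorem oldMod_denom_of_isReduction (S : ValSetup K F k Fk) {r : Place K F → Place k Fk}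
    (hr : Fermat.Agent.FF.IsReduction S r) (j : F) (P : Place k Fk)
    {z₀ : Place K F} (hz₀ : z₀.ord j < 0)
    (hnc : ∀ x : Place K F, hr.redSetup.r x = P → 0 ≤ x.ord j)
    (b : discRing hr.redSetup P) :
    ∃ (d : F) (hd : d ∈ oldCuspRing hr.redSetup j),
      discEv hr.redSetup P S.hFk ⟨d, oldCuspRing_le_discRing hr.redSetup j P hnc hd⟩ ≠ 0 ∧
        (b : F) * d ∈ oldCuspRing hr.redSetup j := by
  have hZ : ∀ z ∈ {x : Place K F | x.ord j < 0}, r z ≠ P := by
    intro z hz hzP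
    have h1 : 0 ≤ z.ord j := hnc z hzP
    have h2 : z.ord j < 0 := hz
    omega
  obtain ⟨d, hd, hd0, hbd⟩ := exists_denom_ev hr P {x : Place K F | x.ord j < 0}
    (z₀ := z₀) hz₀ hZ b
  have hd' : d ∈ oldCuspRing hr.redSetup j := by
    rw [oldCuspRing_eq_cuspRing S hr j]
    exact hd
  refine ⟨d, hd', hd0, ?_⟩
  rw [oldCuspRing_eq_cuspRing S hr j]
  exact hbd

end Denom

/-! ### modular part -/

section Mod

variable (M₀ q : ℕ) [NeZero M₀] [NeZero q] {A : ValuationSubring Qb}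
  (S0 : RedSetup Qb (FBar M₀) (IsLocalRing.ResidueField A)
    ↥(modularFunctionFieldFullC (IsLocalRing.ResidueField A) M₀))
  (hFk : IsRRField (IsLocalRing.ResidueField A)
    ↥(modularFunctionFieldFullC (IsLocalRing.ResidueField A) M₀))
  (P P' : Place (IsLocalRing.ResidueField A)
    ↥(modularFunctionFieldFullC (IsLocalRing.ResidueField A) M₀))

/-- `P` is not the reduction of a cusp (a pole of `j`). -/
def OldNonCusp : Prop :=
  ∀ x : Place Qb (FBar M₀), S0.r x = P → 0 ≤ x.ord (Fermat.Agent.S24.jBar M₀)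

/-- **DENOM**: every `b ∈ R_P` has a denominator `d` with cuspidal poles, `d̄ (P) ≠ 0`, such
that `b d` has cuspidal poles. -/
def OldDenomAt (hnc : OldNonCusp M₀ S0 P) : Prop :=
  ∀ b : discRing S0 P, ∃ (d : FBar M₀) (hd : d ∈ oldCuspRing S0 (Fermat.Agent.S24.jBar M₀)),
    discEv S0 P hFk ⟨d, oldCuspRing_le_discRing S0 _ P hnc hd⟩ ≠ 0 ∧
      (b : FBar M₀) * d ∈ oldCuspRing S0 (Fermat.Agent.S24.jBar M₀)

variable {M₀ q S0 P P'}

/-- (O1) + (K'): for `g` integral with cuspidal poles the coefficients of `C_g` lie in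
`R_{P'}`, `P'` not the reduction of a cusp. -/
theorem oldMod_cusp_coeff_mem (hq : q.Prime) (hqM : ¬ q ∣ M₀) (hA : A.LiesOverPrime q)
    (hG : IsGaussRed M₀ A S0) (hnc' : OldNonCusp M₀ S0 P')
    (hfin : FiniteAlong Qb (heckeAlphaBar Qb M₀ q))
    (g : FBar M₀) (hg : g ∈ oldCuspRing S0 (Fermat.Agent.S24.jBar M₀)) (n : ℕ) :
    (charpolyAlong (heckeAlphaBar Qb M₀ q) hfin (heckeBetaBar Qb M₀ q g)).coeff n ∈
      discRing S0 P' :=
  ⟨oldMod_coeff_mem_Ov hq hqM hA hG hfin g hg.1 n, fun x hx =>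
    Fermat.Agent.S36.kcp_charpoly_coeff M₀ q hq hqM hfin g hg.2 x (hnc' x hx) n⟩

variable {FkP : Type} [Field FkP] [Algebra (IsLocalRing.ResidueField A) FkP]

/-- the Kronecker data of `g ∈ Cu` for the abstract wiring. -/
theorem oldMod_cusp_kc (hq : q.Prime) (hqM : ¬ q ∣ M₀) (hA : A.LiesOverPrime q)
    (hG : IsGaussRed M₀ A S0) (hnc : OldNonCusp M₀ S0 P) (hnc' : OldNonCusp M₀ S0 P')
    (hev : OldEvAt M₀ q S0 hFk P P') (hfin : FiniteAlong Qb (heckeAlphaBar Qb M₀ q))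
    (g : oldCuspRing S0 (Fermat.Agent.S24.jBar M₀)) :
    ∃ Cg : Polynomial (discRing S0 P'), Cg.Monic ∧
      Cg.map (discEv S0 P' hFk) =
        (X - C (discEv S0 P hFk ⟨g, oldCuspRing_le_discRing S0 _ P hnc g.2⟩)) *
          (X ^ q - C (discEv S0 P hFk ⟨g, oldCuspRing_le_discRing S0 _ P hnc g.2⟩ ^ q)) ∧
      Cg.map (discRing S0 P').subtype =
        charpolyAlong (heckeAlphaBar Qb M₀ q) hfin (heckeBetaBar Qb M₀ q (g : FBar M₀)) := by
  obtain ⟨Cg, hCg⟩ := oldMod_exists_lift (discRing S0 P') _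
    (oldMod_cusp_coeff_mem hq hqM hA hG hnc' hfin (g : FBar M₀) g.2)
  refine ⟨Cg, oldMod_monic_of_map _ Cg ?_,
    hev hfin ⟨g, oldCuspRing_le_discRing S0 _ P hnc g.2⟩ Cg hCg, hCg⟩
  rw [hCg]
  exact charpolyAlong_monic _ _ _

/-- **OLD, final wiring, CUSP ROUTE**: the fields `old0` and `old2` of `WPOut` from `old1`,
OLD-EV (`OldEvAt`) and DENOM (`OldDenomAt`); no fibre statement. -/
theorem oldMod_old02_of_cusp (hq : q.Prime) (hqM : ¬ q ∣ M₀) (hA : A.LiesOverPrime q)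
    (hG : IsGaussRed M₀ A S0)
    (S : ValSetup Qb (FBar (M₀ * q * q)) (IsLocalRing.ResidueField A) FkP)
    (hfin : FiniteAlong Qb (heckeAlphaBar Qb M₀ q))
    (hnc : OldNonCusp M₀ S0 P) (hnc' : OldNonCusp M₀ S0 P')
    (hold1 : WPOld S0 P' (wpdIota1 M₀ q) S)
    (hev : OldEvAt M₀ q S0 hFk P P') (hden : OldDenomAt M₀ S0 hFk P hnc) :
    WPOld S0 P (wpIota0 M₀ q) S ∧ WPOld S0 P (wpIota2 M₀ q) S := by
  haveI : Fact q.Prime := ⟨hq⟩
  haveI : CharP (IsLocalRing.ResidueField A) q := charP_residueField_of_liesOverPrime A q hq hA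
  haveI : CharP FkP q :=
    charP_of_injective_algebraMap (algebraMap (IsLocalRing.ResidueField A) FkP).injective q
  have hcop : Nat.Coprime q M₀ := (Nat.Prime.coprime_iff_not_dvd hq).mpr hqM
  constructor
  · refine oldMod_wpOld_of_cusp q S0 hFk P P' (wpdIota1 M₀ q) (wpIota0 M₀ q) S
      (Fermat.Agent.S24.jBar M₀) hnc hold1 (fun g => ?_) hden
    obtain ⟨Cg, hm, hCev, hCg⟩ := oldMod_cusp_kc hFk hq hqM hA hG hnc hnc' hev hfin g
    refine ⟨Cg, hm, hCev, ?_⟩
    rw [hCg]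
    exact olr_charpoly_root_i0 M₀ q hcop hfin (g : FBar M₀)
  · refine oldMod_wpOld_of_cusp q S0 hFk P P' (wpdIota1 M₀ q) (wpIota2 M₀ q) S
      (Fermat.Agent.S24.jBar M₀) hnc hold1 (fun g => ?_) hden
    obtain ⟨Cg, hm, hCev, hCg⟩ := oldMod_cusp_kc hFk hq hqM hA hG hnc hnc' hev hfin g
    refine ⟨Cg, hm, hCev, ?_⟩
    rw [hCg]
    exact olr_charpoly_root_i2 M₀ q hfin (g : FBar M₀)

end Mod

end Fermat.Agent.S36G
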