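/-
Cluster G (S36, Carayol at `q² ∥ M`), block W-P / SEED, seat OLD-MOD, CUSP ROUTE, FINAL
(helper57; owner of OLD: helper30, sub-architect helper59).

**(OLD) UNCONDITIONALLY**: at a supersingular place `P` of `X₀(M₀)` mod `q`, with centre
`P' = Φ • P` (`Φ = frobAut k M₀ q`), for EVERY valuation setup `S` of `F_{M₀ q²}`:

    `old1` at `Φ • P`   ⟹   `old0 ∧ old2` at `P`.

No fibre statement (O3) is used: the route is `oldMod_old02_of_cusp` (`OldModCusp.lean`) with

* (O4) `oev_map_discEv` (helper1, `OldEvPoly.lean`);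
* DENOM `exists_denom_redSetup_ev` (helper95, `Lib/BadRed/HPVal/DenomPush.lean`) for the Gauss
  reduction package `S0` (`S0.r` only through `push`);
* non-cuspidality of the supersingular places (`seedOld_ord_jC_nonneg`,
  `IsGaussRed.ord_jBar_nonneg`, helper10);
* (Fq2) `ssFrob_sq_smul` (helper18).

Main statements:

* `oldCusp_nonCusp`  : a supersingular place is not the reduction of a cusp;
* `oldCusp_denomAt`  : DENOM at a non-cuspidal place, for a Gauss reduction package;
* `oldCusp_evAt`     : (O4) at the pair `(P, Φ • P)`;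
* `oldCusp_old02`    : **the statement**;  `oldCusp_old02_ready` : the same quantified over
  `(FkP, S)`;  `oldCusp_old02_of_aux` : the genus equality from the auxiliary level.
-/
import Mathlib
import Fermat.Agent.S36.Seed.OldModCusp
import Fermat.Agent.S36.Seed.OldEvPoly
import Fermat.Agent.S36.Seed.SSFrob
import Fermat.Agent.S36.HPVal.DiscModG
import Fermat.Agent.Lib.BadRed.HPVal.DenomPush

set_option autoImplicit false
set_option linter.style.haveILetI false
set_option linter.unusedSectionVars false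
set_option linter.unusedVariables false
set_option synthInstance.maxHeartbeats 400000

noncomputable section
attribute [local instance 10000] SubalgebraClass.toAlgebra HahnSeries.powerSeriesAlgebra

namespace Fermat.Agent.S36G

open Polynomial ModularCurve AlgebraicCurve Fermat.Agent.F3 Fermat.Agent.F3G
  Fermat.Agent.GaussInt Fermat.Agent.Deuring Fermat.Agent.BadRed Fermat.Agent.HPVal
  Fermat.Agent.S18Key Fermat.Agent.RR Fermat.Agent.Kronecker

local notation "Qb" => AlgebraicClosure ℚ

section Final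

variable {M₀ q : ℕ} [NeZero M₀] [NeZero q] {A : ValuationSubring Qb}
  {S0 : RedSetup Qb (FBar M₀) (IsLocalRing.ResidueField A)
    ↥(modularFunctionFieldFullC (IsLocalRing.ResidueField A) M₀)}
  [Fact q.Prime] [CharP (IsLocalRing.ResidueField A) q]
  [PerfectRing (IsLocalRing.ResidueField A) q]

/-- a non-cuspidal place of the special fibre is not the reduction of a cusp. -/
theorem oldCusp_nonCusp_of_ord (hq : q.Prime) (hqM : ¬ q ∣ M₀) (hA : A.LiesOverPrime q)
    (hS0 : IsGaussRed M₀ A S0)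
    {P : Place (IsLocalRing.ResidueField A)
      ↥(modularFunctionFieldFullC (IsLocalRing.ResidueField A) M₀)}
    (hP : 0 ≤ P.ord (Fermat.Agent.RRMod.jC (IsLocalRing.ResidueField A) M₀)) :
    OldNonCusp M₀ S0 P :=
  fun _ hx => hS0.ord_jBar_nonneg hq hA hqM hx hP

/-- a supersingular place is not the reduction of a cusp. -/
theorem oldCusp_nonCusp (hq : q.Prime) (hqM : ¬ q ∣ M₀) (hA : A.LiesOverPrime q)
    (hS0 : IsGaussRed M₀ A S0)
    {P : Place (IsLocalRing.ResidueField A)
      ↥(modularFunctionFieldFullC (IsLocalRing.ResidueField A) M₀)}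
    (hP : IsSSPlace (IsLocalRing.ResidueField A) M₀ q P) :
    OldNonCusp M₀ S0 P :=
  oldCusp_nonCusp_of_ord hq hqM hA hS0 (seedOld_ord_jC_nonneg M₀ hq hA hP)

/-- **DENOM** at a place which is not the reduction of a cusp, for a Gauss reduction package. -/
theorem oldCusp_denomAt (hq : q.Prime) (hqM : ¬ q ∣ M₀) (hA : A.LiesOverPrime q)
    (hS0 : IsGaussRed M₀ A S0)
    (hg : genusFF Qb (modularFunctionFieldBar M₀) =
      genusFF (IsLocalRing.ResidueField A)
        (modularFunctionFieldFullC (IsLocalRing.ResidueField A) M₀))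
    (hFk : IsRRField (IsLocalRing.ResidueField A)
      ↥(modularFunctionFieldFullC (IsLocalRing.ResidueField A) M₀))
    {P : Place (IsLocalRing.ResidueField A)
      ↥(modularFunctionFieldFullC (IsLocalRing.ResidueField A) M₀)}
    (hnc : OldNonCusp M₀ S0 P) : OldDenomAt M₀ S0 hFk P hnc := by
  intro b
  obtain ⟨z₀, hz₀⟩ := wpd_exists_cusp M₀
  have hZ : ∀ z ∈ {x : Place Qb (FBar M₀) | x.ord (Fermat.Agent.S24.jBar M₀) < 0},
      S0.r z ≠ P := by
    intro z hz hzP
    have h1 : 0 ≤ z.ord (Fermat.Agent.S24.jBar M₀) := hnc z hzP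
    have h2 : z.ord (Fermat.Agent.S24.jBar M₀) < 0 := hz
    omega
  obtain ⟨d, hd, hd1, hd2, hd3⟩ := exists_denom_redSetup_ev S0
    (modularValSetup A q M₀ hq hA hqM) (fun f => hS0.mem_Ov_iff' hq hA hqM f)
    (fun f _ => hS0.red_eq hq hA hqM f) (hasLattice_modularValSetup A q M₀ hq hA hqM) hg P hFk
    {x : Place Qb (FBar M₀) | x.ord (Fermat.Agent.S24.jBar M₀) < 0} (z₀ := z₀) hz₀ hZ b
  have hdC : d ∈ oldCuspRing S0 (Fermat.Agent.S24.jBar M₀) :=
    ⟨hd.1, fun x hx => hd1 x (not_lt.mpr hx)⟩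
  exact ⟨d, hdC, hd3, ⟨mul_mem b.2.1 hd.1, fun x hx => hd2 x (not_lt.mpr hx)⟩⟩

/-- (Fq2) in the form `Φ • Φ • P = P`. -/
theorem oldCusp_frob_frob (hq : q.Prime) (hqM : ¬ q ∣ M₀) (haux : AuxLevelOK q M₀)
    (hA : A.LiesOverPrime q)
    {P : Place (IsLocalRing.ResidueField A)
      ↥(modularFunctionFieldFullC (IsLocalRing.ResidueField A) M₀)}
    (hP : IsSSPlace (IsLocalRing.ResidueField A) M₀ q P) :
    frobAut (IsLocalRing.ResidueField A) M₀ q •
      (frobAut (IsLocalRing.ResidueField A) M₀ q • P) = P := by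
  have h := ssFrob_sq_smul hq (Nat.pos_of_ne_zero (NeZero.ne M₀)) hqM haux A hA P hP
  rwa [mul_smul] at h

/-- the supersingular places are stable under the Frobenius. -/
theorem oldCusp_isSS_frob (hq : q.Prime) (hA : A.LiesOverPrime q)
    {P : Place (IsLocalRing.ResidueField A)
      ↥(modularFunctionFieldFullC (IsLocalRing.ResidueField A) M₀)}
    (hP : IsSSPlace (IsLocalRing.ResidueField A) M₀ q P) :
    IsSSPlace (IsLocalRing.ResidueField A) M₀ q
      (frobAut (IsLocalRing.ResidueField A) M₀ q • P) := by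
  obtain ⟨u, hu, hpos⟩ := hP
  exact ⟨u, hu, (ord_frobAut_smul_pos_iff (IsLocalRing.ResidueField A) M₀ q q hu P).mpr hpos⟩

/-- **(O4)** at the pair `(P, Φ • P)`, `P` supersingular. -/
theorem oldCusp_evAt (hq : q.Prime) (hqM : ¬ q ∣ M₀) (haux : AuxLevelOK q M₀)
    (hA : A.LiesOverPrime q) (hS0 : IsGaussRed M₀ A S0)
    (hFk : IsRRField (IsLocalRing.ResidueField A)
      ↥(modularFunctionFieldFullC (IsLocalRing.ResidueField A) M₀))
    {P : Place (IsLocalRing.ResidueField A)
      ↥(modularFunctionFieldFullC (IsLocalRing.ResidueField A) M₀)}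
    (hP : IsSSPlace (IsLocalRing.ResidueField A) M₀ q P) :
    OldEvAt M₀ q S0 hFk P (frobAut (IsLocalRing.ResidueField A) M₀ q • P) := by
  intro hfin g Cg hCg
  exact oev_map_discEv hq hqM hA hS0 hFk P _ rfl (oldCusp_frob_frob hq hqM haux hA hP) hfin
    (g : FBar M₀) g.2 Cg hCg

/-- **OLD, UNCONDITIONAL**: at a supersingular place `P` the field `old1` at the centre `Φ • P`
gives the fields `old0` and `old2` at `P`, for every valuation setup `S` of `F_{M₀ q²}`. -/
theorem oldCusp_old02 (hq : q.Prime) (hqM : ¬ q ∣ M₀) (haux : AuxLevelOK q M₀)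
    (hA : A.LiesOverPrime q) (hS0 : IsGaussRed M₀ A S0)
    (hg : genusFF Qb (modularFunctionFieldBar M₀) =
      genusFF (IsLocalRing.ResidueField A)
        (modularFunctionFieldFullC (IsLocalRing.ResidueField A) M₀))
    (hFk : IsRRField (IsLocalRing.ResidueField A)
      ↥(modularFunctionFieldFullC (IsLocalRing.ResidueField A) M₀))
    (hfin : FiniteAlong Qb (heckeAlphaBar Qb M₀ q))
    {P : Place (IsLocalRing.ResidueField A)
      ↥(modularFunctionFieldFullC (IsLocalRing.ResidueField A) M₀)}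
    (hP : IsSSPlace (IsLocalRing.ResidueField A) M₀ q P)
    {FkP : Type} [Field FkP] [Algebra (IsLocalRing.ResidueField A) FkP]
    (S : ValSetup Qb (FBar (M₀ * q * q)) (IsLocalRing.ResidueField A) FkP)
    (hold1 : WPOld S0 (frobAut (IsLocalRing.ResidueField A) M₀ q • P) (wpdIota1 M₀ q) S) :
    WPOld S0 P (wpIota0 M₀ q) S ∧ WPOld S0 P (wpIota2 M₀ q) S :=
  oldMod_old02_of_cusp hFk hq hqM hA hS0 S hfin (oldCusp_nonCusp hq hqM hA hS0 hP)
    (oldCusp_nonCusp hq hqM hA hS0 (oldCusp_isSS_frob hq hA hP)) hold1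
    (oldCusp_evAt hq hqM haux hA hS0 hFk hP)
    (oldCusp_denomAt hq hqM hA hS0 hg hFk (oldCusp_nonCusp hq hqM hA hS0 hP))

/-- the degree of `α₀` is finite. -/
theorem oldCusp_finiteAlong (hq : q.Prime) (hqM : ¬ q ∣ M₀) :
    FiniteAlong Qb (heckeAlphaBar Qb M₀ q) :=
  (finrank_heckeAlphaBar M₀ q hq hqM).1

/-- **OLD, UNCONDITIONAL, for the assembly** (`Val.lean`): all auxiliary data discharged (the
genus equality from the auxiliary level, `hFk = wpd_hFk`, finiteness of `α₀`). -/
theorem oldCusp_old02_ready (hq : q.Prime) (hqM : ¬ q ∣ M₀) (haux : AuxLevelOK q M₀)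
    (hA : A.LiesOverPrime q) (hS0 : IsGaussRed M₀ A S0)
    {P : Place (IsLocalRing.ResidueField A)
      ↥(modularFunctionFieldFullC (IsLocalRing.ResidueField A) M₀)}
    (hP : IsSSPlace (IsLocalRing.ResidueField A) M₀ q P) :
    ∀ (FkP : Type) [Field FkP] [Algebra (IsLocalRing.ResidueField A) FkP]
      (S : ValSetup Qb (FBar (M₀ * q * q)) (IsLocalRing.ResidueField A) FkP),
      WPOld S0 (frobAut (IsLocalRing.ResidueField A) M₀ q • P) (wpdIota1 M₀ q) S →
        WPOld S0 P (wpIota0 M₀ q) S ∧ WPOld S0 P (wpIota2 M₀ q) S :=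
  fun _ _ _ S hold1 =>
    oldCusp_old02 hq hqM haux hA hS0 (genusFF_eq_of_aux M₀ hq hqM haux hA) (wpd_hFk A M₀)
      (oldCusp_finiteAlong hq hqM) hP S hold1

end Final

end Fermat.Agent.S36G
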