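/-
S36, G wave, block W-P, seat WP-OLD, DENOM route (helper30; hedge of `OldModCusp.lean`).

**`old0` and `old2` from `old1` WITHOUT the fibre statement (O3)**: the Kronecker argument
(`wpo_restrOld`) is applied to the functions with CUSPIDAL poles only (for them the coefficients
of `C_g = charpoly_α (β g)` have cuspidal poles, `kcp_charpoly_coeff`, and are Gauss-integral,
KC-GEN), and the passage to all of `R_P` is by denominators (`restrOld_of_loc`,
`exists_denom_ev`, helper95).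

* `odn_wpOld_of_kc`   : abstract wiring (any subring `C ≤ R_P` with denominators);
* `odnCusps`, `odn_cuspRing_le`, `odn_coeff_mem_cuspRing` : the cuspidal ring at `wpdSetup`;
* `odn_old0`, `odn_old2`, `odn_old02` : the fields `old0`, `old2` from `old1` and `OldEvAt`,
  at non-cuspidal places `P`, `P'` of the special fibre.
-/
import Mathlib
import Fermat.Agent.S36.Seed.OldMod
import Fermat.Agent.S36.HPVal.KCtPole
import Fermat.Agent.S36.HPVal.DiscModG
import Fermat.Agent.Lib.BadRed.HPVal.Denom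

set_option autoImplicit false
set_option linter.style.haveILetI false
set_option linter.unusedSectionVars false
set_option linter.unusedVariables false
set_option synthInstance.maxHeartbeats 400000

noncomputable section
attribute [local instance 10000] SubalgebraClass.toAlgebra HahnSeries.powerSeriesAlgebra

namespace Fermat.Agent.S36G

open Polynomial ModularCurve AlgebraicCurve Fermat.Agent.F3 Fermat.Agent.F3G
  Fermat.Agent.GaussInt Fermat.Agent.Deuring Fermat.Agent.BadRed Fermat.Agent.HPVal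
  Fermat.Agent.S18Key Fermat.Agent.RR Fermat.Agent.Kronecker

local notation "Qb" => AlgebraicClosure ℚ

/-! ### abstract part -/

section Abs

variable {K F₀ F k Fk0 FkP : Type*} [Field K] [Field F₀] [Algebra K F₀] [Field F] [Algebra K F]
  [Field k] [Field Fk0] [Algebra k Fk0] [Field FkP] [Algebra k FkP]

/-- **abstract wiring, with denominators**: as `oldMod_wpOld_of_kc`, but the Kronecker
polynomials are only needed for the functions of a subring `C ≤ R_P` such that every `b ∈ R_P`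
has a denominator in `C` which does not vanish at `P`. -/
theorem odn_wpOld_of_kc (q : ℕ) [Fact q.Prime] [CharP FkP q]
    (S0 : RedSetup K F₀ k Fk0) (hFk : IsRRField k Fk0) (P P' : Place k Fk0)
    (ι₁ ι : F₀ →ₐ[K] F) (S : ValSetup K F k FkP) (hold1 : WPOld S0 P' ι₁ S)
    (Cs : Subring F₀) (hCB : Cs ≤ discRing S0 P)
    (hloc : ∀ b : discRing S0 P, ∃ (d : F₀) (hd : d ∈ Cs),
      discEv S0 P hFk ⟨d, hCB hd⟩ ≠ 0 ∧ (b : F₀) * d ∈ Cs)
    (hKC : ∀ g : Cs, ∃ Cg : Polynomial (discRing S0 P'), Cg.Monic ∧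
      Cg.map (discEv S0 P' hFk) =
        (X - C (discEv S0 P hFk ⟨g, hCB g.2⟩)) *
          (X ^ q - C (discEv S0 P hFk ⟨g, hCB g.2⟩ ^ q)) ∧
      ((Cg.map (discRing S0 P').subtype).map ι₁.toRingHom).eval (ι (g : F₀)) = 0) :
    WPOld S0 P ι S := by
  refine oldMod_wpOld_of_restrOld S0 P hFk ι S ?_
  have h5 : RestrOld ι.toRingHom S.Ov S.ρ Cs
      ((discEv S0 P hFk).comp (Subring.inclusion hCB)) := by
    refine wpo_restrOld q ι₁.toRingHom ι.toRingHom S.Ov S.ρ (discRing S0 P')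
      (discEv S0 P' hFk) (oldMod_restrOld_of_wpOld S0 P' hFk ι₁ S hold1) Cs _ ?_
    intro g
    obtain ⟨Cg, hm, hev, hroot⟩ := hKC g
    refine ⟨Cg, hm, hev, ?_⟩
    rw [Polynomial.map_map, Polynomial.eval_map] at hroot
    exact hroot
  refine restrOld_of_loc S.ρ_eq_zero_iff Cs hCB (fun c => ?_) hloc
  exact h5 c

end Abs

/-! ### modular part -/

section Mod

variable (A : ValuationSubring Qb) (q M₀ : ℕ) [NeZero M₀] [NeZero q]
  (hq : q.Prime) (hA : A.LiesOverPrime q) (hqM : ¬ q ∣ M₀)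
  (hg : genusFF Qb (modularFunctionFieldBar M₀) =
    genusFF (IsLocalRing.ResidueField A)
      (modularFunctionFieldFullC (IsLocalRing.ResidueField A) M₀))

/-- the cusps of `X₀(M₀)` in characteristic `0`: the poles of `j`. -/
def odnCusps (M₀ : ℕ) [NeZero M₀] : Set (Place Qb (modularFunctionFieldBar M₀)) :=
  {x | x.ord (Fermat.Agent.S24.jBar M₀) < 0}

/-- the Gauss-integral functions of level `M₀` with poles only at the cusps. -/
def odnRing : Subring (FBar M₀) :=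
  cuspRing (modularValSetup A q M₀ hq hA hqM) (odnCusps M₀)

variable {A q M₀ hq hA hqM}

theorem odn_mem_ring_iff {f : FBar M₀} :
    f ∈ odnRing A q M₀ hq hA hqM ↔ f ∈ (modularValSetup A q M₀ hq hA hqM).Ov ∧
      ∀ x : Place Qb (modularFunctionFieldBar M₀),
        0 ≤ x.ord (Fermat.Agent.S24.jBar M₀) → 0 ≤ x.ord f := by
  constructor
  · intro h
    exact ⟨h.1, fun x hx => h.2 x (fun hxZ => absurd hxZ (not_lt.mpr hx))⟩
  · intro h
    exact ⟨h.1, fun x hx => h.2 x (not_lt.mp hx)⟩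

variable {P P' : Place (IsLocalRing.ResidueField A)
  ↥(modularFunctionFieldFullC (IsLocalRing.ResidueField A) M₀)}

/-- no cusp reduces to a non-cuspidal place. -/
theorem odn_cusp_ne (hP : 0 ≤ P.ord (Fermat.Agent.RRMod.jC (IsLocalRing.ResidueField A) M₀))
    (z : Place Qb (modularFunctionFieldBar M₀)) (hz : z ∈ odnCusps M₀) :
    (wpdSetup A q M₀ hq hA hqM hg).r z ≠ P := by
  intro h
  have h1 := wpd_ord_jC_neg A q M₀ hq hA hqM hg hz
  rw [h] at h1
  omega

/-- the cuspidal ring lies in `R_P` for every non-cuspidal `P`. -/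
theorem odn_ring_le (hP : 0 ≤ P.ord (Fermat.Agent.RRMod.jC (IsLocalRing.ResidueField A) M₀)) :
    odnRing A q M₀ hq hA hqM ≤ discRing (wpdSetup A q M₀ hq hA hqM hg) P :=
  cuspRing_le_discRing (wpd_isReduction A q M₀ hq hA hqM hg) (odn_cusp_ne hg hP)

include hg in
/-- **the coefficients of `C_g` are cuspidal and Gauss-integral** for such `g`. -/
theorem odn_coeff_mem_ring (hfin : FiniteAlong Qb (heckeAlphaBar Qb M₀ q))
    (g : FBar M₀) (hgC : g ∈ odnRing A q M₀ hq hA hqM) (n : ℕ) :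
    (charpolyAlong (heckeAlphaBar Qb M₀ q) hfin (heckeBetaBar Qb M₀ q g)).coeff n ∈
      odnRing A q M₀ hq hA hqM := by
  rw [odn_mem_ring_iff] at hgC ⊢
  refine ⟨?_, fun x hx => ?_⟩
  · have h := oldMod_coeff_mem_Ov (S0 := wpdSetup A q M₀ hq hA hqM hg) hq hqM hA
      (wpd_isGaussRed A q M₀ hq hA hqM hg) hfin g hgC.1 n
    exact h
  · exact Fermat.Agent.S36.kcp_charpoly_coeff M₀ q hq hqM hfin g hgC.2 x hx n

/-- every `b ∈ R_P` has a cuspidal denominator which does not vanish at `P`. -/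
theorem odn_loc (hP : 0 ≤ P.ord (Fermat.Agent.RRMod.jC (IsLocalRing.ResidueField A) M₀))
    (b : discRing (wpdSetup A q M₀ hq hA hqM hg) P) :
    ∃ (d : FBar M₀) (hd : d ∈ odnRing A q M₀ hq hA hqM),
      discEv (wpdSetup A q M₀ hq hA hqM hg) P (wpd_hFk A M₀) ⟨d, odn_ring_le hg hP hd⟩ ≠ 0 ∧
        (b : FBar M₀) * d ∈ odnRing A q M₀ hq hA hqM := by
  obtain ⟨z₀, hz₀⟩ := wpd_exists_cusp M₀
  exact exists_denom_ev (wpd_isReduction A q M₀ hq hA hqM hg) P (odnCusps M₀) hz₀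
    (odn_cusp_ne hg hP) b

variable {FkP : Type} [Field FkP] [Algebra (IsLocalRing.ResidueField A) FkP]

/-- the Kronecker data of a cuspidal `g`. -/
theorem odn_kc (hP : 0 ≤ P.ord (Fermat.Agent.RRMod.jC (IsLocalRing.ResidueField A) M₀))
    (hP' : 0 ≤ P'.ord (Fermat.Agent.RRMod.jC (IsLocalRing.ResidueField A) M₀))
    (hev : OldEvAt M₀ q (wpdSetup A q M₀ hq hA hqM hg) (wpd_hFk A M₀) P P')
    (hfin : FiniteAlong Qb (heckeAlphaBar Qb M₀ q)) (g : odnRing A q M₀ hq hA hqM) :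
    ∃ Cg : Polynomial (discRing (wpdSetup A q M₀ hq hA hqM hg) P'), Cg.Monic ∧
      Cg.map (discEv (wpdSetup A q M₀ hq hA hqM hg) P' (wpd_hFk A M₀)) =
        (X - C (discEv (wpdSetup A q M₀ hq hA hqM hg) P (wpd_hFk A M₀)
            ⟨g, odn_ring_le hg hP g.2⟩)) *
          (X ^ q - C (discEv (wpdSetup A q M₀ hq hA hqM hg) P (wpd_hFk A M₀)
            ⟨g, odn_ring_le hg hP g.2⟩ ^ q)) ∧
      Cg.map (discRing (wpdSetup A q M₀ hq hA hqM hg) P').subtype =
        charpolyAlong (heckeAlphaBar Qb M₀ q) hfin (heckeBetaBar Qb M₀ q (g : FBar M₀)) := by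
  obtain ⟨Cg, hCg⟩ := oldMod_exists_lift (discRing (wpdSetup A q M₀ hq hA hqM hg) P') _
    (fun n => odn_ring_le hg hP' (odn_coeff_mem_ring hg hfin (g : FBar M₀) g.2 n))
  refine ⟨Cg, oldMod_monic_of_map _ Cg ?_, hev hfin ⟨g, odn_ring_le hg hP g.2⟩ Cg hCg, hCg⟩
  rw [hCg]
  exact charpolyAlong_monic _ _ _

/-- **`old0` from `old1`, DENOM route**. -/
theorem odn_old0 (hP : 0 ≤ P.ord (Fermat.Agent.RRMod.jC (IsLocalRing.ResidueField A) M₀))
    (hP' : 0 ≤ P'.ord (Fermat.Agent.RRMod.jC (IsLocalRing.ResidueField A) M₀))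
    (S : ValSetup Qb (FBar (M₀ * q * q)) (IsLocalRing.ResidueField A) FkP)
    (hfin : FiniteAlong Qb (heckeAlphaBar Qb M₀ q))
    (hold1 : WPOld (wpdSetup A q M₀ hq hA hqM hg) P' (wpdIota1 M₀ q) S)
    (hev : OldEvAt M₀ q (wpdSetup A q M₀ hq hA hqM hg) (wpd_hFk A M₀) P P') :
    WPOld (wpdSetup A q M₀ hq hA hqM hg) P (wpIota0 M₀ q) S := by
  haveI : Fact q.Prime := ⟨hq⟩
  haveI : CharP (IsLocalRing.ResidueField A) q := charP_residueField_of_liesOverPrime A q hq hA
  haveI : CharP FkP q :=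
    charP_of_injective_algebraMap (algebraMap (IsLocalRing.ResidueField A) FkP).injective q
  have hcop : Nat.Coprime q M₀ := (Nat.Prime.coprime_iff_not_dvd hq).mpr hqM
  refine odn_wpOld_of_kc q (wpdSetup A q M₀ hq hA hqM hg) (wpd_hFk A M₀) P P' (wpdIota1 M₀ q)
    (wpIota0 M₀ q) S hold1 (odnRing A q M₀ hq hA hqM) (odn_ring_le hg hP) (odn_loc hg hP)
    fun g => ?_
  obtain ⟨Cg, hm, hCev, hCg⟩ := odn_kc hg hP hP' hev hfin g
  refine ⟨Cg, hm, hCev, ?_⟩
  rw [hCg]
  exact olr_charpoly_root_i0 M₀ q hcop hfin (g : FBar M₀)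

/-- **`old2` from `old1`, DENOM route**. -/
theorem odn_old2 (hP : 0 ≤ P.ord (Fermat.Agent.RRMod.jC (IsLocalRing.ResidueField A) M₀))
    (hP' : 0 ≤ P'.ord (Fermat.Agent.RRMod.jC (IsLocalRing.ResidueField A) M₀))
    (S : ValSetup Qb (FBar (M₀ * q * q)) (IsLocalRing.ResidueField A) FkP)
    (hfin : FiniteAlong Qb (heckeAlphaBar Qb M₀ q))
    (hold1 : WPOld (wpdSetup A q M₀ hq hA hqM hg) P' (wpdIota1 M₀ q) S)
    (hev : OldEvAt M₀ q (wpdSetup A q M₀ hq hA hqM hg) (wpd_hFk A M₀) P P') :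
    WPOld (wpdSetup A q M₀ hq hA hqM hg) P (wpIota2 M₀ q) S := by
  haveI : Fact q.Prime := ⟨hq⟩
  haveI : CharP (IsLocalRing.ResidueField A) q := charP_residueField_of_liesOverPrime A q hq hA
  haveI : CharP FkP q :=
    charP_of_injective_algebraMap (algebraMap (IsLocalRing.ResidueField A) FkP).injective q
  refine odn_wpOld_of_kc q (wpdSetup A q M₀ hq hA hqM hg) (wpd_hFk A M₀) P P' (wpdIota1 M₀ q)
    (wpIota2 M₀ q) S hold1 (odnRing A q M₀ hq hA hqM) (odn_ring_le hg hP) (odn_loc hg hP)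
    fun g => ?_
  obtain ⟨Cg, hm, hCev, hCg⟩ := odn_kc hg hP hP' hev hfin g
  refine ⟨Cg, hm, hCev, ?_⟩
  rw [hCg]
  exact olr_charpoly_root_i2 M₀ q hfin (g : FBar M₀)

/-- **OLD, DENOM route**: `old1` at a non-cuspidal `P'` and OLD-EV give `old0`, `old2` at the
non-cuspidal `P`; no fibre statement is needed. -/
theorem odn_old02 (hP : 0 ≤ P.ord (Fermat.Agent.RRMod.jC (IsLocalRing.ResidueField A) M₀))
    (hP' : 0 ≤ P'.ord (Fermat.Agent.RRMod.jC (IsLocalRing.ResidueField A) M₀))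
    (hev : OldEvAt M₀ q (wpdSetup A q M₀ hq hA hqM hg) (wpd_hFk A M₀) P P')
    (S : ValSetup Qb (FBar (M₀ * q * q)) (IsLocalRing.ResidueField A) FkP)
    (hold1 : WPOld (wpdSetup A q M₀ hq hA hqM hg) P' (wpdIota1 M₀ q) S) :
    WPOld (wpdSetup A q M₀ hq hA hqM hg) P (wpIota0 M₀ q) S ∧
      WPOld (wpdSetup A q M₀ hq hA hqM hg) P (wpIota2 M₀ q) S :=
  have hfin : FiniteAlong Qb (heckeAlphaBar Qb M₀ q) :=
    Fermat.Agent.HeckeInputs.hi_finiteAlong _
      (Fermat.Agent.S24.isFunctionFieldOver_jBar M₀).transcendental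
      (Fermat.Agent.S24.isFunctionFieldOver_jBar (M₀ * q))
  ⟨odn_old0 hg hP hP' S hfin hold1 hev, odn_old2 hg hP hP' S hfin hold1 hev⟩

end Mod

end Fermat.Agent.S36G
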