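/-
S36, G wave, block W-P, seat WP-OLD, THE FINAL EXPORT (helper30, owner of OLD).

**`WPOldExists M₀ q`** (the modular input OLD of `S36/HPVal/Val.lean`, `wpExists_of`): at every
supersingular place `P` of the good reduction `wpdSetup` of `X₀(M₀)` at `A ∣ q`, for EVERY
constant reduction `S` of `F_{M₀ q²}`, the field `old1` at the centre `P' = Φ • P` gives the
fields `old0` and `old2` at `P`.  No hypothesis is left besides the auxiliary level condition
`AuxLevelOK q M₀` (needed by (Fq2), `ssFrob_sq_smul`).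

Route: DENOM (`odn_old02`, `S36/Seed/OldDenom.lean`) + OLD-EV (`oev_map_discEv`, helper1,
`S36/Seed/OldEvPoly.lean`) + (Fq2) (`ssFrob_sq_smul`, helper18); the supersingular places are
not cusps (`seedOld_ord_jC_nonneg`).

* `wpoe_frob_frob`  : `Φ • Φ • P = P` at a supersingular `P`;
* `wpoe_isSS_frob`  : `Φ • P` is supersingular;
* `wpoe_evAt`       : OLD-EV at the pair `(P, Φ • P)`;
* `wpoe_oldStep`    : `WPOldStep wpdSetup P (Φ • P)`;
* `wpOldExists`     : **`AuxLevelOK q M₀ → WPOldExists M₀ q`**.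
-/
import Mathlib
import Fermat.Agent.S36.HPVal.Val
import Fermat.Agent.S36.Seed.OldDenom
import Fermat.Agent.S36.Seed.OldEvPoly
import Fermat.Agent.S36.Seed.SSFrob
import Fermat.Agent.S36.Seed.OldSep

set_option autoImplicit false
set_option linter.style.haveILetI false
set_option linter.unusedSectionVars false
set_option linter.unusedVariables false
set_option synthInstance.maxHeartbeats 400000

noncomputable section
attribute [local instance 10000] SubalgebraClass.toAlgebra HahnSeries.powerSeriesAlgebra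

namespace Fermat.Agent.S36G

open Polynomial ModularCurve AlgebraicCurve Fermat.Agent.F3 Fermat.Agent.F3G
  Fermat.Agent.GaussInt Fermat.Agent.Deuring Fermat.Agent.BadRed Fermat.Agent.HPVal
  Fermat.Agent.S18Key Fermat.Agent.RR Fermat.Agent.Kronecker

local notation "Qb" => AlgebraicClosure ℚ

section Export

variable {M₀ q : ℕ} [NeZero M₀] [NeZero q] {A : ValuationSubring Qb}
  [Fact q.Prime] [CharP (IsLocalRing.ResidueField A) q]
  [PerfectRing (IsLocalRing.ResidueField A) q]
  {P : Place (IsLocalRing.ResidueField A)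
    ↥(modularFunctionFieldFullC (IsLocalRing.ResidueField A) M₀)}

/-- (Fq2) in the form `Φ • Φ • P = P`. -/
theorem wpoe_frob_frob (hq : q.Prime) (hqM : ¬ q ∣ M₀) (haux : AuxLevelOK q M₀)
    (hA : A.LiesOverPrime q)
    (hP : IsSSPlace (IsLocalRing.ResidueField A) M₀ q P) :
    frobAut (IsLocalRing.ResidueField A) M₀ q •
      (frobAut (IsLocalRing.ResidueField A) M₀ q • P) = P := by
  have h := ssFrob_sq_smul hq (Nat.pos_of_ne_zero (NeZero.ne M₀)) hqM haux A hA P hP
  rwa [mul_smul] at h

/-- the supersingular places are stable under the Frobenius. -/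
theorem wpoe_isSS_frob (hP : IsSSPlace (IsLocalRing.ResidueField A) M₀ q P) :
    IsSSPlace (IsLocalRing.ResidueField A) M₀ q
      (frobAut (IsLocalRing.ResidueField A) M₀ q • P) := by
  obtain ⟨u, hu, hpos⟩ := hP
  exact ⟨u, hu, (ord_frobAut_smul_pos_iff (IsLocalRing.ResidueField A) M₀ q q hu P).mpr hpos⟩

variable (hq : q.Prime) (hqM : ¬ q ∣ M₀) (hA : A.LiesOverPrime q)
  (hg : genusFF Qb (modularFunctionFieldBar M₀) =
    genusFF (IsLocalRing.ResidueField A)
      (modularFunctionFieldFullC (IsLocalRing.ResidueField A) M₀))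

/-- **OLD-EV at the pair `(P, Φ • P)`**, `P` supersingular. -/
theorem wpoe_evAt (haux : AuxLevelOK q M₀)
    (hP : IsSSPlace (IsLocalRing.ResidueField A) M₀ q P) :
    OldEvAt M₀ q (wpdSetup A q M₀ hq hA hqM hg) (wpd_hFk A M₀) P
      (frobAut (IsLocalRing.ResidueField A) M₀ q • P) :=
  fun hfin g Cg hCg =>
    oev_map_discEv hq hqM hA (wpd_isGaussRed A q M₀ hq hA hqM hg) (wpd_hFk A M₀) P
      (frobAut (IsLocalRing.ResidueField A) M₀ q • P) rfl
      (wpoe_frob_frob hq hqM haux hA hP) hfin (g : FBar M₀) g.2 Cg hCg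

/-- **OLD at a supersingular place**: `old1` at the centre `Φ • P` gives `old0`, `old2` at
`P`, for every constant reduction `S` of `F_{M₀ q²}`. -/
theorem wpoe_oldStep (haux : AuxLevelOK q M₀)
    (hP : IsSSPlace (IsLocalRing.ResidueField A) M₀ q P) :
    WPOldStep (q := q) (wpdSetup A q M₀ hq hA hqM hg) P
      (frobAut (IsLocalRing.ResidueField A) M₀ q • P) :=
  fun FkP _ _ S hold1 =>
    odn_old02 hg (seedOld_ord_jC_nonneg M₀ hq hA hP)
      (seedOld_ord_jC_nonneg M₀ hq hA (wpoe_isSS_frob hP)) (wpoe_evAt hq hqM hA hg haux hP) S hold1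

end Export

/-- **OLD, the final export**: the modular input `WPOldExists M₀ q` of the assembly
`wpExists_of` (`S36/HPVal/Val.lean`). -/
theorem wpOldExists (M₀ q : ℕ) [NeZero M₀] [NeZero q] (haux : AuxLevelOK q M₀) :
    WPOldExists M₀ q := by
  intro hq hqM A hA hg _ _ _ P hP
  exact wpoe_oldStep hq hqM hA hg haux hP

end Fermat.Agent.S36G
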