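/-
Cluster G (S36, Carayol at `q² ∥ M`), block W-P / SEED, seat OLD-FIBRE (O3), final forms
(helper62; sub-architect helper59, owner of OLD helper30, OLD-FINAL helper69).

**(O3) at the supersingular places, UNCONDITIONALLY**, and the fields `old0`, `old2` from `old1`.

* `olf_fibreSS`  : `OldFibreSS M₀ q A S0` (the hypothesis (O3) of `oldFin_old02`, OldFinal.lean),
  from OLD-FIBRE (`olf_fibre`), OLD-EV (`oev_map_discEv`, helper1), (Fq2) (`oldFin_frob_frob`)
  and the good reduction of `X₀(M₀)` (`genusFF_eq_of_aux`);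
* `olf_evSS`     : `OldEvSS M₀ q A S0 hFk` (the hypothesis (O4) of `oldFin_old02`);
* `olf_old02_ss` : **`old1` at `Φ • P` ⟹ `old0 ∧ old2` at `P`**, `P` supersingular, no hypothesis
  left but the standing ones (`q ∤ M₀`, `AuxLevelOK q M₀`, `S0` a Gauss reduction package).
-/
import Mathlib
import Fermat.Agent.S36.Seed.OldFibre
import Fermat.Agent.S36.Seed.OldFinal
import Fermat.Agent.S36.Seed.OldEvPoly
import Fermat.Agent.S36.Seed.OldSep

set_option autoImplicit false
set_option linter.style.haveILetI false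
set_option linter.unusedSectionVars false
set_option linter.unusedVariables false
set_option synthInstance.maxHeartbeats 400000
set_option maxHeartbeats 1600000

noncomputable section
attribute [local instance 10000] SubalgebraClass.toAlgebra HahnSeries.powerSeriesAlgebra

namespace Fermat.Agent.S36G

open Polynomial ModularCurve AlgebraicCurve Fermat.Agent.F3 Fermat.Agent.F3G
  Fermat.Agent.GaussInt Fermat.Agent.Deuring Fermat.Agent.BadRed Fermat.Agent.HPVal
  Fermat.Agent.S18Key Fermat.Agent.RR Fermat.Agent.Kronecker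

local notation "Qb" => AlgebraicClosure ℚ

section SS

variable {M₀ q : ℕ} [NeZero M₀] [NeZero q] {A : ValuationSubring Qb}
  {S0 : RedSetup Qb (FBar M₀) (IsLocalRing.ResidueField A)
    ↥(modularFunctionFieldFullC (IsLocalRing.ResidueField A) M₀)}
  [Fact q.Prime] [CharP (IsLocalRing.ResidueField A) q]
  [PerfectRing (IsLocalRing.ResidueField A) q]

/-- **(O4) at all pairs `P' = Φ • P`, `P = Φ • P'`** (`oev_map_discEv`, helper1). -/
theorem olf_evSS (hq : q.Prime) (hqM : ¬ q ∣ M₀) (hA : A.LiesOverPrime q)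
    (hG : IsGaussRed M₀ A S0)
    (hFk : IsRRField (IsLocalRing.ResidueField A)
      ↥(modularFunctionFieldFullC (IsLocalRing.ResidueField A) M₀)) :
    OldEvSS M₀ q A S0 hFk := fun P P' hP' hP hfin g Cg hCg =>
  oev_map_discEv hq hqM hA hG hFk P P' hP' hP hfin (g : FBar M₀) g.2 Cg hCg

/-- **(O3), OLD-FIBRE, at all supersingular places.** -/
theorem olf_fibreSS (hq : q.Prime) (hqM : ¬ q ∣ M₀) (haux : AuxLevelOK q M₀)
    (hA : A.LiesOverPrime q) (hG : IsGaussRed M₀ A S0) :
    OldFibreSS M₀ q A S0 := by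
  intro w P' hP'ss hv
  have hFk : IsRRField (IsLocalRing.ResidueField A)
      ↥(modularFunctionFieldFullC (IsLocalRing.ResidueField A) M₀) := wpd_hFk A M₀
  have hff := oldFin_frob_frob hq hqM haux hA hP'ss
  have hev : OldEvAt M₀ q S0 hFk (frobAut (IsLocalRing.ResidueField A) M₀ q • P') P' :=
    olf_evSS hq hqM hA hG hFk _ _ hff rfl
  exact olf_fibre hq hqM hA hG (genusFF_eq_of_aux M₀ hq hqM haux hA)
    (seedOld_ord_jC_nonneg M₀ hq hA (oldFin_isSS_frob hP'ss))
    (seedOld_ord_jC_nonneg M₀ hq hA hP'ss) hev w hv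

/-- **OLD, final, unconditional**: at a supersingular place `P` the field `old1` at the centre
`Φ • P` gives the fields `old0` and `old2` at `P`. -/
theorem olf_old02_ss (hq : q.Prime) (hqM : ¬ q ∣ M₀) (haux : AuxLevelOK q M₀)
    (hA : A.LiesOverPrime q) (hG : IsGaussRed M₀ A S0)
    (hFk : IsRRField (IsLocalRing.ResidueField A)
      ↥(modularFunctionFieldFullC (IsLocalRing.ResidueField A) M₀))
    {P : Place (IsLocalRing.ResidueField A)
      ↥(modularFunctionFieldFullC (IsLocalRing.ResidueField A) M₀)}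
    (hP : IsSSPlace (IsLocalRing.ResidueField A) M₀ q P)
    {FkP : Type} [Field FkP] [Algebra (IsLocalRing.ResidueField A) FkP]
    (S : ValSetup Qb (FBar (M₀ * q * q)) (IsLocalRing.ResidueField A) FkP)
    (hold1 : WPOld S0 (frobAut (IsLocalRing.ResidueField A) M₀ q • P) (wpdIota1 M₀ q) S) :
    WPOld S0 P (wpIota0 M₀ q) S ∧ WPOld S0 P (wpIota2 M₀ q) S :=
  oldFin_old02 hq hqM haux hA hG hFk (olf_fibreSS hq hqM haux hA hG)
    (olf_evSS hq hqM hA hG hFk) hP S hold1

end SS

end Fermat.Agent.S36G
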