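/-
Cluster G (S36, bad reduction at `q² ∥ M`), block SEED-UP, leaf UHOR-ORD (helper23; owner of
SEED-UP helper90): **the uniformiser at the Frobenius twist**.

`t ∈ F_{M₀}` rational with `A`-integral `q`-expansion `t0` (the datum of W-P), `t̄` its reduction
(`tbar`, with expansion `gaussResFun A F_{M₀} t`).  Then `t̄` is fixed by the Frobenius `τ` of the
coefficients, so

  `ord_Q (t̄ - c) = 1  ⟹  ord_{τ Q} (t̄ - c ^ q) = 1`   and   `ord_{τ⁻¹ Q} (t̄ - c') = 1` if `c' ^ q = c`.

* `uhord_coe_tbar`   : the expansion of `t̄` is the coefficientwise reduction of `kctLift A t0 hint`;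
* `uhord_frob_fixed` : `τ • t̄ = t̄`;
* `uhord_frob`       : the statement at `τ • Q`;
* `uhord_frob_inv`   : the statement at `τ⁻¹ • Q`;
* `uhord_ord_smul`   : `ord_{τ Q} t̄' = ord_Q t̄'` for every Frobenius-fixed `t̄'`.
-/
import Mathlib
import Fermat.Agent.S36.Reg.FrobCong
import Fermat.Agent.S36.HPVal.KCtRat
import Fermat.Agent.Lib.BadRed.Mod.FrobAut

set_option autoImplicit false
set_option linter.style.haveILetI false
set_option linter.unusedSectionVars false
set_option linter.unusedVariables false
set_option synthInstance.maxHeartbeats 400000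

noncomputable section

namespace Fermat.Agent.S36G

open ModularCurve AlgebraicCurve Fermat.Agent.GaussInt Fermat.Agent.BadRed Fermat.Agent.S36RegN
  Fermat.Agent.F3G

local notation "Qb" => AlgebraicClosure ℚ
attribute [local instance 10000] SubalgebraClass.toAlgebra HahnSeries.powerSeriesAlgebra

/-- abstract form: a fixed function minus a constant, at the transported place. -/
theorem uhord_abs {K' F' : Type*} [Field K'] [Field F'] [Algebra K' F']
    (g : SemilinearAut K' F') (Q : Place K' F') (f : F') (c c' : K') (hf : g • f = f)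
    (hc : g • algebraMap K' F' c = algebraMap K' F' c')
    (hord : Q.ord (f - algebraMap K' F' c) = 1) :
    (g • Q).ord (f - algebraMap K' F' c') = 1 := by
  have h1 := SemilinearAut.ord_smul g Q (f - algebraMap K' F' c)
  rw [smul_sub, hf, hc] at h1
  rw [h1]
  exact hord

/-- abstract form, inverse transport. -/
theorem uhord_abs_inv {K' F' : Type*} [Field K'] [Field F'] [Algebra K' F']
    (g : SemilinearAut K' F') (Q : Place K' F') (f : F') (c c' : K') (hf : g • f = f)
    (hc : g • algebraMap K' F' c' = algebraMap K' F' c)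
    (hord : Q.ord (f - algebraMap K' F' c) = 1) :
    (g⁻¹ • Q).ord (f - algebraMap K' F' c') = 1 := by
  have h1 := SemilinearAut.ord_smul g (g⁻¹ • Q) (f - algebraMap K' F' c')
  rw [smul_inv_smul, smul_sub, hf, hc] at h1
  rw [← h1]
  exact hord

variable {M₀ q : ℕ} [NeZero M₀] [NeZero q] {A : ValuationSubring Qb}
  [Fact q.Prime] [CharP (IsLocalRing.ResidueField A) q]
  [PerfectRing (IsLocalRing.ResidueField A) q]

/-- the expansion of `t̄` is the coefficientwise reduction of the integral series of `t0`. -/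
theorem uhord_coe_tbar (t : FBar M₀) (t0 : LaurentSeries ℚ)
    (ht : (t : LaurentSeries Qb) = coeffEmb Qb t0)
    (hint : ∀ n : ℤ, algebraMap ℚ Qb (t0.coeff n) ∈ A)
    (tbar : ↥(modularFunctionFieldFullC (IsLocalRing.ResidueField A) M₀))
    (htb : (tbar : LaurentSeries (IsLocalRing.ResidueField A)) =
      gaussResFun A (modularFunctionFieldBar M₀) (t : LaurentSeries Qb)) :
    (tbar : LaurentSeries (IsLocalRing.ResidueField A)) =
      red A (Fermat.Agent.S36.kctLift A t0 hint) := by
  have hmem : emb A (Fermat.Agent.S36.kctLift A t0 hint) ∈ modularFunctionFieldBar M₀ := by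
    rw [Fermat.Agent.S36.emb_kctLift, ← ht]
    exact t.2
  rw [htb, ht, ← Fermat.Agent.S36.emb_kctLift A t0 hint, gaussResFun_emb hmem]

/-- **`t̄` is fixed by the Frobenius of the coefficients.** -/
theorem uhord_frob_fixed (hA : A.LiesOverPrime q) (t : FBar M₀) (t0 : LaurentSeries ℚ)
    (ht : (t : LaurentSeries Qb) = coeffEmb Qb t0)
    (hint : ∀ n : ℤ, algebraMap ℚ Qb (t0.coeff n) ∈ A)
    (tbar : ↥(modularFunctionFieldFullC (IsLocalRing.ResidueField A) M₀))
    (htb : (tbar : LaurentSeries (IsLocalRing.ResidueField A)) =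
      gaussResFun A (modularFunctionFieldBar M₀) (t : LaurentSeries Qb)) :
    frobAut (IsLocalRing.ResidueField A) M₀ q • tbar = tbar := by
  have hst : FrobStable A q (Fermat.Agent.S36.kctLift A t0 hint) := by
    refine frobStable_of_rat hA _ ?_
    intro n
    refine ⟨t0.coeff n, ?_⟩
    have h1 : (((Fermat.Agent.S36.kctLift A t0 hint).coeff n : A) : Qb) =
        algebraMap ℚ Qb (t0.coeff n) := rfl
    rw [h1]
    exact eq_ratCast (algebraMap ℚ Qb) (t0.coeff n)
  apply Subtype.ext
  rw [coe_frobAut_smul, uhord_coe_tbar t t0 ht hint tbar htb]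
  exact red_frobStable_coeff hst

/-- the order of a function at the Frobenius twist of a place. -/
theorem uhord_ord_smul
    (Q : Place (IsLocalRing.ResidueField A)
      ↥(modularFunctionFieldFullC (IsLocalRing.ResidueField A) M₀))
    (f : ↥(modularFunctionFieldFullC (IsLocalRing.ResidueField A) M₀)) :
    (frobAut (IsLocalRing.ResidueField A) M₀ q • Q).ord
        (frobAut (IsLocalRing.ResidueField A) M₀ q • f) = Q.ord f :=
  SemilinearAut.ord_smul (frobAut (IsLocalRing.ResidueField A) M₀ q) Q f

/-- **the uniformiser at the Frobenius twist**: `ord_Q (t̄ - c) = 1 ⟹ ord_{τ Q} (t̄ - c ^ q) = 1`. -/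
theorem uhord_frob (hA : A.LiesOverPrime q) (t : FBar M₀) (t0 : LaurentSeries ℚ)
    (ht : (t : LaurentSeries Qb) = coeffEmb Qb t0)
    (hint : ∀ n : ℤ, algebraMap ℚ Qb (t0.coeff n) ∈ A)
    (tbar : ↥(modularFunctionFieldFullC (IsLocalRing.ResidueField A) M₀))
    (htb : (tbar : LaurentSeries (IsLocalRing.ResidueField A)) =
      gaussResFun A (modularFunctionFieldBar M₀) (t : LaurentSeries Qb))
    (Q : Place (IsLocalRing.ResidueField A)
      ↥(modularFunctionFieldFullC (IsLocalRing.ResidueField A) M₀))
    {c : IsLocalRing.ResidueField A}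
    (hord : Q.ord (tbar - algebraMap (IsLocalRing.ResidueField A)
      ↥(modularFunctionFieldFullC (IsLocalRing.ResidueField A) M₀) c) = 1) :
    (frobAut (IsLocalRing.ResidueField A) M₀ q • Q).ord
      (tbar - algebraMap (IsLocalRing.ResidueField A)
        ↥(modularFunctionFieldFullC (IsLocalRing.ResidueField A) M₀) (c ^ q)) = 1 := by
  exact uhord_abs (frobAut (IsLocalRing.ResidueField A) M₀ q) Q tbar c (c ^ q)
    (uhord_frob_fixed hA t t0 ht hint tbar htb)
    (frobAut_smul_algebraMap (IsLocalRing.ResidueField A) M₀ q c) hord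

/-- **the uniformiser at the inverse Frobenius twist**: `ord_Q (t̄ - c' ^ q) = 1 ⟹
`ord_{τ⁻¹ Q} (t̄ - c') = 1`. -/
theorem uhord_frob_inv (hA : A.LiesOverPrime q) (t : FBar M₀) (t0 : LaurentSeries ℚ)
    (ht : (t : LaurentSeries Qb) = coeffEmb Qb t0)
    (hint : ∀ n : ℤ, algebraMap ℚ Qb (t0.coeff n) ∈ A)
    (tbar : ↥(modularFunctionFieldFullC (IsLocalRing.ResidueField A) M₀))
    (htb : (tbar : LaurentSeries (IsLocalRing.ResidueField A)) =
      gaussResFun A (modularFunctionFieldBar M₀) (t : LaurentSeries Qb))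
    (Q : Place (IsLocalRing.ResidueField A)
      ↥(modularFunctionFieldFullC (IsLocalRing.ResidueField A) M₀))
    {c' : IsLocalRing.ResidueField A}
    (hord : Q.ord (tbar - algebraMap (IsLocalRing.ResidueField A)
      ↥(modularFunctionFieldFullC (IsLocalRing.ResidueField A) M₀) (c' ^ q)) = 1) :
    ((frobAut (IsLocalRing.ResidueField A) M₀ q)⁻¹ • Q).ord
      (tbar - algebraMap (IsLocalRing.ResidueField A)
        ↥(modularFunctionFieldFullC (IsLocalRing.ResidueField A) M₀) c') = 1 := by
  exact uhord_abs_inv (frobAut (IsLocalRing.ResidueField A) M₀ q) Q tbar (c' ^ q) c'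
    (uhord_frob_fixed hA t t0 ht hint tbar htb)
    (frobAut_smul_algebraMap (IsLocalRing.ResidueField A) M₀ q c') hord

end Fermat.Agent.S36G
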